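import Mathlib.AlgebraicGeometry.EllipticCurve.Affine.Point
import Mathlib.Tactic.LinearCombination
import Mathlib.Tactic.FieldSimp

/-!
The group homomorphism on points attached to an admissible change of variables
`(X, Y) ↦ (u²X + r, u³Y + u²sX + t)`, from `C • W` to `W`.
-/

set_option autoImplicit false
set_option linter.unusedSectionVars false

namespace FermatLib.Descent

open WeierstrassCurve

variable {K : Type*} [Field K] [DecidableEq K]

/-- The `x`-coordinate of an affine point, with junk value `0` at infinity. -/
def xCo {W : WeierstrassCurve K} : W.toAffine.Point → K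
  | .zero => 0
  | .some x _ _ => x

lemma xCo_neg {W : WeierstrassCurve K} (P : W.toAffine.Point) : xCo (-P) = xCo P := by
  cases P <;> rfl

variable (W : WeierstrassCurve K) (C : VariableChange K)

lemma equation_of_changeVar {x y : K} (h : (C • W).toAffine.Equation x y) :
    W.toAffine.Equation ((C.u : K) ^ 2 * x + C.r)
      ((C.u : K) ^ 3 * y + (C.u : K) ^ 2 * C.s * x + C.t) := by
  have hu : (C.u : K) ≠ 0 := C.u.ne_zero
  rw [Affine.equation_iff] at h ⊢
  simp only [variableChange_a₁, variableChange_a₂, variableChange_a₃, variableChange_a₄,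
    variableChange_a₆, Units.val_inv_eq_inv_val] at h
  field_simp at h
  linear_combination h

/-- The map of points attached to a change of variables. -/
def changeVarFun [W.IsElliptic] : (C • W).toAffine.Point → W.toAffine.Point
  | .zero => 0
  | .some x y h => .some ((C.u : K) ^ 2 * x + C.r)
      ((C.u : K) ^ 3 * y + (C.u : K) ^ 2 * C.s * x + C.t)
      (W.toAffine.equation_iff_nonsingular.mp (equation_of_changeVar W C h.1))

/-- The homomorphism of points attached to a change of variables. -/
def changeVarHom [W.IsElliptic] : (C • W).toAffine.Point →+ W.toAffine.Point where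
  toFun := changeVarFun W C
  map_zero' := rfl
  map_add' := by
    have hu : (C.u : K) ≠ 0 := C.u.ne_zero
    rintro (_ | ⟨x₁, y₁, h₁⟩) (_ | ⟨x₂, y₂, h₂⟩)
    any_goals rfl
    set X : K → K := fun x => (C.u : K) ^ 2 * x + C.r with hX
    set Y : K → K → K := fun x y => (C.u : K) ^ 3 * y + (C.u : K) ^ 2 * C.s * x + C.t with hY
    have hneg : ∀ x y : K,
        W.toAffine.negY (X x) (Y x y) = Y x ((C • W).toAffine.negY x y) := by
      intro x y
      simp only [hX, hY, Affine.negY, variableChange_a₁, variableChange_a₃,
        Units.val_inv_eq_inv_val]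
      field_simp
      ring
    have hXinj : ∀ x x' : K, X x = X x' → x = x' := fun x x' h =>
      mul_left_cancel₀ (pow_ne_zero 2 hu) (add_right_cancel h)
    have hYinj : ∀ x y y' : K, Y x y = Y x y' → y = y' := fun x y y' h =>
      mul_left_cancel₀ (pow_ne_zero 3 hu) (add_right_cancel (add_right_cancel h))
    by_cases hxy : x₁ = x₂ ∧ y₁ = (C • W).toAffine.negY x₂ y₂
    · rw [Affine.Point.add_of_Y_eq hxy.1 hxy.2]
      refine (Affine.Point.add_of_Y_eq (W := W.toAffine) ?_ ?_).symm
      · show X x₁ = X x₂
        rw [hxy.1]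
      · show Y x₁ y₁ = W.toAffine.negY (X x₂) (Y x₂ y₂)
        rw [hneg, hxy.1, ← hxy.2]
    · have hxy' : ¬(X x₁ = X x₂ ∧ Y x₁ y₁ = W.toAffine.negY (X x₂) (Y x₂ y₂)) := by
        rintro ⟨hx, hy⟩
        obtain rfl := hXinj _ _ hx
        rw [hneg] at hy
        exact hxy ⟨rfl, hYinj _ _ _ hy⟩
      set l := (C • W).toAffine.slope x₁ x₂ y₁ y₂ with hl
      have hslope : W.toAffine.slope (X x₁) (X x₂) (Y x₁ y₁) (Y x₂ y₂) = C.u * l + C.s := by
        by_cases hx : x₁ = x₂
        · subst hx
          have hy : y₁ ≠ (C • W).toAffine.negY x₁ y₂ := fun e => hxy ⟨rfl, e⟩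
          obtain rfl : y₁ = y₂ := Affine.Y_eq_of_Y_ne h₁.1 h₂.1 rfl hy
          have hy' : Y x₁ y₁ ≠ W.toAffine.negY (X x₁) (Y x₁ y₁) := by
            rw [hneg]
            exact fun e => hy (hYinj _ _ _ e)
          rw [hl, Affine.slope_of_Y_ne rfl hy, Affine.slope_of_Y_ne rfl hy', hneg]
          have hden : y₁ - (C • W).toAffine.negY x₁ y₁ ≠ 0 := sub_ne_zero.mpr hy
          have hden' : Y x₁ y₁ - Y x₁ ((C • W).toAffine.negY x₁ y₁)
              = (C.u : K) ^ 3 * (y₁ - (C • W).toAffine.negY x₁ y₁) := by
            simp only [hY]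
            ring
          rw [hden', div_eq_iff (mul_ne_zero (pow_ne_zero 3 hu) hden), add_mul,
            mul_mul_mul_comm, div_mul_cancel₀ _ hden]
          simp only [hX, hY, Affine.negY, variableChange_a₁, variableChange_a₂, variableChange_a₃,
            variableChange_a₄, Units.val_inv_eq_inv_val]
          field_simp
          ring
        · have hx' : X x₁ ≠ X x₂ := fun e => hx (hXinj _ _ e)
          have hd : x₁ - x₂ ≠ 0 := sub_ne_zero.mpr hx
          rw [hl, Affine.slope_of_X_ne hx, Affine.slope_of_X_ne hx']
          simp only [hX, hY]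
          rw [div_eq_iff (by simpa only [hX, sub_ne_zero] using hx')]
          field_simp
          ring
      rw [Affine.Point.add_some hxy]
      refine Eq.trans ?_ (Affine.Point.add_some (W := W.toAffine) hxy').symm
      simp only [changeVarFun, Affine.Point.some.injEq]
      constructor
      · rw [hslope, ← hl]
        simp only [hX, Affine.addX, variableChange_a₁, variableChange_a₂, Units.val_inv_eq_inv_val]
        field_simp
        ring
      · rw [hslope, ← hl]
        simp only [hX, hY, Affine.addY, Affine.negAddY, Affine.negY, Affine.addX, variableChange_a₁,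
          variableChange_a₂, variableChange_a₃, Units.val_inv_eq_inv_val]
        field_simp
        ring

lemma xCo_changeVarHom [W.IsElliptic] {P : (C • W).toAffine.Point} (hP : P ≠ 0) :
    xCo (changeVarHom W C P) = (C.u : K) ^ 2 * xCo P + C.r := by
  rcases P with _ | ⟨x, y, h⟩
  · exact absurd rfl hP
  · rfl

lemma changeVarHom_injective [W.IsElliptic] : Function.Injective (changeVarHom W C) := by
  refine (injective_iff_map_eq_zero _).mpr ?_
  rintro (_ | ⟨x, y, h⟩) hP
  · rfl
  · exact absurd hP (by rintro (_ | _))

end FermatLib.Descent
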