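import Fermat.Agent.Descent.FourthPowerSplit

/-!
The curve z² = h(h² + 22h + 125) (a model of X₀(20)) has no rational point with h ≠ 0,
by descent on the quartic r² = m⁴ - 44 m² n² - 16 n⁴.
-/

set_option autoImplicit false

namespace FermatLib.Descent

/-- The quartic form of the exponent-five descent. -/
def fiveQuartic (m n : ℤ) : ℤ := m ^ 4 - 44 * m ^ 2 * n ^ 2 - 16 * n ^ 4

private theorem five_mod_eight {x k : ℤ} : x ^ 2 ≠ 8 * k + 5 := by
  intro h
  have h' := congrArg (fun t : ℤ => (t : ZMod 8)) h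
  push_cast at h'
  generalize (x : ZMod 8) = a, (k : ZMod 8) = b at h'
  revert h' a b
  decide

private theorem five_dvd_of_sq_two_mul {x y : ℤ} (h : (5 : ℤ) ∣ x ^ 2 - 22 * y ^ 2) :
    (5 : ℤ) ∣ x ∧ (5 : ℤ) ∣ y := by
  have h' := (ZMod.intCast_zmod_eq_zero_iff_dvd _ 5).mpr (by exact_mod_cast h)
  push_cast at h'
  have : ∀ u v : ZMod 5, u ^ 2 - 22 * v ^ 2 = 0 → u = 0 ∧ v = 0 := by decide
  obtain ⟨hx, hy⟩ := this _ _ h'
  exact ⟨(ZMod.intCast_zmod_eq_zero_iff_dvd x 5).mp hx,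
    (ZMod.intCast_zmod_eq_zero_iff_dvd y 5).mp hy⟩

theorem odd_sq_eight (hx : ℤ) (h : Odd hx) : ∃ k, hx ^ 2 = 8 * k + 1 := by
  obtain ⟨i, rfl⟩ := h
  obtain ⟨k, hk⟩ := Int.even_mul_succ_self i
  exact ⟨k, by linear_combination 4 * hk⟩

/-- Second descent step: from m² = c⁴ + 22c²e² + 125e⁴ back to the quartic. -/
theorem fiveDual_descent {c e m : ℤ} (hce : IsCoprime c e) (_hc : c ≠ 0) (he : e ≠ 0)
    (h : m ^ 2 = c ^ 4 + 22 * c ^ 2 * e ^ 2 + 125 * e ^ 4) :
    ∃ g f s : ℤ, g ≠ 0 ∧ f ≠ 0 ∧ IsCoprime g f ∧ 2 * f.natAbs ≤ e.natAbs ∧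
      s ^ 2 = fiveQuartic g f := by
  set P := c ^ 2 + 11 * e ^ 2 with hP
  have hmP : m ^ 2 - P ^ 2 = 4 * e ^ 4 := by rw [h, hP]; ring
  have hPe : IsCoprime P e := by
    rw [hP, show 11 * e ^ 2 = (11 * e) * e by ring]
    exact hce.pow_left.add_mul_right_left _
  obtain ⟨v, hv⟩ : Even (m + P) := by
    have h1 : Even (m ^ 2 - P ^ 2) := by rw [hmP]; exact ⟨2 * e ^ 4, by ring⟩
    have h2 : Even ((m - P) * (m + P)) := by
      rwa [show (m - P) * (m + P) = m ^ 2 - P ^ 2 by ring]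
    simpa [parity_simps] using h2
  have huv : (v - P) * v = e ^ 4 := by
    have h2 : m = 2 * v - P := by linarith
    rw [h2] at hmP; linarith
  have hs : IsCoprime P ((v - P) * v) := by rw [huv]; exact hPe.pow_right
  have hcop : IsCoprime v (v - P) := by
    have h1 : IsCoprime v P := hs.of_mul_right_right.symm
    simpa [sub_eq_add_neg] using (h1.neg_right.mul_add_left_right 1)
  obtain ⟨f, g, hfg, hcop', hcase⟩ :=
    split_primePow_fourth (l := 5) (k := 0) (by norm_num) he hcop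
      (by rw [mul_comm, huv]; ring)
  norm_num at hcase
  obtain ⟨f, g, hfg, hcop', hPfg⟩ :
      ∃ f g : ℤ, e = f * g ∧ IsCoprime f g ∧ P = g ^ 4 - f ^ 4 := by
    rcases hcase with ⟨h1, h2⟩ | ⟨h1, h2⟩ | ⟨h1, h2⟩ | ⟨h1, h2⟩
    · exact ⟨g, f, by rw [hfg]; ring, hcop'.symm, by linarith⟩
    · exact ⟨f, g, hfg, hcop', by linarith⟩
    · exact ⟨f, g, hfg, hcop', by linarith⟩
    · exact ⟨g, f, by rw [hfg]; ring, hcop'.symm, by linarith⟩
  subst hfg
  rw [hP] at hPfg
  have hc2 : c ^ 2 = g ^ 4 - 11 * g ^ 2 * f ^ 2 - f ^ 4 := by linear_combination hPfg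
  have hf0 : f ≠ 0 := left_ne_zero_of_mul he
  have hg0 : g ≠ 0 := right_ne_zero_of_mul he
  rcases Int.even_or_odd f with ⟨t, ht⟩ | hf
  · have ht' : f = 2 * t := by omega
    subst ht'
    refine ⟨g, t, c, hg0, by omega, hcop'.of_mul_left_right.symm, ?_,
      by unfold fiveQuartic; linear_combination hc2⟩
    rw [Int.natAbs_mul, Int.natAbs_mul]
    exact Nat.le_mul_of_pos_right _ (Int.natAbs_pos.mpr hg0)
  · obtain ⟨i, hi⟩ := odd_sq_eight f hf
    rcases Int.even_or_odd g with ⟨t, ht⟩ | hg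
    · exfalso
      have ht' : g = 2 * t := by omega
      subst ht'
      have h4 := congrArg (fun x : ℤ => (x : ZMod 4)) hc2
      push_cast at h4
      have h5 : (f : ZMod 4) ^ 2 = 1 := by
        have := congrArg (fun x : ℤ => (x : ZMod 4)) hi
        push_cast at this
        rw [this, show (8 : ZMod 4) = 0 by decide, zero_mul, zero_add]
      generalize (c : ZMod 4) = a, (t : ZMod 4) = b, (f : ZMod 4) = u at h4 h5
      revert h4 h5 a b u
      decide
    · exfalso
      obtain ⟨j, hj⟩ := odd_sq_eight g hg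
      refine five_mod_eight (x := c) (k := 8 * j ^ 2 + 2 * j - 11 * (8 * i * j + i + j)
        - 8 * i ^ 2 - 2 * i - 2) ?_
      rw [hc2]
      linear_combination (g ^ 2 + 8 * j + 1 - 11 * f ^ 2) * hj +
        (-11 * (8 * j + 1) - f ^ 2 - 8 * i - 1) * hi

theorem fiveQuartic_no_coprime_sol :
    ∀ (B : ℕ) (m n r : ℤ), n.natAbs ≤ B → IsCoprime m n → m ≠ 0 → n ≠ 0 →
      r ^ 2 ≠ fiveQuartic m n := by
  intro B
  induction B with
  | zero => intro m n r hB _ _ hn; omega
  | succ B ih =>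
  intro m n r hB hmn hm hn h
  suffices ∃ c e k : ℤ, IsCoprime c e ∧ c ≠ 0 ∧ e ≠ 0 ∧ e.natAbs ≤ n.natAbs ∧
      k ^ 2 = c ^ 4 + 22 * c ^ 2 * e ^ 2 + 125 * e ^ 4 by
    obtain ⟨c, e, k, hce, hc, he, hle, hk⟩ := this
    obtain ⟨g, f, s, hg, hf, hgf, hle', hs⟩ := fiveDual_descent hce hc he hk
    refine ih g f s ?_ hgf hg hf hs
    have := Int.natAbs_pos.mpr hf
    omega
  unfold fiveQuartic at h
  set M := m ^ 2 - 22 * n ^ 2 with hMdef
  have hMr : M ^ 2 - r ^ 2 = 500 * n ^ 4 := by rw [h, hMdef]; ring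
  have hM5 : IsCoprime M 5 :=
    ((by norm_num : Prime (5 : ℤ)).coprime_iff_not_dvd.mpr fun hd =>
      absurd (hmn.isUnit_of_dvd' (five_dvd_of_sq_two_mul hd).1 (five_dvd_of_sq_two_mul hd).2)
        (by decide)).symm
  have hMn : IsCoprime M n := by
    rw [hMdef, show m ^ 2 - 22 * n ^ 2 = m ^ 2 + (-22 * n) * n by ring]
    exact hmn.pow_left.add_mul_right_left _
  have hM : IsCoprime M (125 * n ^ 4) := by
    rw [show (125 : ℤ) = 5 ^ 3 by norm_num]
    exact hM5.pow_right.mul_right hMn.pow_right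
  rcases Int.even_or_odd m with ⟨k, hk⟩ | hmodd
  · -- m even
    have hk' : m = 2 * k := by omega
    subst hk'
    set K := 2 * k ^ 2 - 11 * n ^ 2 with hK
    have hMK : M = 2 * K := by rw [hMdef, hK]; ring
    have h2 : Even r := by
      have : Even (r ^ 2) :=
        ⟨8 * k ^ 4 - 88 * k ^ 2 * n ^ 2 - 8 * n ^ 4, by rw [h]; ring⟩
      simpa [parity_simps] using this
    obtain ⟨r', hr'⟩ := h2
    have hr2 : r = 2 * r' := by omega
    subst hr2
    have huv : (K - r') * (K + r') = 125 * n ^ 4 := by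
      rw [hMK] at hMr; linarith
    rw [hMK] at hM
    have hcop : IsCoprime (K - r') (K + r') := by
      rw [← huv, show 2 * K = (K - r') + 1 * (K + r') by ring] at hM
      exact hM.of_mul_right_right.of_add_mul_right_left
    obtain ⟨c, e, rfl, hce, hcase⟩ :=
      split_primePow_fourth (l := 5) (k := 3) (by norm_num) hn hcop (by rw [huv]; norm_num)
    have hc : c ≠ 0 := left_ne_zero_of_mul hn
    have he : e ≠ 0 := right_ne_zero_of_mul hn
    refine ⟨c, e, 2 * k, hce, hc, he, ?_, ?_⟩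
    · rw [Int.natAbs_mul]
      exact Nat.le_mul_of_pos_left _ (Int.natAbs_pos.mpr hc)
    · have hneg : 2 * K ≠ -(c ^ 4 + 125 * e ^ 4) := fun h1 => by
        have h3 : 4 * k ^ 2 + (c ^ 2 - 11 * e ^ 2) ^ 2 + 4 * e ^ 4 = 0 := by
          rw [hK] at h1; linear_combination h1
        have : 0 < e ^ 4 := by positivity
        nlinarith
      have hpos : 2 * K = c ^ 4 + 125 * e ^ 4 := by
        norm_num at hcase
        rcases hcase with ⟨h1, h2⟩ | ⟨h1, h2⟩ | ⟨h1, h2⟩ | ⟨h1, h2⟩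
        · linarith
        · linarith
        · exact absurd (by linarith) hneg
        · exact absurd (by linarith) hneg
      rw [hK] at hpos
      linear_combination hpos
  · rcases Int.even_or_odd n with ⟨t, ht⟩ | hnodd
    · -- n even
      have ht' : n = 2 * t := by omega
      subst ht'
      have hModd : Odd M := by
        rw [hMdef]
        exact hmodd.pow.sub_even ⟨44 * t ^ 2, by ring⟩
      have hrodd : Odd r := by
        have : Odd (r ^ 2) := by
          rw [show r ^ 2 = M ^ 2 + 2 * (-4000 * t ^ 4) by linarith]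
          exact hModd.pow.add_even (even_two_mul _)
        simpa [parity_simps] using this
      obtain ⟨v, hv⟩ := hModd.add_odd hrodd
      have huv : (M - v) * v = 125 * (2 * t) ^ 4 := by
        have h2 : r = 2 * v - M := by linarith
        rw [h2] at hMr; linarith
      have hcop : IsCoprime (M - v) v := by
        rw [← huv, show M = (M - v) + 1 * v by ring] at hM
        have := hM.of_mul_right_right
        simpa using this.of_add_mul_right_left
      obtain ⟨c, e, hn', hce, hcase⟩ :=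
        split_primePow_fourth (l := 5) (k := 3) (by norm_num) hn hcop (by rw [huv]; norm_num)
      rw [hn'] at hn ⊢
      have hc : c ≠ 0 := left_ne_zero_of_mul hn
      have he : e ≠ 0 := right_ne_zero_of_mul hn
      refine ⟨c, e, m, hce, hc, he, ?_, ?_⟩
      · rw [Int.natAbs_mul]
        exact Nat.le_mul_of_pos_left _ (Int.natAbs_pos.mpr hc)
      · have hneg : M ≠ -(c ^ 4 + 125 * e ^ 4) := fun h1 => by
          have h3 : m ^ 2 + (c ^ 2 - 11 * e ^ 2) ^ 2 + 4 * e ^ 4 = 0 := by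
            rw [hMdef, hn'] at h1; linear_combination h1
          have : 0 < e ^ 4 := by positivity
          nlinarith
        have hpos : M = c ^ 4 + 125 * e ^ 4 := by
          norm_num at hcase
          rcases hcase with ⟨h1, h2⟩ | ⟨h1, h2⟩ | ⟨h1, h2⟩ | ⟨h1, h2⟩
          · linarith
          · linarith
          · exact absurd (by linarith) hneg
          · exact absurd (by linarith) hneg
        rw [hMdef, hn'] at hpos
        linear_combination hpos
    · -- both odd: impossible modulo 8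
      exfalso
      obtain ⟨i, hi⟩ := odd_sq_eight m hmodd
      obtain ⟨j, hj⟩ := odd_sq_eight n hnodd
      refine five_mod_eight (x := r)
        (k := 8 * i ^ 2 + 2 * i - 44 * (8 * i * j + i + j) - 128 * j ^ 2 - 32 * j - 8) ?_
      rw [h]
      linear_combination (m ^ 2 + 8 * i + 1 - 44 * n ^ 2) * hi +
        (-44 * (8 * i + 1) - 16 * (n ^ 2 + 8 * j + 1)) * hj

theorem fiveQuartic_no_sol {m n : ℤ} (hm : m ≠ 0) (hn : n ≠ 0) (r : ℤ) :
    r ^ 2 ≠ fiveQuartic m n := by
  intro h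
  have hpos : 0 < Int.gcd m n := Int.gcd_pos_of_ne_zero_right m hn
  obtain ⟨g, m', n', hg, hco, rfl, rfl⟩ := Int.exists_gcd_one' hpos
  have hg0 : (g : ℤ) ≠ 0 := by exact_mod_cast hg.ne'
  unfold fiveQuartic at h
  obtain ⟨r', rfl⟩ : (g : ℤ) ^ 2 ∣ r := (Int.pow_dvd_pow_iff (n := 2) two_ne_zero).mp
    ⟨m' ^ 4 - 44 * m' ^ 2 * n' ^ 2 - 16 * n' ^ 4, by rw [h]; ring⟩
  refine fiveQuartic_no_coprime_sol n'.natAbs m' n' r' le_rfl
    (Int.isCoprime_iff_gcd_eq_one.mpr hco) (left_ne_zero_of_mul hm) (left_ne_zero_of_mul hn) ?_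
  unfold fiveQuartic
  refine mul_left_cancel₀ (pow_ne_zero 4 hg0) ?_
  linear_combination h

/-- The only rational point of z² = h(h² + 22h + 125) has h = 0. -/
theorem x0Twenty_rational_points {h z : ℚ} (e : z ^ 2 = h * (h ^ 2 + 22 * h + 125)) : h = 0 := by
  by_contra h0
  set q := z / h with hq
  have hz : z = q * h := by rw [hq, div_mul_cancel₀ z h0]
  rw [hz] at e
  have eq2 : q ^ 2 * h = h ^ 2 + 22 * h + 125 :=
    mul_left_cancel₀ h0 (by linear_combination e)
  have hq0 : q ≠ 0 := fun hq0 => by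
    rw [hq0] at eq2
    nlinarith [sq_nonneg (h + 11)]
  have hw : IsSquare ((fiveQuartic q.num q.den : ℤ) : ℚ) := by
    refine ⟨(2 * h + 22 - q ^ 2) * (q.den : ℚ) ^ 2, ?_⟩
    have hqn : (q.num : ℚ) = q * q.den := (Rat.mul_den_eq_num q).symm
    unfold fiveQuartic
    push_cast
    rw [hqn]
    linear_combination 4 * (q.den : ℚ) ^ 4 * eq2
  obtain ⟨r, hr⟩ := Rat.isSquare_intCast_iff.mp hw
  exact fiveQuartic_no_sol (Rat.num_ne_zero.mpr hq0) (Int.natCast_ne_zero.mpr q.den_nz) r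
    (by rw [hr, sq])

end FermatLib.Descent
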