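import Fermat.Agent.Descent.FourthPowerSplit

/-!
Fermat's Last Theorem for the exponent 7, following Genocchi: if a⁷ + b⁷ + c⁷ = 0 with
s = a + b + c ≠ 0, then z = 2(ab+bc+ca) - s² gives a rational solution of
w² = z⁴ + 294 z² - 343 (after scaling), and this quartic has none by descent.
-/

set_option autoImplicit false

namespace FermatLib.Descent

/-- The quartic form of the exponent-seven descent. -/
def sevenQuartic (m n : ℤ) : ℤ := m ^ 4 + 294 * m ^ 2 * n ^ 2 - 343 * n ^ 4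

theorem sevenQuartic_odd_odd {m n r : ℤ} (hm : Odd m) (hn : Odd n) :
    r ^ 2 ≠ sevenQuartic m n := by
  intro h
  unfold sevenQuartic at h
  obtain ⟨i, rfl⟩ := hm
  obtain ⟨j, rfl⟩ := hn
  obtain ⟨k, hk⟩ := Int.even_mul_succ_self i
  obtain ⟨l, hl⟩ := Int.even_mul_succ_self j
  have h1 : (2 * i + 1) ^ 2 = 8 * k + 1 := by linear_combination 4 * hk
  have h2 : (2 * j + 1) ^ 2 = 8 * l + 1 := by linear_combination 4 * hl
  set M := 2 * k + 294 * l + 37 with hM
  have h3 : r ^ 2 = 16 * M ^ 2 - 21952 * (8 * l + 1) ^ 2 := by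
    rw [h, hM, ← h2]
    linear_combination
      ((2 * i + 1) ^ 2 + 147 * (2 * j + 1) ^ 2 + 4 * M) * h1 +
        147 * ((2 * i + 1) ^ 2 + 147 * (2 * j + 1) ^ 2 + 4 * M) * h2
  obtain ⟨r', rfl⟩ : (4 : ℤ) ∣ r :=
    (Int.pow_dvd_pow_iff (n := 2) two_ne_zero).mp ⟨M ^ 2 - 1372 * (8 * l + 1) ^ 2, by linarith⟩
  have h4 : r' ^ 2 = M ^ 2 - 1372 * (8 * l + 1) ^ 2 := by linarith
  have h5 := congrArg (fun x : ℤ => (x : ZMod 8)) h4
  push_cast [hM] at h5
  generalize (r' : ZMod 8) = x, (k : ZMod 8) = y, (l : ZMod 8) = z at h5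
  revert h5 x y z
  decide

private theorem seven_mod_sq {x y : ℤ} (h : (7 : ℤ) ∣ x ^ 2 + y ^ 2) : (7 : ℤ) ∣ x ∧ (7 : ℤ) ∣ y := by
  have h' := (ZMod.intCast_zmod_eq_zero_iff_dvd (x ^ 2 + y ^ 2) 7).mpr (by exact_mod_cast h)
  push_cast at h'
  have : ∀ u v : ZMod 7, u ^ 2 + v ^ 2 = 0 → u = 0 ∧ v = 0 := by decide
  obtain ⟨hx, hy⟩ := this _ _ h'
  exact ⟨(ZMod.intCast_zmod_eq_zero_iff_dvd x 7).mp hx, (ZMod.intCast_zmod_eq_zero_iff_dvd y 7).mp hy⟩

/-- Second descent step with an odd second variable. -/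
private theorem seven_dual_odd {a b m k : ℤ} (_hk : k ≠ 0) (hb : Odd b) (hab : IsCoprime (k * a) b)
    (hm7 : ¬ (7 : ℤ) ∣ m) (hmb : IsCoprime m b) (hk2 : IsCoprime (4 * k) (343 * b ^ 4))
    (h : (2 * k * m - (2 * (k * a) ^ 2 - 147 * b ^ 2)) *
      (2 * k * m + (2 * (k * a) ^ 2 - 147 * b ^ 2)) = 343 * b ^ 4) : False := by
  have h7 : IsCoprime m 7 :=
    ((by norm_num : Prime (7 : ℤ)).coprime_iff_not_dvd.mpr hm7).symm
  set N := 2 * (k * a) ^ 2 - 147 * b ^ 2 with hN
  have hs : IsCoprime (4 * k * m) (343 * b ^ 4) := by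
    refine hk2.mul_left ?_
    rw [show (343 : ℤ) = 7 ^ 3 by norm_num]
    exact IsCoprime.mul_right h7.pow_right hmb.pow_right
  rw [← h, show 4 * k * m = (2 * k * m - N) + 1 * (2 * k * m + N) by ring] at hs
  have hcop : IsCoprime (2 * k * m - N) (2 * k * m + N) :=
    hs.of_mul_right_right.of_add_mul_right_left
  have hb0 : b ≠ 0 := by rintro rfl; simp at hb
  obtain ⟨c, e, rfl, hce, hcase⟩ :=
    split_primePow_fourth (l := 7) (k := 3) (by norm_num) hb0 hcop (by rw [h]; norm_num)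
  obtain ⟨hc, he⟩ := Int.odd_mul.mp hb
  have hplus : 2 * N = c ^ 4 - 343 * e ^ 4 ∨ 2 * N = -(c ^ 4 - 343 * e ^ 4) := by
    norm_num at hcase
    rcases hcase with ⟨h1, h2⟩ | ⟨h1, h2⟩ | ⟨h1, h2⟩ | ⟨h1, h2⟩
    · exact Or.inr (by linarith)
    · exact Or.inl (by linarith)
    · exact Or.inl (by linarith)
    · exact Or.inr (by linarith)
  rcases hplus with h1 | h1
  · exact sevenQuartic_odd_odd (r := 2 * (k * a)) hc he
      (by unfold sevenQuartic; linear_combination h1)
  · obtain ⟨h7a, h7c⟩ := seven_mod_sq (x := 2 * (k * a)) (y := c ^ 2)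
      ⟨42 * c ^ 2 * e ^ 2 + 49 * e ^ 4, by linear_combination h1⟩
    have h7a' : (7 : ℤ) ∣ k * a :=
      (Int.Prime.dvd_mul' (by norm_num : Nat.Prime 7) h7a).resolve_left (by norm_num)
    have h7c' : (7 : ℤ) ∣ c * e :=
      dvd_mul_of_dvd_left (Int.Prime.dvd_pow' (by norm_num : Nat.Prime 7) h7c) e
    exact absurd (hab.isUnit_of_dvd' h7a' h7c') (by decide)

theorem sevenQuartic_no_coprime_sol :
    ∀ (B : ℕ) (m n r : ℤ), n.natAbs ≤ B → IsCoprime m n → n ≠ 0 → r ^ 2 ≠ sevenQuartic m n := by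
  intro B
  induction B with
  | zero => intro m n r hB _ hn; omega
  | succ B ih =>
  intro m n r hB hmn hn h
  have h7 : ¬ (7 : ℤ) ∣ m := by
    rintro ⟨m', rfl⟩
    unfold sevenQuartic at h
    obtain ⟨r', rfl⟩ : (7 : ℤ) ∣ r := Int.Prime.dvd_pow' (k := 2) (by norm_num : Nat.Prime 7)
      ⟨343 * m' ^ 4 + 2058 * m' ^ 2 * n ^ 2 - 49 * n ^ 4, by rw [h]; ring⟩
    obtain ⟨r'', rfl⟩ : (7 : ℤ) ∣ r' := Int.Prime.dvd_pow' (k := 2) (by norm_num : Nat.Prime 7)
      ⟨7 * m' ^ 4 + 42 * m' ^ 2 * n ^ 2 - n ^ 4, by push_cast; linarith⟩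
    have : (7 : ℤ) ∣ n := Int.Prime.dvd_pow' (k := 4) (by norm_num : Nat.Prime 7)
      ⟨m' ^ 4 + 6 * m' ^ 2 * n ^ 2 - r'' ^ 2, by push_cast; linarith⟩
    exact absurd (hmn.isUnit_of_dvd' (dvd_mul_right _ _) this) (by decide)
  rcases Int.even_or_odd (m + n) with hpar | hpar
  · have : Odd m ∧ Odd n := by
      rcases Int.even_or_odd m with hm | hm
      · have : Even n := (Int.even_add.mp hpar).mp hm
        exact absurd (hmn.isUnit_of_dvd' hm.two_dvd this.two_dvd) (by decide)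
      · refine ⟨hm, ?_⟩
        rw [← Int.not_even_iff_odd] at hm ⊢
        exact fun hn2 => hm ((Int.even_add.mp hpar).mpr hn2)
    exact sevenQuartic_odd_odd this.1 this.2 h
  unfold sevenQuartic at h
  -- first step
  set M := m ^ 2 + 147 * n ^ 2 with hMdef
  have hMr : (M - r) * (M + r) = 21952 * n ^ 4 := by rw [hMdef]; linear_combination -h
  have hModd : Odd M := by
    rw [hMdef]
    simpa [parity_simps, show ¬Even (147 : ℤ) by decide] using hpar
  have hrodd : Odd r := by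
    have h1 : Odd (r ^ 2) := by
      rw [show r ^ 2 = M ^ 2 + 2 * (-10976 * n ^ 4) by linarith]
      exact hModd.pow.add_even (even_two_mul _)
    simpa [parity_simps] using h1
  obtain ⟨v, hv⟩ := hModd.add_odd hrodd
  have hsum : M = (M - v) + 1 * v := by ring
  have huv : (M - v) * v = 343 * (2 * n) ^ 4 := by
    have h2 : r = 2 * v - M := by linarith
    rw [h2] at hMr; linarith
  have hM7 : IsCoprime M 7 :=
    ((by norm_num : Prime (7 : ℤ)).coprime_iff_not_dvd.mpr fun hd => h7 <|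
      Int.Prime.dvd_pow' (k := 2) (by norm_num : Nat.Prime 7)
        ((dvd_add_left ⟨21 * n ^ 2, by ring⟩).mp hd)).symm
  have hMn : IsCoprime M n := by
    rw [hMdef, show 147 * n ^ 2 = (147 * n) * n by ring]
    exact IsCoprime.add_mul_right_left hmn.pow_left _
  have hcop : IsCoprime (M - v) v := by
    have hs : IsCoprime M (343 * (2 * n) ^ 4) := by
      rw [show (343 : ℤ) = 7 ^ 3 by norm_num]
      exact hM7.pow_right.mul_right
        ((Int.isCoprime_two_right.mpr hModd).mul_right hMn).pow_right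
    rw [← huv] at hs
    have := hs.of_mul_right_right
    rw [hsum] at this
    exact this.of_add_mul_right_left
  obtain ⟨c, e, hce, hcop', hcase⟩ :=
    split_primePow_fourth (l := 7) (k := 3) (by norm_num) (by omega : 2 * n ≠ 0) hcop
      (by rw [huv]; norm_num)
  have hMpos : 0 < M := by rw [hMdef]; positivity
  have hMce : M = c ^ 4 + 343 * e ^ 4 := by
    have hc4 : 0 ≤ c ^ 4 := by positivity
    have he4 : 0 ≤ e ^ 4 := by positivity
    norm_num at hcase
    rcases hcase with ⟨h1, h2⟩ | ⟨h1, h2⟩ | ⟨h1, h2⟩ | ⟨h1, h2⟩ <;> linarith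
  rcases Int.Prime.dvd_mul' (p := 2) Nat.prime_two (⟨n, hce.symm⟩ : (2 : ℤ) ∣ c * e) with
    ⟨a, hca⟩ | ⟨b, heb⟩
  · -- c even, e odd
    norm_num at hca
    subst hca
    have hn' : n = a * e := mul_left_cancel₀ (two_ne_zero : (2 : ℤ) ≠ 0) (by linarith)
    subst hn'
    have heodd : Odd e := Int.isCoprime_two_left.mp hcop'.of_mul_left_left
    refine seven_dual_odd (k := 4) (a := a) (b := e) (m := m) (by norm_num) heodd ?_ h7
      hmn.of_mul_right_right ?_ ?_
    · exact ((Int.isCoprime_two_left.mpr heodd).pow_left (m := 2)).mul_left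
        hcop'.of_mul_left_right
    · rw [show (4 * 4 : ℤ) = 2 ^ 4 by norm_num]
      exact (Int.isCoprime_two_left.mpr
        (Int.odd_mul.mpr ⟨by decide, heodd.pow⟩)).pow_left
    · rw [hMdef] at hMce
      linear_combination 64 * hMce
  · -- e even
    norm_num at heb
    subst heb
    have hn' : n = c * b := mul_left_cancel₀ (two_ne_zero : (2 : ℤ) ≠ 0) (by linarith)
    subst hn'
    rw [hMdef] at hMce
    rcases Int.even_or_odd b with ⟨d, hd⟩ | hbodd
    · have hd' : b = 2 * d := by omega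
      subst hd'
      have hmodd : Odd m := by
        have h' : Even (c * (2 * d)) := (even_two_mul d).mul_left c
        simpa [parity_simps, h'] using hpar
      have hcodd : Odd c := Int.isCoprime_two_right.mp hcop'.of_mul_right_left
      obtain ⟨v, hv⟩ : Even (m + (c ^ 2 - 294 * d ^ 2)) :=
        hmodd.add_odd (hcodd.pow.sub_even ⟨147 * d ^ 2, by ring⟩)
      have hd0 : d ≠ 0 := by rintro rfl; simp at hn
      have huv : (m - v) * v = 343 * d ^ 4 := by
        have h2 : m = 2 * v - (c ^ 2 - 294 * d ^ 2) := by linarith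
        rw [h2] at hMce ⊢; linarith
      have hm7 : IsCoprime m 7 := ((by norm_num : Prime (7 : ℤ)).coprime_iff_not_dvd.mpr h7).symm
      have hs : IsCoprime m (343 * d ^ 4) := by
        rw [show (343 : ℤ) = 7 ^ 3 by norm_num]
        exact hm7.pow_right.mul_right hmn.of_mul_right_right.of_mul_right_right.pow_right
      rw [← huv, show m = (m - v) + 1 * v by ring] at hs
      have hcop2 : IsCoprime (m - v) v := by
        have := hs.of_mul_right_right
        simpa using this.of_add_mul_right_left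
      obtain ⟨c', e', hd', hcop3, hcase⟩ :=
        split_primePow_fourth (l := 7) (k := 3) (by norm_num) hd0 hcop2 (by rw [huv]; norm_num)
      have hK : c ^ 2 - 294 * d ^ 2 = c' ^ 4 - 343 * e' ^ 4 ∨
          c ^ 2 - 294 * d ^ 2 = -(c' ^ 4 - 343 * e' ^ 4) := by
        norm_num at hcase
        rcases hcase with ⟨h1, h2⟩ | ⟨h1, h2⟩ | ⟨h1, h2⟩ | ⟨h1, h2⟩
        · exact Or.inr (by linarith)
        · exact Or.inl (by linarith)
        · exact Or.inl (by linarith)
        · exact Or.inr (by linarith)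
      subst hd'
      rcases hK with h1 | h1
      · refine ih c' e' c ?_ hcop3 (right_ne_zero_of_mul hd0)
          (by unfold sevenQuartic; linear_combination h1)
        simp only [Int.natAbs_mul] at hB
        have h1 : 1 ≤ c.natAbs := Int.natAbs_pos.mpr (left_ne_zero_of_mul hn)
        have h2 : 1 ≤ c'.natAbs := Int.natAbs_pos.mpr (left_ne_zero_of_mul hd0)
        have h3 : 2 * e'.natAbs ≤ c.natAbs * (2 * (c'.natAbs * e'.natAbs)) := by
          calc 2 * e'.natAbs = 1 * (2 * (1 * e'.natAbs)) := by ring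
            _ ≤ _ := by gcongr
        norm_num at hB
        omega
      · obtain ⟨h7c, h7c'⟩ := seven_mod_sq (x := c) (y := c' ^ 2)
          ⟨42 * c' ^ 2 * e' ^ 2 + 49 * e' ^ 4, by linear_combination h1⟩
        have : (7 : ℤ) ∣ 2 * (2 * (c' * e')) :=
          dvd_mul_of_dvd_right (dvd_mul_of_dvd_right (dvd_mul_of_dvd_left
            (Int.Prime.dvd_pow' (by norm_num : Nat.Prime 7) h7c') _) _) _
        exact absurd (hcop'.isUnit_of_dvd' h7c this) (by decide)
    · refine seven_dual_odd (k := 1) (a := c) (b := b) (m := m) one_ne_zero hbodd ?_ h7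
        hmn.of_mul_right_right ?_ ?_
      · simpa using hcop'.of_mul_right_right
      · rw [show (4 * 1 : ℤ) = 2 ^ 2 by norm_num]
        exact (Int.isCoprime_two_left.mpr
          (Int.odd_mul.mpr ⟨by decide, hbodd.pow⟩)).pow_left
      · linear_combination 4 * hMce

theorem sevenQuartic_no_sol {m n : ℤ} (hn : n ≠ 0) (r : ℤ) : r ^ 2 ≠ sevenQuartic m n := by
  intro h
  have hpos : 0 < Int.gcd m n := Int.gcd_pos_of_ne_zero_right m hn
  obtain ⟨g, m', n', hg, hco, rfl, rfl⟩ := Int.exists_gcd_one' hpos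
  have hg0 : (g : ℤ) ≠ 0 := by exact_mod_cast hg.ne'
  unfold sevenQuartic at h
  obtain ⟨r', rfl⟩ : (g : ℤ) ^ 2 ∣ r := (Int.pow_dvd_pow_iff (n := 2) two_ne_zero).mp
    ⟨m' ^ 4 + 294 * m' ^ 2 * n' ^ 2 - 343 * n' ^ 4, by rw [h]; ring⟩
  refine sevenQuartic_no_coprime_sol n'.natAbs m' n' r' le_rfl
    (Int.isCoprime_iff_gcd_eq_one.mpr hco) (left_ne_zero_of_mul hn) ?_
  unfold sevenQuartic
  refine mul_left_cancel₀ (pow_ne_zero 4 hg0) ?_
  linear_combination h

/-- Fermat's Last Theorem for exponent 7 over the integers. -/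
theorem flt_seven {a b c : ℤ} (h : a ^ 7 + b ^ 7 + c ^ 7 = 0) : a * b * c = 0 := by
  by_cases hs : a + b + c = 0
  · have hc : c = -(a + b) := by linarith
    subst hc
    have h' : a * b * (a + b) * (a ^ 2 + a * b + b ^ 2) ^ 2 = 0 := by
      have : 7 * (a * b * (a + b) * (a ^ 2 + a * b + b ^ 2) ^ 2) = 0 := by linear_combination -h
      linarith
    rcases mul_eq_zero.mp h' with h1 | h1
    · linear_combination -h1
    · have h2 : a ^ 2 + a * b + b ^ 2 = 0 := pow_eq_zero_iff two_ne_zero |>.mp h1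
      have ha : a = 0 := by nlinarith [sq_nonneg (a + 2 * b)]
      subst ha; ring
  · exfalso
    set s := a + b + c with hsdef
    set Q := a * b + b * c + c * a with hQ
    set R := (a + b) * (b + c) * (c + a) with hR
    have hid : s ^ 7 = 7 * R * (s ^ 4 - s ^ 2 * Q + Q ^ 2 - s * R) := by
      rw [hsdef, hQ, hR]
      linear_combination h
    refine sevenQuartic_no_sol (m := 7 * (2 * Q - s ^ 2)) (n := s ^ 2) (pow_ne_zero 2 hs)
      (7 * (56 * s * R - 7 * ((2 * Q - s ^ 2) ^ 2 + 3 * s ^ 4))) ?_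
    unfold sevenQuartic
    linear_combination 21952 * s * hid

end FermatLib.Descent
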