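import Fermat.Agent.Descent.Icosahedral
import Mathlib.RingTheory.Valuation.Basic
import Mathlib.FieldTheory.IsAlgClosed.Basic

/-!
Valuations of the icosahedral forms near the cusp `(0 : 1)`.
-/

set_option autoImplicit false

open Polynomial

namespace FermatLib.Descent

variable {K : Type*} [Field K] {Γ : Type*} [LinearOrderedCommGroupWithZero Γ] (v : Valuation K Γ)

theorem val_intCast_le_one (n : ℤ) : v (n : K) ≤ 1 := by
  induction n using Int.induction_on with
  | zero => simp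
  | succ k ih =>
    push_cast at ih ⊢
    exact v.map_add_le ih v.map_one.le
  | pred k ih =>
    push_cast at ih ⊢
    exact v.map_sub_le ih v.map_one.le

theorem val_natCast_le_one (n : ℕ) : v (n : K) ≤ 1 := by simpa using val_intCast_le_one v n

theorem val_mul_le_of_le_one {a b : K} {g : Γ} (ha : v a ≤ 1) (hb : v b ≤ g) : v (a * b) ≤ g := by
  rw [map_mul]
  exact (mul_le_mul' ha hb).trans_eq (one_mul g)

theorem val_icoF {x y : K} (h : v x < v y) : v (icoF x y) = v x * v y ^ 11 := by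
  by_cases hx : x = 0
  · simp [hx, icoF]
  have hx' : 0 < v x := (v.pos_iff).2 hx
  have e : icoF x y = -(x * y ^ 11) + (x ^ 11 * y + -(11 : ℕ) * (x ^ 6 * y ^ 6)) := by
    simp [icoF]; ring
  rw [e, Valuation.map_add_eq_of_lt_left, Valuation.map_neg, map_mul, map_pow]
  rw [Valuation.map_neg, map_mul v x, map_pow]
  have h1 : v x ^ 6 * v y ^ 6 < v x * v y ^ 11 := by
    calc v x ^ 6 * v y ^ 6 = v x * (v x ^ 5 * v y ^ 6) := by
          rw [← mul_assoc, ← pow_succ']
      _ < v x * (v y ^ 5 * v y ^ 6) :=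
          mul_lt_mul_of_pos_left (mul_lt_mul_of_pos_right (pow_lt_pow_left₀ h zero_le (by norm_num))
            (pow_pos (hx'.trans h) _)) hx'
      _ = v x * v y ^ 11 := by rw [← pow_add]
  refine v.map_add_lt ?_ (lt_of_le_of_lt (val_mul_le_of_le_one v ?_ (by simp)) h1)
  · rw [map_mul, map_pow, show 11 = 1 + 10 from rfl, pow_add (v x), pow_add (v y), pow_one,
      mul_comm (v y ^ 1), pow_one, mul_assoc]
    refine mul_lt_mul_of_pos_left ?_ hx'
    exact mul_lt_mul_of_pos_right (pow_lt_pow_left₀ h zero_le (by norm_num)) (hx'.trans h)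
  · rw [Valuation.map_neg]; exact val_natCast_le_one v 11

theorem val_icoH {x y : K} (h : v x < v y) : v (icoH x y) = v y ^ 20 := by
  have e : icoH x y = y ^ 20 + x * ((x ^ 19 + (228 : ℕ) * (x ^ 14 * y ^ 5)) +
      ((494 : ℕ) * (x ^ 9 * y ^ 10) + -(228 : ℕ) * (x ^ 4 * y ^ 15))) := by
    simp [icoH]; ring
  rw [e, Valuation.map_add_eq_of_lt_left, map_pow]
  rw [map_pow, map_mul]
  have hy : 0 < v y := lt_of_le_of_lt zero_le h
  have hm : ∀ i j, i + j = 19 → v (x ^ i * y ^ j) ≤ v y ^ 19 := fun i j hij => by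
    rw [map_mul, map_pow, map_pow, ← hij, pow_add]
    exact mul_le_mul' (pow_le_pow_left₀ zero_le h.le i) le_rfl
  refine lt_of_le_of_lt (mul_le_mul' le_rfl (v.map_add_le (v.map_add_le ?_ ?_)
    (v.map_add_le ?_ ?_))) (lt_of_lt_of_eq (mul_lt_mul_of_pos_right h (pow_pos hy 19))
      (pow_succ' (v y) 19).symm)
  · simpa using hm 19 0 rfl
  · exact val_mul_le_of_le_one v (val_natCast_le_one v _) (hm 14 5 rfl)
  · exact val_mul_le_of_le_one v (val_natCast_le_one v _) (hm 9 10 rfl)
  · exact val_mul_le_of_le_one v (by rw [Valuation.map_neg]; exact val_natCast_le_one v _)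
      (hm 4 15 rfl)

theorem val_icoT_sub {x y : K} (h : v x ≤ v y) (h2 : v x ^ 5 ≤ v (2 : K) * v y ^ 5) :
    v (icoT x y - y ^ 30) ≤ v (2 : K) * (v x ^ 5 * v y ^ 25) := by
  have e : icoT x y - y ^ 30 = x ^ 5 * ((x ^ 25 + -(10005 : ℕ) * (x ^ 15 * y ^ 10)) +
      ((-(10005 : ℕ) * (x ^ 5 * y ^ 20) + -(261 : ℕ) * (2 * (x ^ 20 * y ^ 5))) +
        (261 : ℕ) * (2 * y ^ 25))) := by
    simp [icoT]; ring
  rw [e, map_mul, map_pow, mul_left_comm (v (2 : K))]
  refine mul_le_mul' le_rfl ?_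
  have hm : ∀ i j, i + j = 20 → v (x ^ (5 + i) * y ^ j) ≤ v (2 : K) * v y ^ 25 := fun i j hij => by
    rw [map_mul, map_pow, map_pow, pow_add, show 25 = 5 + (i + j) by omega, pow_add (v y),
      pow_add (v y) i j]
    calc v x ^ 5 * v x ^ i * v y ^ j ≤ v (2 : K) * v y ^ 5 * v y ^ i * v y ^ j :=
          mul_le_mul' (mul_le_mul' h2 (pow_le_pow_left₀ zero_le h i)) le_rfl
      _ = _ := by simp only [mul_assoc]
  have hn : ∀ (c : ℕ) (a : K), v a ≤ v (2 : K) * v y ^ 25 →
      v (-(c : K) * a) ≤ v (2 : K) * v y ^ 25 := fun c a ha =>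
    val_mul_le_of_le_one v (by rw [Valuation.map_neg]; exact val_natCast_le_one v c) ha
  refine v.map_add_le (v.map_add_le ?_ (hn _ _ (hm 10 10 rfl))) (v.map_add_le
    (v.map_add_le (hn _ _ (hm 0 20 rfl)) (hn _ _ ?_))
      (val_mul_le_of_le_one v (val_natCast_le_one v _) (by simp)))
  · simpa using hm 20 0 rfl
  · rw [map_mul, map_mul, map_pow, map_pow]
    refine mul_le_mul' le_rfl ?_
    calc v x ^ 20 * v y ^ 5 ≤ v y ^ 20 * v y ^ 5 :=
          mul_le_mul' (pow_le_pow_left₀ zero_le h 20) le_rfl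
      _ = v y ^ 25 := by rw [← pow_add]

theorem icoU_eq (x y : K) :
    icoU x y = x * ((11 : ℕ) * y ^ 10 + x ^ 5 * (-(x ^ 5) + (66 : ℕ) * y ^ 5)) := by
  simp [icoU]; ring

theorem val_icoU {x y : K} (hy : v y = 1) (hx : v x < 1) (h11 : v ((11 : ℕ) : K) = 1) :
    v (icoU x y) = v x := by
  rw [icoU_eq, map_mul, Valuation.map_add_eq_of_lt_left, map_mul, map_pow, h11, hy, one_pow,
    one_mul, mul_one]
  rw [map_mul, map_mul, h11, map_pow, map_pow, hy, one_pow, one_mul]
  refine lt_of_le_of_lt (mul_le_mul' le_rfl (v.map_add_le ?_ ?_))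
    ((mul_one _).trans_lt (pow_lt_one₀ zero_le hx (by norm_num)))
  · rw [Valuation.map_neg, map_pow]; exact pow_le_one₀ zero_le hx.le
  · exact val_mul_le_of_le_one v (val_natCast_le_one v _) (by rw [map_pow, hy, one_pow])

theorem val_icoV {x y : K} (hy : v y = 1) (hx : v x < 1) : v (icoV x y) = 1 := by
  have e : icoV x y = -(y ^ 11) + x ^ 5 * ((11 : ℕ) * (x ^ 5 * y) + -(66 : ℕ) * y ^ 6) := by
    simp [icoV]; ring
  rw [e, Valuation.map_add_eq_of_lt_left, Valuation.map_neg, map_pow, hy, one_pow]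
  rw [Valuation.map_neg, map_pow, hy, one_pow, map_mul, map_pow]
  refine lt_of_le_of_lt (mul_le_mul' le_rfl (v.map_add_le ?_ ?_))
    ((mul_one _).trans_lt (pow_lt_one₀ zero_le hx (by norm_num)))
  · exact val_mul_le_of_le_one v (val_natCast_le_one v _)
      (by rw [map_mul, map_pow, hy, mul_one]; exact pow_le_one₀ zero_le hx.le)
  · exact val_mul_le_of_le_one v (by rw [Valuation.map_neg]; exact val_natCast_le_one v _)
      (by rw [map_pow, hy, one_pow])

theorem icoH_smul (c x y : K) : icoH (c * x) (c * y) = c ^ 20 * icoH x y := by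
  simp only [icoH]; ring

theorem icoT_smul (c x y : K) : icoT (c * x) (c * y) = c ^ 30 * icoT x y := by
  simp only [icoT]; ring

theorem icoF_smul (c x y : K) : icoF (c * x) (c * y) = c ^ 12 * icoF x y := by
  simp only [icoF]; ring

theorem val_coeff_prod_le (s : Multiset K) (hs : ∀ r ∈ s, 1 ≤ v r) (i : ℕ) :
    v ((s.map fun r => X - C r).prod.coeff i) ≤ (s.map v).prod := by
  induction s using Multiset.induction generalizing i with
  | empty => simp [coeff_one]; split <;> simp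
  | cons r s ih =>
    have hr := hs r (Multiset.mem_cons_self r s)
    have ih' := fun j => ih (fun q hq => hs q (Multiset.mem_cons_of_mem hq)) j
    rw [Multiset.map_cons, Multiset.prod_cons, Multiset.map_cons, Multiset.prod_cons, sub_mul,
      coeff_sub, coeff_C_mul]
    refine v.map_sub_le ?_ (by rw [map_mul]; exact mul_le_mul' le_rfl (ih' i))
    rcases i with _ | j
    · simp
    · rw [coeff_X_mul]
      exact (ih' j).trans ((one_mul _).symm.trans_le (mul_le_mul' hr le_rfl))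

/-- The Tate parameter: some point with the given invariants lies near the cusp `(0 : 1)`. -/
theorem exists_point_near_cusp [IsAlgClosed K] {a b d : K}
    (hrel : a ^ 3 - b ^ 2 = 1728 * d) (hd : d ≠ 0) (ha : v a = 1) (hd1 : v d < 1) :
    ∃ x y : K, icoH x y = a ∧ icoT x y = b ∧ v y = 1 ∧ v x < 1 ∧ icoF x y ^ 5 = d := by
  classical
  set P : K[X] := C d * icoH X 1 ^ 3 - C (a ^ 3) * icoF X 1 ^ 5 with hP
  set G : K[X] := (X ^ 10 + -11 * X ^ 5 + -1) ^ 5 with hG
  have hF : icoF (X : K[X]) 1 ^ 5 = X ^ 5 * G := by simp only [icoF, hG]; ring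
  have hFd : (icoF (X : K[X]) 1 ^ 5).natDegree ≤ 55 := by
    refine natDegree_pow_le.trans ?_
    have : (icoF (X : K[X]) 1).natDegree ≤ 11 := by simp only [icoF]; compute_degree
    omega
  have hHd : (icoH (X : K[X]) 1).natDegree ≤ 20 := by simp only [icoH]; compute_degree
  have hHl : (icoH (X : K[X]) 1).coeff 20 = 1 := by simp only [icoH]; compute_degree!
  have hPd : P.natDegree ≤ 60 :=
    (natDegree_sub_le _ _).trans (max_le
      ((natDegree_C_mul_le _ _).trans (natDegree_pow_le.trans (by omega)))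
      ((natDegree_C_mul_le _ _).trans (hFd.trans (by omega))))
  have hP60 : P.coeff 60 = d := by
    rw [hP, coeff_sub, coeff_C_mul, coeff_C_mul, show 60 = 3 * 20 from rfl,
      coeff_pow_of_natDegree_le hHd, hHl, coeff_eq_zero_of_natDegree_lt (by omega : _ < 3 * 20)]
    simp
  have hdeg : P.natDegree = 60 :=
    natDegree_eq_of_le_of_coeff_ne_zero hPd (by rw [hP60]; exact hd)
  have hP0 : P.coeff 0 = d := by
    rw [hP, coeff_sub, coeff_C_mul, coeff_C_mul, hF, coeff_X_pow_mul',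
      coeff_zero_eq_eval_zero, eval_pow, ← coe_evalRingHom, map_icoH]
    simp [icoH]
  obtain ⟨τ, hτP, hτ⟩ : ∃ τ, P.eval τ = 0 ∧ v τ < 1 := by
    by_contra hcon
    push Not at hcon
    have hsp := IsAlgClosed.splits P
    have hroots : ∀ r ∈ P.roots, 1 ≤ v r := fun r hr =>
      hcon r (isRoot_of_mem_roots hr)
    have hPe := hsp.eq_prod_roots
    rw [leadingCoeff, hdeg, hP60] at hPe
    have hc0 : v d * (P.roots.map v).prod = v d := by
      have h0 := congrArg (fun p => v (p.coeff 0)) hPe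
      simp only [hP0, coeff_C_mul, map_mul, coeff_zero_multiset_prod, Multiset.map_map] at h0
      rw [map_multiset_prod, Multiset.map_map] at h0
      simpa using h0.symm
    have h5 : v (P.coeff 5) ≤ v d := by
      rw [hPe, coeff_C_mul, map_mul]
      exact (mul_le_mul' le_rfl (val_coeff_prod_le v _ hroots 5)).trans hc0.le
    have e5 : P.coeff 5 = d * (icoH (X : K[X]) 1 ^ 3).coeff 5 + a ^ 3 := by
      rw [hP, coeff_sub, coeff_C_mul, coeff_C_mul, hF, coeff_X_pow_mul', if_pos le_rfl,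
        Nat.sub_self, coeff_zero_eq_eval_zero G, hG]
      simp
      ring
    have hint : v ((icoH (X : K[X]) 1 ^ 3).coeff 5) ≤ 1 := by
      have : (icoH (X : K[X]) 1 ^ 3) = ((icoH (X : ℤ[X]) 1 ^ 3).map (Int.castRingHom K)) := by
        simp [icoH]
      rw [this, coeff_map]
      exact val_intCast_le_one v _
    rw [e5, Valuation.map_add_eq_of_lt_right, map_pow, ha, one_pow] at h5
    · exact absurd hd1 (not_lt.2 h5)
    · rw [map_pow, ha, one_pow, map_mul]
      exact lt_of_le_of_lt (mul_le_mul' le_rfl hint) ((mul_one _).trans_lt hd1)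
  have hH1 : v (icoH τ 1) = 1 := by
    have := val_icoH v (x := τ) (y := 1) (by rwa [map_one])
    rwa [map_one, one_pow] at this
  have hH0 : icoH τ 1 ≠ 0 := fun h => by simp [h] at hH1
  obtain ⟨μ, hμ⟩ := IsAlgClosed.exists_pow_nat_eq (a / icoH τ 1) (show 0 < 20 by norm_num)
  have hμv : v μ = 1 := by
    have h := congrArg v hμ
    rw [map_pow, map_div₀, ha, hH1, div_one] at h
    exact (pow_eq_one_iff.1 h).resolve_right (by norm_num)
  have hroot : d * icoH τ 1 ^ 3 = a ^ 3 * icoF τ 1 ^ 5 := by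
    rw [hP, eval_sub, eval_mul, eval_mul, eval_C, eval_C, eval_pow, eval_pow,
      ← coe_evalRingHom, map_icoH, map_icoF, coe_evalRingHom, eval_X, eval_one, sub_eq_zero]
      at hτP
    exact hτP
  have key : ∀ μ : K, μ ^ 20 = a / icoH τ 1 →
      icoH (μ * τ) μ = a ∧ icoF (μ * τ) μ ^ 5 = d := by
    intro μ hμ
    have e : ∀ g : K → K → K, g (μ * τ) μ = g (μ * τ) (μ * 1) := fun g => by rw [mul_one]
    refine ⟨by rw [e icoH, icoH_smul, hμ, div_mul_cancel₀ _ hH0], ?_⟩
    rw [e icoF, icoF_smul, mul_pow, ← pow_mul, show 12 * 5 = 20 * 3 from rfl, pow_mul, hμ, div_pow,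
      div_mul_eq_mul_div, div_eq_iff (pow_ne_zero _ hH0), hroot]
  obtain ⟨hH, hF5⟩ := key μ hμ
  have hT : icoT (μ * τ) μ = b ∨ icoT (μ * τ) μ = -b := by
    refine sq_eq_sq_iff_eq_or_eq_neg.1 ?_
    have h := icoH_pow_three_sub (μ * τ) μ
    rw [hH, hF5, ← hrel] at h
    linear_combination -h
  have hx : v (μ * τ) < 1 := by rwa [map_mul, hμv, one_mul]
  rcases hT with hT | hT
  · exact ⟨μ * τ, μ, hH, hT, hμv, hx, hF5⟩
  · obtain ⟨i, hi⟩ := IsAlgClosed.exists_pow_nat_eq (-1 : K) (show 0 < 2 by norm_num)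
    obtain ⟨hH', hF'⟩ := key (i * μ)
      (by rw [mul_pow, show 20 = 2 * 10 from rfl, pow_mul, hi, ← hμ]; ring)
    have hiv : v i = 1 := by
      have h := congrArg v hi
      rw [map_pow, Valuation.map_neg, map_one] at h
      exact (pow_eq_one_iff.1 h).resolve_right (by norm_num)
    refine ⟨i * μ * τ, i * μ, hH', ?_, by rw [map_mul, hiv, hμv, one_mul], ?_, hF'⟩
    · rw [mul_assoc, icoT_smul, hT, show 30 = 2 * 15 from rfl, pow_mul, hi]; ring
    · rwa [mul_assoc, map_mul, hiv, one_mul]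

end FermatLib.Descent
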