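import Mathlib.Algebra.MvPolynomial.Derivation
import Mathlib.Algebra.Polynomial.AlgebraMap
import Mathlib.RingTheory.Derivation.MapCoeffs
import Mathlib.Data.Fin.VecNotation
import Mathlib.Tactic.LinearCombination
import Mathlib.Tactic.Ring

/-!
# The icosahedral forms and the rational pencil through a point with given invariants

If `H (z) = c4` and `T (z) = -c6`, then for `z' = (icoU z, icoV z)` all coefficients of
`H`, `T` and `f / f (z)` on the line `t ↦ z + t (z' + c z)` lie in `ℚ[c4, c6]`.
-/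

set_option autoImplicit false

namespace FermatLib.Descent

section Forms

variable {R : Type*} [CommRing R] (u v : R)

/-- The icosahedral form of degree twelve (vertices). -/
def icoF : R :=
  u ^ 11 * v - 11 * u ^ 6 * v ^ 6 - u * v ^ 11

/-- The icosahedral form of degree twenty (faces). -/
def icoH : R :=
  u ^ 20 + 228 * u ^ 15 * v ^ 5 + 494 * u ^ 10 * v ^ 10 - 228 * u ^ 5 * v ^ 15 + v ^ 20

/-- The icosahedral form of degree thirty (edges). -/
def icoT : R :=
  u ^ 30 - 522 * u ^ 25 * v ^ 5 - 10005 * u ^ 20 * v ^ 10 - 10005 * u ^ 10 * v ^ 20 + 522 * u ^ 5 * v ^ 25 + v ^ 30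

/-- First coordinate `-∂f/∂v` of the covariant point. -/
def icoU : R :=
  - u ^ 11 + 66 * u ^ 6 * v ^ 5 + 11 * u * v ^ 10

/-- Second coordinate `∂f/∂u` of the covariant point. -/
def icoV : R :=
  11 * u ^ 10 * v - 66 * u ^ 5 * v ^ 6 - v ^ 11

theorem icoH_pow_three_sub : icoH u v ^ 3 - icoT u v ^ 2 = 1728 * icoF u v ^ 5 := by
  unfold icoH icoT icoF; ring

theorem ico_det : u * icoV u v - v * icoU u v = 12 * icoF u v := by
  unfold icoU icoV icoF; ring

theorem map_icoF {S : Type*} [CommRing S] {G : Type*} [FunLike G R S] [RingHomClass G R S] (g : G) :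
    g (icoF u v) = icoF (g u) (g v) := by
  simp [icoF, map_ofNat]

theorem map_icoH {S : Type*} [CommRing S] {G : Type*} [FunLike G R S] [RingHomClass G R S] (g : G) :
    g (icoH u v) = icoH (g u) (g v) := by
  simp [icoH, map_ofNat]

theorem map_icoT {S : Type*} [CommRing S] {G : Type*} [FunLike G R S] [RingHomClass G R S] (g : G) :
    g (icoT u v) = icoT (g u) (g v) := by
  simp [icoT, map_ofNat]

theorem map_icoU {S : Type*} [CommRing S] {G : Type*} [FunLike G R S] [RingHomClass G R S] (g : G) :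
    g (icoU u v) = icoU (g u) (g v) := by
  simp [icoU, map_ofNat]

theorem map_icoV {S : Type*} [CommRing S] {G : Type*} [FunLike G R S] [RingHomClass G R S] (g : G) :
    g (icoV u v) = icoV (g u) (g v) := by
  simp [icoV, map_ofNat]

end Forms

section Pencil

open Polynomial

local notation "A₂" => MvPolynomial (Fin 2) ℚ
local notation "𝐮" => (MvPolynomial.X 0 : MvPolynomial (Fin 2) ℚ)
local notation "𝐯" => (MvPolynomial.X 1 : MvPolynomial (Fin 2) ℚ)

/-- The derivation along the covariant vector field. -/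
noncomputable def icoD : Derivation ℚ A₂ A₂ :=
  MvPolynomial.mkDerivation ℚ ![icoU 𝐮 𝐯, icoV 𝐮 𝐯]

private theorem icoD_X0 : icoD 𝐮 = icoU 𝐮 𝐯 := by simp [icoD]

private theorem icoD_X1 : icoD 𝐯 = icoV 𝐮 𝐯 := by simp [icoD]

private theorem icoD_ofNat (n : ℕ) [n.AtLeastTwo] :
    icoD (OfNat.ofNat n : A₂) = 0 :=
  icoD.map_natCast n

theorem icoD_icoH : icoD (icoH 𝐮 𝐯) = -20 * icoT 𝐮 𝐯 := by
  simp [icoH, Derivation.leibniz, Derivation.leibniz_pow, icoD_X0, icoD_X1]
  repeat rw [icoD_ofNat]
  simp only [mul_zero, add_zero]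
  simp only [icoT, icoU, icoV]
  ring

theorem icoD_icoT : icoD (icoT 𝐮 𝐯) = -30 * icoH 𝐮 𝐯 ^ 2 := by
  simp [icoT, Derivation.leibniz, Derivation.leibniz_pow, icoD_X0, icoD_X1]
  repeat rw [icoD_ofNat]
  simp only [mul_zero, add_zero]
  simp only [icoH, icoU, icoV]
  ring

theorem icoD_icoU : icoD (icoU 𝐮 𝐯) = 11 * icoH 𝐮 𝐯 * 𝐮 := by
  simp [icoU, Derivation.leibniz, Derivation.leibniz_pow, icoD_X0, icoD_X1]
  repeat rw [icoD_ofNat]
  simp only [mul_zero, add_zero]
  simp only [icoH, icoV]
  ring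

theorem icoD_icoV : icoD (icoV 𝐮 𝐯) = 11 * icoH 𝐮 𝐯 * 𝐯 := by
  simp [icoV, Derivation.leibniz, Derivation.leibniz_pow, icoD_X0, icoD_X1]
  repeat rw [icoD_ofNat]
  simp only [mul_zero, add_zero]
  simp only [icoH, icoU]
  ring

noncomputable local instance icoDifferential : Differential A₂ :=
  ⟨icoD.restrictScalars ℤ⟩

/-- `∂ along z'` minus a vector field in `t` for which both coordinates of the line
`z + t (z' + c z)` are eigenvectors. -/
noncomputable def icoDelta (c : ℚ) : Derivation ℤ A₂[X] A₂[X] :=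
  Differential.implicitDeriv
    ((C (11 * icoH 𝐮 𝐯) - C (MvPolynomial.C c) ^ 2) * X ^ 2 - 2 * C (MvPolynomial.C c) * X - 1)

/-- The common eigenvalue of the two coordinates of the line. -/
noncomputable def icoWeight (c : ℚ) : A₂[X] :=
  C (11 * icoH 𝐮 𝐯) * X - C (MvPolynomial.C c) - C (MvPolynomial.C c) ^ 2 * X

/-- First coordinate of the generic line. -/
noncomputable def icoLineU (c : ℚ) : A₂[X] :=
  C 𝐮 + X * (C (icoU 𝐮 𝐯) + C (MvPolynomial.C c) * C 𝐮)

/-- Second coordinate of the generic line. -/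
noncomputable def icoLineV (c : ℚ) : A₂[X] :=
  C 𝐯 + X * (C (icoV 𝐮 𝐯) + C (MvPolynomial.C c) * C 𝐯)

private theorem icoDelta_C (c : ℚ) (a : A₂) : icoDelta c (C a) = C (icoD a) :=
  Differential.implicitDeriv_C _ a

private theorem icoDelta_ofNat (c : ℚ) (n : ℕ) [n.AtLeastTwo] :
    icoDelta c (OfNat.ofNat n : A₂[X]) = 0 :=
  (icoDelta c).map_natCast n

private theorem icoDelta_X (c : ℚ) : icoDelta c (X : A₂[X]) =
    (C (11 * icoH 𝐮 𝐯) - C (MvPolynomial.C c) ^ 2) * X ^ 2 -
      2 * C (MvPolynomial.C c) * X - 1 :=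
  Differential.implicitDeriv_X _

private theorem icoD_C (c : ℚ) : icoD (MvPolynomial.C c) = 0 :=
  icoD.map_algebraMap c

private theorem icoDelta_lineU (c : ℚ) :
    icoDelta c (icoLineU c) = icoWeight c * icoLineU c := by
  simp only [icoLineU, map_add, Derivation.leibniz, icoDelta_C, icoD_X0, icoD_icoU, icoD_C,
    smul_eq_mul, map_zero, mul_zero, add_zero]
  rw [icoDelta_X, icoWeight]
  simp only [map_mul, map_ofNat]
  ring

private theorem icoDelta_lineV (c : ℚ) :
    icoDelta c (icoLineV c) = icoWeight c * icoLineV c := by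
  simp only [icoLineV, map_add, Derivation.leibniz, icoDelta_C, icoD_X1, icoD_icoV, icoD_C,
    smul_eq_mul, map_zero, mul_zero, add_zero]
  rw [icoDelta_X, icoWeight]
  simp only [map_mul, map_ofNat]
  ring

/-- The invariant subalgebra generated by the two forms. -/
noncomputable def icoInvariants : Subalgebra ℚ A₂ :=
  Algebra.adjoin ℚ {icoH 𝐮 𝐯, icoT 𝐮 𝐯}

theorem icoH_mem_invariants : icoH 𝐮 𝐯 ∈ icoInvariants :=
  Algebra.subset_adjoin (by simp)

theorem icoT_mem_invariants : icoT 𝐮 𝐯 ∈ icoInvariants :=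
  Algebra.subset_adjoin (by simp)

theorem icoD_mem_invariants {a : A₂} (ha : a ∈ icoInvariants) : icoD a ∈ icoInvariants := by
  induction ha using Algebra.adjoin_induction with
  | mem x hx =>
    rcases hx with rfl | rfl
    · rw [icoD_icoH]
      exact mul_mem (neg_mem (natCast_mem icoInvariants 20)) icoT_mem_invariants
    · rw [icoD_icoT]
      exact mul_mem (neg_mem (natCast_mem icoInvariants 30)) (pow_mem icoH_mem_invariants 2)
  | algebraMap r => simp
  | add x y _ _ hx hy => rw [map_add]; exact add_mem hx hy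
  | mul x y hx' hy' hx hy =>
    rw [Derivation.leibniz, smul_eq_mul, smul_eq_mul]
    exact add_mem (mul_mem hx' hy) (mul_mem hy' hx)

/-- `g` times an invariant. -/
def IsInvariantMultiple (g x : A₂) : Prop :=
  ∃ y ∈ icoInvariants, x = g * y

theorem coeff_isInvariantMultiple {c : ℚ} {P : A₂[X]} {d : ℕ} {g : A₂} (hg : icoD g = 0)
    (hP : icoDelta c P = (d : A₂[X]) * icoWeight c * P)
    (h0 : IsInvariantMultiple g (P.coeff 0)) (n : ℕ) : IsInvariantMultiple g (P.coeff n) := by
  have hexp : icoDelta c P = Differential.mapCoeffs P +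
      ((C (11 * icoH 𝐮 𝐯) - C (MvPolynomial.C c) ^ 2) * X ^ 2 -
        2 * C (MvPolynomial.C c) * X - 1) * derivative P := by
    simp [icoDelta, Differential.implicitDeriv]
    rfl
  rw [hexp, icoWeight] at hP
  have hrec : derivative P = Differential.mapCoeffs P +
      C (11 * icoH 𝐮 𝐯 - MvPolynomial.C c ^ 2) * (X * (X * derivative P)) +
      C (-2 * MvPolynomial.C c) * (X * derivative P) -
      (C ((d : A₂) * (11 * icoH 𝐮 𝐯 - MvPolynomial.C c ^ 2)) * (X * P) -
        C ((d : A₂) * MvPolynomial.C c) * P) := by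
    simp only [map_mul, map_sub, map_pow, map_neg, map_natCast, map_ofNat] at hP ⊢
    linear_combination -hP
  induction n using Nat.strong_induction_on with
  | _ n ih =>
    match n with
    | 0 => exact h0
    | m + 1 =>
      have hC : (MvPolynomial.C c : A₂) ∈ icoInvariants := icoInvariants.algebraMap_mem c
      have hH : (11 : A₂) * icoH 𝐮 𝐯 - MvPolynomial.C c ^ 2 ∈ icoInvariants :=
        sub_mem (mul_mem (natCast_mem icoInvariants 11) icoH_mem_invariants) (pow_mem hC 2)
      have hadd : ∀ x y, IsInvariantMultiple g x → IsInvariantMultiple g y →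
          IsInvariantMultiple g (x + y) := by
        rintro _ _ ⟨x, hx, rfl⟩ ⟨y, hy, rfl⟩
        exact ⟨x + y, add_mem hx hy, by ring⟩
      have hsub : ∀ x y, IsInvariantMultiple g x → IsInvariantMultiple g y →
          IsInvariantMultiple g (x - y) := by
        rintro _ _ ⟨x, hx, rfl⟩ ⟨y, hy, rfl⟩
        exact ⟨x - y, sub_mem hx hy, by ring⟩
      have hmul : ∀ a x, a ∈ icoInvariants → IsInvariantMultiple g x →
          IsInvariantMultiple g (a * x) := by
        rintro a _ ha ⟨x, hx, rfl⟩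
        exact ⟨a * x, mul_mem ha hx, by ring⟩
      have hX : ∀ k ≤ m, IsInvariantMultiple g ((X * derivative P).coeff k) := by
        rintro (_ | k) hk
        · exact ⟨0, zero_mem _, by simp⟩
        · rw [coeff_X_mul, coeff_derivative, mul_comm]
          exact hmul _ _ (add_mem (natCast_mem _ k) (one_mem _)) (ih (k + 1) (by omega))
      have hD : IsInvariantMultiple g ((Differential.mapCoeffs P).coeff m) := by
        obtain ⟨y, hy, hxy⟩ := ih m (by omega)
        refine ⟨icoD y, icoD_mem_invariants hy, ?_⟩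
        change icoD (P.coeff m) = _
        rw [hxy, Derivation.leibniz, hg]
        simp
      have hm : IsInvariantMultiple g ((derivative P).coeff m) := by
        rw [hrec]
        simp only [coeff_add, coeff_sub, coeff_C_mul]
        refine hsub _ _ (hadd _ _ (hadd _ _ hD (hmul _ _ hH ?_))
          (hmul _ _ (mul_mem (neg_mem (natCast_mem icoInvariants 2)) hC) (hX m le_rfl)))
          (hsub _ _ (hmul _ _ (mul_mem (natCast_mem _ d) hH) ?_)
            (hmul _ _ (mul_mem (natCast_mem _ d) hC) (ih m (by omega))))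
        · rcases m with _ | k
          · exact ⟨0, zero_mem _, by simp⟩
          · rw [coeff_X_mul]; exact hX k (by omega)
        · rcases m with _ | k
          · exact ⟨0, zero_mem _, by simp⟩
          · rw [coeff_X_mul]; exact ih k (by omega)
      obtain ⟨y, hy, hxy⟩ := hm
      refine ⟨((m + 1 : ℕ) : ℚ)⁻¹ • y, icoInvariants.smul_mem hy _, ?_⟩
      rw [coeff_derivative] at hxy
      have : ((m + 1 : ℕ) : ℚ) • P.coeff (m + 1) = g * y := by
        rw [Nat.cast_smul_eq_nsmul ℚ, nsmul_eq_mul, ← hxy]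
        push_cast; ring
      rw [mul_smul_comm, ← this, inv_smul_smul₀ (by positivity)]

theorem icoD_icoF : icoD (icoF 𝐮 𝐯) = 0 := by
  simp [icoF, Derivation.leibniz, Derivation.leibniz_pow, icoD_X0, icoD_X1]
  repeat rw [icoD_ofNat]
  simp only [mul_zero, add_zero]
  simp only [icoU, icoV]
  ring

private theorem icoDelta_forms (c : ℚ) :
    icoDelta c (icoF (icoLineU c) (icoLineV c)) =
        ((12 : ℕ) : A₂[X]) * icoWeight c * icoF (icoLineU c) (icoLineV c) ∧
    icoDelta c (icoH (icoLineU c) (icoLineV c)) =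
        ((20 : ℕ) : A₂[X]) * icoWeight c * icoH (icoLineU c) (icoLineV c) ∧
    icoDelta c (icoT (icoLineU c) (icoLineV c)) =
        ((30 : ℕ) : A₂[X]) * icoWeight c * icoT (icoLineU c) (icoLineV c) := by
  have hu := icoDelta_lineU c
  have hv := icoDelta_lineV c
  generalize icoLineU c = U at *
  generalize icoLineV c = V at *
  generalize icoWeight c = w at *
  refine ⟨?_, ?_, ?_⟩
  · simp [icoF, Derivation.leibniz, Derivation.leibniz_pow, hu, hv]
    repeat rw [icoDelta_ofNat]
    simp only [mul_zero, add_zero]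
    ring
  · simp [icoH, Derivation.leibniz, Derivation.leibniz_pow, hu, hv]
    repeat rw [icoDelta_ofNat]
    simp only [mul_zero, add_zero]
    ring
  · simp [icoT, Derivation.leibniz, Derivation.leibniz_pow, hu, hv]
    repeat rw [icoDelta_ofNat]
    simp only [mul_zero, add_zero]
    ring

variable {K : Type*} [Field K] [Algebra ℚ K]

/-- If the invariants of `(u, v)` are rational, then so are the three pencils through it. -/
theorem exists_rational_pencil {u v : K} {a b : ℚ} (c : ℚ) (ha : icoH u v = algebraMap ℚ K a)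
    (hb : icoT u v = algebraMap ℚ K b) :
    ∃ p q r : ℚ[X],
      p.map (algebraMap ℚ K) = icoH (C u + X * C (icoU u v + algebraMap ℚ K c * u))
        (C v + X * C (icoV u v + algebraMap ℚ K c * v)) ∧
      q.map (algebraMap ℚ K) = icoT (C u + X * C (icoU u v + algebraMap ℚ K c * u))
        (C v + X * C (icoV u v + algebraMap ℚ K c * v)) ∧
      C (icoF u v) * r.map (algebraMap ℚ K) =
        icoF (C u + X * C (icoU u v + algebraMap ℚ K c * u))
          (C v + X * C (icoV u v + algebraMap ℚ K c * v)) := by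
  set ψ : A₂ →ₐ[ℚ] K := MvPolynomial.aeval ![u, v] with hψ
  have hψu : ψ 𝐮 = u := by simp [hψ]
  have hψv : ψ 𝐯 = v := by simp [hψ]
  have hψc : ψ (MvPolynomial.C c) = algebraMap ℚ K c := ψ.commutes c
  have hinv : ∀ x ∈ icoInvariants, ψ x ∈ (algebraMap ℚ K).range := by
    intro x hx
    induction hx using Algebra.adjoin_induction with
    | mem x hx =>
      rcases hx with rfl | rfl
      · exact ⟨a, by rw [map_icoH, hψu, hψv, ha]⟩
      · exact ⟨b, by rw [map_icoT, hψu, hψv, hb]⟩
    | algebraMap r => exact ⟨r, (ψ.commutes r).symm⟩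
    | add x y _ _ hx hy => rw [map_add]; exact add_mem hx hy
    | mul x y _ _ hx hy => rw [map_mul]; exact mul_mem hx hy
  have hc0U : constantCoeff (icoLineU c) = 𝐮 := by simp [icoLineU]
  have hc0V : constantCoeff (icoLineV c) = 𝐯 := by simp [icoLineV]
  have hU : mapRingHom (ψ : A₂ →+* K) (icoLineU c) =
      C u + X * C (icoU u v + algebraMap ℚ K c * u) := by
    simp only [icoLineU, coe_mapRingHom, Polynomial.map_add, Polynomial.map_mul, map_X, map_C,
      RingHom.coe_coe, hψu, hψc, C_add, C_mul]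
    rw [map_icoU, hψu, hψv]
  have hV : mapRingHom (ψ : A₂ →+* K) (icoLineV c) =
      C v + X * C (icoV u v + algebraMap ℚ K c * v) := by
    simp only [icoLineV, coe_mapRingHom, Polynomial.map_add, Polynomial.map_mul, map_X, map_C,
      RingHom.coe_coe, hψv, hψc, C_add, C_mul]
    rw [map_icoV, hψu, hψv]
  have key : ∀ (P : A₂[X]) (g : A₂), (∀ n, IsInvariantMultiple g (P.coeff n)) →
      ∃ p : ℚ[X], C (ψ g) * p.map (algebraMap ℚ K) = mapRingHom (ψ : A₂ →+* K) P := by
    intro P g hP
    choose y hy hxy using hP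
    choose z hz using fun n => hinv _ (hy n)
    refine ⟨∑ n ∈ P.support, monomial n (z n), ?_⟩
    conv_rhs => rw [P.as_sum_support]
    simp only [map_sum, Polynomial.map_sum, Finset.mul_sum, map_monomial, coe_mapRingHom]
    refine Finset.sum_congr rfl fun n _ => ?_
    rw [C_mul_monomial, hxy n, hz n]
    simp
  obtain ⟨hF', hH', hT'⟩ := icoDelta_forms c
  obtain ⟨p, hp⟩ := key _ 1 (coeff_isInvariantMultiple icoD.map_one_eq_zero hH'
    ⟨_, icoH_mem_invariants, by
      rw [← constantCoeff_apply, map_icoH, hc0U, hc0V, one_mul]⟩)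
  obtain ⟨q, hq⟩ := key _ 1 (coeff_isInvariantMultiple icoD.map_one_eq_zero hT'
    ⟨_, icoT_mem_invariants, by
      rw [← constantCoeff_apply, map_icoT, hc0U, hc0V, one_mul]⟩)
  obtain ⟨r, hr⟩ := key _ (icoF 𝐮 𝐯) (coeff_isInvariantMultiple icoD_icoF hF'
    ⟨1, one_mem _, by rw [← constantCoeff_apply, map_icoF, hc0U, hc0V, mul_one]⟩)
  rw [map_one, C_1, one_mul, map_icoH, hU, hV] at hp
  rw [map_one, C_1, one_mul, map_icoT, hU, hV] at hq
  rw [map_icoF 𝐮 𝐯 ψ, hψu, hψv,
    map_icoF (icoLineU c) (icoLineV c) (mapRingHom (ψ : A₂ →+* K)), hU, hV] at hr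
  exact ⟨p, q, r, hp, hq, hr⟩

end Pencil

end FermatLib.Descent
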