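import Mathlib.Algebra.CharP.Algebra
import Mathlib.AlgebraicGeometry.EllipticCurve.Affine.Point
import Mathlib.Tactic.LinearCombination
import Fermat.Agent.Descent.Icosahedral

/-!
# Five-torsion of the Klein curve `y² = x³ - 27 H x + 54 T`

Explicit forms for the points `P`, `2 P` (rational coefficients) and `R = P (u, ζ v) - P (u, v)`
(coefficients in `ℚ(ζ₅)`), with the identities making them five-torsion.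
-/

set_option autoImplicit false

namespace FermatLib.Descent

section Forms

variable {R : Type*} [CommRing R]

/-- Abscissa of the rational five-torsion point `P`. -/
def kleinPX (u v : R) : R :=
  3 * u ^ 10 + 36 * u ^ 9 * v + 72 * u ^ 8 * v ^ 2 + 108 * u ^ 7 * v ^ 3 + 180 * u ^ 6 * v ^ 4
    + 90 * u ^ 5 * v ^ 5 + 72 * u ^ 4 * v ^ 6 - 36 * u ^ 3 * v ^ 7 + 36 * u ^ 2 * v ^ 8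
    + 3 * v ^ 10

/-- Ordinate of `P`. -/
def kleinPY (u v : R) : R :=
  108 * u ^ 14 * v + 432 * u ^ 13 * v ^ 2 + 972 * u ^ 12 * v ^ 3 + 1620 * u ^ 11 * v ^ 4
    + 2700 * u ^ 10 * v ^ 5 + 3132 * u ^ 9 * v ^ 6 + 2268 * u ^ 8 * v ^ 7 + 648 * u ^ 7 * v ^ 8
    + 540 * u ^ 6 * v ^ 9 + 432 * u ^ 4 * v ^ 11 + 108 * u ^ 3 * v ^ 12 + 108 * u ^ 2 * v ^ 13

/-- Abscissa of `2 P`. -/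
def kleinP2X (u v : R) : R :=
  3 * u ^ 10 + 36 * u ^ 8 * v ^ 2 + 36 * u ^ 7 * v ^ 3 + 72 * u ^ 6 * v ^ 4
    - 90 * u ^ 5 * v ^ 5 + 180 * u ^ 4 * v ^ 6 - 108 * u ^ 3 * v ^ 7 + 72 * u ^ 2 * v ^ 8
    - 36 * u * v ^ 9 + 3 * v ^ 10

/-- Ordinate of `2 P`. -/
def kleinP2Y (u v : R) : R :=
  108 * u ^ 13 * v ^ 2 - 108 * u ^ 12 * v ^ 3 + 432 * u ^ 11 * v ^ 4 + 540 * u ^ 9 * v ^ 6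
    - 648 * u ^ 8 * v ^ 7 + 2268 * u ^ 7 * v ^ 8 - 3132 * u ^ 6 * v ^ 9 + 2700 * u ^ 5 * v ^ 10
    - 1620 * u ^ 4 * v ^ 11 + 972 * u ^ 3 * v ^ 12 - 432 * u ^ 2 * v ^ 13 + 108 * u * v ^ 14

/-- Tangent slope at `P`. -/
def kleinL (u v : R) : R :=
  3 * u ^ 5 + 12 * u ^ 4 * v + 6 * u ^ 3 * v ^ 2 + 18 * u ^ 2 * v ^ 3 - 6 * u * v ^ 4
    + 3 * v ^ 5

/-- Tangent slope at `2 P`. -/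
def kleinL2 (u v : R) : R :=
  3 * u ^ 5 + 6 * u ^ 4 * v + 18 * u ^ 3 * v ^ 2 - 6 * u ^ 2 * v ^ 3 + 12 * u * v ^ 4
    - 3 * v ^ 5

/-- Five times the slope of the line through `P (u, ζ v)` and `-P (u, v)`. -/
def kleinM (ζ : R) (u v : R) : R :=
  -9 * u ^ 5 - 18 * ζ * u ^ 5 - 12 * ζ ^ 2 * u ^ 5 - 6 * ζ ^ 3 * u ^ 5 - 30 * u ^ 4 * v
    + 30 * ζ * u ^ 4 * v - 30 * u ^ 3 * v ^ 2 + 30 * ζ ^ 2 * u ^ 3 * v ^ 2 - 30 * u ^ 2 * v ^ 3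
    + 30 * ζ ^ 3 * u ^ 2 * v ^ 3 - 3 * v ^ 5 - 6 * ζ * v ^ 5 + 6 * ζ ^ 2 * v ^ 5
    - 12 * ζ ^ 3 * v ^ 5

/-- Five times the abscissa of `P (u, ζ v) - P (u, v)`. -/
def kleinRX (ζ : R) (u v : R) : R :=
  -57 * u ^ 10 + 36 * ζ ^ 2 * u ^ 10 + 36 * ζ ^ 3 * u ^ 10 - 198 * u ^ 5 * v ^ 5
    - 396 * ζ ^ 2 * u ^ 5 * v ^ 5 - 396 * ζ ^ 3 * u ^ 5 * v ^ 5 - 93 * v ^ 10
    - 36 * ζ ^ 2 * v ^ 10 - 36 * ζ ^ 3 * v ^ 10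

/-- Five times the ordinate of `P (u, ζ v) - P (u, v)`. -/
def kleinRY (ζ : R) (u v : R) : R :=
  -216 * u ^ 15 - 432 * ζ * u ^ 15 - 324 * ζ ^ 2 * u ^ 15 - 108 * ζ ^ 3 * u ^ 15
    + 2484 * u ^ 10 * v ^ 5 + 4968 * ζ * u ^ 10 * v ^ 5 + 3456 * ζ ^ 2 * u ^ 10 * v ^ 5
    + 1512 * ζ ^ 3 * u ^ 10 * v ^ 5 - 972 * u ^ 5 * v ^ 10 - 1944 * ζ * u ^ 5 * v ^ 10
    + 1512 * ζ ^ 2 * u ^ 5 * v ^ 10 - 3456 * ζ ^ 3 * u ^ 5 * v ^ 10 - 108 * v ^ 15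
    - 216 * ζ * v ^ 15 + 108 * ζ ^ 2 * v ^ 15 - 324 * ζ ^ 3 * v ^ 15

/-- The cofactor witnessing that `P` and `R` have distinct abscissae away from the cusps. -/
def kleinG (ζ : R) (u v : R) : R :=
  3 * u ^ 12 * v ^ 2 + ζ ^ 2 * u ^ 12 * v ^ 2 + ζ ^ 3 * u ^ 12 * v ^ 2 - 10 * u ^ 11 * v ^ 3
    - 5 * ζ ^ 2 * u ^ 11 * v ^ 3 - 5 * ζ ^ 3 * u ^ 11 * v ^ 3 + 15 * u ^ 10 * v ^ 4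
    + 10 * ζ ^ 2 * u ^ 10 * v ^ 4 + 10 * ζ ^ 3 * u ^ 10 * v ^ 4 - 15 * u ^ 9 * v ^ 5
    - 10 * ζ ^ 2 * u ^ 9 * v ^ 5 - 10 * ζ ^ 3 * u ^ 9 * v ^ 5 + 7 * u ^ 7 * v ^ 7
    + 14 * ζ ^ 2 * u ^ 7 * v ^ 7 + 14 * ζ ^ 3 * u ^ 7 * v ^ 7 + 5 * u ^ 6 * v ^ 8
    - 10 * ζ ^ 2 * u ^ 6 * v ^ 8 - 10 * ζ ^ 3 * u ^ 6 * v ^ 8 + 5 * u ^ 5 * v ^ 9
    - 5 * ζ ^ 2 * u ^ 5 * v ^ 9 - 5 * ζ ^ 3 * u ^ 5 * v ^ 9 - 5 * u ^ 4 * v ^ 10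
    + 5 * ζ ^ 2 * u ^ 4 * v ^ 10 + 5 * ζ ^ 3 * u ^ 4 * v ^ 10 + 2 * u ^ 2 * v ^ 12
    - ζ ^ 2 * u ^ 2 * v ^ 12 - ζ ^ 3 * u ^ 2 * v ^ 12

theorem kleinP_equation (u v : R) :
    kleinPY u v ^ 2 = kleinPX u v ^ 3 - 27 * icoH u v * kleinPX u v + 54 * icoT u v := by
  unfold kleinPY kleinPX icoH icoT; ring

theorem kleinP_tangent (u v : R) :
    2 * kleinPY u v * kleinL u v = 3 * kleinPX u v ^ 2 - 27 * icoH u v := by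
  unfold kleinPY kleinPX kleinL icoH; ring

theorem kleinP2X_eq (u v : R) : kleinP2X u v = kleinL u v ^ 2 - 2 * kleinPX u v := by
  unfold kleinP2X kleinL kleinPX; ring

theorem kleinP2Y_eq (u v : R) :
    kleinP2Y u v = -(kleinPY u v + kleinL u v * (kleinP2X u v - kleinPX u v)) := by
  unfold kleinP2Y kleinPY kleinP2X kleinPX kleinL; ring

theorem kleinP2_equation (u v : R) :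
    kleinP2Y u v ^ 2 = kleinP2X u v ^ 3 - 27 * icoH u v * kleinP2X u v + 54 * icoT u v := by
  unfold kleinP2Y kleinP2X icoH icoT; ring

theorem kleinP2_tangent (u v : R) :
    2 * kleinP2Y u v * kleinL2 u v = 3 * kleinP2X u v ^ 2 - 27 * icoH u v := by
  unfold kleinP2Y kleinP2X kleinL2 icoH; ring

theorem kleinPX_eq (u v : R) : kleinPX u v = kleinL2 u v ^ 2 - 2 * kleinP2X u v := by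
  unfold kleinP2X kleinL2 kleinPX; ring

theorem kleinPY_eq (u v : R) :
    kleinPY u v = kleinP2Y u v + kleinL2 u v * (kleinPX u v - kleinP2X u v) := by
  unfold kleinP2Y kleinPY kleinP2X kleinPX kleinL2; ring

variable {ζ : R}

theorem kleinR_line (hζ : ζ ^ 4 + ζ ^ 3 + ζ ^ 2 + ζ + 1 = 0) (u v : R) :
    5 * kleinPY u (ζ * v) =
      -(5 * kleinPY u v) + kleinM ζ u v * (kleinPX u (ζ * v) - kleinPX u v) := by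
  unfold kleinPY kleinPX kleinM
  linear_combination (216 * u ^ 14 * v + 432 * ζ * u ^ 13 * v ^ 2 + 432 * u ^ 13 * v ^ 2
      + 648 * ζ ^ 2 * u ^ 12 * v ^ 3 + 648 * ζ * u ^ 12 * v ^ 3 + 648 * u ^ 12 * v ^ 3
      + 1080 * ζ ^ 3 * u ^ 11 * v ^ 4 + 1080 * ζ ^ 2 * u ^ 11 * v ^ 4 + 1080 * ζ * u ^ 11 * v ^ 4
      + 540 * ζ ^ 4 * u ^ 10 * v ^ 5 + 540 * ζ ^ 3 * u ^ 10 * v ^ 5 + 540 * ζ ^ 2 * u ^ 10 * v ^ 5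
      + 1890 * ζ * u ^ 10 * v ^ 5 + 1890 * u ^ 10 * v ^ 5 + 432 * ζ ^ 5 * u ^ 9 * v ^ 6
      + 432 * ζ ^ 4 * u ^ 9 * v ^ 6 + 432 * ζ ^ 3 * u ^ 9 * v ^ 6 + 3672 * ζ ^ 2 * u ^ 9 * v ^ 6
      - 2268 * ζ * u ^ 9 * v ^ 6 + 3564 * u ^ 9 * v ^ 6 - 216 * ζ ^ 6 * u ^ 8 * v ^ 7
      - 216 * ζ ^ 5 * u ^ 8 * v ^ 7 - 216 * ζ ^ 4 * u ^ 8 * v ^ 7 + 1404 * ζ ^ 3 * u ^ 8 * v ^ 7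
      + 1404 * ζ ^ 2 * u ^ 8 * v ^ 7 + 1188 * ζ * u ^ 8 * v ^ 7 + 1188 * u ^ 8 * v ^ 7
      + 216 * ζ ^ 7 * u ^ 7 * v ^ 8 + 216 * ζ ^ 6 * u ^ 7 * v ^ 8 + 216 * ζ ^ 5 * u ^ 7 * v ^ 8
      - 864 * ζ ^ 4 * u ^ 7 * v ^ 8 - 864 * ζ ^ 3 * u ^ 7 * v ^ 8 + 4752 * ζ ^ 2 * u ^ 7 * v ^ 8
      - 1188 * ζ * u ^ 7 * v ^ 8 - 1188 * u ^ 7 * v ^ 8 + 540 * ζ ^ 5 * u ^ 6 * v ^ 9
      + 540 * ζ ^ 4 * u ^ 6 * v ^ 9 + 18 * ζ ^ 9 * u ^ 5 * v ^ 10 + 18 * ζ ^ 8 * u ^ 5 * v ^ 10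
      + 18 * ζ ^ 7 * u ^ 5 * v ^ 10 - 27 * ζ ^ 6 * u ^ 5 * v ^ 10 - 27 * ζ ^ 5 * u ^ 5 * v ^ 10
      + 2178 * ζ ^ 4 * u ^ 5 * v ^ 10 - 3762 * ζ ^ 3 * u ^ 5 * v ^ 10
      + 2178 * ζ ^ 2 * u ^ 5 * v ^ 10 - 297 * ζ * u ^ 5 * v ^ 10 - 297 * u ^ 5 * v ^ 10
      + 990 * ζ ^ 7 * u ^ 4 * v ^ 11 - 900 * ζ ^ 6 * u ^ 4 * v ^ 11 + 774 * ζ ^ 5 * u ^ 4 * v ^ 11
      - 216 * ζ ^ 4 * u ^ 4 * v ^ 11 - 216 * ζ ^ 3 * u ^ 4 * v ^ 11 + 774 * ζ ^ 2 * u ^ 4 * v ^ 11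
      - 1116 * ζ * u ^ 4 * v ^ 11 + 774 * u ^ 4 * v ^ 11 + 450 * ζ ^ 8 * u ^ 3 * v ^ 12
      - 450 * ζ ^ 7 * u ^ 3 * v ^ 12 - 342 * ζ ^ 6 * u ^ 3 * v ^ 12 + 558 * ζ ^ 5 * u ^ 3 * v ^ 12
      - 432 * ζ ^ 4 * u ^ 3 * v ^ 12 + 558 * ζ ^ 3 * u ^ 3 * v ^ 12 - 342 * ζ ^ 2 * u ^ 3 * v ^ 12
      - 342 * ζ * u ^ 3 * v ^ 12 + 558 * u ^ 3 * v ^ 12 + 450 * ζ ^ 9 * u ^ 2 * v ^ 13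
      - 450 * ζ ^ 8 * u ^ 2 * v ^ 13 + 432 * ζ ^ 7 * u ^ 2 * v ^ 13 - 558 * ζ ^ 6 * u ^ 2 * v ^ 13
      + 342 * ζ ^ 5 * u ^ 2 * v ^ 13 + 342 * ζ ^ 4 * u ^ 2 * v ^ 13 - 558 * ζ ^ 3 * u ^ 2 * v ^ 13
      + 432 * ζ ^ 2 * u ^ 2 * v ^ 13 - 558 * ζ * u ^ 2 * v ^ 13 + 342 * u ^ 2 * v ^ 13
      + 36 * ζ ^ 9 * v ^ 15 - 54 * ζ ^ 8 * v ^ 15 + 36 * ζ ^ 7 * v ^ 15 - 9 * ζ ^ 6 * v ^ 15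
      - 9 * ζ ^ 5 * v ^ 15 + 36 * ζ ^ 4 * v ^ 15 - 54 * ζ ^ 3 * v ^ 15 + 36 * ζ ^ 2 * v ^ 15
      - 9 * ζ * v ^ 15 - 9 * v ^ 15) * hζ

theorem kleinRX_eq (hζ : ζ ^ 4 + ζ ^ 3 + ζ ^ 2 + ζ + 1 = 0) (u v : R) :
    5 * kleinRX ζ u v = kleinM ζ u v ^ 2 - 25 * kleinPX u (ζ * v) - 25 * kleinPX u v := by
  unfold kleinRX kleinM kleinPX
  linear_combination (-36 * ζ ^ 2 * u ^ 10 - 108 * ζ * u ^ 10 - 216 * u ^ 10 + 360 * u ^ 9 * v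
      + 360 * ζ * u ^ 8 * v ^ 2 + 360 * u ^ 8 * v ^ 2 + 360 * ζ ^ 2 * u ^ 7 * v ^ 3
      + 360 * ζ * u ^ 7 * v ^ 3 + 360 * u ^ 7 * v ^ 3 + 1800 * u ^ 6 * v ^ 4
      - 144 * ζ ^ 2 * u ^ 5 * v ^ 5 + 378 * ζ * u ^ 5 * v ^ 5 - 594 * u ^ 5 * v ^ 5
      + 900 * ζ ^ 2 * u ^ 4 * v ^ 6 - 900 * ζ * u ^ 4 * v ^ 6 + 720 * u ^ 4 * v ^ 6
      - 900 * ζ ^ 3 * u ^ 3 * v ^ 7 + 900 * ζ ^ 2 * u ^ 3 * v ^ 7 + 720 * ζ * u ^ 3 * v ^ 7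
      - 1080 * u ^ 3 * v ^ 7 + 900 * ζ ^ 4 * u ^ 2 * v ^ 8 - 900 * ζ ^ 3 * u ^ 2 * v ^ 8
      + 720 * ζ ^ 2 * u ^ 2 * v ^ 8 - 1080 * ζ * u ^ 2 * v ^ 8 + 720 * u ^ 2 * v ^ 8
      + 75 * ζ ^ 6 * v ^ 10 - 75 * ζ ^ 5 * v ^ 10 - 144 * ζ ^ 2 * v ^ 10 + 363 * ζ * v ^ 10
      - 399 * v ^ 10) * hζ

theorem kleinRY_eq (hζ : ζ ^ 4 + ζ ^ 3 + ζ ^ 2 + ζ + 1 = 0) (u v : R) :
    5 * kleinRY ζ u v =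
      25 * kleinPY u v - kleinM ζ u v * (kleinRX ζ u v - 5 * kleinPX u v) := by
  unfold kleinRY kleinPY kleinM kleinRX kleinPX
  linear_combination (-216 * ζ ^ 2 * u ^ 15 - 432 * ζ * u ^ 15 - 432 * u ^ 15 + 1080 * u ^ 14 * v
      + 1080 * ζ * u ^ 13 * v ^ 2 + 1080 * ζ ^ 2 * u ^ 12 * v ^ 3 - 1080 * u ^ 12 * v ^ 3
      + 1944 * ζ ^ 2 * u ^ 10 * v ^ 5 + 4968 * ζ * u ^ 10 * v ^ 5 + 4968 * u ^ 10 * v ^ 5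
      - 11880 * u ^ 9 * v ^ 6 - 11880 * ζ * u ^ 8 * v ^ 7 - 11880 * ζ ^ 2 * u ^ 7 * v ^ 8
      + 11880 * u ^ 7 * v ^ 8 + 4968 * ζ ^ 2 * u ^ 5 * v ^ 10 - 1944 * ζ * u ^ 5 * v ^ 10
      - 1944 * u ^ 5 * v ^ 10 - 1080 * u ^ 4 * v ^ 11 - 1080 * ζ * u ^ 3 * v ^ 12
      - 1080 * ζ ^ 2 * u ^ 2 * v ^ 13 + 1080 * u ^ 2 * v ^ 13 + 432 * ζ ^ 2 * v ^ 15
      - 216 * ζ * v ^ 15 - 216 * v ^ 15) * hζ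

theorem kleinR_symm (hζ : ζ ^ 4 + ζ ^ 3 + ζ ^ 2 + ζ + 1 = 0) (u v : R) :
    -675 * icoH u v + 10 * kleinM ζ u v * kleinPY u v + 2 * kleinM ζ u v ^ 2 * kleinPX u v =
      25 * (kleinPX u v * kleinPX u (ζ * v)) +
        5 * kleinRX ζ u v * (kleinPX u v + kleinPX u (ζ * v)) := by
  unfold kleinM kleinPY kleinPX kleinRX icoH
  linear_combination (216 * ζ ^ 2 * u ^ 20 + 648 * ζ * u ^ 20 + 1296 * u ^ 20 + 2592 * ζ ^ 2 * u ^ 19 * v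
      + 7776 * ζ * u ^ 19 * v + 6912 * u ^ 19 * v + 5184 * ζ ^ 2 * u ^ 18 * v ^ 2
      + 432 * ζ * u ^ 18 * v ^ 2 + 3024 * u ^ 18 * v ^ 2 - 13824 * ζ ^ 2 * u ^ 17 * v ^ 3
      - 4752 * ζ * u ^ 17 * v ^ 3 - 13824 * u ^ 17 * v ^ 3 - 32400 * ζ ^ 3 * u ^ 16 * v ^ 4
      - 12960 * ζ ^ 2 * u ^ 16 * v ^ 4 - 6480 * ζ * u ^ 16 * v ^ 4 - 23760 * u ^ 16 * v ^ 4
      - 16200 * ζ ^ 4 * u ^ 15 * v ^ 5 - 28296 * ζ ^ 2 * u ^ 15 * v ^ 5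
      - 80028 * ζ * u ^ 15 * v ^ 5 - 216756 * u ^ 15 * v ^ 5 - 12960 * ζ ^ 5 * u ^ 14 * v ^ 6
      + 12960 * ζ ^ 3 * u ^ 14 * v ^ 6 - 41688 * ζ ^ 2 * u ^ 14 * v ^ 6
      - 158544 * ζ * u ^ 14 * v ^ 6 - 160488 * u ^ 14 * v ^ 6 + 6480 * ζ ^ 6 * u ^ 13 * v ^ 7
      - 6480 * ζ ^ 4 * u ^ 13 * v ^ 7 - 7560 * ζ ^ 3 * u ^ 13 * v ^ 7
      - 103896 * ζ ^ 2 * u ^ 13 * v ^ 7 + 50112 * ζ * u ^ 13 * v ^ 7 - 286416 * u ^ 13 * v ^ 7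
      - 6480 * ζ ^ 7 * u ^ 12 * v ^ 8 + 6480 * ζ ^ 5 * u ^ 12 * v ^ 8
      + 7560 * ζ ^ 4 * u ^ 12 * v ^ 8 + 24840 * ζ ^ 3 * u ^ 12 * v ^ 8
      + 139536 * ζ ^ 2 * u ^ 12 * v ^ 8 + 7128 * ζ * u ^ 12 * v ^ 8 - 265464 * u ^ 12 * v ^ 8
      - 32400 * ζ ^ 4 * u ^ 11 * v ^ 9 + 453600 * ζ ^ 3 * u ^ 11 * v ^ 9
      - 116640 * ζ ^ 2 * u ^ 11 * v ^ 9 - 139320 * ζ * u ^ 11 * v ^ 9 - 35640 * u ^ 11 * v ^ 9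
      - 540 * ζ ^ 9 * u ^ 10 * v ^ 10 + 540 * ζ ^ 7 * u ^ 10 * v ^ 10
      + 630 * ζ ^ 6 * u ^ 10 * v ^ 10 - 630 * ζ ^ 5 * u ^ 10 * v ^ 10
      + 112860 * ζ ^ 4 * u ^ 10 * v ^ 10 + 162000 * ζ ^ 3 * u ^ 10 * v ^ 10
      - 325620 * ζ ^ 2 * u ^ 10 * v ^ 10 + 223110 * ζ * u ^ 10 * v ^ 10 - 246870 * u ^ 10 * v ^ 10
      - 2700 * ζ ^ 6 * u ^ 9 * v ^ 11 + 145260 * ζ ^ 5 * u ^ 9 * v ^ 11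
      - 97200 * ζ ^ 4 * u ^ 9 * v ^ 11 + 116640 * ζ ^ 3 * u ^ 9 * v ^ 11
      - 241056 * ζ ^ 2 * u ^ 9 * v ^ 11 - 38988 * ζ * u ^ 9 * v ^ 11 + 141804 * u ^ 9 * v ^ 11
      - 76680 * ζ ^ 6 * u ^ 8 * v ^ 12 + 5400 * ζ ^ 5 * u ^ 8 * v ^ 12
      - 90720 * ζ ^ 4 * u ^ 8 * v ^ 12 + 207360 * ζ ^ 3 * u ^ 8 * v ^ 12
      - 294192 * ζ ^ 2 * u ^ 8 * v ^ 12 + 98064 * ζ * u ^ 8 * v ^ 12 - 47952 * u ^ 8 * v ^ 12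
      + 71280 * ζ ^ 7 * u ^ 7 * v ^ 13 - 8100 * ζ ^ 6 * u ^ 7 * v ^ 13
      - 63180 * ζ ^ 5 * u ^ 7 * v ^ 13 - 45360 * ζ ^ 4 * u ^ 7 * v ^ 13
      + 110160 * ζ ^ 3 * u ^ 7 * v ^ 13 - 64368 * ζ ^ 2 * u ^ 7 * v ^ 13
      + 72036 * ζ * u ^ 7 * v ^ 13 + 24732 * u ^ 7 * v ^ 13 - 13500 * ζ ^ 6 * u ^ 6 * v ^ 14
      + 13500 * ζ ^ 5 * u ^ 6 * v ^ 14 - 64800 * ζ ^ 4 * u ^ 6 * v ^ 14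
      + 64800 * ζ ^ 3 * u ^ 6 * v ^ 14 - 19440 * ζ ^ 2 * u ^ 6 * v ^ 14
      + 57780 * ζ * u ^ 6 * v ^ 14 - 16740 * u ^ 6 * v ^ 14 + 5940 * ζ ^ 9 * u ^ 5 * v ^ 15
      - 5940 * ζ ^ 7 * u ^ 5 * v ^ 15 - 3780 * ζ ^ 6 * u ^ 5 * v ^ 15
      + 3780 * ζ ^ 5 * u ^ 5 * v ^ 15 + 54540 * ζ ^ 4 * u ^ 5 * v ^ 15
      + 24084 * ζ ^ 2 * u ^ 5 * v ^ 15 - 138888 * ζ * u ^ 5 * v ^ 15 + 146664 * u ^ 5 * v ^ 15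
      - 5400 * ζ ^ 6 * u ^ 4 * v ^ 16 + 18360 * ζ ^ 5 * u ^ 4 * v ^ 16
      - 32400 * ζ ^ 4 * u ^ 4 * v ^ 16 + 19440 * ζ ^ 3 * u ^ 4 * v ^ 16
      + 2376 * ζ ^ 2 * u ^ 4 * v ^ 16 - 2592 * ζ * u ^ 4 * v ^ 16 + 8856 * u ^ 4 * v ^ 16
      - 3780 * ζ ^ 6 * u ^ 3 * v ^ 17 - 2700 * ζ ^ 5 * u ^ 3 * v ^ 17
      + 6480 * ζ ^ 4 * u ^ 3 * v ^ 17 - 14040 * ζ ^ 3 * u ^ 3 * v ^ 17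
      + 3672 * ζ ^ 2 * u ^ 3 * v ^ 17 + 12636 * ζ * u ^ 3 * v ^ 17 - 19548 * u ^ 3 * v ^ 17
      + 6480 * ζ ^ 7 * u ^ 2 * v ^ 18 - 2700 * ζ ^ 6 * u ^ 2 * v ^ 18
      - 3780 * ζ ^ 5 * u ^ 2 * v ^ 18 + 14040 * ζ ^ 4 * u ^ 2 * v ^ 18
      - 14040 * ζ ^ 3 * u ^ 2 * v ^ 18 + 12528 * ζ ^ 2 * u ^ 2 * v ^ 18
      - 16956 * ζ * u ^ 2 * v ^ 18 + 15228 * u ^ 2 * v ^ 18 + 540 * ζ ^ 9 * v ^ 20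
      - 540 * ζ ^ 7 * v ^ 20 + 1170 * ζ ^ 6 * v ^ 20 - 1170 * ζ ^ 5 * v ^ 20 + 540 * ζ ^ 4 * v ^ 20
      + 324 * ζ ^ 2 * v ^ 20 - 558 * ζ * v ^ 20 + 774 * v ^ 20) * hζ

theorem kleinR_cert (hζ : ζ ^ 4 + ζ ^ 3 + ζ ^ 2 + ζ + 1 = 0) (u v : R) :
    180 * icoF u v ^ 2 = kleinG ζ u v * (5 * kleinPX u v - kleinRX ζ u v) := by
  unfold icoF kleinG kleinPX kleinRX
  linear_combination (36 * ζ ^ 2 * u ^ 22 * v ^ 2 + 36 * ζ * u ^ 22 * v ^ 2 - 36 * u ^ 22 * v ^ 2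
      - 180 * ζ ^ 2 * u ^ 21 * v ^ 3 - 180 * ζ * u ^ 21 * v ^ 3 + 180 * u ^ 21 * v ^ 3
      + 360 * ζ ^ 2 * u ^ 20 * v ^ 4 + 360 * ζ * u ^ 20 * v ^ 4 - 360 * u ^ 20 * v ^ 4
      - 360 * ζ ^ 2 * u ^ 19 * v ^ 5 - 360 * ζ * u ^ 19 * v ^ 5 + 360 * u ^ 19 * v ^ 5
      + 108 * ζ ^ 2 * u ^ 17 * v ^ 7 + 108 * ζ * u ^ 17 * v ^ 7 - 108 * u ^ 17 * v ^ 7
      + 1620 * ζ ^ 2 * u ^ 16 * v ^ 8 + 1620 * ζ * u ^ 16 * v ^ 8 - 1620 * u ^ 16 * v ^ 8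
      - 4140 * ζ ^ 2 * u ^ 15 * v ^ 9 - 4140 * ζ * u ^ 15 * v ^ 9 + 4140 * u ^ 15 * v ^ 9
      + 4140 * ζ ^ 2 * u ^ 14 * v ^ 10 + 4140 * ζ * u ^ 14 * v ^ 10 - 4140 * u ^ 14 * v ^ 10
      - 5616 * ζ ^ 2 * u ^ 12 * v ^ 12 - 5616 * ζ * u ^ 12 * v ^ 12 + 5616 * u ^ 12 * v ^ 12
      + 4140 * ζ ^ 2 * u ^ 11 * v ^ 13 + 4140 * ζ * u ^ 11 * v ^ 13 - 4140 * u ^ 11 * v ^ 13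
      + 1620 * ζ ^ 2 * u ^ 10 * v ^ 14 + 1620 * ζ * u ^ 10 * v ^ 14 - 1620 * u ^ 10 * v ^ 14
      - 1620 * ζ ^ 2 * u ^ 9 * v ^ 15 - 1620 * ζ * u ^ 9 * v ^ 15 + 1620 * u ^ 9 * v ^ 15
      - 108 * ζ ^ 2 * u ^ 7 * v ^ 17 - 108 * ζ * u ^ 7 * v ^ 17 + 108 * u ^ 7 * v ^ 17
      + 360 * ζ ^ 2 * u ^ 6 * v ^ 18 + 360 * ζ * u ^ 6 * v ^ 18 - 360 * u ^ 6 * v ^ 18
      + 180 * ζ ^ 2 * u ^ 5 * v ^ 19 + 180 * ζ * u ^ 5 * v ^ 19 - 180 * u ^ 5 * v ^ 19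
      - 180 * ζ ^ 2 * u ^ 4 * v ^ 20 - 180 * ζ * u ^ 4 * v ^ 20 + 180 * u ^ 4 * v ^ 20
      + 36 * ζ ^ 2 * u ^ 2 * v ^ 22 + 36 * ζ * u ^ 2 * v ^ 22 - 36 * u ^ 2 * v ^ 22) * hζ

end Forms

end FermatLib.Descent
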