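import Mathlib.RingTheory.RootsOfUnity.PrimitiveRoots
import Mathlib.Data.ZMod.Basic
import Mathlib.Algebra.Algebra.Rat
import Mathlib.Algebra.Field.ZMod
import Mathlib.GroupTheory.OrderOfElement
import Fermat.Agent.Descent.KleinTorsion

/-!
# The five-torsion subgroup of the Klein curve

For `f (u, v) ≠ 0` and a primitive fifth root of unity `ζ` the two points `P`, `R` of
`y² = x³ - 27 H x + 54 T` give an injection of `(ℤ/5)²` into the five-torsion, and each nonzero
image has coordinates given by fixed forms in `(u, v)`.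
-/

set_option autoImplicit false

open WeierstrassCurve

namespace FermatLib.Descent

/-- The short Weierstrass model with invariants proportional to `(a, b)`. -/
def shortModel {R : Type*} [CommRing R] (a b : R) : WeierstrassCurve R :=
  ⟨0, 0, 0, -27 * a, -54 * b⟩

section Short

variable {R : Type*} [CommRing R]

theorem shortModel_Δ (a b : R) :
    (shortModel a b).Δ = 2 ^ 6 * 3 ^ 9 * (a ^ 3 - b ^ 2) := by
  simp only [shortModel, WeierstrassCurve.Δ, WeierstrassCurve.b₂, WeierstrassCurve.b₄,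
    WeierstrassCurve.b₆, WeierstrassCurve.b₈]
  ring

theorem shortModel_map {S : Type*} [CommRing S] (g : R →+* S) (a b : R) :
    (shortModel a b).map g = shortModel (g a) (g b) := by
  ext <;> simp [shortModel, map_ofNat]

theorem shortModel_equation_iff (a b x y : R) :
    (shortModel a b).toAffine.Equation x y ↔ y ^ 2 = x ^ 3 - 27 * a * x - 54 * b := by
  rw [Affine.equation_iff]
  simp only [shortModel]
  constructor <;> intro h <;> linear_combination h

variable {F : Type*} [Field F] {a b : F}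

/-- The point `(x, y)` of the short model, or zero if there is no such nonsingular point. -/
noncomputable def shortPt (a b x y : F) : (shortModel a b).toAffine.Point :=
  open Classical in
  if h : (shortModel a b).toAffine.Nonsingular x y then Affine.Point.some x y h else 0

theorem shortPt_eq {x y : F} (h : (shortModel a b).toAffine.Nonsingular x y) :
    shortPt a b x y = Affine.Point.some x y h :=
  dif_pos h

theorem shortModel_nonsingular [CharZero F] (hab : a ^ 3 ≠ b ^ 2) {x y : F}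
    (h : y ^ 2 = x ^ 3 - 27 * a * x - 54 * b) : (shortModel a b).toAffine.Nonsingular x y := by
  rw [← Affine.equation_iff_nonsingular_of_Δ_ne_zero, shortModel_equation_iff]
  · exact h
  · rw [shortModel_Δ]
    exact mul_ne_zero (by norm_num) (sub_ne_zero.mpr hab)

theorem neg_shortPt {x y : F} (h : (shortModel a b).toAffine.Nonsingular x y) :
    -shortPt a b x y = shortPt a b x (-y) := by
  have e : (shortModel a b).toAffine.negY x y = -y := by simp [Affine.negY, shortModel]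
  rw [shortPt_eq h, Affine.Point.neg_some, shortPt_eq (e ▸ (Affine.nonsingular_neg ..).mpr h)]
  simp only [e]

variable [DecidableEq F]

/-- Three collinear points, in a form valid for chords and tangents alike. -/
theorem shortPt_add_of_line [CharZero F] (hab : a ^ 3 ≠ b ^ 2) {x₁ y₁ x₂ y₂ x₃ y₃ m : F}
    (h₁ : y₁ ^ 2 = x₁ ^ 3 - 27 * a * x₁ - 54 * b) (h₂ : y₂ ^ 2 = x₂ ^ 3 - 27 * a * x₂ - 54 * b)
    (hline : y₂ = y₁ + m * (x₂ - x₁)) (hx : x₃ = m ^ 2 - x₁ - x₂)
    (hy : y₃ = -(y₁ + m * (x₃ - x₁)))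
    (hsym : -27 * a - 2 * m * (y₁ - m * x₁) = x₁ * x₂ + x₃ * (x₁ + x₂)) :
    shortPt a b x₁ y₁ + shortPt a b x₂ y₂ = shortPt a b x₃ y₃ := by
  have n₁ := shortModel_nonsingular hab h₁
  have n₂ := shortModel_nonsingular hab h₂
  have hneg : ∀ x y : F, (shortModel a b).toAffine.negY x y = -y := fun x y => by
    simp [Affine.negY, shortModel]
  have hnd : ¬(x₁ = x₂ ∧ y₁ = (shortModel a b).toAffine.negY x₂ y₂) := by
    rintro ⟨rfl, h⟩
    rw [hneg] at h
    have hy₁ : y₁ = 0 := by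
      linear_combination (h - hline) / 2
    subst hy₁
    have hA : 3 * x₁ ^ 2 - 27 * a = 0 := by
      subst hx; linear_combination hsym
    obtain ⟨-, h' | h'⟩ := (Affine.nonsingular_iff _ _).mp n₁
    · apply h'
      simp only [shortModel]
      linear_combination -hA
    · apply h'
      simp [shortModel]
  have hm : (shortModel a b).toAffine.slope x₁ x₂ y₁ y₂ = m := by
    by_cases hx₁₂ : x₁ = x₂
    · subst hx₁₂
      have hy₁₂ : y₁ ≠ (shortModel a b).toAffine.negY x₁ y₂ := fun h => hnd ⟨rfl, h⟩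
      have : y₂ = y₁ := by rw [hline]; ring
      subst this
      rw [hneg] at hy₁₂
      rw [Affine.slope_of_Y_ne rfl (by rwa [hneg]), hneg, div_eq_iff (sub_ne_zero.mpr hy₁₂)]
      subst hx
      simp only [shortModel]
      linear_combination hsym
    · rw [Affine.slope_of_X_ne hx₁₂, div_eq_iff (sub_ne_zero.mpr hx₁₂), hline]
      ring
  have hadd := Affine.Point.add_some hnd (h₁ := n₁) (h₂ := n₂)
  have n₃ := Affine.nonsingular_add n₁ n₂ hnd
  have ex : (shortModel a b).toAffine.addX x₁ x₂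
      ((shortModel a b).toAffine.slope x₁ x₂ y₁ y₂) = x₃ := by
    rw [hm, hx]
    simp [Affine.addX, shortModel]
  have ey : (shortModel a b).toAffine.addY x₁ x₂ y₁
      ((shortModel a b).toAffine.slope x₁ x₂ y₁ y₂) = y₃ := by
    rw [Affine.addY, Affine.negAddY, ex, hm, hy, hneg]
    ring
  rw [shortPt_eq n₁, shortPt_eq n₂, hadd, shortPt_eq (ex ▸ ey ▸ n₃)]
  simp only [ex, ey]

end Short

section Points

theorem zeta_relation {K : Type*} [CommRing K] [IsDomain K] {ζ : K} (h : IsPrimitiveRoot ζ 5) :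
    ζ ^ 4 + ζ ^ 3 + ζ ^ 2 + ζ + 1 = 0 := by
  have := h.geom_sum_eq_zero (by norm_num)
  simp [Finset.sum_range_succ] at this
  linear_combination this

theorem icoH_mul_zeta {R : Type*} [CommRing R] {c : R} (hc : c ^ 5 = 1) (u v : R) :
    icoH u (c * v) = icoH u v := by
  simp only [icoH]
  linear_combination (228 * u ^ 15 * v ^ 5 + 494 * u ^ 10 * v ^ 10 * (c ^ 5 + 1) -
    228 * u ^ 5 * v ^ 15 * (c ^ 10 + c ^ 5 + 1) + v ^ 20 * (c ^ 15 + c ^ 10 + c ^ 5 + 1)) * hc

theorem icoT_mul_zeta {R : Type*} [CommRing R] {c : R} (hc : c ^ 5 = 1) (u v : R) :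
    icoT u (c * v) = icoT u v := by
  simp only [icoT]
  linear_combination (-522 * u ^ 25 * v ^ 5 - 10005 * u ^ 20 * v ^ 10 * (c ^ 5 + 1) -
    10005 * u ^ 10 * v ^ 20 * (c ^ 15 + c ^ 10 + c ^ 5 + 1) +
    522 * u ^ 5 * v ^ 25 * (c ^ 20 + c ^ 15 + c ^ 10 + c ^ 5 + 1) +
    v ^ 30 * (c ^ 25 + c ^ 20 + c ^ 15 + c ^ 10 + c ^ 5 + 1)) * hc

theorem kleinRX_mul_zeta {R : Type*} [CommRing R] (ζ : R) {c : R} (hc : c ^ 5 = 1) (u v : R) :
    kleinRX ζ u (c * v) = kleinRX ζ u v := by
  simp only [kleinRX]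
  linear_combination (-198 * u ^ 5 * v ^ 5 - 396 * ζ ^ 2 * u ^ 5 * v ^ 5 -
    396 * ζ ^ 3 * u ^ 5 * v ^ 5 +
    (-93 * v ^ 10 - 36 * ζ ^ 2 * v ^ 10 - 36 * ζ ^ 3 * v ^ 10) * (c ^ 5 + 1)) * hc

theorem kleinRY_mul_zeta {R : Type*} [CommRing R] (ζ : R) {c : R} (hc : c ^ 5 = 1) (u v : R) :
    kleinRY ζ u (c * v) = kleinRY ζ u v := by
  simp only [kleinRY]
  linear_combination (u ^ 10 * v ^ 5 * (2484 + 4968 * ζ + 3456 * ζ ^ 2 + 1512 * ζ ^ 3) +
    u ^ 5 * v ^ 10 * (-972 - 1944 * ζ + 1512 * ζ ^ 2 - 3456 * ζ ^ 3) * (c ^ 5 + 1) +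
    v ^ 15 * (-108 - 216 * ζ + 108 * ζ ^ 2 - 324 * ζ ^ 3) * (c ^ 10 + c ^ 5 + 1)) * hc

/-- Coordinates of `a P + b R` for `(a, b) ≠ 0`. -/
def kleinCoord {R : Type*} [CommRing R] [Algebra ℚ R] (ζ u v : R) :
    ZMod 5 × ZMod 5 → R × R := fun i =>
  if i.1 = 0 then (algebraMap ℚ R 5⁻¹ * kleinRX (ζ ^ i.2.val) u v,
      algebraMap ℚ R 5⁻¹ * kleinRY (ζ ^ i.2.val) u v)
  else if i.1 = 1 then (kleinPX u (ζ ^ i.2.val * v), kleinPY u (ζ ^ i.2.val * v))
  else if i.1 = 2 then
    (kleinP2X u (ζ ^ (3 * i.2).val * v), kleinP2Y u (ζ ^ (3 * i.2).val * v))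
  else if i.1 = 3 then
    (kleinP2X u (ζ ^ (2 * i.2).val * v), -kleinP2Y u (ζ ^ (2 * i.2).val * v))
  else (kleinPX u (ζ ^ (4 * i.2).val * v), -kleinPY u (ζ ^ (4 * i.2).val * v))

theorem map_kleinCoord {R S : Type*} [CommRing R] [Algebra ℚ R] [CommRing S] [Algebra ℚ S]
    (g : R →+* S) (ζ u v : R) (i : ZMod 5 × ZMod 5) :
    kleinCoord (g ζ) (g u) (g v) i =
      (g (kleinCoord ζ u v i).1, g (kleinCoord ζ u v i).2) := by
  have hg : ∀ q : ℚ, g (algebraMap ℚ R q) = algebraMap ℚ S q := fun q =>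
    RingHom.map_rat_algebraMap g q
  unfold kleinCoord
  split_ifs <;>
    simp [hg, kleinRX, kleinRY, kleinPX, kleinPY, kleinP2X, kleinP2Y, map_ofNat]

variable {K : Type*} [Field K] [CharZero K] [DecidableEq K] {ζ u v : K}

omit [DecidableEq K] in
theorem ico_pow_three_ne (hf : icoF u v ≠ 0) : icoH u v ^ 3 ≠ (-icoT u v) ^ 2 := by
  rw [neg_sq, Ne, ← sub_eq_zero, icoH_pow_three_sub]
  exact mul_ne_zero (by norm_num) (pow_ne_zero 5 hf)

omit [CharZero K] [DecidableEq K] in
private theorem kleinP_mem {c : K} (hc : c ^ 5 = 1) :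
    kleinPY u (c * v) ^ 2 = kleinPX u (c * v) ^ 3 - 27 * icoH u v * kleinPX u (c * v) -
      54 * -icoT u v := by
  rw [kleinP_equation, icoH_mul_zeta hc, icoT_mul_zeta hc]; ring

omit [CharZero K] [DecidableEq K] in
private theorem kleinP2_mem {c : K} (hc : c ^ 5 = 1) :
    kleinP2Y u (c * v) ^ 2 = kleinP2X u (c * v) ^ 3 - 27 * icoH u v * kleinP2X u (c * v) -
      54 * -icoT u v := by
  rw [kleinP2_equation, icoH_mul_zeta hc, icoT_mul_zeta hc]; ring

theorem kleinP_double (hf : icoF u v ≠ 0) {c : K} (hc : c ^ 5 = 1) :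
    shortPt (icoH u v) (-icoT u v) (kleinPX u (c * v)) (kleinPY u (c * v)) + shortPt (icoH u v) (-icoT u v) (kleinPX u (c * v)) (kleinPY u (c * v)) =
      shortPt (icoH u v) (-icoT u v) (kleinP2X u (c * v)) (kleinP2Y u (c * v)) := by
  refine shortPt_add_of_line (m := kleinL u (c * v)) (ico_pow_three_ne hf) (kleinP_mem hc)
    (kleinP_mem hc) (by ring) ?_ (kleinP2Y_eq _ _) ?_
  · rw [kleinP2X_eq]; ring
  · have := kleinP_tangent u (c * v)
    rw [icoH_mul_zeta hc] at this
    rw [kleinP2X_eq]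
    linear_combination -this

theorem kleinP2_double (hf : icoF u v ≠ 0) {c : K} (hc : c ^ 5 = 1) :
    shortPt (icoH u v) (-icoT u v) (kleinP2X u (c * v)) (kleinP2Y u (c * v)) + shortPt (icoH u v) (-icoT u v) (kleinP2X u (c * v)) (kleinP2Y u (c * v)) =
      -shortPt (icoH u v) (-icoT u v) (kleinPX u (c * v)) (kleinPY u (c * v)) := by
  rw [neg_shortPt (shortModel_nonsingular (ico_pow_three_ne hf) (kleinP_mem hc))]
  refine shortPt_add_of_line (m := kleinL2 u (c * v)) (ico_pow_three_ne hf) (kleinP2_mem hc)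
    (kleinP2_mem hc) (by ring) ?_ ?_ ?_
  · rw [kleinPX_eq]; ring
  · rw [kleinPY_eq]
  · have := kleinP2_tangent u (c * v)
    rw [icoH_mul_zeta hc] at this
    rw [kleinPX_eq]
    linear_combination -this

theorem kleinP_rotate (hf : icoF u v ≠ 0) {c : K} (hc : c ^ 5 = 1) {η : K}
    (hη : IsPrimitiveRoot η 5) :
    shortPt (icoH u v) (-icoT u v) (kleinPX u (η * c * v)) (kleinPY u (η * c * v)) =
      shortPt (icoH u v) (-icoT u v) (kleinPX u (c * v)) (kleinPY u (c * v)) +
        shortPt (icoH u v) (-icoT u v) (kleinRX η u v / 5) (kleinRY η u v / 5) := by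
  have hc' : (η * c) ^ 5 = 1 := by rw [mul_pow, hc, hη.pow_eq_one, one_mul]
  have hr := zeta_relation hη
  have hline := kleinR_line hr u (c * v)
  have hX := kleinRX_eq hr u (c * v)
  have hY := kleinRY_eq hr u (c * v)
  have hS := kleinR_symm hr u (c * v)
  simp only [← mul_assoc η c v] at hline hX hS
  rw [← sub_eq_iff_eq_add', sub_eq_add_neg,
    neg_shortPt (shortModel_nonsingular (ico_pow_three_ne hf) (kleinP_mem hc)), add_comm,
    ← kleinRX_mul_zeta η hc, ← kleinRY_mul_zeta η hc]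
  refine shortPt_add_of_line (m := kleinM η u (c * v) / 5) (ico_pow_three_ne hf)
    (by rw [neg_sq]; exact kleinP_mem hc) (kleinP_mem hc') ?_ ?_ ?_ ?_
  · linear_combination hline / 5
  · linear_combination hX / 25
  · linear_combination hY / 25
  · rw [icoH_mul_zeta hc] at hS
    linear_combination hS / 25

/-- The point `P`. -/
noncomputable def kleinP (u v : K) : (shortModel (icoH u v) (-icoT u v)).toAffine.Point :=
  shortPt (icoH u v) (-icoT u v) (kleinPX u v) (kleinPY u v)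

/-- The point `R`. -/
noncomputable def kleinR (ζ u v : K) : (shortModel (icoH u v) (-icoT u v)).toAffine.Point :=
  shortPt (icoH u v) (-icoT u v) (kleinRX ζ u v / 5) (kleinRY ζ u v / 5)

theorem two_smul_kleinP (hf : icoF u v ≠ 0) :
    (2 : ℤ) • kleinP u v = shortPt (icoH u v) (-icoT u v) (kleinP2X u v) (kleinP2Y u v) := by
  have := kleinP_double hf (one_pow 5 (M := K))
  simp only [one_mul] at this
  rw [two_smul]
  exact this

theorem five_smul_kleinP (hf : icoF u v ≠ 0) : (5 : ℤ) • kleinP u v = 0 := by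
  have := kleinP2_double hf (one_pow 5 (M := K))
  simp only [one_mul] at this
  rw [← two_smul_kleinP hf] at this
  rw [show (5 : ℤ) = 2 + 2 + 1 by norm_num, add_smul, add_smul, this, one_smul]
  exact neg_add_cancel _

theorem kleinP_rotate_nat (hf : icoF u v ≠ 0) {η : K} (hη : IsPrimitiveRoot η 5) (j : ℕ) :
    shortPt (icoH u v) (-icoT u v) (kleinPX u (η ^ j * v)) (kleinPY u (η ^ j * v)) =
      kleinP u v + (j : ℤ) • kleinR η u v := by
  induction j with
  | zero => simp [kleinP]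
  | succ j ih =>
    have hj : (η ^ j) ^ 5 = 1 := by rw [← pow_mul, mul_comm, pow_mul, hη.pow_eq_one, one_pow]
    rw [pow_succ', kleinP_rotate hf hj hη, ih, Nat.cast_succ, add_smul, one_smul, kleinR,
      add_assoc]

theorem five_smul_kleinR (hf : icoF u v ≠ 0) (hζ : IsPrimitiveRoot ζ 5) :
    (5 : ℤ) • kleinR ζ u v = 0 := by
  have := kleinP_rotate_nat hf hζ 5
  rw [hζ.pow_eq_one, one_mul] at this
  exact ((left_eq_add.mp this))

theorem kleinR_pow (hf : icoF u v ≠ 0) (hζ : IsPrimitiveRoot ζ 5) {k : ℕ} (hk : k.Coprime 5) :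
    kleinR (ζ ^ k) u v = (k : ℤ) • kleinR ζ u v := by
  have h₁ := kleinP_rotate_nat hf (hζ.pow_of_coprime k hk) 1
  rw [pow_one, kleinP_rotate_nat hf hζ k, Nat.cast_one, one_smul] at h₁
  exact (add_left_cancel h₁).symm

private theorem kleinR_mem (hf : icoF u v ≠ 0) (hζ : IsPrimitiveRoot ζ 5) :
    (shortModel (icoH u v) (-icoT u v)).toAffine.Nonsingular
      (kleinRX ζ u v / 5) (kleinRY ζ u v / 5) := by
  by_contra hn
  have h0 : kleinR ζ u v = 0 := by rw [kleinR, shortPt, dif_neg hn]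
  have hP := kleinP_rotate_nat hf hζ 1
  rw [pow_one, h0, smul_zero, add_zero, kleinP,
    shortPt_eq (shortModel_nonsingular (ico_pow_three_ne hf) (kleinP_mem hζ.pow_eq_one))] at hP
  have hmem : (shortModel (icoH u v) (-icoT u v)).toAffine.Nonsingular
      (kleinPX u v) (kleinPY u v) := by
    have := shortModel_nonsingular (ico_pow_three_ne hf) (kleinP_mem (u := u) (v := v)
      (one_pow 5 (M := K)))
    simpa only [one_mul] using this
  rw [shortPt_eq hmem] at hP
  obtain ⟨hx, hy⟩ := Affine.Point.some.inj hP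
  have hr := zeta_relation hζ
  have hl := kleinR_line hr u v
  rw [hx, hy, sub_self, mul_zero, add_zero] at hl
  have hy0 : kleinPY u v = 0 := by linear_combination hl / 10
  have hs := kleinR_symm hr u v
  have hX := kleinRX_eq hr u v
  rw [hx] at hs hX
  obtain ⟨-, h' | h'⟩ := (Affine.nonsingular_iff _ _).mp hmem
  · apply h'
    simp only [shortModel]
    linear_combination
      (-hs + 10 * kleinM ζ u v * hy0 - 2 * kleinPX u v * hX) / 25
  · apply h'
    simp [shortModel, hy0]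

theorem kleinR_ne (hf : icoF u v ≠ 0) (hζ : IsPrimitiveRoot ζ 5) :
    kleinR ζ u v ≠ 0 ∧ kleinR ζ u v ≠ kleinP u v ∧ kleinR ζ u v ≠ -kleinP u v := by
  have hn := kleinR_mem hf hζ
  have hx : kleinRX ζ u v / 5 ≠ kleinPX u v := fun h => by
    have := kleinR_cert (zeta_relation hζ) u v
    rw [show 5 * kleinPX u v - kleinRX ζ u v = 0 by rw [← h]; ring, mul_zero] at this
    simp [hf] at this
  have hmem : (shortModel (icoH u v) (-icoT u v)).toAffine.Nonsingular
      (kleinPX u v) (kleinPY u v) := by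
    have := shortModel_nonsingular (ico_pow_three_ne hf) (kleinP_mem (u := u) (v := v)
      (one_pow 5 (M := K)))
    simpa only [one_mul] using this
  rw [kleinR, kleinP, shortPt_eq hn, shortPt_eq hmem, Affine.Point.neg_some]
  exact ⟨Affine.Point.some_ne_zero hn, fun h => hx (Affine.Point.some.inj h).1,
    fun h => hx (Affine.Point.some.inj h).1⟩

/-- The homomorphism `(a, b) ↦ a P + b R`. -/
noncomputable def kleinHom (hf : icoF u v ≠ 0) (hζ : IsPrimitiveRoot ζ 5) :
    ZMod 5 × ZMod 5 →+ (shortModel (icoH u v) (-icoT u v)).toAffine.Point :=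
  (ZMod.lift 5 ⟨zmultiplesHom _ (kleinP u v), five_smul_kleinP hf⟩).coprod
    (ZMod.lift 5 ⟨zmultiplesHom _ (kleinR ζ u v), five_smul_kleinR hf hζ⟩)

theorem kleinHom_intCast (hf : icoF u v ≠ 0) (hζ : IsPrimitiveRoot ζ 5) (m n : ℤ) :
    kleinHom hf hζ ((m : ZMod 5), (n : ZMod 5)) = m • kleinP u v + n • kleinR ζ u v := by
  simp [kleinHom, ZMod.lift_coe]

theorem kleinHom_injective (hf : icoF u v ≠ 0) (hζ : IsPrimitiveRoot ζ 5) :
    Function.Injective (kleinHom hf hζ) := by
  have : Fact (Nat.Prime 5) := ⟨Nat.prime_five⟩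
  rw [injective_iff_map_eq_zero]
  rintro ⟨a, b⟩ h
  have hP0 : kleinP u v ≠ 0 := by
    rw [kleinP, shortPt_eq (by
      simpa only [one_mul] using shortModel_nonsingular (ico_pow_three_ne hf)
        (kleinP_mem (u := u) (v := v) (one_pow 5 (M := K))))]
    exact Affine.Point.some_ne_zero _
  obtain ⟨a, rfl⟩ := ZMod.intCast_surjective a
  obtain ⟨b, rfl⟩ := ZMod.intCast_surjective b
  rw [kleinHom_intCast] at h
  by_cases hb : (b : ZMod 5) = 0
  · obtain ⟨b', rfl⟩ := (ZMod.intCast_zmod_eq_zero_iff_dvd _ _).mp hb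
    push_cast at h
    rw [mul_comm (5 : ℤ) b', mul_smul, five_smul_kleinR hf hζ, smul_zero, add_zero] at h
    refine Prod.ext ?_ hb
    change (a : ZMod 5) = 0
    rw [ZMod.intCast_zmod_eq_zero_iff_dvd]
    have h5 : addOrderOf (kleinP u v) = 5 :=
      addOrderOf_eq_prime (by exact_mod_cast five_smul_kleinP hf) hP0
    have := addOrderOf_dvd_iff_zsmul_eq_zero.mpr h
    rwa [h5] at this
  · exfalso
    obtain ⟨b', hb'⟩ : ∃ b' : ℤ, (b' : ZMod 5) * (b : ZMod 5) = 1 := by
      obtain ⟨z, hz⟩ := ZMod.intCast_surjective ((b : ZMod 5)⁻¹)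
      exact ⟨z, by rw [hz]; exact ZMod.inv_mul_of_unit _ (isUnit_iff_ne_zero.mpr hb)⟩
    have key : kleinHom hf hζ ((b' : ZMod 5) * (a : ZMod 5), (b' : ZMod 5) * (b : ZMod 5)) = 0 := by
      rw [← Int.cast_mul, ← Int.cast_mul, kleinHom_intCast, mul_smul, mul_smul, ← smul_add, h,
        smul_zero]
    rw [hb'] at key
    generalize (b' : ZMod 5) * a = c at key
    obtain ⟨h0, h1, h2⟩ := kleinR_ne hf hζ
    have hR : kleinR ζ u v = -kleinHom hf hζ (c, 0) := by
      rw [eq_neg_iff_add_eq_zero, ← key]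
      have : ((c, 1) : ZMod 5 × ZMod 5) = (((0 : ℤ) : ZMod 5), ((1 : ℤ) : ZMod 5)) + (c, 0) := by
        simp
      rw [this, map_add, kleinHom_intCast, zero_smul, zero_add, one_smul]
    have hc : ∀ m : ℤ, (m : ZMod 5) = c → kleinR ζ u v = -(m • kleinP u v) := by
      intro m hm
      rw [hR, ← hm, show (0 : ZMod 5) = ((0 : ℤ) : ZMod 5) by simp, kleinHom_intCast, zero_smul,
        add_zero]
    have h22 : ∀ m : ℤ, (m : ZMod 5) = c → (m = 2 ∨ m = 3) → False := by
      intro m hm hm23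
      obtain ⟨g0, g1, g2⟩ := kleinR_ne hf (hζ.pow_of_coprime 2 (by decide))
      rw [kleinR_pow hf hζ (by decide), hc m hm] at g1 g2
      have e5 := five_smul_kleinP hf
      rcases hm23 with rfl | rfl
      · apply g1
        have : -(((2 : ℕ) : ℤ) • (2 : ℤ) • kleinP u v) + (5 : ℤ) • kleinP u v = kleinP u v := by
          push_cast; module
        rw [e5, add_zero] at this
        rw [smul_neg]; exact this
      · apply g2
        have : -(((2 : ℕ) : ℤ) • (3 : ℤ) • kleinP u v) + (5 : ℤ) • kleinP u v = -kleinP u v := by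
          push_cast; module
        rw [e5, add_zero] at this
        rw [smul_neg]; exact this
    fin_cases c
    · exact h0 (by rw [hc 0 (by rfl), zero_smul, neg_zero])
    · exact h2 (by rw [hc 1 (by rfl), one_smul])
    · exact h22 2 rfl (Or.inl rfl)
    · exact h22 3 rfl (Or.inr rfl)
    · exact h1 (by rw [hc (-1) (by rfl), neg_smul, one_smul, neg_neg])

theorem kleinHom_eq_coord (hf : icoF u v ≠ 0) (hζ : IsPrimitiveRoot ζ 5)
    {i : ZMod 5 × ZMod 5} (hi : i ≠ 0) :
    kleinHom hf hζ i = shortPt (icoH u v) (-icoT u v) (kleinCoord ζ u v i).1 (kleinCoord ζ u v i).2 := by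
  obtain ⟨a, b⟩ := i
  have hpow : ∀ k : ℕ, (ζ ^ k) ^ 5 = 1 := fun k => by
    rw [← pow_mul, mul_comm, pow_mul, hζ.pow_eq_one, one_pow]
  have hk : ∀ k : ZMod 5, shortPt (icoH u v) (-icoT u v) (kleinPX u (ζ ^ k.val * v)) (kleinPY u (ζ ^ k.val * v)) =
      kleinHom hf hζ (1, k) := fun k => by
    rw [kleinP_rotate_nat hf hζ, show ((1, k) : ZMod 5 × ZMod 5) =
      (((1 : ℤ) : ZMod 5), (((k.val : ℤ)) : ZMod 5)) by simp, kleinHom_intCast, one_smul]
  have hk2 : ∀ k : ZMod 5, shortPt (icoH u v) (-icoT u v) (kleinP2X u (ζ ^ k.val * v)) (kleinP2Y u (ζ ^ k.val * v)) =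
      kleinHom hf hζ (2, 2 * k) := fun k => by
    rw [← kleinP_double hf (hpow _), hk, ← map_add, Prod.mk_add_mk, two_mul,
      show (1 + 1 : ZMod 5) = 2 from rfl]
  simp only [kleinCoord]
  split_ifs with h0 h1 h2 h3
  · have hb : b ≠ 0 := fun h => hi (by rw [h0, h]; rfl)
    have hco : b.val.Coprime 5 := (by decide : ∀ c : ZMod 5, c ≠ 0 → c.val.Coprime 5) b hb
    rw [eq_ratCast, Rat.cast_inv, Rat.cast_ofNat, ← div_eq_inv_mul, ← div_eq_inv_mul]
    change _ = kleinR (ζ ^ b.val) u v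
    rw [kleinR_pow hf hζ hco, h0, show ((0, b) : ZMod 5 × ZMod 5) =
      (((0 : ℤ) : ZMod 5), (((b.val : ℤ)) : ZMod 5)) by simp, kleinHom_intCast, zero_smul,
      zero_add]
  · rw [hk, h1]
  · rw [hk2, h2, ← mul_assoc, show (2 * 3 : ZMod 5) = 1 from rfl, one_mul]
  · rw [← neg_shortPt (shortModel_nonsingular (ico_pow_three_ne hf) (kleinP2_mem (hpow _))), hk2,
      ← map_neg, Prod.neg_mk, h3, ← mul_assoc, ← neg_mul, show (-2 : ZMod 5) = 3 from rfl,
      show (-(2 * 2) : ZMod 5) = 1 from rfl, one_mul]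
  · rw [← neg_shortPt (shortModel_nonsingular (ico_pow_three_ne hf) (kleinP_mem (hpow _))), hk,
      ← map_neg, Prod.neg_mk, ← neg_mul, show (-4 : ZMod 5) = 1 from rfl, one_mul]
    congr 2
    exact (by decide : ∀ c : ZMod 5, c ≠ 0 → c ≠ 1 → c ≠ 2 → c ≠ 3 → c = -1) a h0 h1 h2 h3

end Points

end FermatLib.Descent
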