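import Mathlib.FieldTheory.IsAlgClosed.Basic
import Mathlib.Algebra.Polynomial.Derivative
import Mathlib.Tactic.FieldSimp
import Mathlib.Tactic.NormNum
import Fermat.Agent.Descent.Icosahedral

/-!
# Coprimality of the icosahedral forms and solubility of `(H, T) = (a, b)`
-/

set_option autoImplicit false

namespace FermatLib.Descent

section Identities

variable {R : Type*} [CommRing R] (u v : R)

theorem ico_bezout_u :
    (950431323 * u ^ 25 + 20237705983 * u ^ 20 * v ^ 5 - 103588896 * u ^ 15 * v ^ 10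
      + 20237108822 * u ^ 10 * v ^ 15 - 1055557719 * u ^ 5 * v ^ 20 - 2022161 * v ^ 25) * icoH u v +
      (455818677 * u ^ 15 + 1001301767 * u ^ 10 * v ^ 5 - 461063031 * u ^ 5 * v ^ 10
      + 2022161 * v ^ 15) * icoT u v = 1406250000 * u ^ 45 := by
  unfold icoH icoT; ring

theorem ico_bezout_v :
    (2022161 * u ^ 25 - 1055557719 * u ^ 20 * v ^ 5 - 20237108822 * u ^ 15 * v ^ 10
      - 103588896 * u ^ 10 * v ^ 15 - 20237705983 * u ^ 5 * v ^ 20 + 950431323 * v ^ 25) * icoH u v +
      (-2022161 * u ^ 15 - 461063031 * u ^ 10 * v ^ 5 - 1001301767 * u ^ 5 * v ^ 10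
      + 455818677 * v ^ 15) * icoT u v = 1406250000 * v ^ 45 := by
  unfold icoH icoT; ring

theorem icoT_eq_jacobian :
    -20 * icoT u v = icoU u v * (20 * u ^ 19 + 3420 * u ^ 14 * v ^ 5 + 4940 * u ^ 9 * v ^ 10 - 1140 * u ^ 4 * v ^ 15) +
      icoV u v * (1140 * u ^ 15 * v ^ 4 + 4940 * u ^ 10 * v ^ 9 - 3420 * u ^ 5 * v ^ 14 + 20 * v ^ 19) := by
  unfold icoT icoU icoV; ring

theorem ico_euler : u * icoV u v - v * icoU u v = 12 * icoF u v :=
  ico_det u v

theorem ico_scale (c : R) :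
    icoH (c * u) (c * v) = c ^ 20 * icoH u v ∧ icoT (c * u) (c * v) = c ^ 30 * icoT u v := by
  constructor <;> simp only [icoH, icoT] <;> ring

end Identities

section Field

variable {K : Type*} [Field K] [CharZero K] {u v : K}

theorem eq_zero_of_icoH_icoT (hH : icoH u v = 0) (hT : icoT u v = 0) : u = 0 ∧ v = 0 := by
  have h1 := ico_bezout_u u v
  have h2 := ico_bezout_v u v
  simp [hH, hT] at h1 h2
  exact ⟨h1, h2⟩

theorem eq_zero_of_icoH_icoF (hH : icoH u v = 0) (hF : icoF u v = 0) : u = 0 ∧ v = 0 := by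
  refine eq_zero_of_icoH_icoT hH ?_
  have := icoH_pow_three_sub u v
  simpa [hH, hF] using this

theorem eq_zero_of_icoU_icoV (hU : icoU u v = 0) (hV : icoV u v = 0) : u = 0 ∧ v = 0 := by
  have hT := icoT_eq_jacobian u v
  simp [hU, hV] at hT
  have hF : icoF u v = 0 := by
    have := ico_euler u v
    simpa [hU, hV] using this
  have := icoH_pow_three_sub u v
  simp [hT, hF] at this
  exact eq_zero_of_icoH_icoT this hT

/-- Over an algebraically closed field every pair of invariants is attained. -/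
theorem exists_icoH_icoT_eq [IsAlgClosed K] (a b : K) (hab : a ^ 3 ≠ b ^ 2) :
    ∃ u v : K, icoH u v = a ∧ icoT u v = b := by
  open Polynomial in
  set p : K[X] := C (b ^ 2) * icoH X 1 ^ 3 - C (a ^ 3) * icoT X 1 ^ 2 with hp
  obtain ⟨r, hr⟩ : ∃ r : K, b ^ 2 * icoH r 1 ^ 3 - a ^ 3 * icoT r 1 ^ 2 = 0 := by
    have hdeg : p.coeff 60 = b ^ 2 - a ^ 3 := by
      open Polynomial in
      rw [hp, coeff_sub, coeff_C_mul, coeff_C_mul,
        show 60 = 3 * 20 from rfl, coeff_pow_of_natDegree_le (by unfold icoH; compute_degree!),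
        show 3 * 20 = 2 * 30 from rfl, coeff_pow_of_natDegree_le (by unfold icoT; compute_degree!)]
      simp [icoH, icoT, coeff_X_pow, coeff_one]
    have h0 : p.degree ≠ 0 := by
      intro h0
      have := Polynomial.coeff_eq_zero_of_degree_lt (p := p) (n := 60)
        (by rw [h0]; exact_mod_cast Nat.zero_lt_succ 59)
      rw [hdeg, sub_eq_zero] at this
      exact hab this.symm
    obtain ⟨r, hr⟩ := IsAlgClosed.exists_root p h0
    refine ⟨r, ?_⟩
    have he : Polynomial.evalRingHom r Polynomial.X = r := by simp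
    simp only [Polynomial.IsRoot, ← Polynomial.coe_evalRingHom, hp, map_sub, map_mul, map_pow,
      map_icoH, map_icoT, he, map_one] at hr
    simpa using hr
  have hne : ¬(icoH r 1 = 0 ∧ icoT r 1 = 0) := fun h => by
    simpa using (eq_zero_of_icoH_icoT h.1 h.2).2
  by_cases hh : icoH r 1 = 0
  · have ht : icoT r 1 ≠ 0 := fun ht => hne ⟨hh, ht⟩
    have ha : a = 0 := by simpa [hh, ht] using hr
    obtain ⟨l, hl⟩ := IsAlgClosed.exists_pow_nat_eq (b / icoT r 1) (n := 30) (by norm_num)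
    refine ⟨l * r, l * 1, ?_, ?_⟩
    · rw [(ico_scale r 1 l).1, hh, mul_zero, ha]
    · rw [(ico_scale r 1 l).2, hl, div_mul_cancel₀ _ ht]
  by_cases ht : icoT r 1 = 0
  · have hb : b = 0 := by simpa [ht, hh] using hr
    obtain ⟨l, hl⟩ := IsAlgClosed.exists_pow_nat_eq (a / icoH r 1) (n := 20) (by norm_num)
    refine ⟨l * r, l * 1, ?_, ?_⟩
    · rw [(ico_scale r 1 l).1, hl, div_mul_cancel₀ _ hh]
    · rw [(ico_scale r 1 l).2, ht, mul_zero, hb]
  have ha : a ≠ 0 := fun ha => by
    have hb : b = 0 := by simpa [ha, hh] using hr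
    exact hab (by simp [ha, hb])
  obtain ⟨l, hl⟩ :=
    IsAlgClosed.exists_pow_nat_eq (b * icoH r 1 / (a * icoT r 1)) (n := 10) (by norm_num)
  have hA : l ^ 20 = a / icoH r 1 := by
    rw [show l ^ 20 = (l ^ 10) ^ 2 by ring, hl]
    field_simp
    linear_combination hr
  refine ⟨l * r, l * 1, ?_, ?_⟩
  · rw [(ico_scale r 1 l).1, hA, div_mul_cancel₀ _ hh]
  · rw [(ico_scale r 1 l).2, show l ^ 30 = l ^ 20 * l ^ 10 by ring, hA, hl]
    field_simp

end Field

end FermatLib.Descent
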