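import Mathlib.RingTheory.Coprime.Lemmas
import Fermat.Agent.Descent.IcosahedralBezout

/-!
# The rational pencil of invariants attached to a pair `(c₄, c₆)`
-/

set_option autoImplicit false

open Polynomial

namespace FermatLib.Descent

section Line

private theorem natDegree_sub_le_of_le' {R : Type*} [CommRing R] {p q : R[X]} {n : ℕ}
    (hp : p.natDegree ≤ n) (hq : q.natDegree ≤ n) : (p - q).natDegree ≤ n :=
  (natDegree_sub_le p q).trans (max_le hp hq)

private theorem natDegree_add_le_of_le' {R : Type*} [CommRing R] {p q : R[X]} {n : ℕ}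
    (hp : p.natDegree ≤ n) (hq : q.natDegree ≤ n) : (p + q).natDegree ≤ n :=
  (natDegree_add_le p q).trans (max_le hp hq)

variable {K : Type*} [Field K] (a b c d : K)

local notation "L₁" => (C a + X * C b : K[X])
local notation "L₂" => (C c + X * C d : K[X])

theorem natDegree_line_le : (C a + X * C b : K[X]).natDegree ≤ 1 := by
  compute_degree

theorem natDegree_line_monomial_le {i j n : ℕ} (h : i + j = n) :
    (L₁ ^ i * L₂ ^ j).natDegree ≤ n ∧ (L₁ ^ i * L₂ ^ j).coeff n = b ^ i * d ^ j := by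
  subst h
  have h1 : (L₁ ^ i).natDegree ≤ i := by
    simpa using natDegree_pow_le_of_le i (natDegree_line_le a b)
  have h2 : (L₂ ^ j).natDegree ≤ j := by
    simpa using natDegree_pow_le_of_le j (natDegree_line_le c d)
  refine ⟨natDegree_mul_le.trans (Nat.add_le_add h1 h2), ?_⟩
  rw [coeff_mul_add_eq_of_natDegree_le h1 h2]
  congr 1
  · simpa using coeff_pow_of_natDegree_le (m := i) (natDegree_line_le a b)
  · simpa using coeff_pow_of_natDegree_le (m := j) (natDegree_line_le c d)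

theorem icoF_line : (icoF L₁ L₂).natDegree ≤ 12 ∧ (icoF L₁ L₂).coeff 12 = icoF b d := by
  obtain ⟨n1, e1⟩ := natDegree_line_monomial_le a b c d (show 11 + 1 = 12 by norm_num)
  obtain ⟨n2, e2⟩ := natDegree_line_monomial_le a b c d (show 6 + 6 = 12 by norm_num)
  obtain ⟨n3, e3⟩ := natDegree_line_monomial_le a b c d (show 1 + 11 = 12 by norm_num)
  rw [pow_one] at n1 n3 e1 e3
  rw [pow_one] at e1 e3
  unfold icoF
  rw [show (11 : K[X]) = C 11 from (map_ofNat C 11).symm, mul_assoc (C (11 : K))]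
  refine ⟨natDegree_sub_le_of_le' (natDegree_sub_le_of_le' n1
    ((natDegree_C_mul_le _ _).trans n2)) n3, ?_⟩
  rw [coeff_sub, coeff_sub, coeff_C_mul, e1, e2, e3]
  ring

theorem icoH_line_natDegree_le : (icoH L₁ L₂).natDegree ≤ 20 := by
  have h : ∀ i j : ℕ, i + j = 20 → (L₁ ^ i * L₂ ^ j).natDegree ≤ 20 := fun i j e =>
    (natDegree_line_monomial_le a b c d e).1
  have h' : ∀ (k : K) (i j : ℕ), i + j = 20 → (C k * L₁ ^ i * L₂ ^ j).natDegree ≤ 20 :=
    fun k i j e => by rw [mul_assoc]; exact (natDegree_C_mul_le _ _).trans (h i j e)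
  unfold icoH
  simp only [← map_ofNat C]
  refine natDegree_add_le_of_le' (natDegree_sub_le_of_le' (natDegree_add_le_of_le'
    (natDegree_add_le_of_le' ?_ (h' _ 15 5 rfl)) (h' _ 10 10 rfl)) (h' _ 5 15 rfl)) ?_
  · simpa using h 20 0 rfl
  · simpa using h 0 20 rfl

theorem icoT_line_natDegree_le : (icoT L₁ L₂).natDegree ≤ 30 := by
  have h : ∀ i j : ℕ, i + j = 30 → (L₁ ^ i * L₂ ^ j).natDegree ≤ 30 := fun i j e =>
    (natDegree_line_monomial_le a b c d e).1
  have h' : ∀ (k : K) (i j : ℕ), i + j = 30 → (C k * L₁ ^ i * L₂ ^ j).natDegree ≤ 30 :=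
    fun k i j e => by rw [mul_assoc]; exact (natDegree_C_mul_le _ _).trans (h i j e)
  unfold icoT
  simp only [← map_ofNat C]
  refine natDegree_add_le_of_le' (natDegree_add_le_of_le' (natDegree_sub_le_of_le'
    (natDegree_sub_le_of_le' (natDegree_sub_le_of_le' ?_ (h' _ 25 5 rfl)) (h' _ 20 10 rfl))
    (h' _ 10 20 rfl)) (h' _ 5 25 rfl)) ?_
  · simpa using h 30 0 rfl
  · simpa using h 0 30 rfl

theorem derivative_icoF_line :
    derivative (icoF L₁ L₂) = C b * icoV L₁ L₂ - C d * icoU L₁ L₂ := by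
  simp only [icoF, icoU, icoV, derivative_sub, derivative_mul, derivative_pow, derivative_add,
    derivative_C, derivative_X, derivative_ofNat, map_ofNat, Nat.cast_ofNat]
  norm_num
  ring

end Line

/-- A preimage of a nondegenerate pair of invariants is not a cusp. -/
theorem icoF_ne_zero_of_invariants {K : Type*} [Field K] [CharZero K] [Algebra ℚ K] {c₄ c₆ : ℚ}
    (h : c₄ ^ 3 ≠ c₆ ^ 2) {u v : K}
    (hu : icoH u v = algebraMap ℚ K c₄) (hv : icoT u v = algebraMap ℚ K (-c₆)) :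
    icoF u v ≠ 0 := by
  intro h0
  have := icoH_pow_three_sub u v
  rw [hu, hv, h0, ← map_pow, ← map_pow, ← map_sub, neg_sq, zero_pow (by norm_num), mul_zero,
    map_eq_zero_iff _ (algebraMap ℚ K).injective] at this
  exact h (sub_eq_zero.mp this)

/-- A direction off the cusps always exists. -/
theorem exists_icoF_direction_ne_zero {K : Type*} [Field K] [CharZero K] [Algebra ℚ K] {u v : K}
    (hf : icoF u v ≠ 0) :
    ∃ c : ℚ, icoF (icoU u v + algebraMap ℚ K c * u) (icoV u v + algebraMap ℚ K c * v) ≠ 0 := by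
  set φ := algebraMap ℚ K
  have hinj : Function.Injective φ := φ.injective
  set P : K[X] := icoF (C (icoU u v) + X * C u) (C (icoV u v) + X * C v) with hP
  have hP0 : P ≠ 0 := fun h0 => hf (by
    rw [← (icoF_line (icoU u v) u (icoV u v) v).2, ← hP, h0, coeff_zero])
  obtain ⟨c, hc⟩ : ∃ c : ℚ, φ c ∉ P.rootSet K :=
    ((P.rootSet_finite K).preimage hinj.injOn).infinite_compl.nonempty
  refine ⟨c, fun h0 => hc ?_⟩
  rw [mem_rootSet]
  refine ⟨hP0, ?_⟩
  rw [coe_aeval_eq_eval, hP, ← coe_evalRingHom, map_icoF]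
  simp only [coe_evalRingHom, eval_add, eval_mul, eval_C, eval_X]
  exact h0

/-- Nonvanishing of `D` keeps the line off the cusps. -/
theorem icoF_line_eval_ne_zero {K : Type*} [Field K] [Algebra ℚ K] {D : ℚ[X]} {l₁ l₂ : K[X]}
    {f₀ : K} (hf : f₀ ≠ 0) (hD : C f₀ * D.map (algebraMap ℚ K) = icoF l₁ l₂) {t : ℚ}
    (ht : D.eval t ≠ 0) :
    icoF (l₁.eval (algebraMap ℚ K t)) (l₂.eval (algebraMap ℚ K t)) ≠ 0 := by
  have := congrArg (evalRingHom (algebraMap ℚ K t)) hD
  rw [map_mul, map_icoF l₁ l₂ (evalRingHom (algebraMap ℚ K t))] at this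
  simp only [coe_evalRingHom, eval_C, eval_map, eval₂_at_apply] at this
  rw [← this]
  exact mul_ne_zero hf ((map_ne_zero_iff _ (algebraMap ℚ K).injective).mpr ht)

variable {K : Type*} [Field K] [CharZero K] [Algebra ℚ K] [IsAlgClosed K]

/-- The pencil of invariants through `(c₄, c₆)` along the line from a given preimage `(u, v)`
in the direction `(u' + c u, v' + c v)` of its covariant point. -/
theorem exists_pencil_at (c₄ c₆ : ℚ) (h : c₄ ^ 3 ≠ c₆ ^ 2) {u v : K}
    (hu : icoH u v = algebraMap ℚ K c₄) (hv : icoT u v = algebraMap ℚ K (-c₆)) (c : ℚ)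
    (hc : icoF (icoU u v + algebraMap ℚ K c * u) (icoV u v + algebraMap ℚ K c * v) ≠ 0) :
    ∃ A B D : ℚ[X],
      A.eval 0 = c₄ ∧ B.eval 0 = c₆ ∧ D.eval 0 = 1 ∧ A.natDegree ≤ 20 ∧ B.natDegree ≤ 30 ∧
      D.natDegree = 12 ∧ A ^ 3 - B ^ 2 = C (c₄ ^ 3 - c₆ ^ 2) * D ^ 5 ∧
      IsCoprime A D ∧ IsCoprime D (derivative D) ∧
      A.map (algebraMap ℚ K) = icoH (C u + X * C (icoU u v + algebraMap ℚ K c * u))
        (C v + X * C (icoV u v + algebraMap ℚ K c * v)) ∧
      B.map (algebraMap ℚ K) = -icoT (C u + X * C (icoU u v + algebraMap ℚ K c * u))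
        (C v + X * C (icoV u v + algebraMap ℚ K c * v)) ∧
      C (icoF u v) * D.map (algebraMap ℚ K) =
        icoF (C u + X * C (icoU u v + algebraMap ℚ K c * u))
          (C v + X * C (icoV u v + algebraMap ℚ K c * v)) := by
  set φ := algebraMap ℚ K with hφ
  have hinj : Function.Injective φ := φ.injective
  have hf5 : (1728 : K) * icoF u v ^ 5 = φ (c₄ ^ 3 - c₆ ^ 2) := by
    rw [← icoH_pow_three_sub, hu, hv]; simp [map_sub, map_pow]
  have hf : icoF u v ≠ 0 := icoF_ne_zero_of_invariants h hu hv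
  obtain ⟨p, q, r, hp, hq, hr⟩ := exists_rational_pencil c hu hv
  set b₁ := icoU u v + φ c * u with hb₁
  set b₂ := icoV u v + φ c * v with hb₂
  have hdet : u * b₂ - v * b₁ = 12 * icoF u v := by
    rw [hb₁, hb₂]; linear_combination ico_det u v
  have hdet0 : u * b₂ - v * b₁ ≠ 0 := by
    rw [hdet]; exact mul_ne_zero (by norm_num) hf
  have hevl : ∀ t : K, (C u + X * C b₁).eval t = u + t * b₁ ∧
      (C v + X * C b₂).eval t = v + t * b₂ := fun t => by
    simp only [eval_add, eval_mul, eval_C, eval_X, true_and]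
  have hline : ∀ t : K, ¬(u + t * b₁ = 0 ∧ v + t * b₂ = 0) := by
    rintro t ⟨h₁, h₂⟩
    exact hdet0 (by linear_combination b₂ * h₁ - b₁ * h₂)
  have hAeval : ∀ t : K, aeval t p = icoH (u + t * b₁) (v + t * b₂) := fun t => by
    rw [aeval_def, ← eval_map, hp, ← coe_evalRingHom, map_icoH, coe_evalRingHom, (hevl t).1,
      (hevl t).2]
  have hDeval : ∀ t : K, icoF u v * aeval t r = icoF (u + t * b₁) (v + t * b₂) := fun t => by
    rw [aeval_def, ← eval_map, ← eval_C (a := icoF u v) (x := t), ← eval_mul, hr,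
      ← coe_evalRingHom, map_icoF, coe_evalRingHom, (hevl t).1, (hevl t).2]
  have hmap0 : ∀ s : ℚ[X], (s.map φ).coeff 0 = φ (s.eval 0) := fun s => by
    rw [coeff_map, coeff_zero_eq_eval_zero]
  have h0₁ : constantCoeff (C u + X * C b₁) = u := by simp
  have h0₂ : constantCoeff (C v + X * C b₂) = v := by simp
  refine ⟨p, -q, r, hinj ?_, hinj ?_, hinj ?_, ?_, ?_, ?_, ?_, ?_, ?_, hp,
    by rw [Polynomial.map_neg, hq], hr⟩
  · rw [← hmap0, hp, ← constantCoeff_apply, map_icoH, h0₁, h0₂, hu]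
  · rw [← hmap0, Polynomial.map_neg, coeff_neg, hq, ← constantCoeff_apply, map_icoT, h0₁, h0₂,
      hv, map_neg, neg_neg]
  · have := congrArg constantCoeff hr
    rw [map_mul, map_icoF (C u + X * C b₁) (C v + X * C b₂) (constantCoeff : K[X] →+* K),
      h0₁, h0₂, constantCoeff_apply, constantCoeff_apply, coeff_C_zero, hmap0] at this
    rw [map_one]
    exact mul_left_cancel₀ hf (by rw [this, mul_one])
  · rw [← natDegree_map_eq_of_injective hinj, hp]; exact icoH_line_natDegree_le ..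
  · rw [← natDegree_map_eq_of_injective hinj, Polynomial.map_neg, natDegree_neg, hq]
    exact icoT_line_natDegree_le ..
  · obtain ⟨hle, hco⟩ := icoF_line u b₁ v b₂
    rw [← natDegree_map_eq_of_injective hinj, ← natDegree_C_mul hf, hr]
    exact natDegree_eq_of_le_of_coeff_ne_zero hle (by rw [hco]; exact hc)
  · apply map_injective φ hinj
    have e : C (φ (c₄ ^ 3 - c₆ ^ 2)) = (1728 : K[X]) * C (icoF u v) ^ 5 := by
      rw [← hf5, C_mul, C_pow, map_ofNat]
    rw [Polynomial.map_sub, Polynomial.map_mul, Polynomial.map_pow, Polynomial.map_pow,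
      Polynomial.map_pow, Polynomial.map_neg, map_C, hp, hq, e, mul_assoc, ← mul_pow, hr,
      neg_sq, icoH_pow_three_sub]
  · rw [isCoprime_iff_aeval_ne_zero_of_isAlgClosed (k := ℚ) K]
    intro t
    by_contra hcon
    obtain ⟨hA, hD⟩ := not_or.mp hcon
    rw [not_not] at hA hD
    have hF := hDeval t
    rw [hD, mul_zero] at hF
    rw [hAeval] at hA
    exact hline t (eq_zero_of_icoH_icoF hA hF.symm)
  · rw [isCoprime_iff_aeval_ne_zero_of_isAlgClosed (k := ℚ) K]
    intro t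
    by_contra hcon
    obtain ⟨hD, hD'⟩ := not_or.mp hcon
    rw [not_not] at hD hD'
    have hF := hDeval t
    rw [hD, mul_zero] at hF
    have hd := congrArg (fun s => (derivative s).eval t) hr
    simp only [derivative_C_mul, derivative_map, eval_mul, eval_C, eval_map, ← aeval_def, hD',
      mul_zero, derivative_icoF_line, eval_sub] at hd
    rw [← coe_evalRingHom, map_icoU, map_icoV, coe_evalRingHom, (hevl t).1, (hevl t).2] at hd
    have he := ico_euler (u + t * b₁) (v + t * b₂)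
    rw [← hF, mul_zero] at he
    have hU : icoU (u + t * b₁) (v + t * b₂) = 0 :=
      (mul_eq_zero.mp (show icoU (u + t * b₁) (v + t * b₂) * (u * b₂ - v * b₁) = 0 by
        linear_combination b₁ * he + (u + t * b₁) * hd)).resolve_right hdet0
    have hV : icoV (u + t * b₁) (v + t * b₂) = 0 :=
      (mul_eq_zero.mp (show icoV (u + t * b₁) (v + t * b₂) * (u * b₂ - v * b₁) = 0 by
        linear_combination b₂ * he + (v + t * b₂) * hd)).resolve_right hdet0
    exact hline t (eq_zero_of_icoU_icoV hU hV)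

/-- Some pencil of invariants through `(c₄, c₆)`, together with the line in the plane of `(u, v)`
that induces it. -/
theorem exists_pencil (c₄ c₆ : ℚ) (h : c₄ ^ 3 ≠ c₆ ^ 2) :
    ∃ (A B D : ℚ[X]) (l₁ l₂ : K[X]),
      A.eval 0 = c₄ ∧ B.eval 0 = c₆ ∧ D.eval 0 = 1 ∧ A.natDegree ≤ 20 ∧ B.natDegree ≤ 30 ∧
      D.natDegree = 12 ∧ A ^ 3 - B ^ 2 = C (c₄ ^ 3 - c₆ ^ 2) * D ^ 5 ∧
      IsCoprime A D ∧ IsCoprime D (derivative D) ∧
      A.map (algebraMap ℚ K) = icoH l₁ l₂ ∧ B.map (algebraMap ℚ K) = -icoT l₁ l₂ ∧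
      ∀ t : ℚ, D.eval t ≠ 0 →
        icoF (l₁.eval (algebraMap ℚ K t)) (l₂.eval (algebraMap ℚ K t)) ≠ 0 := by
  obtain ⟨u, v, hu, hv⟩ := exists_icoH_icoT_eq (algebraMap ℚ K c₄) (algebraMap ℚ K (-c₆)) (by
    rw [← map_pow, ← map_pow, neg_sq]; exact (algebraMap ℚ K).injective.ne h)
  have hf := icoF_ne_zero_of_invariants h hu hv
  obtain ⟨c, hc⟩ := exists_icoF_direction_ne_zero hf
  obtain ⟨A, B, D, h1, h2, h3, h4, h5, h6, h7, h8, h9, hA, hB, hD⟩ :=
    exists_pencil_at c₄ c₆ h hu hv c hc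
  exact ⟨A, B, D, _, _, h1, h2, h3, h4, h5, h6, h7, h8, h9, hA, hB,
    fun t ht => icoF_line_eval_ne_zero hf hD ht⟩

end FermatLib.Descent
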