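import Mathlib.FieldTheory.IsAlgClosed.AlgebraicClosure
import Fermat.Prelude.Def_FLTPrelim_GaloisRep
import Mathlib.RingTheory.Polynomial.Cyclotomic.Roots
import Fermat.Agent.EC.Torsion
import Fermat.Agent.Descent.KleinPoints
import Fermat.Agent.Descent.Mod5Pencil

/-!
# Elliptic curves with the same five-torsion

For a short model `y² = x³ - 27 c₄ x - 54 c₆` the pencil
`y² = x³ - 27 A(t) x - 54 B(t)` has Galois-equivariantly the same five-torsion.

The curve over `ℚ̄(t)` is a pull-back of the Klein curve, so all its five-torsion is given by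
polynomials in `t`; hence the permutation of these points induced by a Galois element does not
depend on the rational parameter.
-/

set_option autoImplicit false

open Polynomial WeierstrassCurve
open scoped WeierstrassCurve.Affine

namespace FermatLib.Descent

section Transport

variable {F : Type*} [Field F] [DecidableEq F] {W W' : WeierstrassCurve F}

/-- Transport of points along an equality of curves. -/
noncomputable def pointEquivOfCurveEq (h : W = W') : W.toAffine.Point ≃+ W'.toAffine.Point := by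
  subst h; exact AddEquiv.refl _

theorem pointEquivOfCurveEq_some (h : W = W') {x y : F} (hn : W.toAffine.Nonsingular x y) :
    pointEquivOfCurveEq h (Affine.Point.some x y hn) = Affine.Point.some x y (h ▸ hn) := by
  subst h; rfl

end Transport

local notation "Ω" => AlgebraicClosure ℚ
local notation "ι" => ZMod 5 × ZMod 5

section Pencil

variable {A B D : ℚ[X]} {l₁ l₂ : Ω[X]} {ζ : Ω}

/-- The torsion points of a pencil whose invariants are pulled back along the line `(l₁, l₂)`: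
coordinates, as polynomials in the parameter. -/
noncomputable def pencilCoord (ζ : Ω) (l₁ l₂ : Ω[X]) (i : ι) : Ω[X] × Ω[X] :=
  kleinCoord (C ζ) l₁ l₂ i

theorem exists_torsion_param (hζ : IsPrimitiveRoot ζ 5)
    (hA : A.map (algebraMap ℚ Ω) = icoH l₁ l₂) (hB : B.map (algebraMap ℚ Ω) = -icoT l₁ l₂)
    {t : ℚ} (hf : icoF (l₁.eval (algebraMap ℚ Ω t)) (l₂.eval (algebraMap ℚ Ω t)) ≠ 0) :
    ∃ Φ : ι →+ ((shortModel (A.eval t) (B.eval t))⁄Ω).Point,
      Function.Injective Φ ∧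
      (∀ P, (5 : ℤ) • P = 0 → ∃ i, Φ i = P) ∧
      ∀ i, i ≠ 0 → ∃ h, Φ i = Affine.Point.some ((pencilCoord ζ l₁ l₂ i).1.eval (algebraMap ℚ Ω t))
        ((pencilCoord ζ l₁ l₂ i).2.eval (algebraMap ℚ Ω t)) h := by
  set τ := algebraMap ℚ Ω t
  set u := l₁.eval τ with hu
  set v := l₂.eval τ with hv
  have hWA : algebraMap ℚ Ω (A.eval t) = icoH u v := by
    rw [← aeval_algebraMap_apply_eq_algebraMap_eval, aeval_def, ← eval_map, hA,
      ← coe_evalRingHom, map_icoH]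
    rfl
  have hWB : algebraMap ℚ Ω (B.eval t) = -icoT u v := by
    rw [← aeval_algebraMap_apply_eq_algebraMap_eval, aeval_def, ← eval_map, hB,
      ← coe_evalRingHom, map_neg, map_icoT]
    rfl
  have hW : shortModel (icoH u v) (-icoT u v) = (shortModel (A.eval t) (B.eval t))⁄Ω := by
    change _ = (shortModel (A.eval t) (B.eval t)).map (algebraMap ℚ Ω)
    rw [shortModel_map, hWA, hWB]
  set Φ := (pointEquivOfCurveEq hW).toAddMonoidHom.comp (kleinHom hf hζ) with hΦ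
  have hΦinj : Function.Injective Φ :=
    (pointEquivOfCurveEq hW).injective.comp (kleinHom_injective hf hζ)
  refine ⟨Φ, hΦinj, ?_, ?_⟩
  · have : (shortModel (A.eval t) (B.eval t)).IsElliptic := by
      refine ⟨isUnit_iff_ne_zero.mpr ?_⟩
      rw [shortModel_Δ]
      refine mul_ne_zero (by norm_num) (sub_ne_zero.mpr fun h => ico_pow_three_ne hf ?_)
      rw [← hWA, ← hWB, ← map_pow, ← map_pow, h]
    have hcard := FermatLib.EC.natCard_torsionBy_baseChange (K := Ω)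
      (shortModel (A.eval t) (B.eval t)) (n := 5) (by norm_num)
    have hfin : Finite (Submodule.torsionBy ℤ ((shortModel (A.eval t) (B.eval t))⁄Ω).Point
        ((5 : ℕ) : ℤ)) :=
      Nat.finite_of_card_ne_zero (by rw [hcard]; norm_num)
    have h5 : ∀ i : ι, ((5 : ℕ) : ℤ) • Φ i = 0 := fun i => by
      rw [← map_zsmul]
      convert map_zero Φ
      revert i; decide
    have hbij : Function.Bijective (fun i : ι => (⟨Φ i, (Submodule.mem_torsionBy_iff _ _).mpr
        (h5 i)⟩ : Submodule.torsionBy ℤ ((shortModel (A.eval t) (B.eval t))⁄Ω).Point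
          ((5 : ℕ) : ℤ))) := by
      apply Function.Injective.bijective_of_nat_card_le
      · exact fun i j hij => hΦinj (congrArg Subtype.val hij)
      · rw [hcard]; simp [Nat.card_eq_fintype_card]
    intro P hP
    obtain ⟨i, hi⟩ := hbij.2 ⟨P, (Submodule.mem_torsionBy_iff _ _).mpr (by exact_mod_cast hP)⟩
    exact ⟨i, congrArg Subtype.val hi⟩
  · intro i hi
    have hc : ((pencilCoord ζ l₁ l₂ i).1.eval τ, (pencilCoord ζ l₁ l₂ i).2.eval τ) =
        kleinCoord ζ u v i := by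
      have := map_kleinCoord (evalRingHom τ) (C ζ) l₁ l₂ i
      simp only [coe_evalRingHom, eval_C] at this
      exact this.symm
    obtain ⟨hc₁, hc₂⟩ := Prod.mk.injEq .. ▸ hc
    have he := kleinHom_eq_coord hf hζ hi
    have hns : (shortModel (icoH u v) (-icoT u v)).toAffine.Nonsingular (kleinCoord ζ u v i).1
        (kleinCoord ζ u v i).2 := by
      by_contra hn
      rw [shortPt, dif_neg hn] at he
      exact hi (kleinHom_injective hf hζ (he.trans (map_zero _).symm))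
    rw [shortPt_eq hns] at he
    rw [hc₁, hc₂]
    exact ⟨hW ▸ hns, by rw [hΦ, AddMonoidHom.comp_apply, he]; exact pointEquivOfCurveEq_some hW hns⟩

end Pencil

theorem exists_galois_equiv_torsion {c₄ c₆ : ℚ} {A B D : ℚ[X]} {l₁ l₂ : Ω[X]}
    (hA0 : A.eval 0 = c₄) (hB0 : B.eval 0 = c₆) (hD0 : D.eval 0 = 1) (hDd : D.natDegree = 12)
    (hA : A.map (algebraMap ℚ Ω) = icoH l₁ l₂) (hB : B.map (algebraMap ℚ Ω) = -icoT l₁ l₂)
    (hf : ∀ t : ℚ, D.eval t ≠ 0 →
      icoF (l₁.eval (algebraMap ℚ Ω t)) (l₂.eval (algebraMap ℚ Ω t)) ≠ 0)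
    (t : ℚ) (ht : D.eval t ≠ 0) :
    ∃ e : Submodule.torsionBy ℤ ((shortModel c₄ c₆)⁄Ω).Point ((5 : ℕ) : ℤ) ≃+
        Submodule.torsionBy ℤ ((shortModel (A.eval t) (B.eval t))⁄Ω).Point ((5 : ℕ) : ℤ),
      ∀ (σ : Ω ≃ₐ[ℚ] Ω)
        (P : Submodule.torsionBy ℤ ((shortModel c₄ c₆)⁄Ω).Point ((5 : ℕ) : ℤ)),
        e (σ • P) = σ • e P := by
  obtain ⟨ζ, hζ⟩ : ∃ ζ : Ω, IsPrimitiveRoot ζ 5 := by
    obtain ⟨ζ, hζ⟩ := IsAlgClosed.exists_root (cyclotomic 5 Ω)
      (degree_cyclotomic_pos 5 Ω (by norm_num)).ne'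
    exact ⟨ζ, (isRoot_cyclotomic_iff).mp hζ⟩
  set G := {s : ℚ // D.eval s ≠ 0}
  have hG : ({s : ℚ | D.eval s ≠ 0}).Infinite := by
    have hD : D ≠ 0 := by rintro rfl; simp at hDd
    exact (finite_setOfPred_isRoot hD).infinite_compl.mono fun s hs => hs
  have : Infinite G := hG.to_subtype
  choose Φ hinj hsurj hco using fun s : G => exists_torsion_param hζ hA hB (hf s.1 s.2)
  have h0 : D.eval 0 ≠ 0 := by rw [hD0]; exact one_ne_zero
  have key : ∀ (σ : Ω ≃ₐ[ℚ] Ω) (i : ι), ∃ j : ι, ∀ s : G, σ • Φ s i = Φ s j := by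
    intro σ i
    by_cases hi : i = 0
    · exact ⟨0, fun s => by rw [hi, map_zero]; rfl⟩
    have hperm : ∀ s : G, ∃ j, Φ s j = σ • Φ s i := fun s => hsurj s _ (by
      rw [← Affine.Point.algEquiv_smul_zsmul, ← map_zsmul,
        show (5 : ℤ) • i = 0 by revert i; decide, map_zero, smul_zero])
    choose j hj using hperm
    obtain ⟨j₀, hj₀⟩ := Finite.exists_infinite_fiber j
    refine ⟨j₀, ?_⟩
    have hj0 : j₀ ≠ 0 := by
      intro h00
      obtain ⟨⟨s, hs⟩⟩ := hj₀.nonempty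
      have := hj s
      rw [show j s = j₀ from hs, h00, map_zero] at this
      exact hi (hinj s (by
        rw [map_zero]
        exact MulAction.injective σ (this.symm.trans rfl)))
    have hev : ∀ (P : Ω[X]) (s : ℚ), σ (P.eval (algebraMap ℚ Ω s)) =
        (P.map (σ : Ω →+* Ω)).eval (algebraMap ℚ Ω s) := fun P s => by
      conv_rhs => rw [show algebraMap ℚ Ω s = (σ : Ω →+* Ω) (algebraMap ℚ Ω s) from
        (σ.commutes s).symm, eval_map, eval₂_at_apply]
      rfl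
    have hsmul : ∀ (s : G) {x y : Ω} (hn), σ • (Affine.Point.some x y hn :
        ((shortModel (A.eval s.1) (B.eval s.1))⁄Ω).Point) =
          Affine.Point.some (σ x) (σ y)
            (((shortModel (A.eval s.1) (B.eval s.1)).toAffine.baseChange_nonsingular
              (f := σ.toAlgHom) σ.injective ..).mpr hn) := fun s x y hn => rfl
    have heq : (pencilCoord ζ l₁ l₂ i).1.map (σ : Ω →+* Ω) = (pencilCoord ζ l₁ l₂ j₀).1 ∧
        (pencilCoord ζ l₁ l₂ i).2.map (σ : Ω →+* Ω) = (pencilCoord ζ l₁ l₂ j₀).2 := by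
      have hinf : (Set.range fun s : j ⁻¹' {j₀} => algebraMap ℚ Ω s.1.1).Infinite :=
        Set.infinite_range_of_injective fun a b hab =>
          Subtype.ext (Subtype.ext ((algebraMap ℚ Ω).injective hab))
      constructor <;> apply eq_of_infinite_eval_eq <;> refine hinf.mono ?_ <;>
        rintro _ ⟨⟨s, hs⟩, rfl⟩ <;> obtain ⟨hn, e₁⟩ := hco s i hi <;>
        obtain ⟨hn', e₂⟩ := hco s j₀ hj0 <;> have hσ := hj s <;>
        rw [show j s = j₀ from hs, e₁, e₂, hsmul] at hσ <;>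
        simp only [Set.mem_ofPred_eq, ← hev]
      · exact (Affine.Point.some.inj hσ).1.symm
      · exact (Affine.Point.some.inj hσ).2.symm
    intro s
    obtain ⟨hn, e₁⟩ := hco s i hi
    obtain ⟨hn', e₂⟩ := hco s j₀ hj0
    rw [e₁, e₂, hsmul]
    simp only [hev, heq.1, heq.2]
  have hcurve : shortModel (A.eval (0 : ℚ)) (B.eval 0) = shortModel c₄ c₆ := by rw [hA0, hB0]
  rw [← hcurve]
  let toT : ∀ s : G, ι ≃+
      Submodule.torsionBy ℤ ((shortModel (A.eval s.1) (B.eval s.1))⁄Ω).Point ((5 : ℕ) : ℤ) :=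
    fun s => AddEquiv.ofBijective
      ((Φ s).codRestrict (Submodule.torsionBy ℤ _ ((5 : ℕ) : ℤ)).toAddSubgroup fun i =>
        (Submodule.mem_torsionBy_iff _ _).mpr (by
          rw [← map_zsmul, show ((5 : ℕ) : ℤ) • i = 0 by revert i; decide, map_zero]))
      ⟨fun i i' hii => hinj s (congrArg Subtype.val hii), fun P => by
        obtain ⟨i, hi⟩ := hsurj s P.1 (by
          exact_mod_cast (Submodule.mem_torsionBy_iff _ _).mp P.2)
        exact ⟨i, Subtype.ext hi⟩⟩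
  refine ⟨(toT ⟨0, h0⟩).symm.trans (toT ⟨t, ht⟩), fun σ P => ?_⟩
  obtain ⟨i, rfl⟩ := (toT ⟨0, h0⟩).surjective P
  obtain ⟨j, hj⟩ := key σ i
  have hjT : ∀ s : G, σ • toT s i = toT s j := fun s => Subtype.ext (hj s)
  rw [hjT]
  simp only [AddEquiv.trans_apply, AddEquiv.symm_apply_apply]
  exact (hjT ⟨t, ht⟩).symm

/-- The pencil with prescribed line, with all its properties. -/
theorem exists_five_family_at (c₄ c₆ : ℚ) (h : c₄ ^ 3 ≠ c₆ ^ 2) {u v : Ω}
    (hu : icoH u v = algebraMap ℚ Ω c₄) (hv : icoT u v = algebraMap ℚ Ω (-c₆)) (c : ℚ)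
    (hc : icoF (icoU u v + algebraMap ℚ Ω c * u) (icoV u v + algebraMap ℚ Ω c * v) ≠ 0) :
    ∃ A B D : ℚ[X], A.eval 0 = c₄ ∧ B.eval 0 = c₆ ∧ D.eval 0 = 1 ∧ A.natDegree ≤ 20 ∧
      B.natDegree ≤ 30 ∧ D.natDegree = 12 ∧ A ^ 3 - B ^ 2 = C (c₄ ^ 3 - c₆ ^ 2) * D ^ 5 ∧
      IsCoprime A D ∧ IsCoprime D (derivative D) ∧
      A.map (algebraMap ℚ Ω) = icoH (C u + X * C (icoU u v + algebraMap ℚ Ω c * u))
        (C v + X * C (icoV u v + algebraMap ℚ Ω c * v)) ∧
      B.map (algebraMap ℚ Ω) = -icoT (C u + X * C (icoU u v + algebraMap ℚ Ω c * u))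
        (C v + X * C (icoV u v + algebraMap ℚ Ω c * v)) ∧
      C (icoF u v) * D.map (algebraMap ℚ Ω) =
        icoF (C u + X * C (icoU u v + algebraMap ℚ Ω c * u))
          (C v + X * C (icoV u v + algebraMap ℚ Ω c * v)) ∧
      ∀ t : ℚ, D.eval t ≠ 0 →
        ∃ e : Submodule.torsionBy ℤ ((shortModel c₄ c₆)⁄Ω).Point ((5 : ℕ) : ℤ) ≃+
            Submodule.torsionBy ℤ ((shortModel (A.eval t) (B.eval t))⁄Ω).Point ((5 : ℕ) : ℤ),
          ∀ (σ : Ω ≃ₐ[ℚ] Ω)
            (P : Submodule.torsionBy ℤ ((shortModel c₄ c₆)⁄Ω).Point ((5 : ℕ) : ℤ)),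
            e (σ • P) = σ • e P := by
  obtain ⟨A, B, D, h1, h2, h3, h4, h5, h6, h7, h8, h9, hA, hB, hD⟩ :=
    exists_pencil_at c₄ c₆ h hu hv c hc
  exact ⟨A, B, D, h1, h2, h3, h4, h5, h6, h7, h8, h9, hA, hB, hD,
    exists_galois_equiv_torsion h1 h2 h3 h6 hA hB fun t ht =>
      icoF_line_eval_ne_zero (icoF_ne_zero_of_invariants h hu hv) hD ht⟩

theorem exists_five_family (c₄ c₆ : ℚ) (h : c₄ ^ 3 ≠ c₆ ^ 2) :
    ∃ A B D : ℚ[X], A.eval 0 = c₄ ∧ B.eval 0 = c₆ ∧ D.eval 0 = 1 ∧ A.natDegree ≤ 20 ∧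
      B.natDegree ≤ 30 ∧ D.natDegree = 12 ∧ A ^ 3 - B ^ 2 = C (c₄ ^ 3 - c₆ ^ 2) * D ^ 5 ∧
      IsCoprime A D ∧ IsCoprime D (derivative D) ∧
      ∀ t : ℚ, D.eval t ≠ 0 →
        ∃ e : Submodule.torsionBy ℤ ((shortModel c₄ c₆)⁄Ω).Point ((5 : ℕ) : ℤ) ≃+
            Submodule.torsionBy ℤ ((shortModel (A.eval t) (B.eval t))⁄Ω).Point ((5 : ℕ) : ℤ),
          ∀ (σ : Ω ≃ₐ[ℚ] Ω)
            (P : Submodule.torsionBy ℤ ((shortModel c₄ c₆)⁄Ω).Point ((5 : ℕ) : ℤ)),
            e (σ • P) = σ • e P := by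
  obtain ⟨A, B, D, l₁, l₂, hA0, hB0, hD0, hAd, hBd, hDd, hrel, hAD, hDD, hA, hB, hf⟩ :=
    exists_pencil (K := Ω) c₄ c₆ h
  exact ⟨A, B, D, hA0, hB0, hD0, hAd, hBd, hDd, hrel, hAD, hDD,
    exists_galois_equiv_torsion hA0 hB0 hD0 hDd hA hB hf⟩

end FermatLib.Descent
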