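import Mathlib

/-!
An elementary substitute for Hilbert irreducibility: if the integers `y n` are asymptotic, branch
by branch, to finitely many polynomials of degree `≤ d`, then arbitrarily many of them lie on one
rational polynomial of degree `≤ d` (van der Waerden + finite differences).
-/

set_option autoImplicit false

open Finset Polynomial

namespace FermatLib.Descent

/-- Alternating binomial sums of shifted values of a low degree polynomial vanish. -/
theorem sum_choose_smul_eval_eq_zero {R : Type*} [CommRing R] (P : R[X]) {n : ℕ}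
    (hP : P.natDegree < n) (x : R) :
    ∑ k ∈ range (n + 1), ((-1 : ℤ) ^ (n - k) * (n.choose k : ℤ)) • P.eval (x + (k : R)) = 0 := by
  have h := congrFun (Polynomial.fwdDiff_iter_eq_zero_of_degree_lt hP) x
  rw [fwdDiff_iter_eq_sum_shift] at h
  simpa using h

theorem exists_poly_of_sum_choose_eq_zero (d L : ℕ) (z : ℕ → ℚ)
    (h : ∀ j, j + (d + 1) < L →
      ∑ k ∈ range (d + 2), ((-1 : ℤ) ^ (d + 1 - k) * ((d + 1).choose k : ℤ)) • z (j + k) = 0) :
    ∃ q : ℚ[X], q.natDegree ≤ d ∧ ∀ j < L, q.eval (j : ℚ) = z j := by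
  classical
  have hinj : Set.InjOn (fun j : ℕ => (j : ℚ)) (range (d + 1)) :=
    fun a _ b _ hab => Nat.cast_injective (R := ℚ) hab
  refine ⟨Lagrange.interpolate (range (d + 1)) (fun j : ℕ => (j : ℚ)) z, ?_, ?_⟩
  · by_cases h0 : Lagrange.interpolate (range (d + 1)) (fun j : ℕ => (j : ℚ)) z = 0
    · simp [h0]
    have := Lagrange.degree_interpolate_lt z hinj
    rw [degree_eq_natDegree h0, card_range, Nat.cast_lt] at this
    omega
  set q := Lagrange.interpolate (range (d + 1)) (fun j : ℕ => (j : ℚ)) z with hq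
  have hdeg : q.natDegree < d + 1 := by
    by_cases h0 : q = 0
    · simp [h0]
    have := Lagrange.degree_interpolate_lt z hinj
    rw [← hq, degree_eq_natDegree h0, card_range, Nat.cast_lt] at this
    exact this
  intro j
  induction j using Nat.strong_induction_on with
  | _ j ih =>
    intro hj
    by_cases hjd : j < d + 1
    · exact Lagrange.eval_interpolate_at_node z hinj (mem_range.2 hjd)
    obtain ⟨i, rfl⟩ : ∃ i, j = i + (d + 1) := ⟨j - (d + 1), by omega⟩
    have h1 := h i hj
    have h2 := sum_choose_smul_eval_eq_zero q hdeg (i : ℚ)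
    rw [sum_range_succ] at h1 h2
    have e : ∀ k ∈ range (d + 1), q.eval ((i : ℚ) + (k : ℚ)) = z (i + k) := by
      intro k hk
      rw [← ih (i + k) (by have := mem_range.1 hk; omega) (by have := mem_range.1 hk; omega)]
      push_cast; rfl
    rw [sum_congr rfl (fun k hk => by rw [e k hk])] at h2
    simp only [Nat.sub_self, pow_zero, Nat.choose_self, Nat.cast_one, mul_one, one_smul] at h1 h2
    push_cast at h2 ⊢
    linarith

theorem exists_poly_through_many_of_approx (d L : ℕ) {ι : Type*} [Finite ι] (P : ι → ℂ[X])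
    (hP : ∀ i, (P i).natDegree ≤ d) (y : ℕ → ℤ)
    (happ : ∀ ε : ℝ, 0 < ε → ∃ N : ℕ, ∀ n ≥ N, ∃ i, ‖(y n : ℂ) - (P i).eval (n : ℂ)‖ < ε) :
    ∃ q : ℚ[X], q.natDegree ≤ d ∧ ∃ S : Finset ℕ, L ≤ S.card ∧ ∀ n ∈ S, q.eval (n : ℚ) = y n := by
  classical
  have hε : (0 : ℝ) < 1 / 2 ^ (d + 2) := by positivity
  obtain ⟨N, hN⟩ := happ _ hε
  choose c hc using fun m : ℕ => hN (N + m) (Nat.le_add_right N m)
  obtain ⟨a, ha, b, i, hb⟩ := Combinatorics.exists_mono_homothetic_copy (range L) c
  set g : ℕ → ℕ := fun j => N + (a * j + b) with hg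
  have hnear : ∀ j < L, ‖(y (g j) : ℂ) - (P i).eval (g j : ℂ)‖ < 1 / 2 ^ (d + 2) := by
    intro j hj
    have := hc (a * j + b)
    rwa [show c (a * j + b) = i from by simpa [smul_eq_mul] using hb j (mem_range.2 hj)] at this
  set w : ℕ → ℤ := fun k => (-1 : ℤ) ^ (d + 1 - k) * ((d + 1).choose k : ℤ) with hw
  set Q : ℂ[X] := (P i).comp (C (a : ℂ) * X + C ((N + b : ℕ) : ℂ)) with hQ
  have hQdeg : Q.natDegree < d + 1 := by
    refine lt_of_le_of_lt natDegree_comp_le ?_
    have h1 : (C (a : ℂ) * X + C ((N + b : ℕ) : ℂ)).natDegree ≤ 1 := natDegree_linear_le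
    calc (P i).natDegree * _ ≤ d * 1 := Nat.mul_le_mul (hP i) h1
      _ < d + 1 := by omega
  have hzero : ∀ j, j + (d + 1) < L →
      ∑ k ∈ range (d + 2), w k • ((y (g (j + k)) : ℚ)) = 0 := by
    intro j hj
    have hS := sum_choose_smul_eval_eq_zero Q hQdeg (j : ℂ)
    have hQv : ∀ k : ℕ, Q.eval ((j : ℂ) + (k : ℂ)) = (P i).eval (g (j + k) : ℂ) := by
      intro k
      simp only [hQ, hg, eval_comp, eval_add, eval_mul, eval_C, eval_X]
      push_cast; ring_nf
    simp only [hQv] at hS
    have hlt : ‖((∑ k ∈ range (d + 2), w k * y (g (j + k)) : ℤ) : ℂ)‖ < 1 := by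
      have e : ((∑ k ∈ range (d + 2), w k * y (g (j + k)) : ℤ) : ℂ)
          = ∑ k ∈ range (d + 2),
              w k • ((y (g (j + k)) : ℂ) - (P i).eval (g (j + k) : ℂ)) := by
        simp only [smul_sub, sum_sub_distrib]
        rw [show ∑ k ∈ range (d + 2), w k • (P i).eval (g (j + k) : ℂ) = 0 from hS, sub_zero]
        push_cast; simp [zsmul_eq_mul]
      rw [e]
      refine lt_of_le_of_lt (norm_sum_le _ _) ?_
      have hb' : ∀ k ∈ range (d + 2),
          ‖w k • ((y (g (j + k)) : ℂ) - (P i).eval (g (j + k) : ℂ))‖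
            ≤ ((d + 1).choose k : ℝ) * (1 / 2 ^ (d + 2)) := by
        intro k hk
        rw [zsmul_eq_mul, norm_mul]
        refine mul_le_mul ?_ (hnear (j + k) (by have := mem_range.1 hk; omega)).le
          (norm_nonneg _) (by positivity)
        simp [hw, norm_pow]
      refine lt_of_le_of_lt (sum_le_sum hb') ?_
      rw [← sum_mul]
      have : (∑ k ∈ range (d + 2), ((d + 1).choose k : ℝ)) = 2 ^ (d + 1) := by
        exact_mod_cast congrArg (Nat.cast : ℕ → ℝ) (Nat.sum_range_choose (d + 1))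
      rw [this, pow_succ (2 : ℝ) (d + 1)]
      field_simp
      norm_num
    rw [Complex.norm_intCast] at hlt
    have h0 : (∑ k ∈ range (d + 2), w k * y (g (j + k))) = 0 := by
      by_contra hne
      have := Int.one_le_abs hne
      have : (1 : ℝ) ≤ |((∑ k ∈ range (d + 2), w k * y (g (j + k)) : ℤ) : ℝ)| := by
        exact_mod_cast this
      linarith
    have := congrArg (fun x : ℤ => (x : ℚ)) h0
    simpa [zsmul_eq_mul] using this
  obtain ⟨q, hqd, hqv⟩ := exists_poly_of_sum_choose_eq_zero d L (fun j => (y (g j) : ℚ)) hzero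
  refine ⟨q.comp (C ((a : ℚ)⁻¹) * X + C (-(((N + b : ℕ) : ℚ) * (a : ℚ)⁻¹))), ?_,
    (range L).image g, ?_, ?_⟩
  · refine natDegree_comp_le.trans ?_
    calc q.natDegree * _ ≤ d * 1 := Nat.mul_le_mul hqd natDegree_linear_le
      _ = d := mul_one d
  · rw [card_image_of_injective _ ?_, card_range]
    intro u v huv
    simp only [hg] at huv
    have : a * u = a * v := by omega
    exact Nat.eq_of_mul_eq_mul_left ha this
  · intro n hn
    obtain ⟨j, hj, rfl⟩ := mem_image.1 hn
    rw [← hqv j (mem_range.1 hj)]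
    have ha' : (a : ℚ) ≠ 0 := by exact_mod_cast (Nat.pos_iff_ne_zero.1 ha)
    simp only [eval_comp, eval_add, eval_mul, eval_C, eval_X, hg]
    congr 1
    push_cast
    field_simp
    ring

end FermatLib.Descent
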