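import Fermat.Agent.Descent.ThreeFiveBranches
import Fermat.Agent.Descent.ThreeFiveInterpolation

/-!
In a family with discriminant a fifth power of a squarefree polynomial of degree twelve some
integer specialisation in any given nonzero residue class `0 mod M` has no rational root of the
3-division polynomial.
-/

set_option autoImplicit false

open Polynomial Filter

namespace FermatLib.Descent

theorem exists_den_int_eval (p : ℚ[X]) :
    ∃ k : ℤ, k ≠ 0 ∧ ∀ n : ℤ, ∃ v : ℤ, (k : ℚ) * p.eval (n : ℚ) = v := by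
  obtain ⟨b, hb, hmap⟩ := IsLocalization.integerNormalization_spec
    (nonZeroDivisors ℤ) (S := ℚ) p
  refine ⟨b, nonZeroDivisors.ne_zero hb,
    fun n => ⟨(IsLocalization.integerNormalization (nonZeroDivisors ℤ) p).eval n, ?_⟩⟩
  have h := congrArg (eval (n : ℚ)) hmap
  simp only [eq_intCast, zsmul_eq_mul, algebraMap_int_eq, eval_intCast_map] at h
  simpa using h.symm

theorem exists_isInt_mul_root {k : ℤ} {a b x : ℚ} {u v : ℤ} (hu : (k : ℚ) ^ 2 * a = u)
    (hv : (k : ℚ) ^ 3 * b = v) (hx : psiThreeShort a b x = 0) :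
    ∃ y : ℤ, (y : ℚ) = 3 * k * x := by
  set q : ℤ[X] := X ^ 4 + C (-486 * u) * X ^ 2 + C (-5832 * v) * X + C (-19683 * u ^ 2)
  have hq : q.Monic := by simp only [q]; monicity!
  have hint : IsIntegral ℤ (3 * (k : ℚ) * x) := by
    refine ⟨q, hq, ?_⟩
    rw [psiThreeShort] at hx
    simp only [q, eval₂_add, eval₂_mul, eval₂_C, eval₂_X_pow, eval₂_X]
    simp only [eq_intCast]
    push_cast
    rw [← hu, ← hv]
    linear_combination (27 * (k : ℚ) ^ 4) * hx
  obtain ⟨y, hy⟩ := IsIntegrallyClosed.isIntegral_iff.1 hint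
  exact ⟨y, by simpa using hy⟩

theorem exists_nat_param_ge (A B D : ℚ[X]) {c : ℚ} (hc : c ≠ 0) (hA : A.natDegree ≤ 20)
    (hB : B.natDegree ≤ 30) (hD : D.natDegree = 12) (hrel : A ^ 3 - B ^ 2 = C c * D ^ 5)
    (hAD : IsCoprime A D) (hsep : IsCoprime D (derivative D)) (N₀ : ℕ) :
    ∃ n : ℕ, N₀ ≤ n ∧ ∀ x : ℚ, psiThreeShort (A.eval (n : ℚ)) (B.eval (n : ℚ)) x ≠ 0 := by
  classical
  by_contra hcon
  push Not at hcon
  set f := algebraMap ℚ ℂ with hf
  have hlead : (A.map f).coeff 20 ^ 3 ≠ (B.map f).coeff 30 ^ 2 := by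
    have h := congrArg (fun p : ℚ[X] => p.coeff 60) hrel
    simp only [coeff_sub] at h
    rw [show 60 = 3 * 20 by norm_num, coeff_pow_of_natDegree_le hA,
      show 3 * 20 = 2 * 30 by norm_num, coeff_pow_of_natDegree_le hB,
      show 2 * 30 = 5 * 12 by norm_num, coeff_C_mul, coeff_pow_of_natDegree_le hD.le] at h
    simp only [coeff_map, ← map_pow]
    intro he
    rw [f.injective he, sub_self, eq_comm, mul_eq_zero, pow_eq_zero_iff (by norm_num)] at h
    rcases h with h | h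
    · exact hc h
    · rw [← hD, coeff_natDegree, leadingCoeff_eq_zero] at h
      rw [h] at hD; simp at hD
  obtain ⟨P, hP, happ⟩ := exists_root_branches (A.map f) (B.map f)
    (natDegree_map_le.trans hA) (natDegree_map_le.trans hB) hlead
  obtain ⟨kA, hkA, hAint⟩ := exists_den_int_eval A
  obtain ⟨kB, hkB, hBint⟩ := exists_den_int_eval B
  set k : ℤ := kA * kB with hk
  have hk0 : (3 : ℚ) * k ≠ 0 := mul_ne_zero (by norm_num) (by exact_mod_cast mul_ne_zero hkA hkB)
  have hy : ∀ n : ℕ, ∃ y : ℤ, N₀ ≤ n →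
      psiThreeShort (A.eval (n : ℚ)) (B.eval (n : ℚ)) ((y : ℚ) / (3 * k)) = 0 := by
    intro n
    by_cases hn : N₀ ≤ n
    · obtain ⟨x, hx⟩ := hcon n hn
      obtain ⟨u, hu⟩ := hAint n
      obtain ⟨v, hv⟩ := hBint n
      simp only [Int.cast_natCast] at hu hv
      obtain ⟨y, hy⟩ := exists_isInt_mul_root (k := k) (a := A.eval (n : ℚ)) (b := B.eval (n : ℚ))
        (u := k * kB * u) (v := k ^ 2 * kA * v) (by push_cast [hk]; rw [← hu]; ring)
        (by push_cast [hk]; rw [← hv]; ring) hx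
      exact ⟨y, fun _ => by rw [hy, mul_div_cancel_left₀ _ hk0]; exact hx⟩
    · exact ⟨0, fun h => absurd h hn⟩
  choose y hy using hy
  have hk0' : ((3 : ℂ) * k) ≠ 0 := by
    refine mul_ne_zero (by norm_num) ?_
    exact_mod_cast mul_ne_zero hkA hkB
  have happ' : ∀ ε : ℝ, 0 < ε → ∃ N : ℕ, ∀ n ≥ N, ∃ i,
      ‖(y (n + N₀) : ℂ) - ((C ((3 : ℂ) * k) * P i).comp (X + C (N₀ : ℂ))).eval (n : ℂ)‖ < ε := by
    intro ε hε
    obtain ⟨N, hN⟩ := happ (ε / ‖(3 : ℂ) * k‖) (div_pos hε (norm_pos_iff.2 hk0'))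
    refine ⟨N, fun n hn => ?_⟩
    have h0 := congrArg f (hy (n + N₀) (Nat.le_add_left _ _))
    rw [map_zero, map_psiThreeShort] at h0
    have hAe : f (A.eval ((n + N₀ : ℕ) : ℚ)) = (A.map f).eval ((n + N₀ : ℕ) : ℂ) := by
      rw [← map_natCast f, eval_map, eval₂_at_apply]
    have hBe : f (B.eval ((n + N₀ : ℕ) : ℚ)) = (B.map f).eval ((n + N₀ : ℕ) : ℂ) := by
      rw [← map_natCast f, eval_map, eval₂_at_apply]
    rw [hAe, hBe, map_div₀, map_mul, map_ofNat, map_intCast, map_intCast] at h0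
    obtain ⟨i, hi⟩ := hN (n + N₀) (by omega) _ h0
    refine ⟨i, ?_⟩
    rw [lt_div_iff₀ (norm_pos_iff.2 hk0'), ← norm_mul, sub_mul, div_mul_cancel₀ _ hk0'] at hi
    simp only [eval_comp, eval_mul, eval_C, eval_add, eval_X]
    rw [← Nat.cast_add, mul_comm]
    exact hi
  obtain ⟨q, hqd, S, hS, hqS⟩ := exists_poly_through_many_of_approx 10 41
    (fun i => (C ((3 : ℂ) * k) * P i).comp (X + C (N₀ : ℂ)))
    (fun i => by
      refine natDegree_comp_le.trans ?_
      rw [natDegree_X_add_C, mul_one]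
      exact (natDegree_C_mul_le _ _).trans (hP i))
    (fun n => y (n + N₀)) happ'
  set p : ℚ[X] := C ((3 * (k : ℚ))⁻¹) * q.comp (X - C (N₀ : ℚ)) with hp
  have hz : psiThreeShort A B p = 0 := by
    apply eq_zero_of_natDegree_lt_card_of_eval_eq_zero' _ (S.image fun n => ((n + N₀ : ℕ) : ℚ))
    · intro t ht
      obtain ⟨n, hn, rfl⟩ := Finset.mem_image.1 ht
      rw [← coe_evalRingHom, map_psiThreeShort, coe_evalRingHom]
      have : p.eval ((n + N₀ : ℕ) : ℚ) = (y (n + N₀) : ℚ) / (3 * k) := by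
        simp only [hp, eval_mul, eval_C, eval_comp, eval_sub, eval_X, Nat.cast_add,
          add_sub_cancel_right, hqS n hn]
        rw [inv_mul_eq_div]
      rw [this]
      exact hy (n + N₀) (Nat.le_add_left _ _)
    · rw [Finset.card_image_of_injective _ (fun u v h => by
        simpa using Nat.cast_injective (R := ℚ) h)]
      refine lt_of_le_of_lt ?_ (show 40 < S.card by omega)
      have hpd : p.natDegree ≤ 10 := by
        refine (natDegree_C_mul_le _ _).trans (natDegree_comp_le.trans ?_)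
        rw [natDegree_X_sub_C, mul_one]; exact hqd
      have h4 : ∀ (m : ℚ) (u : ℚ[X]) (d : ℕ), u.natDegree ≤ d → (C m * u).natDegree ≤ d :=
        fun m u d h => (natDegree_C_mul_le _ _).trans h
      have e : psiThreeShort A B p = C 3 * p ^ 4 - C 162 * (A * p ^ 2) - C 648 * (B * p)
          - C 729 * A ^ 2 := by
        simp only [psiThreeShort, map_ofNat]; ring
      rw [e]
      refine (natDegree_sub_le _ _).trans (max_le ((natDegree_sub_le _ _).trans (max_le
        ((natDegree_sub_le _ _).trans (max_le (h4 _ _ _ ?_) (h4 _ _ _ ?_))) (h4 _ _ _ ?_)))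
        (h4 _ _ _ ?_))
      · exact natDegree_pow_le.trans (by omega)
      · have := natDegree_pow_le (p := p) (n := 2)
        exact natDegree_mul_le.trans (by omega)
      · exact natDegree_mul_le.trans (by omega)
      · exact natDegree_pow_le.trans (by omega)
  have hzC := congrArg (Polynomial.map f) hz
  rw [Polynomial.map_zero, ← coe_mapRingHom, map_psiThreeShort, coe_mapRingHom] at hzC
  refine psiThreeShort_ne_zero_of_family (A.map f) (B.map f) (D.map f) (c := f c)
    ((map_ne_zero f).2 hc) (natDegree_map_le.trans hA) (natDegree_map_le.trans hB)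
    (by rw [natDegree_map]; exact hD) ?_ (hAD.map (mapRingHom f)) ?_ _ hzC
  · simpa using congrArg (Polynomial.map f) hrel
  · rw [derivative_map]; exact hsep.map (mapRingHom f)

theorem exists_int_multiple_param (A B D : ℚ[X]) {c : ℚ} (hc : c ≠ 0) (hA : A.natDegree ≤ 20)
    (hB : B.natDegree ≤ 30) (hD : D.natDegree = 12) (hrel : A ^ 3 - B ^ 2 = C c * D ^ 5)
    (hAD : IsCoprime A D) (hsep : IsCoprime D (derivative D)) {M : ℤ} (hM : M ≠ 0) :
    ∃ m : ℤ, D.eval ((M * m : ℤ) : ℚ) ≠ 0 ∧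
      ∀ x : ℚ, psiThreeShort (A.eval ((M * m : ℤ) : ℚ)) (B.eval ((M * m : ℤ) : ℚ)) x ≠ 0 := by
  classical
  have hM' : (M : ℚ) ≠ 0 := by exact_mod_cast hM
  set φ : ℚ[X] := C (M : ℚ) * X with hφ
  have hφd : φ.natDegree = 1 := natDegree_C_mul_X _ hM'
  have hD0 : D ≠ 0 := fun h => by simp [h] at hD
  obtain ⟨N₀, hN₀⟩ : ∃ N₀ : ℕ, ∀ n ≥ N₀, D.eval ((M : ℚ) * n) ≠ 0 := by
    obtain ⟨N₀, hN⟩ := (eventually_cofinite.2 <| by
      refine Set.Finite.subset ((D.roots.toFinset.finite_toSet).preimage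
        (f := fun n : ℕ => (M : ℚ) * n) fun a _ b _ h => ?_) ?_
      · exact_mod_cast mul_left_cancel₀ hM' h
      · intro n hn
        simpa [hD0] using hn : ∀ᶠ n : ℕ in cofinite, D.eval ((M : ℚ) * n) ≠ 0)
      |> fun h => (Nat.cofinite_eq_atTop ▸ h).exists_forall_of_atTop
    exact ⟨N₀, hN⟩
  obtain ⟨n, hn, hx⟩ := exists_nat_param_ge (A.comp φ) (B.comp φ) (D.comp φ) hc
    (by rw [natDegree_comp, hφd, mul_one]; exact hA)
    (by rw [natDegree_comp, hφd, mul_one]; exact hB)
    (by rw [natDegree_comp, hφd, mul_one]; exact hD)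
    (by simpa using congrArg (fun p : ℚ[X] => p.comp φ) hrel)
    (hAD.map (compRingHom φ))
    (by
      rw [derivative_comp, show derivative φ = C (M : ℚ) by simp [hφ]]
      exact (isCoprime_mul_unit_left_right ((isUnit_iff_ne_zero.2 hM').map C) _ _).2
        (hsep.map (compRingHom φ)))
    N₀
  refine ⟨n, ?_, fun x => ?_⟩
  · simpa using hN₀ n hn
  · simpa [hφ, eval_comp] using hx x

end FermatLib.Descent
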