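import Fermat.Prelude.Def_FLTPrelim_ModularRep
import Fermat.Agent.Descent.ThreeFiveParameter
import Fermat.Agent.Descent.Mod5Family
import Fermat.Agent.EC.RedVarChange

/-!
An integral semistable model of a well chosen member of the mod 5 family through `W`.
-/

set_option autoImplicit false

open Polynomial WeierstrassCurve WeierstrassCurve.Affine

namespace FermatLib.Descent

local notation "Ω" => AlgebraicClosure ℚ

/-- The model with invariants `(c₄ + 576 k, c₆ + 864 j)` and the same `a₁, a₂, a₃`. -/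
def switchModel (W : WeierstrassCurve ℤ) (k j : ℤ) : WeierstrassCurve ℤ :=
  ⟨W.a₁, W.a₂, W.a₃, W.a₄ - 12 * k, W.a₆ - W.b₂ * k - j⟩

theorem switchModel_c₄ (W : WeierstrassCurve ℤ) (k j : ℤ) :
    (switchModel W k j).c₄ = W.c₄ + 576 * k := by
  simp only [switchModel, c₄, b₂, b₄]; ring

theorem switchModel_c₆ (W : WeierstrassCurve ℤ) (k j : ℤ) :
    (switchModel W k j).c₆ = W.c₆ + 864 * j := by
  simp only [switchModel, c₆, b₂, b₄, b₆]; ring

theorem switchModel_reductionMod (W : WeierstrassCurve ℤ) {k j : ℤ} {p : ℕ} (hk : (p : ℤ) ∣ k)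
    (hj : (p : ℤ) ∣ j) : (switchModel W k j).reductionMod p = W.reductionMod p := by
  have hk' := (ZMod.intCast_zmod_eq_zero_iff_dvd k p).2 hk
  have hj' := (ZMod.intCast_zmod_eq_zero_iff_dvd j p).2 hj
  ext <;> simp [reductionMod, switchModel, hk', hj']

/-- The change of variables to `y² = x³ - 27 c₄ x - 54 c₆`. -/
def toShortModel (V : WeierstrassCurve ℚ) : VariableChange ℚ where
  u := Units.mk0 (1 / 6) (by norm_num)
  r := -V.b₂ / 12
  s := -V.a₁ / 2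
  t := V.a₁ * V.b₂ / 24 - V.a₃ / 2

theorem toShortModel_smul (V : WeierstrassCurve ℚ) :
    toShortModel V • V = shortModel V.c₄ V.c₆ := by
  rw [variableChange_def]
  ext <;> simp [toShortModel, shortModel, b₂, b₄, b₆, c₄, c₆] <;> ring

/-- A rational change of variables gives a Galois equivariant isomorphism on torsion. -/
theorem exists_torsion_equiv_of_variableChange (V V' : WeierstrassCurve ℚ)
    (C : VariableChange ℚ) (h : C • V = V') (n : ℕ) :
    ∃ e : Submodule.torsionBy ℤ (V'⁄Ω).Point (n : ℤ) ≃+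
        Submodule.torsionBy ℤ (V⁄Ω).Point (n : ℤ),
      ∀ (σ : Ω ≃ₐ[ℚ] Ω) (P : Submodule.torsionBy ℤ (V'⁄Ω).Point (n : ℤ)),
        e (σ • P) = σ • e P := by
  subst h
  have hb : ((C • V)⁄Ω) = (C.map (algebraMap ℚ Ω)) • (V⁄Ω) :=
    (map_variableChange (W := V) (C := C) (φ := algebraMap ℚ Ω)).symm
  obtain ⟨f, hf, hfsome⟩ : ∃ f : ((C • V)⁄Ω).Point ≃+ (V⁄Ω).Point, f 0 = 0 ∧
      ∀ x y h, ∃ h', f (.some x y h) =
        .some (EC.vcX (C.map (algebraMap ℚ Ω)) x) (EC.vcY (C.map (algebraMap ℚ Ω)) x y) h' := by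
    rw [hb]
    exact ⟨EC.vcEquiv _ _, map_zero _, fun x y h => ⟨_, EC.vcEquiv_some _ _ h⟩⟩
  have hσ : ∀ (σ : Ω ≃ₐ[ℚ] Ω) (P : ((C • V)⁄Ω).Point), f (σ • P) = σ • f P := by
    intro σ P
    rcases P with _ | ⟨x, y, h⟩
    · show f 0 = σ • f 0
      rw [hf]; rfl
    · obtain ⟨_, e1⟩ := hfsome x y h
      rw [e1, Point.algEquiv_smul_def, Point.algEquiv_smul_def, Point.map_some, Point.map_some]
      refine (hfsome _ _ _).choose_spec.trans ?_
      rw [Point.some.injEq]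
      simp [EC.vcX, EC.vcY]
  have hmem : ∀ P : ((C • V)⁄Ω).Point, P ∈ Submodule.torsionBy ℤ _ (n : ℤ) ↔
      f P ∈ Submodule.torsionBy ℤ _ (n : ℤ) := fun P => by
    rw [Submodule.mem_torsionBy_iff, Submodule.mem_torsionBy_iff, ← map_zsmul,
      EmbeddingLike.map_eq_zero_iff]
  refine ⟨{ toFun := fun P => ⟨f P, (hmem _).1 P.2⟩
            invFun := fun P => ⟨f.symm P, (hmem _).2 (by simp)⟩
            left_inv := fun P => Subtype.ext (f.symm_apply_apply _)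
            right_inv := fun P => Subtype.ext (f.apply_symm_apply _)
            map_add' := fun P Q => Subtype.ext (map_add f _ _) },
    fun σ P => Subtype.ext (hσ σ P)⟩

theorem exists_int_den (p : ℚ[X]) :
    ∃ (k : ℤ) (q : ℤ[X]), k ≠ 0 ∧ ∀ n : ℤ, (k : ℚ) * p.eval (n : ℚ) = (q.eval n : ℤ) := by
  obtain ⟨b, hb, hmap⟩ := IsLocalization.integerNormalization_spec
    (nonZeroDivisors ℤ) (S := ℚ) p
  refine ⟨b, IsLocalization.integerNormalization (nonZeroDivisors ℤ) p,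
    nonZeroDivisors.ne_zero hb, fun n => ?_⟩
  have h := congrArg (eval (n : ℚ)) hmap
  simp only [zsmul_eq_mul, algebraMap_int_eq, eval_intCast_map] at h
  simpa using h.symm

/-- Values at multiples of a suitable integer are congruent to the value at zero. -/
theorem exists_modulus_eval (p : ℚ[X]) (v : ℤ) (hv : p.eval 0 = v) :
    ∃ M : ℤ, M ≠ 0 ∧ ∀ d : ℤ, ∀ n : ℤ, M * d ∣ n → ∃ w : ℤ, p.eval (n : ℚ) = (v + d * w : ℤ) := by
  obtain ⟨k, q, hk, hq⟩ := exists_int_den p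
  refine ⟨k, hk, fun d n ⟨m, hm⟩ => ?_⟩
  obtain ⟨z, hz⟩ := sub_dvd_eval_sub n 0 q
  refine ⟨m * z, mul_left_cancel₀ (Int.cast_ne_zero.2 hk : (k : ℚ) ≠ 0) ?_⟩
  have h0 := hq 0
  rw [Int.cast_zero, hv] at h0
  have h0' : k * v = q.eval 0 := by exact_mod_cast h0
  rw [hq]
  norm_cast
  rw [sub_zero] at hz
  rw [hm] at hz ⊢
  linear_combination hz - h0'

theorem exists_switch_curve (W : WeierstrassCurve ℤ) (hΔ : W.Δ ≠ 0) (hW : W.IsSemistableModel)
    (N : ℤ) (hN : N ≠ 0) :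
    ∃ W' : WeierstrassCurve ℤ, W'.Δ ≠ 0 ∧ W'.IsSemistableModel ∧
      (∀ x : ℚ, psiThreeShort (W'.c₄ : ℚ) (W'.c₆ : ℚ) x ≠ 0) ∧
      (∀ p : ℕ, (p : ℤ) ∣ N → W'.reductionMod p = W.reductionMod p) ∧
      ∃ e : Submodule.torsionBy ℤ ((W.map (Int.castRingHom ℚ))⁄Ω).Point ((5 : ℕ) : ℤ) ≃+
          Submodule.torsionBy ℤ ((W'.map (Int.castRingHom ℚ))⁄Ω).Point ((5 : ℕ) : ℤ),
        ∀ (σ : Ω ≃ₐ[ℚ] Ω)
          (P : Submodule.torsionBy ℤ ((W.map (Int.castRingHom ℚ))⁄Ω).Point ((5 : ℕ) : ℤ)),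
          e (σ • P) = σ • e P := by
  set c : ℚ := (W.c₄ : ℚ) ^ 3 - (W.c₆ : ℚ) ^ 2 with hc
  have hrel0 : (1728 : ℚ) * W.Δ = c := by rw [hc]; exact_mod_cast W.c_relation
  have hc0 : c ≠ 0 := by rw [← hrel0]; exact mul_ne_zero (by norm_num) (by exact_mod_cast hΔ)
  obtain ⟨A, B, D, hA0, hB0, hD0, hA, hB, hD, hrel, hAD, hsep, hiso⟩ :=
    exists_five_family (W.c₄ : ℚ) (W.c₆ : ℚ) (sub_ne_zero.1 hc0)
  obtain ⟨α, β, hαβ⟩ := hAD
  obtain ⟨kα, qα, hkα, hα⟩ := exists_int_den α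
  obtain ⟨kβ, qβ, hkβ, hβ⟩ := exists_int_den β
  obtain ⟨MA, hMA, hA'⟩ := exists_modulus_eval A W.c₄ hA0
  obtain ⟨MB, hMB, hB'⟩ := exists_modulus_eval B W.c₆ hB0
  obtain ⟨MD, hMD, hD'⟩ := exists_modulus_eval D 1 (by simpa using hD0)
  set N' : ℤ := N * (kα * kβ) * W.Δ with hN'
  have hN'0 : N' ≠ 0 := mul_ne_zero (mul_ne_zero hN (mul_ne_zero hkα hkβ)) hΔ
  obtain ⟨m, hDm, hψ⟩ := exists_int_multiple_param A B D hc0 hA hB hD hrel ⟨α, β, hαβ⟩ hsep
    (M := MA * MB * MD * (576 * 864) * N')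
    (by simp only [mul_ne_zero_iff]; exact ⟨⟨⟨⟨hMA, hMB⟩, hMD⟩, by norm_num⟩, hN'0⟩)
  set n : ℤ := MA * MB * MD * (576 * 864) * N' * m with hn
  obtain ⟨k, hk⟩ := hA' (576 * N') n ⟨MB * MD * 864 * m, by rw [hn]; ring⟩
  obtain ⟨j, hj⟩ := hB' (864 * N') n ⟨MA * MD * 576 * m, by rw [hn]; ring⟩
  obtain ⟨d, hd⟩ := hD' N' n ⟨MA * MB * (576 * 864) * m, by rw [hn]; ring⟩
  set W' := switchModel W (N' * k) (N' * j) with hW'
  have h4 : (W'.c₄ : ℚ) = A.eval (n : ℚ) := by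
    rw [hW', switchModel_c₄, hk]; push_cast; ring
  have h6 : (W'.c₆ : ℚ) = B.eval (n : ℚ) := by
    rw [hW', switchModel_c₆, hj]; push_cast; ring
  have hΔ' : W'.Δ = W.Δ * (1 + N' * d) ^ 5 := by
    have h := congrArg (eval (n : ℚ)) hrel
    simp only [eval_sub, eval_pow, eval_mul, eval_C] at h
    rw [← h4, ← h6, hd] at h
    have h' : ((1728 * W'.Δ : ℤ) : ℚ) = ((1728 * (W.Δ * (1 + N' * d) ^ 5) : ℤ) : ℚ) := by
      rw [W'.c_relation]
      push_cast at h ⊢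
      rw [h, ← hc, ← hrel0]; ring
    exact mul_left_cancel₀ (by norm_num) (Int.cast_injective h')
  have hd0 : (1 + N' * d : ℤ) ≠ 0 := by
    intro h0
    rw [h0, Int.cast_zero] at hd
    exact hDm hd
  have hsemi : W'.IsSemistableModel := by
    intro p hp hpΔ hpc
    have hp' := Nat.prime_iff_prime_int.1 hp
    by_cases hpN : (p : ℤ) ∣ N'
    · have h1 : (p : ℤ) ∣ W.Δ := by
        rw [hΔ'] at hpΔ
        refine (hp'.dvd_or_dvd hpΔ).resolve_right fun h => hp'.not_dvd_one ?_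
        exact (dvd_add_left (hpN.mul_right d)).1 (hp'.dvd_of_dvd_pow h)
      refine hW p hp h1 ?_
      rw [hW', switchModel_c₄] at hpc
      exact (dvd_add_left ((hpN.mul_right k).mul_left 576)).1 hpc
    · rw [hΔ'] at hpΔ
      have hpd : (p : ℤ) ∣ 1 + N' * d := by
        refine hp'.dvd_of_dvd_pow ((hp'.dvd_or_dvd hpΔ).resolve_left fun h => hpN ?_)
        exact h.mul_left _
      have hbz : kα * kβ = qα.eval n * kβ * W'.c₄ + qβ.eval n * kα * (1 + N' * d) := by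
        have h := congrArg (eval (n : ℚ)) hαβ
        simp only [eval_add, eval_mul, eval_one] at h
        rw [← h4, hd] at h
        have e : ((kα * kβ : ℤ) : ℚ) =
            ((qα.eval n * kβ * W'.c₄ + qβ.eval n * kα * (1 + N' * d) : ℤ) : ℚ) := by
          push_cast at h ⊢
          rw [← hα, ← hβ]
          linear_combination (-((kα : ℚ) * kβ)) * h
        exact_mod_cast e
      refine hpN ?_
      have : (p : ℤ) ∣ kα * kβ := by
        rw [hbz]; exact dvd_add (hpc.mul_left _) (hpd.mul_left _)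
      rw [hN']
      exact (this.mul_left _).mul_right _
  refine ⟨W', by rw [hΔ']; exact mul_ne_zero hΔ (pow_ne_zero _ hd0), hsemi,
    fun x => by rw [h4, h6]; exact hψ x, fun p hp => ?_, ?_⟩
  · have : (p : ℤ) ∣ N' := by rw [hN']; exact (hp.mul_right _).mul_right _
    exact switchModel_reductionMod W (this.mul_right _) (this.mul_right _)
  obtain ⟨e₁, he₁⟩ := hiso (n : ℚ) hDm
  have hs : ∀ V : WeierstrassCurve ℤ,
      toShortModel (V.map (Int.castRingHom ℚ)) • V.map (Int.castRingHom ℚ) =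
        shortModel (V.c₄ : ℚ) (V.c₆ : ℚ) := fun V => by
    rw [toShortModel_smul, map_c₄, map_c₆]; rfl
  obtain ⟨e₀, he₀⟩ := exists_torsion_equiv_of_variableChange _ _ _ (hs W) 5
  obtain ⟨e₂, he₂⟩ := exists_torsion_equiv_of_variableChange _ _ _
    ((hs W').trans (by rw [h4, h6])) 5
  refine ⟨e₀.symm.trans (e₁.trans e₂), fun σ P => ?_⟩
  show e₂ (e₁ (e₀.symm (σ • P))) = σ • e₂ (e₁ (e₀.symm P))
  have h0 : e₀.symm (σ • P) = σ • e₀.symm P := by
    apply e₀.injective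
    rw [e₀.apply_symm_apply, he₀, e₀.apply_symm_apply]
  exact ((congrArg (fun z => e₂ (e₁ z)) h0).trans (congrArg e₂ (he₁ σ _))).trans (he₂ σ _)

end FermatLib.Descent
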