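import Fermat.Agent.Basic.FrobeniusExists
import Fermat.Agent.Descent.ThreeFiveModel
import Fermat.Agent.Descent.FiveLocalForms

/-!
Arithmetic helpers at the prime 2.
-/

set_option autoImplicit false

open Polynomial

namespace FermatLib.Descent

local notation "Ω" => AlgebraicClosure ℚ

theorem exists_two_pow_mul_odd {x : ℤ} (hx : x ≠ 0) :
    ∃ (e : ℕ) (M : ℤ), x = 2 ^ e * M ∧ Odd M := by
  induction h : x.natAbs using Nat.strong_induction_on generalizing x with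
  | _ n ih =>
    rcases Int.even_or_odd x with ⟨y, hy⟩ | hodd
    · obtain ⟨e, M, he, hM⟩ := ih y.natAbs (by omega) (x := y) (by omega) rfl
      exact ⟨e + 1, M, by rw [hy, he]; ring, hM⟩
    · exact ⟨0, x, by simp, hodd⟩

theorem exists_odd_modulus_eval (p : ℚ[X]) (v : ℤ) (hv : p.eval 0 = v) :
    ∃ (i : ℕ) (M : ℤ), Odd M ∧ ∀ d n : ℤ, M * d ∣ n →
      ∃ w : ℤ, (2 : ℚ) ^ i * p.eval (n : ℚ) = ((2 ^ i * v + d * w : ℤ) : ℚ) := by
  obtain ⟨k, q, hk, hq⟩ := exists_int_den p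
  obtain ⟨i, M, rfl, hM⟩ := exists_two_pow_mul_odd hk
  refine ⟨i, M, hM, fun d n ⟨m, hm⟩ => ?_⟩
  obtain ⟨z, hz⟩ := sub_dvd_eval_sub n 0 q
  have hM0 : (M : ℚ) ≠ 0 := Int.cast_ne_zero.2 fun h => by simp [h] at hM
  refine ⟨m * z, mul_left_cancel₀ hM0 ?_⟩
  have h0 := hq 0
  rw [Int.cast_zero, hv] at h0
  have h0' : 2 ^ i * M * v = q.eval 0 := by exact_mod_cast h0
  have h1 := hq n
  push_cast at h1
  rw [show (M : ℚ) * ((2 : ℚ) ^ i * p.eval (n : ℚ)) = (q.eval n : ℤ) by rw [← h1]; ring]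
  rw [sub_zero] at hz
  have e : q.eval n = M * (2 ^ i * v + d * (m * z)) := by
    rw [hm] at hz ⊢
    linear_combination hz - h0'
  exact_mod_cast e

/-- The valuation at a place over 2, on odd integers and in terms of `v 2`. -/
theorem exists_valuation_two :
    ∃ A : ValuationSubring Ω, A.valuation (2 : Ω) < 1 ∧
      (∀ M : ℤ, Odd M → A.valuation (M : Ω) = 1) := by
  obtain ⟨A, hA⟩ := Basic.exists_liesOverPrime Nat.prime_two
  have h2 : A.valuation (2 : Ω) < 1 := by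
    have : ((2 : ℕ) : Ω) ∈ A.nonunits := hA
    rwa [Nat.cast_ofNat, A.mem_nonunits_iff] at this
  refine ⟨A, h2, ?_⟩
  rintro M ⟨k, rfl⟩
  push_cast
  rw [Valuation.map_add_eq_of_lt_right, map_one]
  rw [map_one, map_mul]
  exact lt_of_le_of_lt (mul_le_mul' le_rfl (val_intCast_le_one A.valuation k))
    ((mul_one _).trans_lt h2)

variable {Γ : Type*} [LinearOrderedCommGroupWithZero Γ] {v : Valuation Ω Γ}

theorem val_two_pow_mul (hodd : ∀ M : ℤ, Odd M → v (M : Ω) = 1) (e : ℕ) {M : ℤ} (hM : Odd M) :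
    v ((2 ^ e * M : ℤ) : Ω) = v (2 : Ω) ^ e := by
  push_cast; rw [map_mul, map_pow, hodd M hM, mul_one]

theorem eq_two_pow_mul_odd_of_val (h2 : v (2 : Ω) < 1)
    (hodd : ∀ M : ℤ, Odd M → v (M : Ω) = 1) {z : ℤ} {k : ℕ}
    (h : v (z : Ω) = v (2 : Ω) ^ k) : ∃ M : ℤ, z = 2 ^ k * M ∧ Odd M := by
  have ha : 0 < v (2 : Ω) := v.pos_iff.2 two_ne_zero
  obtain ⟨e, M, rfl, hM⟩ := exists_two_pow_mul_odd (x := z) fun h0 => by
    rw [h0, Int.cast_zero, map_zero] at h; exact (pow_pos ha k).ne h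
  rw [val_two_pow_mul hodd e hM] at h
  exact ⟨M, by rw [pow_right_injective₀ ha h2.ne h], hM⟩

theorem two_pow_dvd_of_val_le (h2 : v (2 : Ω) < 1)
    (hodd : ∀ M : ℤ, Odd M → v (M : Ω) = 1) {z : ℤ} {k : ℕ}
    (h : v (z : Ω) ≤ v (2 : Ω) ^ k) : (2 : ℤ) ^ k ∣ z := by
  by_cases hz : z = 0
  · simp [hz]
  have ha : 0 < v (2 : Ω) := v.pos_iff.2 two_ne_zero
  obtain ⟨e, M, rfl, hM⟩ := exists_two_pow_mul_odd hz
  rw [val_two_pow_mul hodd e hM] at h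
  exact dvd_mul_of_dvd_left (pow_dvd_pow 2
    ((pow_le_pow_iff_right_of_lt_one₀ ha h2).1 h)) M

/-- A rational whose `2`-denominator is bounded and of valuation `v 2 ^ k` is `2 ^ k` times an odd
integer. -/
theorem exists_odd_eq_of_val (h2 : v (2 : Ω) < 1)
    (hodd : ∀ M : ℤ, Odd M → v (M : Ω) = 1) {r : ℚ} {i k : ℕ} {z : ℤ}
    (hz : (2 : ℚ) ^ i * r = z) (hr : v (algebraMap ℚ Ω r) = v (2 : Ω) ^ k) :
    ∃ y : ℤ, Odd y ∧ r = 2 ^ k * (y : ℚ) := by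
  have h : v (z : Ω) = v (2 : Ω) ^ (i + k) := by
    have := congrArg (algebraMap ℚ Ω) hz
    rw [map_mul, map_pow, map_ofNat, map_intCast] at this
    rw [← this, map_mul, map_pow, hr, pow_add]
  obtain ⟨y, rfl, hy⟩ := eq_two_pow_mul_odd_of_val h2 hodd h
  refine ⟨y, hy, mul_left_cancel₀ (pow_ne_zero i (two_ne_zero : (2 : ℚ) ≠ 0)) ?_⟩
  rw [hz, pow_add]; push_cast; ring

theorem emod_four_eq_three_of_val_le (h2 : v (2 : Ω) < 1)
    (hodd : ∀ M : ℤ, Odd M → v (M : Ω) = 1) (m : ℕ) {y c : ℤ} (hc : c % 4 = 3)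
    {j k l : ℕ} (hj : j = 2 * m) (hk : k = 4 * m) (hl : l = 4 * m + 2)
    (h : v (11 ^ j * -((2 : Ω) ^ k * (y : Ω)) - 12 ^ j * ((-c : ℤ) : Ω)) ≤ v (2 : Ω) ^ l) :
    y % 4 = 3 := by
  subst hj hk hl
  have ha : 0 < v (2 : Ω) := v.pos_iff.2 two_ne_zero
  have e : (11 : Ω) ^ (2 * m) * -((2 : Ω) ^ (4 * m) * (y : Ω)) - 12 ^ (2 * m) * ((-c : ℤ) : Ω)
      = (2 : Ω) ^ (4 * m) * (((9 ^ m * c - 121 ^ m * y : ℤ)) : Ω) := by
    rw [show (12 : Ω) = 2 ^ 2 * 3 by norm_num, mul_pow, ← pow_mul, pow_mul (11 : Ω),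
      pow_mul (3 : Ω)]
    push_cast
    norm_num [← mul_assoc]
    ring
  rw [e, map_mul, map_pow, pow_add] at h
  have h4 := two_pow_dvd_of_val_le h2 hodd (le_of_mul_le_mul_left h (pow_pos ha (4 * m)))
  have hz := (ZMod.intCast_zmod_eq_zero_iff_dvd (9 ^ m * c - 121 ^ m * y) 4).2 h4
  push_cast at hz
  rw [show (9 : ZMod 4) = 1 from rfl, show (121 : ZMod 4) = 1 from rfl, one_pow, one_mul, one_mul,
    sub_eq_zero, ZMod.intCast_eq_intCast_iff'] at hz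
  omega

end FermatLib.Descent
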