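import Fermat.Agent.Descent.ThreeFiveModel

/-!
Integral models with prescribed invariants that are multiplicative at 2 and, at 3, those of a
rescaling (by `1024⁻¹`) of a given model.
-/

set_option autoImplicit false

open WeierstrassCurve

namespace FermatLib.Descent

/-- CRT mixture: `y² + xy = x³ + α x²` modulo 256 and the `229`-rescaling of `W` modulo 243. -/
def fiveLocalBase (W : WeierstrassCurve ℤ) (α : ℤ) : WeierstrassCurve ℤ where
  a₁ := 14337 + 47872 * (229 * W.a₁)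
  a₂ := 14337 * α + 47872 * (229 ^ 2 * W.a₂)
  a₃ := 47872 * (229 ^ 3 * W.a₃)
  a₄ := 47872 * (229 ^ 4 * W.a₄)
  a₆ := 47872 * (229 ^ 6 * W.a₆)

theorem fiveLocalBase_two (W : WeierstrassCurve ℤ) (α : ℤ) :
    ((fiveLocalBase W α).c₄ : ZMod 256) = (1 + 4 * (α : ZMod 256)) ^ 2 ∧
      ((fiveLocalBase W α).c₆ : ZMod 256) = -(1 + 4 * (α : ZMod 256)) ^ 3 := by
  have h : (fiveLocalBase W α).map (Int.castRingHom (ZMod 256)) = ⟨1, (α : ZMod 256), 0, 0, 0⟩ := by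
    have e1 : (14337 : ZMod 256) = 1 := rfl
    have e2 : (47872 : ZMod 256) = 0 := rfl
    ext <;> simp [fiveLocalBase, e1, e2]
  constructor
  · rw [← eq_intCast (Int.castRingHom _) (fiveLocalBase W α).c₄, ← map_c₄, h]; simp [c₄, b₂, b₄]
  · rw [← eq_intCast (Int.castRingHom _) (fiveLocalBase W α).c₆, ← map_c₆, h]; simp [c₆, b₂, b₄, b₆]

theorem fiveLocalBase_three (W : WeierstrassCurve ℤ) (α : ℤ) :
    ((fiveLocalBase W α).c₄ : ZMod 243) = 229 ^ 4 * (W.c₄ : ZMod 243) ∧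
      ((fiveLocalBase W α).c₆ : ZMod 243) = 229 ^ 6 * (W.c₆ : ZMod 243) := by
  have h : (fiveLocalBase W α).map (Int.castRingHom (ZMod 243)) =
      ⟨229 * W.a₁, 229 ^ 2 * W.a₂, 229 ^ 3 * W.a₃, 229 ^ 4 * W.a₄, 229 ^ 6 * W.a₆⟩ := by
    have e1 : (14337 : ZMod 243) = 0 := rfl
    have e2 : (47872 : ZMod 243) = 1 := rfl
    ext <;> simp [fiveLocalBase, e1, e2] <;> norm_num
  constructor
  · rw [← eq_intCast (Int.castRingHom _) (fiveLocalBase W α).c₄, ← map_c₄, h]; simp [c₄, b₂, b₄]; ring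
  · rw [← eq_intCast (Int.castRingHom _) (fiveLocalBase W α).c₆, ← map_c₆, h]; simp [c₆, b₂, b₄, b₆]; ring

/-- An integral model with invariants `(u, w)`. -/
theorem exists_model_two_three (W : WeierstrassCurve ℤ) {u w : ℤ} (hu : Odd u) (hw : w % 4 = 3)
    (h12 : (4096 : ℤ) ∣ u ^ 3 - w ^ 2) (h4 : (243 : ℤ) ∣ 2 ^ 40 * u - W.c₄)
    (h6 : (243 : ℤ) ∣ 2 ^ 60 * w - W.c₆) :
    ∃ V : WeierstrassCurve ℤ, V.c₄ = u ∧ V.c₆ = w := by
  obtain ⟨u', hu'⟩ : ∃ u' : ℤ, (u : ZMod 256) * (u' : ZMod 256) = 1 := by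
    have hg : Nat.gcd u.natAbs 256 = 1 :=
      Nat.Coprime.pow_right 8 ((Nat.coprime_two_right).2 (Int.natAbs_odd.2 hu))
    have hunit : IsUnit (u : ZMod 256) := by
      refine (ZMod.coe_int_isUnit_iff_isCoprime u 256).2 ?_
      rw [Int.isCoprime_iff_gcd_eq_one, Int.gcd_comm]
      exact hg
    obtain ⟨x, hx⟩ := hunit.exists_right_inv
    exact ⟨x.val, by simpa using hx⟩
  set b : ℤ := -w * u' with hb
  have hu256 : (256 : ℤ) ∣ u * u' - 1 := by
    show ((256 : ℕ) : ℤ) ∣ u * u' - 1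
    rw [← ZMod.intCast_eq_intCast_iff_dvd_sub 1 (u * u') 256]; push_cast; exact hu'.symm
  have hu4 : u % 4 = 1 := by
    have h' : ((u ^ 3 - w ^ 2 : ℤ) : ZMod 4) = 0 :=
      (ZMod.intCast_zmod_eq_zero_iff_dvd _ 4).2 ((dvd_trans (by norm_num) h12))
    push_cast at h'
    rw [show ((w : ZMod 4)) = 3 by
      rw [show (3 : ZMod 4) = ((3 : ℤ) : ZMod 4) from rfl, ZMod.intCast_eq_intCast_iff']; omega]
      at h'
    have hu2 : u % 4 = 1 ∨ u % 4 = 3 := by obtain ⟨k, rfl⟩ := hu; omega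
    refine hu2.resolve_right fun h3 => ?_
    rw [show ((u : ZMod 4)) = 3 by
      rw [show (3 : ZMod 4) = ((3 : ℤ) : ZMod 4) from rfl, ZMod.intCast_eq_intCast_iff']; omega]
      at h'
    exact absurd h' (by decide)
  have hb4 : b % 4 = 1 := by
    have h1 : (u * u') % 4 = 1 := by omega
    have h2 : u' % 4 = 1 := by
      rw [Int.mul_emod, hu4, one_mul, Int.emod_emod] at h1; exact h1
    rw [hb, Int.mul_emod, h2, mul_one, Int.emod_emod]; omega
  obtain ⟨α, hα⟩ : ∃ α, b = 1 + 4 * α := ⟨(b - 1) / 4, by omega⟩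
  obtain ⟨t4, t6⟩ := fiveLocalBase_two W α
  obtain ⟨r4, r6⟩ := fiveLocalBase_three W α
  set V := fiveLocalBase W α
  have hb' : (1 + 4 * (α : ZMod 256)) = -(w : ZMod 256) * u' := by
    rw [show (1 + 4 * (α : ZMod 256)) = (b : ZMod 256) by rw [hα]; push_cast; ring, hb]
    push_cast; ring
  have h0 : (u : ZMod 256) ^ 3 = (w : ZMod 256) ^ 2 := by
    have := (ZMod.intCast_zmod_eq_zero_iff_dvd _ 256).2
      (show ((256 : ℕ) : ℤ) ∣ u ^ 3 - w ^ 2 from dvd_trans (by norm_num) h12)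
    push_cast at this
    exact sub_eq_zero.1 this
  rw [hb'] at t4 t6
  have c4two : (256 : ℤ) ∣ u - V.c₄ := by
    show ((256 : ℕ) : ℤ) ∣ u - V.c₄
    rw [← ZMod.intCast_eq_intCast_iff_dvd_sub V.c₄ u 256, t4]
    linear_combination (-(u' : ZMod 256) ^ 2) * h0 +
      (u : ZMod 256) * ((u : ZMod 256) * u' + 1) * hu'
  have c6two : (256 : ℤ) ∣ w - V.c₆ := by
    show ((256 : ℕ) : ℤ) ∣ w - V.c₆
    rw [← ZMod.intCast_eq_intCast_iff_dvd_sub V.c₆ w 256, t6]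
    linear_combination (-(w : ZMod 256) * (u' : ZMod 256) ^ 3) * h0 +
      (w : ZMod 256) * (((u : ZMod 256) * u') ^ 2 + (u : ZMod 256) * u' + 1) * hu'
  have einv : (229 : ZMod 243) * 1024 = 1 := rfl
  have c4three : (243 : ℤ) ∣ u - V.c₄ := by
    show ((243 : ℕ) : ℤ) ∣ u - V.c₄
    rw [← ZMod.intCast_eq_intCast_iff_dvd_sub V.c₄ u 243, r4]
    have h := (ZMod.intCast_zmod_eq_zero_iff_dvd _ 243).2 h4
    push_cast at h
    calc (229 : ZMod 243) ^ 4 * (W.c₄ : ZMod 243) = 229 ^ 4 * ((1024 : ZMod 243) ^ 4 * u) := by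
          congr 1; linear_combination -h
      _ = (u : ZMod 243) := by rw [← mul_assoc, ← mul_pow, einv, one_pow, one_mul]
  have c6three : (243 : ℤ) ∣ w - V.c₆ := by
    show ((243 : ℕ) : ℤ) ∣ w - V.c₆
    rw [← ZMod.intCast_eq_intCast_iff_dvd_sub V.c₆ w 243, r6]
    have h := (ZMod.intCast_zmod_eq_zero_iff_dvd _ 243).2 h6
    push_cast at h
    calc (229 : ZMod 243) ^ 6 * (W.c₆ : ZMod 243) = 229 ^ 6 * ((1024 : ZMod 243) ^ 6 * w) := by
          congr 1; linear_combination -h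
      _ = (w : ZMod 243) := by rw [← mul_assoc, ← mul_pow, einv, one_pow, one_mul]
  have hco : IsCoprime (256 : ℤ) 243 := Int.isCoprime_iff_gcd_eq_one.2 rfl
  obtain ⟨k, hk⟩ : (576 : ℤ) ∣ u - V.c₄ :=
    dvd_trans (by norm_num) (hco.mul_dvd c4two c4three)
  obtain ⟨j, hj⟩ : (864 : ℤ) ∣ w - V.c₆ :=
    dvd_trans (by norm_num) (hco.mul_dvd c6two c6three)
  exact ⟨switchModel V k j, by rw [switchModel_c₄]; linarith, by rw [switchModel_c₆]; linarith⟩

end FermatLib.Descent
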