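import Fermat.Agent.Descent.FiveLocalForms

/-!
The point of the pencil through `(x, y)` whose discriminant has `2`-adic valuation `6 n`.
-/

set_option autoImplicit false

namespace FermatLib.Descent

variable {K : Type*} [Field K] {Γ : Type*} [LinearOrderedCommGroupWithZero Γ] (v : Valuation K Γ)

theorem icoP1_eq (x y : K) : 11 * icoT x y * x - icoH x y * icoU x y =
    2 * 2 * (x ^ 6 * (2 * ((1023 : ℕ) * y ^ 25) + x ^ 5 * (((3 : ℕ) * (x ^ 20) +
      -(1395 : ℕ) * (x ^ 15 * y ^ 5)) + ((-(31155 : ℕ) * (x ^ 10 * y ^ 10) +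
      -(8835 : ℕ) * (x ^ 5 * y ^ 15)) + -(25110 : ℕ) * y ^ 20)))) := by
  simp only [icoT, icoH, icoU]; push_cast; ring

theorem icoP2_eq (x y : K) : 11 * icoT x y * y - icoH x y * icoV x y =
    2 * 2 * ((3 : ℕ) * y ^ 31) + 2 * 2 * (x ^ 5 * (((1395 : ℕ) * y ^ 26 +
      -(31155 : ℕ) * (x ^ 5 * y ^ 21)) + (((8835 : ℕ) * (x ^ 10 * y ^ 16) +
      -(25110 : ℕ) * (x ^ 15 * y ^ 11)) + -(2046 : ℕ) * (x ^ 20 * y ^ 6)))) := by
  simp only [icoT, icoH, icoV]; push_cast; ring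

theorem val_pow_thirty_one_sub_le {A B : K} {g : Γ} (hA : v A ≤ g) (hB : v B ≤ g) (m : ℕ) :
    v (A ^ (m + 1) - B ^ (m + 1)) ≤ v (A - B) * g ^ m := by
  induction m with
  | zero => simp
  | succ m ih =>
    rw [show A ^ (m + 1 + 1) - B ^ (m + 1 + 1)
        = A * (A ^ (m + 1) - B ^ (m + 1)) + (A - B) * B ^ (m + 1) by ring]
    refine v.map_add_le ?_ ?_
    · rw [map_mul]
      calc v A * v (A ^ (m + 1) - B ^ (m + 1)) ≤ g * (v (A - B) * g ^ m) := mul_le_mul' hA ih
        _ = v (A - B) * g ^ (m + 1) := by rw [pow_succ', mul_left_comm]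
    · rw [map_mul, map_pow]
      exact mul_le_mul' le_rfl (pow_le_pow_left₀ zero_le hB _)

/-- Valuations at the special point `z + t w` of the pencil, `w = (icoU z, icoV z)`. -/
theorem local_point_valuations {x y t : K} {n : ℕ} (hy : v y = 1) (hx : v x < 1) (hn : 1 ≤ n)
    (hq : v x ^ 5 = v (2 : K) ^ n) (h2 : v (2 : K) < 1) (h2' : (2 : K) ≠ 0)
    (hodd : ∀ m : ℕ, Odd m → v (m : K) = 1)
    (hδ : v (11 * icoT x y * t + icoH x y) = v (2 : K) ^ (n + 2)) :
    v (icoH (x + t * icoU x y) (y + t * icoV x y)) = v (2 : K) ^ 40 ∧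
    v (icoT (x + t * icoU x y) (y + t * icoV x y)) = v (2 : K) ^ 60 ∧
    v (icoF (x + t * icoU x y) (y + t * icoV x y)) = v (2 : K) ^ (n + 24) * v x ∧
    v (11 ^ 30 * icoT (x + t * icoU x y) (y + t * icoV x y) - 12 ^ 30 * icoT x y)
      ≤ v (2 : K) ^ 62 ∧
    icoF (icoU x y) (icoV x y) ≠ 0 := by
  set a := v (2 : K) with ha
  have h11 : v ((11 : ℕ) : K) = 1 := hodd 11 (by decide)
  have h3 : v ((3 : ℕ) : K) = 1 := hodd 3 (by decide)
  have ha0 : 0 < a := v.pos_iff.2 h2'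
  have hq0 : 0 < v x := by
    refine lt_of_le_of_ne zero_le fun h => (pow_pos ha0 n).ne ?_
    rw [← hq, ← h, zero_pow (by norm_num)]
  have hqn : v x ^ 5 ≤ a := hq.trans_le (pow_le_of_le_one zero_le h2.le (by omega))
  have han : a ^ n ≤ a := pow_le_of_le_one zero_le h2.le (by omega)
  have hm : ∀ i j, v (x ^ i * y ^ j) ≤ 1 := fun i j => by
    rw [map_mul, map_pow, map_pow, hy, one_pow, mul_one]; exact pow_le_one₀ zero_le hx.le
  have hc : ∀ (c : ℕ) (A : K), v A ≤ 1 → v (-(c : K) * A) ≤ 1 := fun c A hA =>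
    val_mul_le_of_le_one v (by rw [Valuation.map_neg]; exact val_natCast_le_one v c) hA
  have hc' : ∀ (c : ℕ) (A : K), v A ≤ 1 → v ((c : K) * A) ≤ 1 := fun c A hA =>
    val_mul_le_of_le_one v (val_natCast_le_one v c) hA
  have hTy : v (icoT x y - y ^ 30) ≤ a ^ 2 := by
    refine (val_icoT_sub v (hx.le.trans hy.ge) (by rw [hy, one_pow, mul_one]; exact hqn)).trans ?_
    rw [hy, one_pow, mul_one, pow_two]
    exact mul_le_mul' le_rfl hqn
  have hTv : v (icoT x y) = 1 := by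
    rw [← sub_add_cancel (icoT x y) (y ^ 30), Valuation.map_add_eq_of_lt_right, map_pow, hy,
      one_pow]
    rw [map_pow, hy, one_pow]
    exact lt_of_le_of_lt hTy (pow_lt_one₀ zero_le h2 (by norm_num))
  have hUv : v (icoU x y) = v x := val_icoU v hy hx h11
  have hVv : v (icoV x y) = 1 := val_icoV v hy hx
  have hne : icoF (icoU x y) (icoV x y) ≠ 0 := by
    intro h
    have h' := val_icoF v (x := icoU x y) (y := icoV x y) (by rw [hUv, hVv]; exact hx)
    rw [h, map_zero, hUv, hVv, one_pow, mul_one] at h'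
    exact hq0.ne h'
  set δ := 11 * icoT x y * t + icoH x y with hδdef
  set s := 11 * icoT x y with hs
  have hsv : v s = 1 := by
    rw [hs, show (11 : K) = ((11 : ℕ) : K) from (Nat.cast_ofNat).symm, map_mul, h11, hTv, one_mul]
  have hs0 : s ≠ 0 := fun h => by simp [h] at hsv
  set P₁ := s * (x + t * icoU x y) with hP₁
  set P₂ := s * (y + t * icoV x y) with hP₂
  have e₁ : P₁ = (11 * icoT x y * x - icoH x y * icoU x y) + δ * icoU x y := by
    rw [hP₁, hs, hδdef]; ring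
  have e₂ : P₂ = (11 * icoT x y * y - icoH x y * icoV x y) + δ * icoV x y := by
    rw [hP₂, hs, hδdef]; ring
  have v₁ : v P₁ = a ^ (n + 2) * v x := by
    rw [e₁, Valuation.map_add_eq_of_lt_right, map_mul, hδ, hUv]
    rw [map_mul, hδ, hUv, icoP1_eq, map_mul, map_mul, map_mul, map_pow]
    calc a * a * (v x ^ 6 * v _) ≤ a * a * (v x ^ 6 * a) := by
          refine mul_le_mul' le_rfl (mul_le_mul' le_rfl (v.map_add_le ?_ ?_))
          · rw [map_mul]
            exact (mul_le_mul' le_rfl (hc' 1023 _ (by simp [hy]))).trans_eq (mul_one a)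
          · rw [map_mul, map_pow]
            refine (mul_le_mul' hqn (v.map_add_le (v.map_add_le (hc' _ _ ?_) (hc _ _ (hm _ _)))
              (v.map_add_le (v.map_add_le (hc _ _ (hm _ _)) (hc _ _ (hm _ _)))
                (hc _ _ ?_)))).trans_eq (mul_one a)
            · simpa using hm 20 0
            · simpa using hm 0 20
      _ = a * (a ^ (n + 2) * v x) := by
          rw [pow_succ (v x) 5, hq, pow_add a n 2, pow_two]
          ac_rfl
      _ < a ^ (n + 2) * v x := by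
          exact (mul_lt_mul_of_pos_right h2 (mul_pos (pow_pos ha0 _) hq0)).trans_eq (one_mul _)
  have hd2 : v (P₂ - 2 * 2 * ((3 : ℕ) * y ^ 31)) ≤ a ^ 3 := by
    rw [e₂, icoP2_eq, add_assoc, add_sub_cancel_left]
    refine v.map_add_le ?_ ?_
    · rw [map_mul, map_mul, map_mul, map_pow, pow_succ a 2, pow_two]
      refine mul_le_mul' le_rfl ((mul_le_mul' hqn (v.map_add_le (v.map_add_le (hc' _ _ ?_)
        (hc _ _ (hm _ _))) (v.map_add_le (v.map_add_le (hc' _ _ (hm _ _)) (hc _ _ (hm _ _)))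
          (hc _ _ (hm _ _))))).trans_eq (mul_one a))
      simpa using hm 0 26
    · rw [map_mul, hδ, hVv, mul_one]
      exact pow_le_pow_of_le_one zero_le h2.le (by omega)
  have hc2 : v (2 * 2 * ((3 : ℕ) * y ^ 31) : K) = a ^ 2 := by
    rw [map_mul, map_mul, map_mul, h3, map_pow, hy, one_pow, mul_one, mul_one, pow_two]
  have h23 : a ^ 3 < a ^ 2 := pow_lt_pow_right_of_lt_one₀ ha0 h2 (by norm_num)
  have v₂ : v P₂ = a ^ 2 := by
    rw [← sub_add_cancel P₂ (2 * 2 * ((3 : ℕ) * y ^ 31)), Valuation.map_add_eq_of_lt_right, hc2]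
    rw [hc2]; exact lt_of_le_of_lt hd2 h23
  have h12 : v P₁ < v P₂ := by
    rw [v₁, v₂, pow_add, mul_right_comm]
    refine (mul_lt_mul_of_pos_right ?_ (pow_pos ha0 2)).trans_eq (one_mul _)
    calc a ^ n * v x ≤ 1 * v x := mul_le_mul' (han.trans h2.le) le_rfl
      _ < 1 := by rw [one_mul]; exact hx
  have hH : v (icoH (x + t * icoU x y) (y + t * icoV x y)) = a ^ 40 := by
    have := val_icoH v h12
    rw [hP₁, hP₂, icoH_smul, map_mul, map_pow, hsv, one_pow, one_mul, ← hP₂, v₂, ← pow_mul] at this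
    exact this
  have hF : v (icoF (x + t * icoU x y) (y + t * icoV x y)) = a ^ (n + 24) * v x := by
    have := val_icoF v h12
    rw [hP₁, hP₂, icoF_smul, map_mul, map_pow, hsv, one_pow, one_mul, ← hP₁, ← hP₂, v₂, v₁] at this
    rw [this, mul_right_comm, ← pow_mul, ← pow_add]
  -- congruence for `icoT`
  have hPT : v (icoT P₁ P₂ - P₂ ^ 30) ≤ a ^ 62 := by
    have h5 : v P₁ ^ 5 ≤ a * v P₂ ^ 5 := by
      rw [v₁, v₂, mul_pow, hq, ← pow_mul, ← pow_mul, ← pow_succ', ← pow_add]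
      exact pow_le_pow_of_le_one zero_le h2.le (by omega)
    refine (val_icoT_sub v h12.le h5).trans ?_
    rw [v₁, v₂, mul_pow, hq, ← pow_mul, ← pow_mul, ← pow_add, ← pow_add, ← pow_succ']
    exact pow_le_pow_of_le_one zero_le h2.le (by omega)
  have hP30 : v (P₂ ^ 30 - (2 * 2 * ((3 : ℕ) * y ^ 31)) ^ 30) ≤ a ^ 62 := by
    set c := (2 * 2 * ((3 : ℕ) * y ^ 31) : K) with hcdef
    have hsq : v (P₂ ^ 2 - c ^ 2) ≤ a ^ 6 := by
      rw [show P₂ ^ 2 - c ^ 2 = (P₂ - c) * ((P₂ - c) + 2 * c) by ring, map_mul,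
        show a ^ 6 = a ^ 3 * a ^ 3 from pow_add a 3 3]
      refine mul_le_mul' hd2 (v.map_add_le hd2 ?_)
      rw [map_mul, hc2, ← pow_succ']
    rw [show 30 = 2 * 15 from rfl, pow_mul, pow_mul]
    refine (val_pow_thirty_one_sub_le v (g := a ^ 4) ?_ ?_ 14).trans ?_
    · rw [map_pow, v₂, ← pow_mul]
    · rw [map_pow, hc2, ← pow_mul]
    · refine (mul_le_mul' hsq le_rfl).trans_eq ?_
      rw [← pow_mul, ← pow_add]
  have hy930 : v ((2 * 2 * ((3 : ℕ) * y ^ 31) : K) ^ 30 - 12 ^ 30 * icoT x y ^ 31) ≤ a ^ 62 := by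
    rw [show (2 * 2 * ((3 : ℕ) * y ^ 31) : K) ^ 30 - 12 ^ 30 * icoT x y ^ 31
        = 2 ^ 60 * (((3 : ℕ) : K) ^ 30 * ((y ^ 30) ^ (30 + 1) - icoT x y ^ (30 + 1))) by
      push_cast; ring, map_mul, map_mul, map_pow, map_pow, h3, one_pow, one_mul,
      show a ^ 62 = a ^ 60 * a ^ 2 from pow_add a 60 2]
    refine mul_le_mul' le_rfl ((val_pow_thirty_one_sub_le v (g := 1) ?_ ?_ 30).trans ?_)
    · rw [map_pow, hy, one_pow]
    · rw [hTv]
    · rw [one_pow, mul_one, Valuation.map_sub_swap]; exact hTy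
  have hcong : v (11 ^ 30 * icoT (x + t * icoU x y) (y + t * icoV x y) - 12 ^ 30 * icoT x y)
      ≤ a ^ 62 := by
    have h := v.map_add_le (v.map_add_le hPT hP30) hy930
    rw [hP₁, hP₂, icoT_smul,
      show ∀ A B C D : K, A - B + (B - C) + (C - D) = A - D from fun _ _ _ _ => by ring] at h
    have e : s ^ 30 * icoT (x + t * icoU x y) (y + t * icoV x y) - 12 ^ 30 * icoT x y ^ 31
        = icoT x y ^ 30 * (11 ^ 30 * icoT (x + t * icoU x y) (y + t * icoV x y)
            - 12 ^ 30 * icoT x y) := by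
      rw [hs]; ring
    rw [e, map_mul, map_pow, hTv, one_pow, one_mul] at h
    exact h
  refine ⟨hH, ?_, hF, hcong, hne⟩
  have h12v : v ((12 : K) ^ 30 * icoT x y) = a ^ 60 := by
    rw [show (12 : K) = 2 * 2 * ((3 : ℕ) : K) by norm_num, map_mul, map_pow, map_mul, map_mul, h3,
      hTv, mul_one, mul_one, ← pow_two, ← pow_mul]
  have h11p : v ((11 : K) ^ 30) = 1 := by
    rw [show (11 : K) = ((11 : ℕ) : K) from (Nat.cast_ofNat).symm, map_pow, h11, one_pow]
  have hlt : v (11 ^ 30 * icoT (x + t * icoU x y) (y + t * icoV x y) - 12 ^ 30 * icoT x y)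
      < v ((12 : K) ^ 30 * icoT x y) := by
    rw [h12v]; exact lt_of_le_of_lt hcong (pow_lt_pow_right_of_lt_one₀ ha0 h2 (by norm_num))
  have := Valuation.map_add_eq_of_lt_right v hlt
  rw [sub_add_cancel, map_mul, h11p, one_mul, h12v] at this
  exact this

end FermatLib.Descent
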