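import Mathlib

/-!
The 3-division polynomial of a curve `y² = x³ - 27 A(t) x - 54 B(t)` whose discriminant is a
fifth power of a squarefree polynomial of degree twelve: it has no polynomial root, and its roots
at large `t` are asymptotic to four polynomials of degree `≤ 10`.
-/

set_option autoImplicit false

open Polynomial

namespace FermatLib.Descent

/-- `3x⁴ - 162 a x² - 648 b x - 729 a²`, the `Ψ₃` of `y² = x³ - 27 a x - 54 b`. -/
def psiThreeShort {R : Type*} [CommRing R] (a b x : R) : R :=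
  3 * x ^ 4 - 162 * a * x ^ 2 - 648 * b * x - 729 * a ^ 2

theorem map_psiThreeShort {R S : Type*} [CommRing R] [CommRing S] (f : R →+* S) (a b x : R) :
    f (psiThreeShort a b x) = psiThreeShort (f a) (f b) (f x) := by
  simp [psiThreeShort, map_ofNat]

theorem natDegree_root_le {A B p : ℂ[X]} (hA : A.natDegree ≤ 20) (hB : B.natDegree ≤ 30)
    (hp : psiThreeShort A B p = 0) : p.natDegree ≤ 10 := by
  by_contra hd
  have h0 : p ≠ 0 := fun h => hd (by simp [h])
  have e : C (3 : ℂ) * p ^ 4 = C 162 * A * p ^ 2 + C 648 * B * p + C 729 * A ^ 2 := by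
    rw [psiThreeShort] at hp
    simp only [show (C (3 : ℂ)) = (3 : ℂ[X]) from map_ofNat C 3,
      show (C (162 : ℂ)) = (162 : ℂ[X]) from map_ofNat C 162,
      show (C (648 : ℂ)) = (648 : ℂ[X]) from map_ofNat C 648,
      show (C (729 : ℂ)) = (729 : ℂ[X]) from map_ofNat C 729]
    linear_combination hp
  have hl := congrArg natDegree e
  rw [natDegree_C_mul (by norm_num), natDegree_pow] at hl
  have h1 : (C (162 : ℂ) * A * p ^ 2).natDegree ≤ 20 + 2 * p.natDegree :=
    natDegree_mul_le.trans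
      (add_le_add ((natDegree_C_mul_le _ _).trans hA) natDegree_pow_le)
  have h2 : (C (648 : ℂ) * B * p).natDegree ≤ 30 + p.natDegree :=
    natDegree_mul_le.trans (add_le_add ((natDegree_C_mul_le _ _).trans hB) le_rfl)
  have h3 : (C (729 : ℂ) * A ^ 2).natDegree ≤ 40 :=
    (natDegree_C_mul_le _ _).trans (natDegree_pow_le.trans (by omega))
  have := (natDegree_add_le (C (162 : ℂ) * A * p ^ 2 + C 648 * B * p) (C 729 * A ^ 2))
  have := (natDegree_add_le (C (162 : ℂ) * A * p ^ 2) (C 648 * B * p))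
  omega

/-- The key algebraic fact: a generic member of the family has no rational stable line mod 3. -/
theorem psiThreeShort_ne_zero_of_family (A B D : ℂ[X]) {c : ℂ} (hc : c ≠ 0)
    (hA : A.natDegree ≤ 20) (hB : B.natDegree ≤ 30) (hD : D.natDegree = 12)
    (hrel : A ^ 3 - B ^ 2 = C c * D ^ 5) (hAD : IsCoprime A D)
    (hsep : IsCoprime D (derivative D)) (p : ℂ[X]) : psiThreeShort A B p ≠ 0 := by
  intro hp
  have hpd := natDegree_root_le hA hB hp
  set X₀ : ℂ[X] := C (1 / 3) * p with hX₀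
  set R₀ : ℂ[X] := C (1 / 216) * (p ^ 2 - 9 * A) with hR₀
  set S₀ : ℂ[X] := C (1 / 11664) * (p ^ 3 - 27 * A * p - 54 * B) with hS₀
  set U₀ : ℂ[X] := X₀ * R₀ - 27 * S₀ with hU₀
  have hp' : (3 : ℂ[X]) * p ^ 4 - 162 * A * p ^ 2 - 648 * B * p - 729 * A ^ 2 = 0 := hp
  have eXS : R₀ ^ 2 = X₀ * S₀ := by
    apply Polynomial.funext; intro t
    have := congrArg (eval t) hp'
    simp [hX₀, hR₀, hS₀] at this ⊢
    linear_combination (-(1 / 419904 : ℂ)) * this
  have eA : A = X₀ ^ 2 - 24 * R₀ := by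
    apply Polynomial.funext; intro t
    simp [hX₀, hR₀]; ring
  have eSU : C 1728 * (S₀ * U₀) = C c * D ^ 5 := by
    rw [← hrel, show (C (1728 : ℂ)) = (1728 : ℂ[X]) from map_ofNat C 1728]
    have eB : B = -X₀ ^ 3 + 36 * X₀ * R₀ - 216 * S₀ := by
      apply Polynomial.funext; intro t
      simp [hX₀, hR₀, hS₀]; ring
    rw [eB, eA, hU₀]
    linear_combination (-432 * X₀ ^ 2 + 13824 * R₀) * eXS
  have hD0 : D ≠ 0 := fun h => by simp [h] at hD
  have hSU0 : S₀ * U₀ ≠ 0 := by
    intro h
    rw [h, mul_zero, eq_comm, mul_eq_zero] at eSU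
    rcases eSU with h' | h'
    · exact hc (C_eq_zero.1 h')
    · exact hD0 (pow_eq_zero_iff (by norm_num) |>.1 h')
  have hS0 := left_ne_zero_of_mul hSU0
  have hU0 := right_ne_zero_of_mul hSU0
  have noroot : ∀ θ : ℂ, ¬ S₀.IsRoot θ := by
    intro θ hθ
    have hDθ : D.IsRoot θ := by
      have := congrArg (eval θ) eSU
      simpa [hθ.eq_zero, hc] using this.symm
    have hRθ : R₀.IsRoot θ := by
      have := congrArg (eval θ) eXS
      simpa [hθ.eq_zero] using this
    have hAθ : A.eval θ ≠ 0 := by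
      intro h
      obtain ⟨a, b, hab⟩ := hAD
      simpa [h, hDθ.eq_zero] using congrArg (eval θ) hab
    have hXθ : X₀.eval θ ≠ 0 := by
      intro h
      apply hAθ
      rw [eA]; simp [h, hRθ.eq_zero]
    have hX0 : X₀ ≠ 0 := fun h => hXθ (by simp [h])
    have hR0 : R₀ ≠ 0 := by
      intro h
      rw [h, zero_pow (two_ne_zero), eq_comm] at eXS
      exact (mul_ne_zero hX0 hS0) eXS
    have hDm : D.rootMultiplicity θ = 1 := by
      have hnd : D.rootMultiplicity θ ≤ 1 := rootMultiplicity_le_one_of_separable hsep θ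
      have := (rootMultiplicity_pos hD0).2 hDθ
      omega
    have hmX : X₀.rootMultiplicity θ = 0 := rootMultiplicity_eq_zero hXθ
    have hmS : 2 * R₀.rootMultiplicity θ = S₀.rootMultiplicity θ := by
      have := congrArg (rootMultiplicity θ) eXS
      rw [pow_two, rootMultiplicity_mul (mul_ne_zero hR0 hR0),
        rootMultiplicity_mul (mul_ne_zero hX0 hS0), hmX] at this
      omega
    have hmR : 0 < R₀.rootMultiplicity θ := (rootMultiplicity_pos hR0).2 hRθ
    obtain ⟨R₁, hR₁, hR₁θ⟩ := exists_eq_pow_rootMultiplicity_mul_and_not_dvd R₀ hR0 θ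
    obtain ⟨S₁, hS₁, -⟩ := exists_eq_pow_rootMultiplicity_mul_and_not_dvd S₀ hS0 θ
    set r := R₀.rootMultiplicity θ
    rw [← hmS] at hS₁
    have hUfac : U₀ = (X - C θ) ^ r * (X₀ * R₁ - 27 * ((X - C θ) ^ r * S₁)) := by
      rw [hU₀, hR₁, hS₁, two_mul, pow_add]; ring
    have hev : ¬ (X₀ * R₁ - 27 * ((X - C θ) ^ r * S₁)).IsRoot θ := by
      rw [dvd_iff_isRoot] at hR₁θ
      simp only [IsRoot.def, eval_sub, eval_mul, eval_pow, eval_X, eval_C, sub_self,
        zero_pow hmR.ne', zero_mul, mul_zero, sub_zero]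
      exact mul_ne_zero hXθ hR₁θ
    have hmU : U₀.rootMultiplicity θ = r := by
      rw [hUfac, rootMultiplicity_mul (by rw [← hUfac]; exact hU0),
        rootMultiplicity_X_sub_C_pow, rootMultiplicity_eq_zero hev, add_zero]
    have hm := congrArg (rootMultiplicity θ) eSU
    have hcD : C c * D ^ 5 ≠ 0 := mul_ne_zero (by simpa using hc) (pow_ne_zero _ hD0)
    rw [rootMultiplicity_mul (mul_ne_zero (by norm_num) hSU0), rootMultiplicity_mul hSU0,
      rootMultiplicity_mul hcD, rootMultiplicity_C, rootMultiplicity_C, hmU, ← hmS,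
      ← count_roots (D ^ 5), roots_pow, Multiset.count_nsmul, count_roots, hDm] at hm
    omega
  have hSd : S₀.natDegree = 0 := by
    by_contra h
    obtain ⟨θ, hθ⟩ := IsAlgClosed.exists_root S₀
      (by rw [degree_eq_natDegree hS0]; exact_mod_cast h)
    exact noroot θ hθ
  have hUd : U₀.natDegree ≤ 30 := by
    have hX1 : X₀.natDegree ≤ 10 := (natDegree_C_mul_le _ _).trans hpd
    have hR1 : R₀.natDegree ≤ 20 := by
      refine (natDegree_C_mul_le _ _).trans ((natDegree_sub_le _ _).trans (max_le ?_ ?_))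
      · exact natDegree_pow_le.trans (by omega)
      · exact natDegree_mul_le.trans (by rw [natDegree_ofNat]; omega)
    refine (natDegree_sub_le _ _).trans (max_le ?_ ?_)
    · exact natDegree_mul_le.trans (by omega)
    · exact natDegree_mul_le.trans (by rw [natDegree_ofNat, hSd]; omega)
  have := congrArg natDegree eSU
  rw [natDegree_C_mul (by norm_num), natDegree_mul hS0 hU0, natDegree_C_mul hc, natDegree_pow,
    hD, hSd] at this
  omega

end FermatLib.Descent
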