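import Mathlib.AlgebraicGeometry.EllipticCurve.Affine.Point
import Mathlib.FieldTheory.Galois.Infinite
import Mathlib.Tactic.FieldSimp
import Mathlib.Tactic.LinearCombination
import Fermat.Prelude.Def_FLTPrelim_GaloisRep

/-!
# Rational parametrisations of `X₀(3)` and `X₀(5)`

A Galois stable subgroup of order `3` (resp. `5`) of the points of a Weierstrass curve over `ℚ`
forces `j = (t+27)(t+3)^3/t` (resp. `j = (h^2+10h+5)^3/h`) for some nonzero rational `t` (resp. `h`).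
-/

open WeierstrassCurve WeierstrassCurve.Affine

namespace FermatLib.Descent

section Short

variable {F : Type*} [Field F] (W : WeierstrassCurve.Affine F)

/-- The abscissa on the short model attached to a point. -/
def shortX (x : F) : F := x + W.b₂ / 12

/-- The ordinate on the short model attached to a point. -/
def shortY (x y : F) : F := y + (W.a₁ * x + W.a₃) / 2

variable {W} [CharZero F]

theorem shortY_sq {x y : F} (h : W.Equation x y) :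
    shortY W x y ^ 2 = shortX W x ^ 3 + -W.c₄ / 48 * shortX W x + -W.c₆ / 864 := by
  rw [equation_iff] at h
  simp only [shortX, shortY, WeierstrassCurve.c₄, WeierstrassCurve.c₆, WeierstrassCurve.b₂,
    WeierstrassCurve.b₄, WeierstrassCurve.b₆]
  field_simp
  linear_combination 286654464 * h

theorem shortY_negY (x y : F) : shortY W x (W.negY x y) = -shortY W x y := by
  simp only [shortY, negY]
  ring

theorem shortY_eq_zero_iff {x y : F} : shortY W x y = 0 ↔ y = W.negY x y := by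
  simp only [shortY, negY]
  constructor
  · intro h; linear_combination 2 * h
  · intro h; linear_combination h / 2

variable [DecidableEq F]

theorem exists_short_double {x y : F} (h : W.Nonsingular x y)
    (h2 : Point.some x y h + Point.some x y h ≠ 0) :
    shortY W x y ≠ 0 ∧ ∃ x' y' h', Point.some x y h + Point.some x y h = Point.some x' y' h' ∧
      ∃ m : F, 2 * shortY W x y * m = 3 * shortX W x ^ 2 + -W.c₄ / 48 ∧
        shortX W x' = m ^ 2 - 2 * shortX W x ∧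
        shortY W x' y' = -(m * (shortX W x' - shortX W x) + shortY W x y) := by
  have hy : y ≠ W.negY x y := fun hy => h2 (Point.add_self_of_Y_eq hy)
  have hY : shortY W x y ≠ 0 := fun h0 => hy (shortY_eq_zero_iff.mp h0)
  refine ⟨hY, _, _, _, Point.add_self_of_Y_ne hy, W.slope x x y y + W.a₁ / 2, ?_, ?_, ?_⟩
  · have hslope : W.slope x x y y * (y - W.negY x y) =
        3 * x ^ 2 + 2 * W.a₂ * x + W.a₄ - W.a₁ * y := by
      rw [slope_of_Y_ne rfl hy, div_mul_cancel₀ _ (sub_ne_zero.mpr hy)]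
    simp only [shortX, shortY, negY, WeierstrassCurve.c₄, WeierstrassCurve.b₂,
      WeierstrassCurve.b₄] at *
    linear_combination hslope
  · simp only [shortX, addX, WeierstrassCurve.b₂]
    ring
  · simp only [shortX, shortY, addY, negAddY, addX, negY]
    ring

end Short

section Algebra

variable {F : Type*} [Field F] [CharZero F]

theorem identity_three {A B X Y m t : F} (hY : Y ≠ 0)
    (hm : 2 * Y * m = 3 * X ^ 2 + A) (hX : X = m ^ 2 - 2 * X)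
    (hB : Y ^ 2 = X ^ 3 + A * X + B) (ht : t = (3 * X ^ 2 + A) ^ 3 / (2 * (Y ^ 2) ^ 2) - 27) :
    (-48 * A) ^ 3 * t = -16 * (4 * A ^ 3 + 27 * B ^ 2) * ((t + 27) * (t + 3) ^ 3) := by
  obtain rfl : X = m ^ 2 / 3 := by linear_combination hX / 3
  obtain rfl : A = 2 * Y * m - 3 * (m ^ 2 / 3) ^ 2 := by linear_combination -hm
  obtain rfl : B = Y ^ 2 - (m ^ 2 / 3) ^ 3 - (2 * Y * m - 3 * (m ^ 2 / 3) ^ 2) * (m ^ 2 / 3) := by
    linear_combination -hB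
  subst ht
  field_simp
  ring

theorem identity_five {A B X₁ Y₁ X₂ Y₂ m₁ m₂ h : F} (hd : X₂ - X₁ ≠ 0)
    (ht₁ : 2 * Y₁ * m₁ = 3 * X₁ ^ 2 + A) (hX₂ : X₂ = m₁ ^ 2 - 2 * X₁)
    (hX₁ : X₁ = m₂ ^ 2 - 2 * X₂) (hY₂ : Y₂ = -(m₁ * (X₂ - X₁) + Y₁))
    (hY₁ : -Y₁ = -(m₂ * (X₁ - X₂) + Y₂)) (hB : Y₁ ^ 2 = X₁ ^ 3 + A * X₁ + B)
    (hh : h = (3 * (X₁ + X₂) ^ 2 + 4 * A) / (X₂ - X₁) ^ 2 - 10) :
    -48 * A = (h ^ 2 + 10 * h + 5) * (X₂ - X₁) ^ 2 ∧
      -16 * (4 * A ^ 3 + 27 * B ^ 2) = h * (X₂ - X₁) ^ 6 := by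
  obtain rfl : X₁ = (2 * m₁ ^ 2 - m₂ ^ 2) / 3 := by linear_combination (2 * hX₂ - hX₁) / 3
  obtain rfl : X₂ = (2 * m₂ ^ 2 - m₁ ^ 2) / 3 := by linear_combination hX₂
  obtain rfl : Y₁ = -(m₁ + m₂) * (m₂ ^ 2 - m₁ ^ 2) / 2 := by
    linear_combination (hY₂ - hY₁) / 2
  obtain rfl : A = 2 * (-(m₁ + m₂) * (m₂ ^ 2 - m₁ ^ 2) / 2) * m₁ -
      3 * ((2 * m₁ ^ 2 - m₂ ^ 2) / 3) ^ 2 := by linear_combination -ht₁
  obtain rfl : B = (-(m₁ + m₂) * (m₂ ^ 2 - m₁ ^ 2) / 2) ^ 2 - ((2 * m₁ ^ 2 - m₂ ^ 2) / 3) ^ 3 -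
      (2 * (-(m₁ + m₂) * (m₂ ^ 2 - m₁ ^ 2) / 2) * m₁ -
        3 * ((2 * m₁ ^ 2 - m₂ ^ 2) / 3) ^ 2) * ((2 * m₁ ^ 2 - m₂ ^ 2) / 3) := by
    linear_combination -hB
  have he : m₂ ^ 2 - m₁ ^ 2 ≠ 0 := fun h0 => hd (by linear_combination h0)
  rw [show (2 * m₂ ^ 2 - m₁ ^ 2) / 3 - (2 * m₁ ^ 2 - m₂ ^ 2) / 3 = m₂ ^ 2 - m₁ ^ 2 by ring] at hh ⊢
  subst hh
  constructor <;> field_simp <;> ring

theorem Δ_eq_short (W : WeierstrassCurve F) :
    W.Δ = -16 * (4 * (-W.c₄ / 48) ^ 3 + 27 * (-W.c₆ / 864) ^ 2) := by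
  linear_combination W.c_relation / 1728

end Algebra

section Rational

local notation "Ω" => AlgebraicClosure ℚ

variable {W : WeierstrassCurve ℚ}

theorem exists_rat_eq_of_forall_fixed {x : Ω} (h : ∀ σ : Ω ≃ₐ[ℚ] Ω, σ x = x) :
    ∃ q : ℚ, (q : Ω) = x := by
  obtain ⟨q, hq⟩ := (InfiniteGalois.mem_range_algebraMap_iff_fixed x).mpr h
  exact ⟨q, by rw [← hq, eq_ratCast]⟩

theorem map_shortX (σ : Ω ≃ₐ[ℚ] Ω) (x : Ω) :
    σ (shortX (W⁄Ω) x) = shortX (W⁄Ω) (σ x) := by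
  simp [shortX, WeierstrassCurve.baseChange, map_ofNat]

theorem map_c₄_eq (σ : Ω ≃ₐ[ℚ] Ω) : σ (W⁄Ω).c₄ = (W⁄Ω).c₄ := by
  simp [WeierstrassCurve.baseChange]

theorem X_eq_of_eq_or_eq_neg {F : Type*} [Field F] [DecidableEq F] {E : WeierstrassCurve.Affine F}
    {x y x' y' : F} {h : E.Nonsingular x y} {h' : E.Nonsingular x' y'}
    (hp : Point.some x y h = Point.some x' y' h' ∨ Point.some x y h = -Point.some x' y' h') :
    x = x' :=
  Point.X_eq_iff.mpr hp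

/-- A Galois stable subgroup of order `3` gives a rational point on `X₀(3)`. -/
theorem exists_c4_cube_mul_eq_of_stable_three (hΔ : W.Δ ≠ 0) (P : (W⁄Ω).Point) (hP : P ≠ 0)
    (h3 : 3 • P = 0) (hσ : ∀ σ : Ω ≃ₐ[ℚ] Ω, σ • P ∈ AddSubgroup.zmultiples P) :
    ∃ t : ℚ, t ≠ 0 ∧ W.c₄ ^ 3 * t = W.Δ * ((t + 27) * (t + 3) ^ 3) := by
  have hPP : P + P = -P := by
    rw [← eq_neg_of_add_eq_zero_left (a := P + P) (b := P)]
    rwa [succ_nsmul, two_nsmul] at h3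
  rcases P with _ | ⟨x, y, h⟩
  · exact absurd rfl hP
  obtain ⟨hY, x', y', h', hadd, m, hm, hx', -⟩ :=
    exists_short_double h (by rw [hPP]; simp)
  obtain rfl : x = x' := (X_eq_of_eq_or_eq_neg (.inr (by rw [← hPP, hadd]))).symm
  have hfix : ∀ σ : Ω ≃ₐ[ℚ] Ω, σ (shortX (W⁄Ω) x) = shortX (W⁄Ω) x := by
    intro σ
    obtain ⟨k, hk⟩ := hσ σ
    dsimp only at hk
    have hk' : σ • Point.some x y h = (k % 3) • Point.some x y h := by
      rw [← hk]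
      conv_lhs => rw [← Int.emod_add_ediv_mul k 3, add_zsmul, mul_zsmul]
      rw [ofNat_zsmul, h3, zsmul_zero, add_zero]
    rw [Point.algEquiv_smul_def, Point.map_some] at hk'
    rw [map_shortX]
    congr 1
    rcases (by omega : k % 3 = 0 ∨ k % 3 = 1 ∨ k % 3 = 2) with h0 | h0 | h0 <;> rw [h0] at hk'
    · rw [zero_zsmul] at hk'
      exact absurd hk' (Point.some_ne_zero _)
    · rw [one_zsmul] at hk'
      exact X_eq_of_eq_or_eq_neg (.inl hk')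
    · rw [two_zsmul, hPP] at hk'
      exact X_eq_of_eq_or_eq_neg (.inr hk')
  have hB := shortY_sq h.1
  have hfixY : ∀ σ : Ω ≃ₐ[ℚ] Ω, σ (shortY (W⁄Ω) x y ^ 2) = shortY (W⁄Ω) x y ^ 2 := by
    intro σ
    rw [hB]
    simp only [map_add, map_mul, map_pow, map_div₀, map_neg, map_ofNat, hfix σ]
    simp [WeierstrassCurve.baseChange]
  obtain ⟨t, ht⟩ := exists_rat_eq_of_forall_fixed
    (x := (3 * shortX (W⁄Ω) x ^ 2 + -(W⁄Ω).c₄ / 48) ^ 3 /
      (2 * (shortY (W⁄Ω) x y ^ 2) ^ 2) - 27) fun σ => by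
    simp only [map_sub, map_add, map_mul, map_div₀, map_ofNat, map_pow (f := σ), map_neg,
      hfix σ, map_c₄_eq σ]
    rw [← map_pow, hfixY]
  have key := identity_three hY hm hx' hB ht
  rw [← Δ_eq_short (W⁄Ω)] at key
  simp only [WeierstrassCurve.baseChange, map_c₄, map_Δ, eq_ratCast] at key
  have key' : W.c₄ ^ 3 * t = W.Δ * ((t + 27) * (t + 3) ^ 3) := by
    apply Rat.cast_injective (α := Ω)
    push_cast
    linear_combination key
  refine ⟨t, ?_, key'⟩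
  rintro rfl
  simp [hΔ] at key'

/-- A Galois stable subgroup of order `5` gives a rational point on `X₀(5)`. -/
theorem exists_c4_cube_mul_eq_of_stable_five (hΔ : W.Δ ≠ 0) (P : (W⁄Ω).Point) (hP : P ≠ 0)
    (h5 : 5 • P = 0) (hσ : ∀ σ : Ω ≃ₐ[ℚ] Ω, σ • P ∈ AddSubgroup.zmultiples P) :
    ∃ h : ℚ, h ≠ 0 ∧ W.c₄ ^ 3 * h = W.Δ * (h ^ 2 + 10 * h + 5) ^ 3 := by
  have h4 : P + P + (P + P) = -P := by
    rw [← eq_neg_of_add_eq_zero_left (a := P + P + (P + P)) (b := P)]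
    rw [← h5]; abel
  have hR : P + P ≠ 0 := fun h0 => hP (by rw [h0, add_zero] at h4; exact neg_eq_zero.mp h4.symm)
  have hRP : P + P ≠ P := fun h0 => hP (add_eq_left.mp h0)
  have hRP' : P + P ≠ -P := by
    intro h0
    rw [h0] at h4
    exact hP (neg_eq_zero.mp (add_eq_left.mp h4))
  rcases P with _ | ⟨x₁, y₁, h₁⟩
  · exact absurd rfl hP
  obtain ⟨-, x₂, y₂, h₂, hadd, m₁, hm₁, hX₂, hY₂⟩ := exists_short_double h₁ hR
  have hd : x₂ ≠ x₁ := by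
    intro e
    rcases (Point.X_eq_iff (h₁ := h₂) (h₂ := h₁)).mp e with h0 | h0
    · exact hRP (hadd.trans h0)
    · exact hRP' (hadd.trans h0)
  obtain ⟨-, x', y', h', hadd', m₂, -, hX₁, hY₁⟩ := exists_short_double h₂ (by
    rw [← hadd, h4]; simp)
  have hxy : Point.some x' y' h' = -Point.some x₁ y₁ h₁ := by rw [← hadd', ← hadd, h4]
  simp only [Point.neg_some, Point.some.injEq] at hxy
  obtain ⟨ex, ey⟩ := hxy
  subst ey
  subst x'
  rw [shortY_negY] at hY₁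
  have hswap : ∀ σ : Ω ≃ₐ[ℚ] Ω,
      (σ x₁ = x₁ ∧ σ x₂ = x₂) ∨ (σ x₁ = x₂ ∧ σ x₂ = x₁) := by
    intro σ
    obtain ⟨k, hk⟩ := hσ σ
    dsimp only at hk
    have hk' : σ • Point.some x₁ y₁ h₁ = (k % 5) • Point.some x₁ y₁ h₁ := by
      rw [← hk]
      conv_lhs => rw [← Int.emod_add_ediv_mul k 5, add_zsmul, mul_zsmul]
      rw [ofNat_zsmul, h5, zsmul_zero, add_zero]
    have hR' : σ • Point.some x₂ y₂ h₂ = (k % 5) • Point.some x₂ y₂ h₂ := by
      rw [← hadd, smul_add, hk', zsmul_add]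
    simp only [Point.algEquiv_smul_def, Point.map_some] at hk' hR'
    rcases (by omega : k % 5 = 0 ∨ k % 5 = 1 ∨ k % 5 = 2 ∨ k % 5 = 3 ∨ k % 5 = 4)
      with h0 | h0 | h0 | h0 | h0 <;> rw [h0] at hk' hR'
    · rw [zero_zsmul] at hk'
      exact absurd hk' (Point.some_ne_zero _)
    · rw [one_zsmul] at hk' hR'
      exact .inl ⟨X_eq_of_eq_or_eq_neg (.inl hk'), X_eq_of_eq_or_eq_neg (.inl hR')⟩
    · rw [two_zsmul, hadd] at hk'
      rw [two_zsmul, ← hadd, h4] at hR'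
      exact .inr ⟨X_eq_of_eq_or_eq_neg (.inl hk'), X_eq_of_eq_or_eq_neg (.inr hR')⟩
    · have e1 : (3 : ℤ) • Point.some x₁ y₁ h₁ = -Point.some x₂ y₂ h₂ := by
        rw [← hadd, eq_neg_iff_add_eq_zero, ofNat_zsmul, ← h5]; abel
      have e2 : (3 : ℤ) • Point.some x₂ y₂ h₂ = Point.some x₁ y₁ h₁ := by
        rw [← hadd, zsmul_add, e1, ← neg_add, ← hadd, h4, neg_neg]
      rw [e1] at hk'
      rw [e2] at hR'
      exact .inr ⟨X_eq_of_eq_or_eq_neg (.inr hk'), X_eq_of_eq_or_eq_neg (.inl hR')⟩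
    · have e1 : (4 : ℤ) • Point.some x₁ y₁ h₁ = -Point.some x₁ y₁ h₁ := by
        rw [eq_neg_iff_add_eq_zero, ofNat_zsmul, ← h5]; abel
      have e2 : (4 : ℤ) • Point.some x₂ y₂ h₂ = -Point.some x₂ y₂ h₂ := by
        rw [← hadd, zsmul_add, e1, neg_add]
      rw [e1] at hk'
      rw [e2] at hR'
      exact .inl ⟨X_eq_of_eq_or_eq_neg (.inr hk'), X_eq_of_eq_or_eq_neg (.inr hR')⟩
  obtain ⟨h, hh⟩ := exists_rat_eq_of_forall_fixed
    (x := (3 * (shortX (W⁄Ω) x₁ + shortX (W⁄Ω) x₂) ^ 2 + 4 * (-(W⁄Ω).c₄ / 48)) /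
      (shortX (W⁄Ω) x₂ - shortX (W⁄Ω) x₁) ^ 2 - 10) fun σ => by
    simp only [map_sub, map_add, map_mul, map_div₀, map_ofNat, map_pow, map_neg,
      map_shortX σ, map_c₄_eq σ]
    rcases hswap σ with ⟨e1, e2⟩ | ⟨e1, e2⟩ <;> rw [e1, e2]
    ring
  have hd' : shortX (W⁄Ω) x₂ - shortX (W⁄Ω) x₁ ≠ 0 := by
    simpa [shortX, sub_eq_zero] using hd
  obtain ⟨hA, hD⟩ := identity_five hd' hm₁ hX₂ hX₁ hY₂ hY₁ (shortY_sq h₁.1) hh
  rw [← Δ_eq_short (W⁄Ω)] at hD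
  have hA' : (W⁄Ω).c₄ =
      ((h : Ω) ^ 2 + 10 * h + 5) * (shortX (W⁄Ω) x₂ - shortX (W⁄Ω) x₁) ^ 2 := by
    linear_combination hA
  have key : (W⁄Ω).c₄ ^ 3 * (h : Ω) = (W⁄Ω).Δ * ((h : Ω) ^ 2 + 10 * h + 5) ^ 3 := by
    rw [hA', hD]; ring
  simp only [WeierstrassCurve.baseChange, map_c₄, map_Δ, eq_ratCast] at key
  refine ⟨h, ?_, Rat.cast_injective (α := Ω) (by push_cast; exact key)⟩
  rintro rfl
  simp [WeierstrassCurve.baseChange, hΔ] at hD

end Rational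

end FermatLib.Descent
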