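import Fermat.Prelude.Def_FLTPrelim_ModularRep
import Fermat.Agent.EC.Torsion

/-!
# A reducible mod `p` representation has a stable line spanned by a point
-/

open WeierstrassCurve WeierstrassCurve.Affine

namespace FermatLib.Descent

local notation "Ω" => AlgebraicClosure ℚ

theorem exists_stable_point_of_not_galoisRepIsIrreducible (W : WeierstrassCurve ℚ) (hΔ : W.Δ ≠ 0)
    {p : ℕ} (hp : p.Prime) (h : ¬ Point.GaloisRepIsIrreducible (K := Ω) ℚ W p) :
    ∃ P : (W⁄Ω).Point, P ≠ 0 ∧ p • P = 0 ∧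
      ∀ σ : Ω ≃ₐ[ℚ] Ω, σ • P ∈ AddSubgroup.zmultiples P := by
  have : W.IsElliptic := ⟨isUnit_iff_ne_zero.mpr hΔ⟩
  have : Fact p.Prime := ⟨hp⟩
  have hcard : Nat.card (Submodule.torsionBy ℤ (W⁄Ω).Point (p : ℤ)) = p ^ 2 :=
    FermatLib.EC.natCard_torsionBy_baseChange W (Nat.cast_ne_zero.mpr hp.ne_zero)
  have : Finite (Submodule.torsionBy ℤ (W⁄Ω).Point (p : ℤ)) :=
    Nat.finite_of_card_ne_zero (by rw [hcard]; exact pow_ne_zero 2 hp.ne_zero)
  have hnt : Nontrivial (Submodule.torsionBy ℤ (W⁄Ω).Point (p : ℤ)) :=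
    Finite.one_lt_card_iff_nontrivial.mp (by rw [hcard]; exact Nat.one_lt_pow two_ne_zero hp.one_lt)
  rw [Point.GaloisRepIsIrreducible] at h
  push Not at h
  obtain ⟨N, hN, hbot, htop⟩ := h hnt
  have hNcard : Nat.card N.toAddSubgroup = p := by
    obtain ⟨i, hi, hi'⟩ :=
      (Nat.dvd_prime_pow hp).mp (hcard ▸ AddSubgroup.card_addSubgroup_dvd_card N.toAddSubgroup)
    interval_cases i
    · rw [pow_zero] at hi'
      exact absurd ((Submodule.toAddSubgroup_inj N ⊥).mp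
        ((AddSubgroup.eq_bot_of_card_eq N.toAddSubgroup hi').trans
          Submodule.bot_toAddSubgroup.symm)) hbot
    · rw [hi', pow_one]
    · exact absurd ((Submodule.toAddSubgroup_inj N ⊤).mp
        ((AddSubgroup.eq_top_of_card_eq N.toAddSubgroup (hi'.trans hcard.symm)).trans
          Submodule.top_toAddSubgroup.symm)) htop
  obtain ⟨P, hPN, hP⟩ := Submodule.exists_mem_ne_zero_of_ne_bot hbot
  refine ⟨(P : (W⁄Ω).Point), fun h0 => hP (Subtype.ext h0), ?_, fun σ => ?_⟩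
  · rw [← natCast_zsmul]
    exact (Submodule.mem_torsionBy_iff _ _).mp P.2
  · have hmem : (⟨σ • P, hN σ P hPN⟩ : N.toAddSubgroup) ∈
        AddSubgroup.zmultiples (⟨P, hPN⟩ : N.toAddSubgroup) :=
      mem_zmultiples_of_prime_card hNcard (fun h0 => hP (congrArg Subtype.val h0))
    obtain ⟨k, hk⟩ := hmem
    refine ⟨k, ?_⟩
    exact congrArg (fun z : N.toAddSubgroup => ((z : Submodule.torsionBy ℤ (W⁄Ω).Point (p : ℤ)) :
      (W⁄Ω).Point)) hk

/-- If `E[p]` is not irreducible there is a point of order `p` spanning a Galois stable subgroup. -/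
theorem exists_stable_point_of_not_modRepIsIrreducible (W : WeierstrassCurve ℤ) (hΔ : W.Δ ≠ 0)
    {p : ℕ} (hp : p.Prime) (h : ¬ W.ModRepIsIrreducible p) :
    ∃ P : ((W.map (Int.castRingHom ℚ))⁄Ω).Point, P ≠ 0 ∧ p • P = 0 ∧
      ∀ σ : Ω ≃ₐ[ℚ] Ω, σ • P ∈ AddSubgroup.zmultiples P :=
  exists_stable_point_of_not_galoisRepIsIrreducible _
    (by rw [map_Δ]; simpa using hΔ) hp h

end FermatLib.Descent
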