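import Fermat.Prelude.Def_FLTPrelim_ModularRep
import Fermat.Agent.Descent.ThreeFivePsiThree
import Fermat.Agent.Descent.X0StablePoint
import Fermat.Agent.Descent.X0FiveThree

/-!
A curve whose 3-division polynomial has no rational root is irreducible mod 3.
-/

set_option autoImplicit false

open Polynomial WeierstrassCurve WeierstrassCurve.Affine

namespace FermatLib.Descent

local notation "Ω" => AlgebraicClosure ℚ

theorem psiThreeShort_c₄_c₆ {R : Type*} [CommRing R] (V : WeierstrassCurve R) (x : R) :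
    psiThreeShort V.c₄ V.c₆ (36 * x + 3 * V.b₂) = 36 ^ 4 * V.Ψ₃.eval x := by
  simp [psiThreeShort, WeierstrassCurve.Ψ₃, b₂, b₄, b₆, b₈, c₄, c₆]; ring

theorem exists_root_of_stable_point_three (V : WeierstrassCurve ℚ) (hΔ : V.Δ ≠ 0)
    (P : (V⁄Ω).Point) (hP0 : P ≠ 0) (hP3 : 3 • P = 0)
    (hstab : ∀ σ : Ω ≃ₐ[ℚ] Ω, σ • P ∈ AddSubgroup.zmultiples P) :
    ∃ x : ℚ, psiThreeShort V.c₄ V.c₆ x = 0 := by
  rcases P with _ | ⟨x, y, hxy⟩
  · exact absurd Point.zero_def.symm hP0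
  have h3 : (3 : ℤ) • Point.some x y hxy = 0 := by exact_mod_cast hP3
  have hfix : ∀ σ : Ω ≃ₐ[ℚ] Ω, σ x = x := by
    intro σ
    obtain ⟨k, hk⟩ := hstab σ
    have hk' : k % 3 = 0 ∨ k % 3 = 1 ∨ k % 3 = 2 := by omega
    have hred : k • Point.some x y hxy = (k % 3) • Point.some x y hxy := by
      conv_lhs => rw [← Int.emod_add_mul_ediv k 3]
      rw [add_zsmul, mul_comm (3 : ℤ), mul_zsmul, h3, zsmul_zero, add_zero]
    change k • Point.some x y hxy = _ at hk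
    rw [hred, Point.algEquiv_smul_def, Point.map_some] at hk
    rcases hk' with h0 | h1 | h2
    · rw [h0, zero_zsmul] at hk; exact absurd hk.symm (Point.some_ne_zero _)
    · rw [h1, one_zsmul, Point.some.injEq] at hk; exact hk.1.symm
    · have hn : (2 : ℤ) • Point.some x y hxy = -Point.some x y hxy := by
        rw [eq_neg_iff_add_eq_zero, ← add_one_zsmul]
        exact h3
      rw [h2, hn, Point.neg_some, Point.some.injEq] at hk; exact hk.1.symm
  obtain ⟨x₀, rfl⟩ : ∃ x₀, algebraMap ℚ Ω x₀ = x :=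
    (exists_rat_eq_of_forall_fixed hfix).imp fun q hq => by rw [eq_ratCast, hq]
  have : (V⁄Ω).IsElliptic := by
    refine ⟨?_⟩
    show IsUnit (V.map (algebraMap ℚ Ω)).Δ
    rw [map_Δ]
    exact (isUnit_iff_ne_zero.2 hΔ).map _
  have hΨ : ((V⁄Ω).ΨSq 3).eval (algebraMap ℚ Ω x₀) = 0 :=
    (EC.zsmul_some_eq_zero_iff hxy 3).1 h3
  rw [ΨSq_three, eval_pow, pow_eq_zero_iff two_ne_zero] at hΨ
  refine ⟨36 * x₀ + 3 * V.b₂, (algebraMap ℚ Ω).injective ?_⟩
  rw [map_zero, map_psiThreeShort, map_add, map_mul, map_mul, map_ofNat, map_ofNat]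
  have := psiThreeShort_c₄_c₆ (V⁄Ω) (algebraMap ℚ Ω x₀)
  rw [hΨ, mul_zero, show (V⁄Ω).c₄ = algebraMap ℚ Ω V.c₄ from map_c₄ V _,
    show (V⁄Ω).c₆ = algebraMap ℚ Ω V.c₆ from map_c₆ V _,
    show (V⁄Ω).b₂ = algebraMap ℚ Ω V.b₂ from map_b₂ V _] at this
  exact this

theorem modRepIsIrreducible_three_of_psiThree (W : WeierstrassCurve ℤ) (hΔ : W.Δ ≠ 0)
    (h : ∀ x : ℚ, psiThreeShort (W.c₄ : ℚ) (W.c₆ : ℚ) x ≠ 0) : W.ModRepIsIrreducible 3 := by
  by_contra hirr
  obtain ⟨P, hP0, hP3, hstab⟩ :=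
    exists_stable_point_of_not_modRepIsIrreducible W hΔ Nat.prime_three hirr
  obtain ⟨x, hx⟩ := exists_root_of_stable_point_three _ (by simpa using hΔ) P hP0 hP3 hstab
  exact h x (by simpa using hx)

end FermatLib.Descent
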