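import Fermat.Agent.Descent.ThreeFiveModel
import Fermat.Agent.Descent.ThreeFiveIrreducible
import Fermat.Agent.Basic.FrobeniusExists
import Fermat.Agent.EC.FrobeniusRelation
import Fermat.Agent.EC.Torsion

/-!
The three-five switch.
-/

set_option autoImplicit false

open WeierstrassCurve WeierstrassCurve.Affine

namespace FermatLib.Descent

local notation "Ω" => AlgebraicClosure ℚ

/-- Galois isomorphic `n`-torsion forces congruent Frobenius traces at good primes. -/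
theorem dvd_apOfModel_sub_of_equiv (W W' : WeierstrassCurve ℤ) (hΔ : W.Δ ≠ 0) {n : ℕ}
    (hn : n.Prime)
    (e : Submodule.torsionBy ℤ ((W.map (Int.castRingHom ℚ))⁄Ω).Point (n : ℤ) ≃+
      Submodule.torsionBy ℤ ((W'.map (Int.castRingHom ℚ))⁄Ω).Point (n : ℤ))
    (he : ∀ (σ : Ω ≃ₐ[ℚ] Ω)
      (P : Submodule.torsionBy ℤ ((W.map (Int.castRingHom ℚ))⁄Ω).Point (n : ℤ)),
        e (σ • P) = σ • e P)
    {ℓ : ℕ} (hℓ : ℓ.Prime) (hg : W.IsGoodPrimeFor ℓ) (hg' : W'.IsGoodPrimeFor ℓ) (hne : ℓ ≠ n) :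
    (n : ℤ) ∣ W'.apOfModel ℓ - W.apOfModel ℓ := by
  obtain ⟨A, hA⟩ := Basic.exists_liesOverPrime hℓ
  obtain ⟨σ, hσ⟩ := Basic.exists_isFrobeniusAt hℓ A hA
  have hdvd : ¬ ℓ ∣ n := fun h => hne ((Nat.prime_dvd_prime_iff_eq hℓ hn).1 h)
  have rel : ∀ (V : WeierstrassCurve ℤ), V.IsGoodPrimeFor ℓ →
      ∀ P : Submodule.torsionBy ℤ ((V.map (Int.castRingHom ℚ))⁄Ω).Point (n : ℤ),
        σ • σ • P - V.apOfModel ℓ • σ • P + (ℓ : ℤ) • P = 0 := fun V hV P =>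
    Subtype.ext (EC.frobenius_relation hℓ hV hA hσ hdvd P.1
      (by rw [← natCast_zsmul]; exact (Submodule.mem_torsionBy_iff _ _).1 P.2))
  have : (W.map (Int.castRingHom ℚ)).IsElliptic :=
    ⟨isUnit_iff_ne_zero.2 (by simpa using hΔ)⟩
  have hcard := EC.natCard_torsionBy_baseChange (K := Ω) (W.map (Int.castRingHom ℚ))
    (Nat.cast_ne_zero.2 hn.ne_zero : (n : Ω) ≠ 0)
  have : Finite (Submodule.torsionBy ℤ ((W.map (Int.castRingHom ℚ))⁄Ω).Point (n : ℤ)) :=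
    Nat.finite_of_card_ne_zero (by rw [hcard]; exact pow_ne_zero 2 hn.ne_zero)
  have : Nontrivial (Submodule.torsionBy ℤ ((W.map (Int.castRingHom ℚ))⁄Ω).Point (n : ℤ)) :=
    Finite.one_lt_card_iff_nontrivial.1
      (by rw [hcard]; exact Nat.one_lt_pow two_ne_zero hn.one_lt)
  obtain ⟨P, hP⟩ := exists_ne
    (0 : Submodule.torsionBy ℤ ((W.map (Int.castRingHom ℚ))⁄Ω).Point (n : ℤ))
  have h1 := congrArg e (rel W hg P)
  have h2 := rel W' hg' (e P)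
  simp only [map_add, map_sub, map_zsmul, map_zero, he] at h1
  set Q := σ • e P with hQ
  have hd : (W'.apOfModel ℓ - W.apOfModel ℓ) • Q = 0 := by
    have h := sub_eq_zero.2 (h1.trans h2.symm)
    rw [← h, sub_zsmul]
    abel
  have hQn : (n : ℤ) • Q = 0 := Subtype.ext ((Submodule.mem_torsionBy_iff _ _).1 Q.2)
  have hord : addOrderOf Q = n := by
    refine ((hn.eq_one_or_self_of_dvd _ ?_).resolve_left ?_)
    · exact addOrderOf_dvd_of_nsmul_eq_zero (by rw [← natCast_zsmul]; exact hQn)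
    · intro h
      rw [AddMonoid.addOrderOf_eq_one_iff, hQ] at h
      exact hP (e.injective (((smul_eq_zero_iff_eq σ).1 h).trans (map_zero e).symm))
  rw [← hord]
  exact addOrderOf_dvd_iff_zsmul_eq_zero.2 hd

theorem exists_three_five_switch (W : WeierstrassCurve ℤ) (hΔ : W.Δ ≠ 0)
    (hW : W.IsSemistableModel) :
    ∃ W' : WeierstrassCurve ℤ, W'.Δ ≠ 0 ∧ W'.IsSemistableModel ∧ W'.ModRepIsIrreducible 3 ∧
      ∀ ℓ : ℕ, ℓ.Prime → W.IsGoodPrimeFor ℓ → W'.IsGoodPrimeFor ℓ → ℓ ≠ 5 →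
        (5 : ℤ) ∣ (W'.apOfModel ℓ - W.apOfModel ℓ) := by
  obtain ⟨W', hΔ', hsemi, hψ, -, e, he⟩ := exists_switch_curve W hΔ hW 1 one_ne_zero
  exact ⟨W', hΔ', hsemi, modRepIsIrreducible_three_of_psiThree W' hΔ' hψ,
    fun ℓ hℓ hg hg' h5 =>
      dvd_apOfModel_sub_of_equiv W W' hΔ Nat.prime_five e he hℓ hg hg' h5⟩

end FermatLib.Descent
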