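import Fermat.Agent.Descent.FiveLocalArith
import Fermat.Agent.Descent.FiveLocalPoint
import Fermat.Agent.Descent.FiveLocalModel
import Fermat.Agent.Descent.ThreeFiveSwitch

/-!
The mod 5 switch with control at 2: the new curve is good at 2 or has `3 ∣ v₂(Δ)`.
-/

set_option autoImplicit false

open Polynomial WeierstrassCurve WeierstrassCurve.Affine

namespace FermatLib.Descent

local notation "Ω" => AlgebraicClosure ℚ

theorem padicValInt_two_pow_mul (e : ℕ) {M : ℤ} (hM : Odd M) : padicValInt 2 (2 ^ e * M) = e := by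
  have hM0 : M.natAbs ≠ 0 := by
    intro h; simp [Int.natAbs_eq_zero.1 h] at hM
  rw [padicValInt, Int.natAbs_mul, Int.natAbs_pow, show (2 : ℤ).natAbs = 2 from rfl,
    padicValNat.mul (pow_ne_zero _ two_ne_zero) hM0, padicValNat.prime_pow,
    padicValNat.eq_zero_of_not_dvd ((Int.natAbs_odd.2 hM).not_two_dvd_nat), add_zero]

theorem c₆_emod_four {W : WeierstrassCurve ℤ} (h : Odd W.c₄) : W.c₆ % 4 = 3 := by
  have hc4 : W.c₄ = W.b₂ ^ 2 - 24 * W.b₄ := rfl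
  have hb : Odd W.b₂ := by
    rw [hc4, Int.odd_sub] at h
    have h24 : Even (24 * W.b₄) := ⟨12 * W.b₄, by ring⟩
    exact (Int.odd_pow' two_ne_zero).1 (h.2 h24)
  have hb4 : ∃ k, W.b₂ = 4 * k + 1 := by
    rcases Int.even_or_odd W.a₁ with ⟨s, hs⟩ | ⟨s, hs⟩
    · rw [WeierstrassCurve.b₂, hs] at hb
      obtain ⟨r, hr⟩ := hb
      ring_nf at hr
      omega
    · exact ⟨s ^ 2 + s + W.a₂, by rw [WeierstrassCurve.b₂, hs]; ring⟩
  obtain ⟨k, hk⟩ := hb4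
  have : (4 : ℤ) ∣ W.c₆ + 1 := ⟨-(16 * k ^ 3 + 12 * k ^ 2 + 3 * k) + 9 * W.b₂ * W.b₄ - 54 * W.b₆,
    by rw [WeierstrassCurve.c₆, hk]; ring⟩
  omega

theorem switch_at_two_good (W : WeierstrassCurve ℤ) (hΔ : W.Δ ≠ 0) (hW : W.IsSemistableModel)
    (h2 : W.IsGoodPrimeFor 2) :
    ∃ W' : WeierstrassCurve ℤ, W'.Δ ≠ 0 ∧ W'.IsSemistableModel ∧ W'.IsGoodPrimeFor 2 ∧
      ((∀ q : ℕ, q.Prime → (q : ℤ) ∣ W.Δ → (q : ℤ) ∣ W'.Δ) ∧
        (¬ (5 : ℤ) ∣ W.Δ → ¬ (5 : ℤ) ∣ W'.Δ)) ∧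
      (∀ x : ℚ, psiThreeShort (W'.c₄ : ℚ) (W'.c₆ : ℚ) x ≠ 0) ∧
      ∃ e : Submodule.torsionBy ℤ ((W.map (Int.castRingHom ℚ))⁄Ω).Point ((5 : ℕ) : ℤ) ≃+
          Submodule.torsionBy ℤ ((W'.map (Int.castRingHom ℚ))⁄Ω).Point ((5 : ℕ) : ℤ),
        ∀ (σ : Ω ≃ₐ[ℚ] Ω)
          (P : Submodule.torsionBy ℤ ((W.map (Int.castRingHom ℚ))⁄Ω).Point ((5 : ℕ) : ℤ)),
          e (σ • P) = σ • e P := by
  obtain ⟨W', hΔ', hs, hψ, hred, he⟩ :=
    exists_switch_curve W hΔ hW (10 * W.Δ) (mul_ne_zero (by norm_num) hΔ)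
  have hiff : ∀ p : ℕ, (p : ℤ) ∣ 10 * W.Δ → ((p : ℤ) ∣ W'.Δ ↔ (p : ℤ) ∣ W.Δ) := by
    intro p hp
    have hr := congrArg WeierstrassCurve.Δ (hred p hp)
    simp only [reductionMod, map_Δ, eq_intCast] at hr
    rw [← ZMod.intCast_zmod_eq_zero_iff_dvd, ← ZMod.intCast_zmod_eq_zero_iff_dvd, hr]
  exact ⟨W', hΔ', hs, fun h => h2 ((hiff 2 (dvd_mul_of_dvd_left (by norm_num) _)).1 h),
    ⟨fun q _ h => (hiff q (h.mul_left 10)).2 h,
      fun h5 h => h5 ((hiff 5 (dvd_mul_of_dvd_left (by norm_num) _)).1 h)⟩, hψ, he⟩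

set_option maxRecDepth 8000 in
/-- The multiplicative case: the new discriminant has `2`-adic valuation `6 v₂(Δ)`. -/
theorem switch_at_two_multiplicative (W : WeierstrassCurve ℤ) (hΔ : W.Δ ≠ 0)
    (hW : W.IsSemistableModel) (h2 : (2 : ℤ) ∣ W.Δ) :
    ∃ W' : WeierstrassCurve ℤ, W'.Δ ≠ 0 ∧ W'.IsSemistableModel ∧
      padicValInt 2 W'.Δ = 6 * padicValInt 2 W.Δ ∧
      ((∀ q : ℕ, q.Prime → (q : ℤ) ∣ W.Δ → (q : ℤ) ∣ W'.Δ) ∧
        (¬ (5 : ℤ) ∣ W.Δ → ¬ (5 : ℤ) ∣ W'.Δ)) ∧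
      (∀ x : ℚ, psiThreeShort (W'.c₄ : ℚ) (W'.c₆ : ℚ) x ≠ 0) ∧
      ∃ e : Submodule.torsionBy ℤ ((W.map (Int.castRingHom ℚ))⁄Ω).Point ((5 : ℕ) : ℤ) ≃+
          Submodule.torsionBy ℤ ((W'.map (Int.castRingHom ℚ))⁄Ω).Point ((5 : ℕ) : ℤ),
        ∀ (σ : Ω ≃ₐ[ℚ] Ω)
          (P : Submodule.torsionBy ℤ ((W.map (Int.castRingHom ℚ))⁄Ω).Point ((5 : ℕ) : ℤ)),
          e (σ • P) = σ • e P := by
  obtain ⟨n, Δ₀, hΔ₀, hΔ₀odd⟩ := exists_two_pow_mul_odd hΔ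
  have hn : 1 ≤ n := by
    rcases n with _ | n
    · rw [hΔ₀, pow_zero, one_mul] at h2
      exact absurd h2 (Int.two_dvd_ne_zero.2 (Int.odd_iff.1 hΔ₀odd))
    · omega
  have hc4 : Odd W.c₄ := Int.odd_iff.2 (Int.two_dvd_ne_zero.1 (hW 2 Nat.prime_two h2))
  have hc6 := c₆_emod_four hc4
  obtain ⟨Av, hval2, hodd⟩ := exists_valuation_two
  set v := Av.valuation
  have hoddn : ∀ m : ℕ, Odd m → v (m : Ω) = 1 := fun m hm => by
    simpa using hodd m ((Int.odd_coe_nat m).2 hm)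
  set φ := algebraMap ℚ Ω with hφ
  set c : ℚ := (W.c₄ : ℚ) ^ 3 - (W.c₆ : ℚ) ^ 2 with hc
  have hrel0 : (1728 : ℚ) * W.Δ = c := by rw [hc]; exact_mod_cast W.c_relation
  have hc0 : c ≠ 0 := by rw [← hrel0]; exact mul_ne_zero (by norm_num) (by exact_mod_cast hΔ)
  obtain ⟨x, y, hH, hT, hy, hx, hF5⟩ := exists_point_near_cusp v (a := ((W.c₄ : ℤ) : Ω))
    (b := ((-W.c₆ : ℤ) : Ω)) (d := (W.Δ : Ω))
    (by rw [Int.cast_neg, neg_sq]; exact_mod_cast W.c_relation.symm)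
    (by exact_mod_cast hΔ) (hodd _ hc4) (by
      rw [hΔ₀, val_two_pow_mul hodd n hΔ₀odd]
      exact pow_lt_one₀ zero_le hval2 (by omega))
  have hFv : v (icoF x y) = v x := by
    rw [val_icoF v (hy ▸ hx), hy, one_pow, mul_one]
  have hq : v x ^ 5 = v (2 : Ω) ^ n := by
    have := congrArg v hF5
    rwa [map_pow, hFv, hΔ₀, val_two_pow_mul hodd n hΔ₀odd] at this
  have hxy : icoF x y ≠ 0 := fun h => by
    rw [h, map_zero] at hFv
    rw [← hFv, zero_pow (by norm_num)] at hq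
    exact (pow_ne_zero n (v.ne_zero_iff.2 two_ne_zero)) hq.symm
  have hcne : icoF (icoU x y + φ 0 * x) (icoV x y + φ 0 * y) ≠ 0 := by
    rw [map_zero, zero_mul, zero_mul, add_zero, add_zero]
    intro h
    have hUv := val_icoU v hy hx (hoddn 11 (by decide))
    have hVv := val_icoV v hy hx
    have h' := val_icoF v (x := icoU x y) (y := icoV x y) (by rw [hUv, hVv]; exact hx)
    rw [h, map_zero, hUv, hVv, one_pow, mul_one, ← hFv] at h'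
    exact hxy (v.zero_iff.1 h'.symm)
  obtain ⟨A, B, D, hA0, hB0, hD0, hA, hB, hD, hrel, hAD, hsep, hAl, hBl, hDl, hiso⟩ :=
    exists_five_family_at (W.c₄ : ℚ) (W.c₆ : ℚ) (sub_ne_zero.1 hc0) (u := x) (v := y)
      (by rw [hH, map_intCast]) (by rw [hT, ← Int.cast_neg, map_intCast]) 0 hcne
  obtain ⟨α, β, hαβ⟩ := hAD
  obtain ⟨kα, qα, hkα, hα⟩ := exists_int_den α
  obtain ⟨kβ, qβ, hkβ, hβ⟩ := exists_int_den β
  obtain ⟨eN, N₀, hN₀, hN₀odd⟩ :=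
    exists_two_pow_mul_odd (mul_ne_zero hkα hkβ)
  set N : ℤ := N₀ * Δ₀ * 1215 with hN
  have hNodd : Odd N := (hN₀odd.mul hΔ₀odd).mul (by decide)
  obtain ⟨iA, MA, hMA, hA'⟩ := exists_odd_modulus_eval A W.c₄ hA0
  obtain ⟨iB, MB, hMB, hB'⟩ := exists_odd_modulus_eval B W.c₆ hB0
  obtain ⟨iD, MD, hMD, hD'⟩ := exists_odd_modulus_eval D 1 (by simpa using hD0)
  set Q : ℤ := MA * MB * MD * N with hQ
  have hQodd : Odd Q := ((hMA.mul hMB).mul hMD).mul hNodd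
  have hXodd : Odd (11 * W.c₆ * Q) :=
    ((by decide : Odd (11 : ℤ)).mul (Int.odd_iff.2 (by omega))).mul hQodd
  obtain ⟨ai, bi, hab⟩ : IsCoprime (11 * W.c₆ * Q) ((2 : ℤ) ^ (n + 3)) := by
    refine IsCoprime.pow_right ?_
    obtain ⟨k, hk⟩ := hXodd
    exact ⟨1, -k, by rw [hk]; ring⟩
  set t₀ : ℤ := Q * (ai * (W.c₄ - 2 ^ (n + 2))) with ht₀
  set M : ℤ := 2 ^ (n + 3) * Q with hM
  obtain ⟨m, hDm, hψ⟩ := exists_int_multiple_param (A.comp (X + C (t₀ : ℚ)))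
    (B.comp (X + C (t₀ : ℚ))) (D.comp (X + C (t₀ : ℚ))) hc0
    (by rw [natDegree_comp, natDegree_X_add_C, mul_one]; exact hA)
    (by rw [natDegree_comp, natDegree_X_add_C, mul_one]; exact hB)
    (by rw [natDegree_comp, natDegree_X_add_C, mul_one]; exact hD)
    (by
      have := congrArg (fun p : ℚ[X] => p.comp (X + C (t₀ : ℚ))) hrel
      simp only [sub_comp, pow_comp, mul_comp, C_comp] at this
      exact this)
    (IsCoprime.map ⟨α, β, hαβ⟩ (compRingHom (X + C (t₀ : ℚ))))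
    (by
      rw [derivative_comp, show derivative (X + C (t₀ : ℚ)) = 1 by simp, one_mul]
      exact hsep.map (compRingHom (X + C (t₀ : ℚ))))
    (M := M) (mul_ne_zero (pow_ne_zero _ two_ne_zero) fun h => by simp [h] at hQodd)
  set t : ℤ := M * m + t₀ with ht
  simp only [eval_comp, eval_add, eval_X, eval_C, ← Int.cast_add, ← ht] at hDm hψ
  have hQt : Q ∣ t := ⟨2 ^ (n + 3) * m + ai * (W.c₄ - 2 ^ (n + 2)), by rw [ht, hM, ht₀]; ring⟩
  -- the congruence at 2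
  obtain ⟨s, hs⟩ : ∃ s, W.c₄ - 11 * W.c₆ * t = 2 ^ (n + 2) * (2 * s + 1) := by
    refine ⟨bi * (W.c₄ - 2 ^ (n + 2)) - 11 * W.c₆ * Q * m, ?_⟩
    rw [ht, hM, ht₀]
    linear_combination (-(W.c₄ - 2 ^ (n + 2))) * hab
  have hδ : v (11 * icoT x y * φ (t : ℚ) + icoH x y) = v (2 : Ω) ^ (n + 2) := by
    rw [hH, hT, map_intCast, ← val_two_pow_mul hodd (n + 2) (M := 2 * s + 1) ⟨s, rfl⟩, ← hs]
    congr 1; push_cast; ring
  obtain ⟨hvA, hvB, hvD, hcong, -⟩ :=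
    local_point_valuations v hy hx hn hq hval2 two_ne_zero hoddn hδ
  -- values of the pencil at `t`
  have hev : ∀ p : ℚ[X], φ (p.eval (t : ℚ)) = (p.map φ).eval (φ (t : ℚ)) := fun p => by
    rw [eval_map, eval₂_at_apply]
  have eA : φ (A.eval (t : ℚ)) = icoH (x + φ t * icoU x y) (y + φ t * icoV x y) := by
    rw [hev, hAl, ← coe_evalRingHom, map_icoH]; simp [hφ]; ring_nf
  have eB : φ (B.eval (t : ℚ)) = -icoT (x + φ t * icoU x y) (y + φ t * icoV x y) := by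
    rw [hev, hBl, ← coe_evalRingHom, map_neg, map_icoT]; simp [hφ]; ring_nf
  have eD : icoF x y * φ (D.eval (t : ℚ)) =
      icoF (x + φ t * icoU x y) (y + φ t * icoV x y) := by
    have h := congrArg (eval (φ (t : ℚ))) hDl
    rw [eval_mul, eval_C, ← hev] at h
    rw [h, ← coe_evalRingHom, map_icoF]; simp [hφ]; ring_nf
  have hvD' : v (φ (D.eval (t : ℚ))) = v (2 : Ω) ^ (n + 24) := by
    have h := congrArg v eD
    rw [map_mul, hFv, hvD, mul_comm] at h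
    exact mul_right_cancel₀ (fun h0 => hxy (v.zero_iff.1 (hFv.trans h0))) h
  obtain ⟨wA, hwA⟩ := hA' N t
    (dvd_trans ⟨MB * MD, by rw [hQ]; ring⟩ hQt)
  obtain ⟨wB, hwB⟩ := hB' N t
    (dvd_trans ⟨MA * MD, by rw [hQ]; ring⟩ hQt)
  obtain ⟨wD, hwD⟩ := hD' N t
    (dvd_trans ⟨MA * MB, by rw [hQ]; ring⟩ hQt)
  obtain ⟨y4, hy4odd, hy4⟩ := exists_odd_eq_of_val hval2 hodd hwA (k := 40) (by rw [eA, hvA])
  obtain ⟨y6, hy6odd, hy6⟩ := exists_odd_eq_of_val hval2 hodd hwB (k := 60)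
    (by rw [eB, Valuation.map_neg, hvB])
  obtain ⟨d₀, hd₀odd, hd₀⟩ := exists_odd_eq_of_val hval2 hodd hwD (k := n + 24) hvD'
  have hNA : N ∣ 2 ^ iA * (2 ^ 40 * y4 - W.c₄) := ⟨wA, by
    rw [hy4] at hwA
    have : (2 : ℤ) ^ iA * (2 ^ 40 * y4) = 2 ^ iA * W.c₄ + N * wA := by exact_mod_cast hwA
    linear_combination this⟩
  have hNB : N ∣ 2 ^ iB * (2 ^ 60 * y6 - W.c₆) := ⟨wB, by
    rw [hy6] at hwB
    have : (2 : ℤ) ^ iB * (2 ^ 60 * y6) = 2 ^ iB * W.c₆ + N * wB := by exact_mod_cast hwB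
    linear_combination this⟩
  have hND : N ∣ 2 ^ iD * (2 ^ (n + 24) * d₀ - 1) := ⟨wD, by
    rw [hd₀] at hwD
    have : (2 : ℤ) ^ iD * (2 ^ (n + 24) * d₀) = 2 ^ iD * 1 + N * wD := by exact_mod_cast hwD
    linear_combination this⟩
  have hN2 : IsCoprime N 2 := by
    obtain ⟨k, hk⟩ := hNodd
    exact ⟨1, -k, by rw [hk]; ring⟩
  replace hNA := (hN2.pow_right (n := iA)).dvd_of_dvd_mul_left hNA
  replace hNB := (hN2.pow_right (n := iB)).dvd_of_dvd_mul_left hNB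
  replace hND := (hN2.pow_right (n := iD)).dvd_of_dvd_mul_left hND
  -- the discriminant
  have hΔ' : y4 ^ 3 - y6 ^ 2 = 1728 * (2 ^ (6 * n) * (Δ₀ * d₀ ^ 5)) := by
    have h := congrArg (eval (t : ℚ)) hrel
    simp only [eval_sub, eval_pow, eval_mul, eval_C] at h
    rw [hy4, hy6, hd₀, ← hc, ← hrel0, hΔ₀] at h
    refine mul_left_cancel₀ (pow_ne_zero 120 (two_ne_zero : (2 : ℤ) ≠ 0)) ?_
    have h' : ((2 ^ 120 * (y4 ^ 3 - y6 ^ 2) : ℤ) : ℚ) =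
        ((2 ^ 120 * (1728 * (2 ^ (6 * n) * (Δ₀ * d₀ ^ 5))) : ℤ) : ℚ) := by
      push_cast at h ⊢
      rw [show 6 * n = n + n * 5 by ring]
      linear_combination h
    exact_mod_cast h'
  -- the sign at 2
  have hy6mod : y6 % 4 = 3 := by
    have e2 : φ (B.eval (t : ℚ)) = 2 ^ 60 * (y6 : Ω) := by
      rw [hy6, map_mul, map_pow, map_ofNat, map_intCast]
    have e3 : icoT (x + φ t * icoU x y) (y + φ t * icoV x y) = -(2 ^ 60 * (y6 : Ω)) := by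
      rw [← e2, eB, neg_neg]
    rw [e3, hT] at hcong
    exact emod_four_eq_three_of_val_le hval2 hodd 15 hc6 (j := 30) (k := 60) (l := 62) rfl rfl rfl
      hcong
  have h243 : (243 : ℤ) ∣ N := dvd_mul_of_dvd_right (by norm_num) _
  obtain ⟨W', hW'4, hW'6⟩ := exists_model_two_three W hy4odd hy6mod
    (by
      rw [hΔ']
      refine dvd_trans ?_ (mul_dvd_mul (by norm_num : (64 : ℤ) ∣ 1728)
        ((pow_dvd_pow (2 : ℤ) (show 6 ≤ 6 * n by omega)).trans (dvd_mul_right _ _)))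
      norm_num)
    (h243.trans hNA) (h243.trans hNB)
  have hW'Δ : W'.Δ = 2 ^ (6 * n) * (Δ₀ * d₀ ^ 5) := by
    refine mul_left_cancel₀ (by norm_num : (1728 : ℤ) ≠ 0) ?_
    rw [W'.c_relation, hW'4, hW'6, hΔ']
  have hprododd : Odd (Δ₀ * d₀ ^ 5) := hΔ₀odd.mul hd₀odd.pow
  have hψ' : ∀ z : ℚ, psiThreeShort (W'.c₄ : ℚ) (W'.c₆ : ℚ) z ≠ 0 := by
    intro z hz
    refine hψ (2 ^ 20 * z) ?_
    rw [hy4, hy6]
    rw [hW'4, hW'6] at hz
    have e : psiThreeShort ((2 : ℚ) ^ 40 * y4) (2 ^ 60 * y6) (2 ^ 20 * z) =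
        2 ^ 80 * psiThreeShort (y4 : ℚ) (y6 : ℚ) z := by
      simp only [psiThreeShort]; ring
    rw [e, hz, mul_zero]
  have hkeep : (∀ q : ℕ, q.Prime → (q : ℤ) ∣ W.Δ → (q : ℤ) ∣ W'.Δ) ∧
      (¬ (5 : ℤ) ∣ W.Δ → ¬ (5 : ℤ) ∣ W'.Δ) := by
    rw [hW'Δ, hΔ₀]
    refine ⟨fun q hq h => ?_, fun h5 h => ?_⟩
    · rcases (Nat.prime_iff_prime_int.1 hq).dvd_or_dvd h with h' | h'
      · exact (h'.trans (pow_dvd_pow _ (by omega))).trans (dvd_mul_right _ _)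
      · exact (h'.trans (dvd_mul_right _ _)).mul_left _
    · have h5p : Prime (5 : ℤ) := by norm_num
      rcases h5p.dvd_or_dvd h with h' | h'
      · exact absurd (h5p.dvd_of_dvd_pow h') (by norm_num)
      rcases h5p.dvd_or_dvd h' with h' | h'
      · exact h5 (h'.mul_left _)
      · have h5N : (5 : ℤ) ∣ N := dvd_mul_of_dvd_right (by norm_num) _
        have := dvd_sub ((h5p.dvd_of_dvd_pow h').mul_left (2 ^ (n + 24))) (h5N.trans hND)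
        rw [sub_sub_cancel] at this
        exact h5p.not_dvd_one this
  refine ⟨W', ?_, ?_, ?_, hkeep, hψ', ?_⟩
  · rw [hW'Δ]; exact mul_ne_zero (pow_ne_zero _ two_ne_zero) fun h => by simp [h] at hprododd
  · intro p hp hpΔ hpc
    rw [hW'4] at hpc
    have hp' := Nat.prime_iff_prime_int.1 hp
    rcases hp.eq_two_or_odd' with rfl | hpodd
    · exact Int.two_dvd_ne_zero.2 (Int.odd_iff.1 hy4odd) hpc
    have hp2 : ∀ k : ℕ, ¬ (p : ℤ) ∣ 2 ^ k := fun k h => by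
      have := Int.natCast_dvd_natCast.1 (show ((p : ℕ) : ℤ) ∣ ((2 : ℕ) : ℤ) by
        exact_mod_cast hp'.dvd_of_dvd_pow h)
      rw [(Nat.prime_dvd_prime_iff_eq hp Nat.prime_two).1 this] at hpodd
      exact absurd hpodd (by decide)
    rw [hW'Δ] at hpΔ
    replace hpΔ := (hp'.dvd_or_dvd hpΔ).resolve_left (hp2 _)
    by_cases hpN : (p : ℤ) ∣ N
    · have hpc4 : (p : ℤ) ∣ W.c₄ := by
        have h := dvd_sub (hpc.mul_left (2 ^ 40)) (hpN.trans hNA)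
        rwa [sub_sub_cancel] at h
      have hd1 : ¬ (p : ℤ) ∣ d₀ := fun h => hp'.not_dvd_one (by
        have h' := dvd_sub (h.mul_left (2 ^ (n + 24))) (hpN.trans hND)
        rwa [sub_sub_cancel] at h')
      refine hW p hp ?_ hpc4
      rw [hΔ₀]
      exact ((hp'.dvd_or_dvd hpΔ).resolve_right fun h => hd1 (hp'.dvd_of_dvd_pow h)).mul_left _
    · have hpd : (p : ℤ) ∣ d₀ := hp'.dvd_of_dvd_pow ((hp'.dvd_or_dvd hpΔ).resolve_left fun h =>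
        hpN (h.trans ⟨N₀ * 1215, by rw [hN]; ring⟩))
      have hbz : kα * kβ =
          qα.eval t * kβ * (2 ^ 40 * y4) + qβ.eval t * kα * (2 ^ (n + 24) * d₀) := by
        have h := congrArg (eval (t : ℚ)) hαβ
        simp only [eval_add, eval_mul, eval_one] at h
        rw [hy4, hd₀] at h
        have e : ((kα * kβ : ℤ) : ℚ) = ((qα.eval t * kβ * (2 ^ 40 * y4) +
            qβ.eval t * kα * (2 ^ (n + 24) * d₀) : ℤ) : ℚ) := by
          push_cast at h ⊢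
          rw [← hα, ← hβ]
          linear_combination (-((kα : ℚ) * kβ)) * h
        exact_mod_cast e
      have hpk : (p : ℤ) ∣ kα * kβ := by
        rw [hbz]
        exact dvd_add ((hpc.mul_left _).mul_left _) ((hpd.mul_left _).mul_left _)
      rw [hN₀] at hpk
      exact hpN (((hp'.dvd_or_dvd hpk).resolve_left (hp2 _)).trans
        ⟨Δ₀ * 1215, by rw [hN]; ring⟩)
  · rw [hW'Δ, padicValInt_two_pow_mul _ hprododd, hΔ₀, padicValInt_two_pow_mul _ hΔ₀odd]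
  obtain ⟨e₁, he₁⟩ := hiso (t : ℚ) hDm
  obtain ⟨e₀, he₀⟩ := exists_torsion_equiv_of_variableChange _ _ _
    (show toShortModel (W.map (Int.castRingHom ℚ)) • W.map (Int.castRingHom ℚ) =
      shortModel (W.c₄ : ℚ) (W.c₆ : ℚ) by rw [toShortModel_smul, map_c₄, map_c₆]; rfl) 5
  set Cs : VariableChange ℚ := ⟨Units.mk0 (1 / 2 ^ 10) (by norm_num), 0, 0, 0⟩
  obtain ⟨e₂, he₂⟩ := exists_torsion_equiv_of_variableChange _ _
    (Cs * toShortModel (W'.map (Int.castRingHom ℚ)))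
    (show (Cs * toShortModel (W'.map (Int.castRingHom ℚ))) • W'.map (Int.castRingHom ℚ) =
      shortModel (A.eval (t : ℚ)) (B.eval (t : ℚ)) by
      rw [mul_smul, toShortModel_smul, map_c₄, map_c₆, hW'4, hW'6, hy4, hy6, variableChange_def]
      ext <;> simp [Cs, shortModel] <;> ring) 5
  refine ⟨e₀.symm.trans (e₁.trans e₂), fun σ P => ?_⟩
  show e₂ (e₁ (e₀.symm (σ • P))) = σ • e₂ (e₁ (e₀.symm P))
  have h0 : e₀.symm (σ • P) = σ • e₀.symm P := by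
    apply e₀.injective
    rw [e₀.apply_symm_apply, he₀, e₀.apply_symm_apply]
  exact ((congrArg (fun z => e₂ (e₁ z)) h0).trans (congrArg e₂ (he₁ σ _))).trans (he₂ σ _)

/-- The mod 5 switch with control at 2. -/
theorem exists_five_switch_at_two (W : WeierstrassCurve ℤ) (hΔ : W.Δ ≠ 0)
    (hW : W.IsSemistableModel) :
    ∃ W' : WeierstrassCurve ℤ, W'.Δ ≠ 0 ∧ W'.IsSemistableModel ∧ W'.ModRepIsIrreducible 3 ∧
      (W'.IsGoodPrimeFor 2 ∨ 3 ∣ padicValInt 2 W'.Δ) ∧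
      ((∀ q : ℕ, q.Prime → (q : ℤ) ∣ W.Δ → (q : ℤ) ∣ W'.Δ) ∧
        (¬ (5 : ℤ) ∣ W.Δ → ¬ (5 : ℤ) ∣ W'.Δ)) ∧
      ∀ ℓ : ℕ, ℓ.Prime → W.IsGoodPrimeFor ℓ → W'.IsGoodPrimeFor ℓ → ℓ ≠ 5 →
        (5 : ℤ) ∣ (W'.apOfModel ℓ - W.apOfModel ℓ) := by
  by_cases h2 : (2 : ℤ) ∣ W.Δ
  · obtain ⟨W', hΔ', hs, hv, hk, hψ, e, he⟩ := switch_at_two_multiplicative W hΔ hW h2
    exact ⟨W', hΔ', hs, modRepIsIrreducible_three_of_psiThree W' hΔ' hψ,
      Or.inr (by rw [hv]; exact dvd_mul_of_dvd_left (by norm_num) _), hk,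
      fun ℓ hℓ hg hg' h5 => dvd_apOfModel_sub_of_equiv W W' hΔ Nat.prime_five e he hℓ hg hg' h5⟩
  · obtain ⟨W', hΔ', hs, hgood, hk, hψ, e, he⟩ :=
      switch_at_two_good W hΔ hW (by exact_mod_cast h2)
    exact ⟨W', hΔ', hs, modRepIsIrreducible_three_of_psiThree W' hΔ' hψ, Or.inl hgood, hk,
      fun ℓ hℓ hg hg' h5 => dvd_apOfModel_sub_of_equiv W W' hΔ Nat.prime_five e he hℓ hg hg' h5⟩

end FermatLib.Descent
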