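import Fermat.Agent.Descent.FiveLocalSwitch
import Fermat.Agent.MLT.SwitchChain

/-!
The input `FiveSwitchAtTwo` of the switch chain.
-/

set_option autoImplicit false

namespace FermatLib.Descent

theorem fiveSwitchAtTwo : MLT.FiveSwitchAtTwo := fun W hΔ hW _ => by
  obtain ⟨W', hΔ', hs, h3, h2, hkeep, hcong⟩ := exists_five_switch_at_two W hΔ hW
  exact ⟨W', hΔ', hs, h3, h2, hcong, hkeep.2, fun q hq _ h => hkeep.1 q hq h⟩

end FermatLib.Descent
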