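import Mathlib

/-! Elementary splitting lemma for small descents (used for the exponents 5 and 7). -/

set_option autoImplicit false

namespace FermatLib.Descent

/-- A product of coprime integers equal to a prime power times a fourth power. -/
theorem split_primePow_fourth {u v n : ℤ} {l k : ℕ} (hl : l.Prime) (hn : n ≠ 0)
    (huv : IsCoprime u v) (h : u * v = (l : ℤ) ^ k * n ^ 4) :
    ∃ c e : ℤ, n = c * e ∧ IsCoprime c e ∧
      ((u = c ^ 4 ∧ v = (l : ℤ) ^ k * e ^ 4) ∨ (v = c ^ 4 ∧ u = (l : ℤ) ^ k * e ^ 4) ∨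
       (u = -c ^ 4 ∧ v = -((l : ℤ) ^ k * e ^ 4)) ∨ (v = -c ^ 4 ∧ u = -((l : ℤ) ^ k * e ^ 4))) := by
  wlog hlu : ¬ (l : ℤ) ∣ u generalizing u v
  · have hlv : ¬ (l : ℤ) ∣ v := fun hv => by
      have hunit := huv.isUnit_of_dvd' (not_not.mp hlu) hv
      exact hl.ne_one (by simpa [Int.isUnit_iff_natAbs_eq] using hunit)
    obtain ⟨c, e, h1, h2, h3⟩ := this huv.symm (by rw [mul_comm, h]) hlv
    exact ⟨c, e, h1, h2, by tauto⟩
  have hcop : IsCoprime ((l : ℤ) ^ k) u :=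
    ((Nat.prime_iff_prime_int.mp hl).coprime_iff_not_dvd.mpr hlu).pow_left
  obtain ⟨v', rfl⟩ : (l : ℤ) ^ k ∣ v := hcop.dvd_of_dvd_mul_left ⟨n ^ 4, h⟩
  have hlk : ((l : ℤ) ^ k) ≠ 0 := pow_ne_zero _ (by exact_mod_cast hl.ne_zero)
  have h' : u * v' = n ^ 4 := mul_left_cancel₀ hlk (by rw [← h]; ring)
  have huv' : IsCoprime u v' := huv.of_mul_right_right
  obtain ⟨c, hc⟩ := exists_associated_pow_of_mul_eq_pow' huv' h'
  obtain ⟨e, he⟩ := exists_associated_pow_of_mul_eq_pow' huv'.symm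
    (show v' * u = n ^ 4 by rw [mul_comm, h'])
  have hpos : 0 < n ^ 4 := by positivity
  have key : (u = c ^ 4 ∧ v' = e ^ 4) ∨ (u = -c ^ 4 ∧ v' = -e ^ 4) := by
    rw [Int.associated_iff] at hc he
    have hc4 : 0 ≤ c ^ 4 := by positivity
    have he4 : 0 ≤ e ^ 4 := by positivity
    rcases hc with hc | hc <;> rcases he with he | he
    · exact Or.inl ⟨hc.symm, he.symm⟩
    · exfalso; nlinarith
    · exfalso; nlinarith
    · exact Or.inr ⟨by linarith, by linarith⟩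
  have hce : (c * e) ^ 4 = n ^ 4 := by
    rcases key with ⟨rfl, rfl⟩ | ⟨rfl, rfl⟩ <;> linear_combination h'
  have hcop' : IsCoprime c e := by
    have : IsCoprime (c ^ 4) (e ^ 4) := by
      rcases key with ⟨rfl, rfl⟩ | ⟨rfl, rfl⟩
      · exact huv'
      · exact (IsCoprime.neg_left_iff _ _).mp ((IsCoprime.neg_right_iff _ _).mp huv')
    exact (IsCoprime.pow_iff (by norm_num) (by norm_num)).mp this
  rcases (pow_eq_pow_iff_cases (n := 4)).mp hce with h0 | h0 | ⟨h0, -⟩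
  · omega
  · refine ⟨c, e, h0.symm, hcop', ?_⟩
    rcases key with ⟨rfl, rfl⟩ | ⟨rfl, rfl⟩
    · exact Or.inl ⟨rfl, rfl⟩
    · exact Or.inr (Or.inr (Or.inl ⟨rfl, by ring⟩))
  · refine ⟨-c, e, by linarith, hcop'.neg_left, ?_⟩
    rw [Even.neg_pow (by decide)]
    rcases key with ⟨rfl, rfl⟩ | ⟨rfl, rfl⟩
    · exact Or.inl ⟨rfl, rfl⟩
    · exact Or.inr (Or.inr (Or.inl ⟨rfl, by ring⟩))

end FermatLib.Descent
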