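import Fermat.Prelude.Def_FLTPrelim_CofixedLine
import Fermat.Agent.EC.Torsion
import Fermat.Agent.Descent.X0FiveThree
import Fermat.Agent.Descent.FLTSeven
import Fermat.Agent.Descent.DescentFive

/-!
S10 for the exponents 5 and 7: a Frey package has exponent different from 7 (Genocchi), and
a stable line at 5 on a curve with square discriminant gives a rational point on
z² = h(h² + 22h + 125).
-/

set_option autoImplicit false

open WeierstrassCurve WeierstrassCurve.Affine WeierstrassCurve.Affine.Point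

namespace FermatLib.Descent

local notation "Ω" => AlgebraicClosure ℚ

theorem freyPackage_p_ne_seven (P : FreyPackage) : P.p ≠ 7 := by
  intro h
  have hF := P.hFLT
  rw [h] at hF
  have := flt_seven (a := P.a) (b := P.b) (c := -P.c) (by linear_combination hF)
  exact P.habc0 (by linear_combination -this)

theorem freyCurve_Δ_eq (P : FreyPackage) :
    P.freyCurve.Δ = (((P.a : ℚ) * P.b * P.c) ^ P.p / 16) ^ 2 := by
  have hc : (P.c : ℚ) ^ P.p = (P.a : ℚ) ^ P.p + (P.b : ℚ) ^ P.p := by exact_mod_cast P.hFLT.symm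
  rw [mul_pow, mul_pow, hc]
  simp only [WeierstrassCurve.Δ, WeierstrassCurve.b₂, WeierstrassCurve.b₄, WeierstrassCurve.b₆,
    WeierstrassCurve.b₈, FreyPackage.freyCurve]
  ring

theorem freyCurve_Δ_ne_zero (P : FreyPackage) : P.freyCurve.Δ ≠ 0 := by
  rw [freyCurve_Δ_eq]
  have : (P.a : ℚ) * P.b * P.c ≠ 0 := by exact_mod_cast P.habc0
  positivity

/-- A stable line inside a 2-dimensional torsion space is cyclic. -/
theorem exists_generator_of_stable_line {W : WeierstrassCurve ℚ} [W.IsElliptic] {p : ℕ}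
    (hp : p.Prime) (N : Submodule (ZMod p) (Submodule.torsionBy ℤ (W⁄Ω).Point p))
    (hst : IsGaloisStable ℚ N) (hbot : N ≠ ⊥) (htop : N ≠ ⊤) :
    ∃ P : (W⁄Ω).Point, P ≠ 0 ∧ p • P = 0 ∧
      ∀ σ : Ω ≃ₐ[ℚ] Ω, σ • P ∈ AddSubgroup.zmultiples P := by
  have := Fact.mk hp
  have hfr := FermatLib.EC.finrank_torsionBy_baseChange (K := Ω) W
    (p := p) (by exact_mod_cast hp.ne_zero)
  have : FiniteDimensional (ZMod p) (Submodule.torsionBy ℤ (W⁄Ω).Point (p : ℤ)) :=
    Module.finite_of_finrank_eq_succ hfr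
  have h1 : Module.finrank (ZMod p) N = 1 := by
    have hlt := Submodule.finrank_lt htop
    have hne : Module.finrank (ZMod p) N ≠ 0 := fun h => hbot (Submodule.finrank_eq_zero.mp h)
    omega
  obtain ⟨v, hv0, hv⟩ := finrank_eq_one_iff'.mp h1
  refine ⟨((v : Submodule.torsionBy ℤ (W⁄Ω).Point p) : (W⁄Ω).Point), ?_, ?_, fun σ => ?_⟩
  · exact fun h => hv0 (Subtype.ext (Subtype.ext h))
  · rw [← natCast_zsmul]
    exact (Submodule.mem_torsionBy_iff _ _).mp (v : Submodule.torsionBy ℤ (W⁄Ω).Point p).2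
  · obtain ⟨c, hc⟩ := hv ⟨σ • (v : Submodule.torsionBy ℤ (W⁄Ω).Point p), hst σ _ v.2⟩
    refine ⟨(c.val : ℤ), ?_⟩
    have hc' := congrArg
      (fun x : N => ((x : Submodule.torsionBy ℤ (W⁄Ω).Point p) : (W⁄Ω).Point)) hc
    dsimp only at hc' ⊢
    rw [← ZMod.natCast_zmod_val c, Nat.cast_smul_eq_nsmul] at hc'
    rw [natCast_zsmul]
    simp only [Submodule.coe_smul_of_tower] at hc'
    exact hc'

theorem x0Twenty_quad_ne_zero (h : ℚ) : h ^ 2 + 4 * h - 1 ≠ 0 := by
  intro H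
  have h5 : IsSquare (5 : ℚ) := ⟨h + 2, by linear_combination -H⟩
  have h5' : IsSquare (((5 : ℤ)) : ℚ) := by exact_mod_cast h5
  obtain ⟨r, hr⟩ := Rat.isSquare_intCast_iff.mp h5'
  have hmod : ∀ x : ZMod 8, (5 : ZMod 8) ≠ x * x := by decide
  exact hmod r (by simpa using congrArg (fun t : ℤ => (t : ZMod 8)) hr)

/-- A curve over ℚ with square discriminant has no stable subgroup of order five. -/
theorem no_stable_five_of_isSquare_Δ {W : WeierstrassCurve ℚ} (hΔ : W.Δ ≠ 0)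
    (hsq : IsSquare W.Δ) (P : (W⁄Ω).Point) (hP : P ≠ 0) (h5 : 5 • P = 0)
    (hσ : ∀ σ : Ω ≃ₐ[ℚ] Ω, σ • P ∈ AddSubgroup.zmultiples P) : False := by
  obtain ⟨h, h0, he⟩ := exists_c4_cube_mul_eq_of_stable_five hΔ P hP h5 hσ
  obtain ⟨s, hs⟩ := hsq
  have hs0 : s ≠ 0 := fun hs0 => hΔ (by rw [hs, hs0, mul_zero])
  have hk := x0Twenty_quad_ne_zero h
  have key : W.c₆ ^ 2 * h = W.Δ * ((h ^ 2 + 22 * h + 125) * (h ^ 2 + 4 * h - 1) ^ 2) := by
    linear_combination he + h * W.c_relation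
  refine h0 (x0Twenty_rational_points (z := W.c₆ * h / (s * (h ^ 2 + 4 * h - 1))) ?_)
  rw [div_pow, div_eq_iff (pow_ne_zero 2 (mul_ne_zero hs0 hk))]
  linear_combination h * key + h * (h ^ 2 + 22 * h + 125) * (h ^ 2 + 4 * h - 1) ^ 2 * hs

theorem frey_no_cofixed_five (P : FreyPackage) (hp : P.p = 5) :
    ¬ HasGaloisStableCofixedLine (K := Ω) ℚ P.freyCurve P.p := by
  rintro ⟨N, hst, hbot, htop, -⟩
  have : P.freyCurve.IsElliptic :=
    ⟨isUnit_iff_ne_zero.mpr (freyCurve_Δ_ne_zero P)⟩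
  obtain ⟨Q, hQ, h5, hσ⟩ := exists_generator_of_stable_line P.pp N hst hbot htop
  refine no_stable_five_of_isSquare_Δ (freyCurve_Δ_ne_zero P) ?_ Q hQ (by rw [← hp]; exact h5) hσ
  rw [freyCurve_Δ_eq]
  exact IsSquare.sq _

theorem frey_no_cofixed_seven (P : FreyPackage) (hp : P.p = 7) :
    ¬ HasGaloisStableCofixedLine (K := Ω) ℚ P.freyCurve P.p :=
  absurd hp (freyPackage_p_ne_seven P)

end FermatLib.Descent
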