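import Mathlib.Algebra.Field.Basic
import Mathlib.Algebra.Order.Ring.Abs
import Mathlib.Data.Int.ModEq
import Mathlib.Tactic.LinearCombination
import Mathlib.Tactic.Linarith
import Mathlib.Tactic.Positivity
import Mathlib.Tactic.Ring

/-!
# The binary forms of the pencil of elliptic curves with fixed `3`-torsion

For invariants `(H, T) = (c₄, c₆)` the curves with invariants `(hesA, hesB)` at `(s : r)` have the
same `3`-torsion, and `hesA ^ 3 - hesB ^ 2 = (H ^ 3 - T ^ 2) * hesD ^ 3`.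
-/

set_option autoImplicit false

namespace FermatLib.Descent

section Ring

variable {R : Type*} [CommRing R] (H T s r : R)

/-- The quartic covariant giving `c₄`. -/
def hesA : R :=
  H * r ^ 4 - 4 * T * s * r ^ 3 + 6 * H ^ 2 * s ^ 2 * r ^ 2 - 4 * H * T * s ^ 3 * r +
    (4 * T ^ 2 - 3 * H ^ 3) * s ^ 4

/-- The sextic covariant giving `c₆`. -/
def hesB : R :=
  T * r ^ 6 - 6 * H ^ 2 * s * r ^ 5 + 15 * H * T * s ^ 2 * r ^ 4 - 20 * T ^ 2 * s ^ 3 * r ^ 3 +
    15 * H ^ 2 * T * s ^ 4 * r ^ 2 + (12 * H * T ^ 2 - 18 * H ^ 4) * s ^ 5 * r +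
    (9 * H ^ 3 * T - 8 * T ^ 3) * s ^ 6

/-- The quartic form whose cube is the ratio of the discriminants. -/
def hesD : R :=
  r ^ 4 - 6 * H * s ^ 2 * r ^ 2 + 8 * T * s ^ 3 * r - 3 * H ^ 2 * s ^ 4

theorem hesA_pow_three_sub :
    hesA H T s r ^ 3 - hesB H T s r ^ 2 = (H ^ 3 - T ^ 2) * hesD H T s r ^ 3 := by
  unfold hesA hesB hesD; ring

theorem hesA_zero_one : hesA H T 0 1 = H := by simp [hesA]

theorem hesB_zero_one : hesB H T 0 1 = T := by simp [hesB]

theorem hesD_zero_one : hesD H T 0 1 = 1 := by simp [hesD]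

theorem hesD_one_zero : hesD H T 1 0 = -3 * H ^ 2 := by simp [hesD]

theorem hesA_self : hesA H T H T = -3 * H * (H ^ 3 - T ^ 2) ^ 2 := by
  unfold hesA; ring

theorem hesB_self : hesB H T H T = T * (T ^ 2 - H ^ 3) ^ 2 * (T ^ 2 - 9 * H ^ 3) := by
  unfold hesB; ring

theorem hesD_self : hesD H T H T = (T ^ 2 - H ^ 3) * (T ^ 2 + 3 * H ^ 3) := by
  unfold hesD; ring

theorem hesD_cusp : hesD H T (-H) (3 * T) = -3 * (H ^ 3 - T ^ 2) * (27 * T ^ 2 + H ^ 3) := by
  unfold hesD; ring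

theorem hesA_cusp : hesA H T (-H) (3 * T) =
    256 * H * T ^ 4 + (H ^ 3 - T ^ 2) * (67 * H * T ^ 2 - 3 * H ^ 4) := by
  unfold hesA; ring

theorem sq_dvd_hesD_cusp_add (e : R) :
    e ^ 2 ∣ hesD H T (-H + e) (3 * T) - hesD H T (-H) (3 * T) -
      e * (12 * H ^ 2 * (15 * T ^ 2 + H ^ 3)) :=
  ⟨-6 * H * (3 * T) ^ 2 + 8 * T * (-3 * H + e) * (3 * T) -
    3 * H ^ 2 * (6 * H ^ 2 - 4 * H * e + e ^ 2), by unfold hesD; ring⟩

theorem map_hesA {S F : Type*} [CommRing S] [FunLike F R S] [RingHomClass F R S] (g : F) :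
    g (hesA H T s r) = hesA (g H) (g T) (g s) (g r) := by
  simp [hesA, map_ofNat]

theorem map_hesB {S F : Type*} [CommRing S] [FunLike F R S] [RingHomClass F R S] (g : F) :
    g (hesB H T s r) = hesB (g H) (g T) (g s) (g r) := by
  simp [hesB, map_ofNat]

theorem map_hesD {S F : Type*} [CommRing S] [FunLike F R S] [RingHomClass F R S] (g : F) :
    g (hesD H T s r) = hesD (g H) (g T) (g s) (g r) := by
  simp [hesD, map_ofNat]

end Ring

section Field

variable {F : Type*} [Field F] {H T s r : F}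

/-- The forms `hesA` and `hesD` have no common zero away from `H ^ 3 = T ^ 2`. -/
theorem eq_zero_of_hesA_eq_zero_of_hesD_eq_zero (h2 : (2 : F) ≠ 0) (h3 : (3 : F) ≠ 0)
    (hΔ : H ^ 3 ≠ T ^ 2) (hA : hesA H T s r = 0) (hD : hesD H T s r = 0) : s = 0 ∧ r = 0 := by
  by_cases hs : s = 0
  · subst hs
    simp [hesD] at hD
    exact ⟨rfl, hD⟩
  exfalso
  have h4 : (4 : F) ≠ 0 := by
    rw [show (4 : F) = 2 * 2 by norm_num]; exact mul_ne_zero h2 h2
  have e1 : T * r ^ 3 - 3 * H ^ 2 * s * r ^ 2 + 3 * H * T * s ^ 2 * r - T ^ 2 * s ^ 3 = 0 :=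
    (mul_eq_zero.mp (show 4 * s *
        (T * r ^ 3 - 3 * H ^ 2 * s * r ^ 2 + 3 * H * T * s ^ 2 * r - T ^ 2 * s ^ 3) = 0 by
      unfold hesA hesD at *; linear_combination H * hD - hA)).resolve_left (mul_ne_zero h4 hs)
  have e2 : H ^ 2 * r ^ 3 - 3 * H * T * s * r ^ 2 + 3 * T ^ 2 * s ^ 2 * r - H ^ 2 * T * s ^ 3 = 0 :=
    (mul_eq_zero.mp (show 3 * s * (H ^ 2 * r ^ 3 - 3 * H * T * s * r ^ 2 + 3 * T ^ 2 * s ^ 2 * r -
        H ^ 2 * T * s ^ 3) = 0 by
      unfold hesD at *; linear_combination T * hD - r * e1)).resolve_left (mul_ne_zero h3 hs)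
  have e3 : r * (H * r - T * s) = 0 :=
    (mul_eq_zero.mp (show 3 * s * (H ^ 3 - T ^ 2) * (r * (H * r - T * s)) = 0 by
      linear_combination T * e2 - H ^ 2 * e1)).resolve_left
        (mul_ne_zero (mul_ne_zero h3 hs) (sub_ne_zero.mpr hΔ))
  rcases mul_eq_zero.mp e3 with hr | hr
  · subst hr
    have hT : T = 0 := pow_eq_zero_iff two_ne_zero |>.mp
      ((mul_eq_zero.mp (show T ^ 2 * s ^ 3 = 0 by linear_combination -e1)).resolve_right
        (pow_ne_zero _ hs))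
    have hH : H = 0 := pow_eq_zero_iff two_ne_zero |>.mp
      ((mul_eq_zero.mp (show H ^ 2 * (3 * s ^ 4) = 0 by
        unfold hesD at hD; linear_combination -hD)).resolve_right
        (mul_ne_zero h3 (pow_ne_zero _ hs)))
    exact hΔ (by rw [hH, hT]; ring)
  · have hH : H ≠ 0 := by
      rintro rfl
      have : T = 0 := (mul_eq_zero.mp (show T * s = 0 by linear_combination -hr)).resolve_right hs
      exact hΔ (by rw [this]; ring)
    have hTs : T * s = H * r := by linear_combination -hr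
    have a1 : T ^ 2 * (T ^ 2 - H ^ 3) = 0 :=
      (mul_eq_zero.mp (show T ^ 2 * (T ^ 2 - H ^ 3) * s ^ 3 = 0 by
        linear_combination H ^ 3 * e1 +
          (T * (T ^ 2 * s ^ 2 + T * s * (H * r) + (H * r) ^ 2) -
            3 * H ^ 3 * s * (T * s + H * r) + 3 * H ^ 3 * T * s ^ 2) * hTs)).resolve_right
        (pow_ne_zero _ hs)
    have hT : T = 0 := pow_eq_zero_iff two_ne_zero |>.mp
      ((mul_eq_zero.mp a1).resolve_right (sub_ne_zero.mpr (Ne.symm hΔ)))
    subst hT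
    have : r = 0 := (mul_eq_zero.mp (show H * r = 0 by linear_combination -hTs)).resolve_left hH
    subst this
    exact mul_ne_zero (mul_ne_zero h3 (pow_ne_zero 2 hH)) (pow_ne_zero 4 hs)
      (by unfold hesD at hD; linear_combination -hD)

/-- The form `hesD` has no repeated zero away from `H ^ 3 = T ^ 2`. -/
theorem eq_zero_of_hesD_partials_eq_zero (h2 : (2 : F) ≠ 0)
    (hΔ : H ^ 3 ≠ T ^ 2)
    (hr : r ^ 3 - 3 * H * r * s ^ 2 + 2 * T * s ^ 3 = 0)
    (hs' : s * (H * r ^ 2 - 2 * T * r * s + H ^ 2 * s ^ 2) = 0) : s = 0 ∧ r = 0 := by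
  by_cases hs : s = 0
  · subst hs
    simp at hr
    exact ⟨rfl, hr⟩
  exfalso
  have q1 := (mul_eq_zero.mp hs').resolve_left hs
  have q2 : T * r ^ 2 - 2 * H ^ 2 * r * s + H * T * s ^ 2 = 0 :=
    (mul_eq_zero.mp (show 2 * s * (T * r ^ 2 - 2 * H ^ 2 * r * s + H * T * s ^ 2) = 0 by
      linear_combination H * hr - r * q1)).resolve_left (mul_ne_zero h2 hs)
  have q3 : r = 0 :=
    (mul_eq_zero.mp (show 2 * s * (H ^ 3 - T ^ 2) * r = 0 by
      linear_combination T * q1 - H * q2)).resolve_left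
        (mul_ne_zero (mul_ne_zero h2 hs) (sub_ne_zero.mpr hΔ))
  subst q3
  have hH : H = 0 := pow_eq_zero_iff two_ne_zero |>.mp
    ((mul_eq_zero.mp (show H ^ 2 * s ^ 2 = 0 by linear_combination q1)).resolve_right
      (pow_ne_zero _ hs))
  have hT : T = 0 := (mul_eq_zero.mp (show T * (2 * s ^ 3) = 0 by linear_combination hr)).resolve_right
    (mul_ne_zero h2 (pow_ne_zero _ hs))
  exact hΔ (by rw [hH, hT]; ring)

end Field

section Order

variable {R : Type*} [CommRing R] [LinearOrder R] [IsStrictOrderedRing R] {H T : R}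

/-- `hesD` takes both signs as soon as the discriminant `H ^ 3 - T ^ 2` is positive. -/
theorem hesD_one_zero_neg (h : 0 < H ^ 3 - T ^ 2) : hesD H T 1 0 < 0 := by
  have hH : H ≠ 0 := by
    rintro rfl
    nlinarith [sq_nonneg T]
  rw [hesD_one_zero]
  have : 0 < H ^ 2 := by positivity
  linarith

end Order

section Int

variable {H T s r H' T' s' r' m : ℤ}

theorem hesA_modEq (hH : H ≡ H' [ZMOD m]) (hT : T ≡ T' [ZMOD m]) (hs : s ≡ s' [ZMOD m])
    (hr : r ≡ r' [ZMOD m]) : hesA H T s r ≡ hesA H' T' s' r' [ZMOD m] := by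
  unfold hesA; gcongr

theorem hesB_modEq (hH : H ≡ H' [ZMOD m]) (hT : T ≡ T' [ZMOD m]) (hs : s ≡ s' [ZMOD m])
    (hr : r ≡ r' [ZMOD m]) : hesB H T s r ≡ hesB H' T' s' r' [ZMOD m] := by
  unfold hesB; gcongr

theorem hesD_modEq (hH : H ≡ H' [ZMOD m]) (hT : T ≡ T' [ZMOD m]) (hs : s ≡ s' [ZMOD m])
    (hr : r ≡ r' [ZMOD m]) : hesD H T s r ≡ hesD H' T' s' r' [ZMOD m] := by
  unfold hesD; gcongr

end Int

end FermatLib.Descent
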