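import Fermat.Agent.Descent.HesseShort
import Fermat.Agent.Descent.HesseForms

/-!
# Points of order three through their tangent slopes

A point of order three of a short model is `(m ^ 2 / 3, Y)` with `m` the slope of its tangent. Two
independent ones are described by their slopes `a`, `b` and a square root `w` of `-3`; the other
slopes are linear in `(a, b)`, and the pencil acts linearly on `(a, b)`.
-/

set_option autoImplicit false
set_option linter.unusedSimpArgs false

open WeierstrassCurve WeierstrassCurve.Affine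

namespace FermatLib.Descent

section Ring

variable {F : Type*} [Field F] [CharZero F]

/-- The linear coefficient of the short curve with flex `(m ^ 2 / 3, Y)` of slope `m`. -/
def flexA (m Y : F) : F := 2 * Y * m - m ^ 4 / 3

/-- The constant coefficient of the short curve with flex `(m ^ 2 / 3, Y)` of slope `m`. -/
def flexB (m Y : F) : F := Y ^ 2 - (m ^ 2 / 3) ^ 3 - flexA m Y * (m ^ 2 / 3)

/-- The tangent slope at the member `(s : r)` of the pencil. -/
def hesSlope (s r m Y : F) : F := r * m + 4 * s * (m ^ 3 - 9 * Y)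

/-- The ordinate at the member `(s : r)` of the pencil. -/
def hesOrd (s r m Y : F) : F :=
  Y * r ^ 3 - 4 * m ^ 2 * Y * s * r ^ 2 + (-80 * m ^ 4 * Y + 576 * m * Y ^ 2) * s ^ 2 * r +
    (-192 * m ^ 6 * Y + 2304 * m ^ 3 * Y ^ 2 - 6912 * Y ^ 3) * s ^ 3

/-- The ordinate attached to the first slope of a basis. -/
def basisOrd (w a b : F) : F := (8 * a ^ 3 + (a + w * b) ^ 3) / 54

/-- The slope of the sum of the two basis points. -/
def sumSlope (w a b : F) : F := ((w - 1) * a - (w + 1) * b) / 2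

/-- The ordinate of the sum of the two basis points. -/
def sumOrd (w a b : F) : F :=
  (3 * a ^ 3 + 4 * w * (a ^ 2 * b - a * b ^ 2) - 3 * (a ^ 2 * b + a * b ^ 2) + 3 * b ^ 3) / 18

theorem hesA_flex (s r m Y : F) :
    flexA (hesSlope s r m Y) (hesOrd s r m Y) =
      -hesA (-48 * flexA m Y) (-864 * flexB m Y) s r / 48 := by
  simp only [flexA, flexB, hesSlope, hesOrd, hesA]
  ring

theorem hesB_flex (s r m Y : F) :
    flexB (hesSlope s r m Y) (hesOrd s r m Y) =
      -hesB (-48 * flexA m Y) (-864 * flexB m Y) s r / 864 := by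
  simp only [flexB, flexA, hesSlope, hesOrd, hesB]
  ring

theorem flexA_smul (u m Y : F) : flexA (u * m) (u ^ 3 * Y) = u ^ 4 * flexA m Y := by
  unfold flexA; ring

theorem flexB_smul (u m Y : F) : flexB (u * m) (u ^ 3 * Y) = u ^ 6 * flexB m Y := by
  unfold flexB flexA; ring

theorem flex_disc (m Y : F) :
    4 * flexA m Y ^ 3 + 27 * flexB m Y ^ 2 = Y ^ 3 * (27 * Y - 4 * m ^ 3) := by
  unfold flexB flexA; ring

theorem hesSlope_neg (s r m Y : F) : hesSlope s r (-m) (-Y) = -hesSlope s r m Y := by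
  unfold hesSlope; ring

theorem hesOrd_neg (s r m Y : F) : hesOrd s r (-m) (-Y) = -hesOrd s r m Y := by
  unfold hesOrd; ring

theorem w_pows {w : F} (hw : w ^ 2 = -3) :
    w ^ 3 = (-3) * w ∧
    w ^ 4 = (9) ∧
    w ^ 5 = (9) * w ∧
    w ^ 6 = (-27) ∧
    w ^ 7 = (-27) * w ∧
    w ^ 8 = (81) ∧
    w ^ 9 = (81) * w ∧
    w ^ 10 = (-243) ∧
    w ^ 11 = (-243) * w ∧
    w ^ 12 = (729) ∧
    w ^ 13 = (729) * w ∧
    w ^ 14 = (-2187) := by
  have e : ∀ n, w ^ (n + 2) = -3 * w ^ n := fun n => by rw [pow_add, hw, mul_comm]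
  simp only [e, pow_zero, pow_one]
  norm_num
  ring_nf
  simp [hw]

variable {w : F} (hw : w ^ 2 = -3) (a b s r : F)

include hw in
theorem flexA_basis : flexA a (basisOrd w a b) = flexA b (basisOrd (-w) b a) := by
  obtain ⟨p3, p4, p5, p6, p7, p8, p9, p10, p11, p12, p13, p14⟩ := w_pows hw
  rw [← sub_eq_zero]
  simp only [flexA, basisOrd]
  ring_nf
  simp only [hw, p3, p4, p5, p6, p7, p8, p9, p10, p11, p12, p13, p14]
  ring

include hw in
theorem flexB_basis : flexB a (basisOrd w a b) = flexB b (basisOrd (-w) b a) := by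
  obtain ⟨p3, p4, p5, p6, p7, p8, p9, p10, p11, p12, p13, p14⟩ := w_pows hw
  rw [← sub_eq_zero]
  simp only [flexB, flexA, basisOrd]
  ring_nf
  simp only [hw, p3, p4, p5, p6, p7, p8, p9, p10, p11, p12, p13, p14]
  ring

include hw in
theorem sum_chord :
    ((3 - w) * a + (3 + w) * b) / 6 * (a ^ 2 / 3 - b ^ 2 / 3) =
        basisOrd w a b - basisOrd (-w) b a ∧
      (((3 - w) * a + (3 + w) * b) / 6) ^ 2 - a ^ 2 / 3 - b ^ 2 / 3 = sumSlope w a b ^ 2 / 3 ∧
      -(((3 - w) * a + (3 + w) * b) / 6 * (sumSlope w a b ^ 2 / 3 - a ^ 2 / 3) + basisOrd w a b) =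
        sumOrd w a b := by
  obtain ⟨p3, p4, p5, p6, p7, p8, p9, p10, p11, p12, p13, p14⟩ := w_pows hw
  refine ⟨?_, ?_, ?_⟩ <;>
  · rw [← sub_eq_zero]
    simp only [sumSlope, sumOrd, basisOrd]
    ring_nf
    simp only [hw, p3, p4, p5, p6, p7, p8, p9, p10, p11, p12, p13, p14]
    ring

include hw in
theorem flexA_sum : flexA (sumSlope w a b) (sumOrd w a b) = flexA a (basisOrd w a b) := by
  obtain ⟨p3, p4, p5, p6, p7, p8, p9, p10, p11, p12, p13, p14⟩ := w_pows hw
  rw [← sub_eq_zero]
  simp only [flexA, sumSlope, sumOrd, basisOrd]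
  ring_nf
  simp only [hw, p3, p4, p5, p6, p7, p8, p9, p10, p11, p12, p13, p14]
  ring

include hw in
theorem flexB_sum : flexB (sumSlope w a b) (sumOrd w a b) = flexB a (basisOrd w a b) := by
  obtain ⟨p3, p4, p5, p6, p7, p8, p9, p10, p11, p12, p13, p14⟩ := w_pows hw
  rw [← sub_eq_zero]
  simp only [flexB, flexA, sumSlope, sumOrd, basisOrd]
  ring_nf
  simp only [hw, p3, p4, p5, p6, p7, p8, p9, p10, p11, p12, p13, p14]
  ring

include hw in
theorem basisOrd_pencil :
    basisOrd w (hesSlope s r a (basisOrd w a b)) (hesSlope s r b (basisOrd (-w) b a)) =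
      hesOrd s r a (basisOrd w a b) := by
  obtain ⟨p3, p4, p5, p6, p7, p8, p9, p10, p11, p12, p13, p14⟩ := w_pows hw
  rw [← sub_eq_zero]
  simp only [hesSlope, hesOrd, basisOrd]
  ring_nf
  simp only [hw, p3, p4, p5, p6, p7, p8, p9, p10, p11, p12, p13, p14]
  ring

set_option maxRecDepth 8000 in
include hw in
theorem sum_pencil :
    hesSlope s r (sumSlope w a b) (sumOrd w a b) =
        sumSlope w (hesSlope s r a (basisOrd w a b)) (hesSlope s r b (basisOrd (-w) b a)) ∧
      hesOrd s r (sumSlope w a b) (sumOrd w a b) =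
        sumOrd w (hesSlope s r a (basisOrd w a b)) (hesSlope s r b (basisOrd (-w) b a)) := by
  obtain ⟨p3, p4, p5, p6, p7, p8, p9, p10, p11, p12, p13, p14⟩ := w_pows hw
  refine ⟨?_, ?_⟩ <;>
  · rw [← sub_eq_zero]
    simp only [hesSlope, hesOrd, sumSlope, sumOrd, basisOrd]
    ring_nf
    simp only [hw, p3, p4, p5, p6, p7, p8, p9, p10, p11, p12, p13, p14]
    ring

end Ring

end FermatLib.Descent
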