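import Fermat.Agent.Descent.HesseTorsion
import Fermat.Agent.EC.Torsion

/-!
# Galois equivariant isomorphism of `3`-torsion along the pencil
-/

set_option autoImplicit false
set_option linter.unusedSimpArgs false

open WeierstrassCurve WeierstrassCurve.Affine

namespace FermatLib.Descent

variable {F : Type*} [Field F] [CharZero F] [DecidableEq F] {V V' : WeierstrassCurve.Affine F}

theorem add_self_eq_neg_iff {G : Type*} [AddCommGroup G] {P : G} :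
    P + P = -P ↔ ((3 : ℕ) : ℤ) • P = 0 := by
  rw [natCast_zsmul, succ_nsmul, two_nsmul, eq_neg_iff_add_eq_zero]

theorem zsmul_mem_balanced {G : Type*} [AddCommGroup G] {P : G} (h : P + P = -P) (i : ℤ) :
    i • P = 0 ∧ i % 3 = 0 ∨ i • P = P ∧ i % 3 = 1 ∨ i • P = -P ∧ i % 3 = 2 := by
  have h3 : ((3 : ℕ) : ℤ) • P = 0 := add_self_eq_neg_iff.mp h
  have e : i • P = (i % 3) • P := by
    conv_lhs => rw [← Int.emod_add_ediv_mul i 3, add_zsmul, mul_zsmul]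
    rw [Nat.cast_ofNat] at h3
    rw [h3, zsmul_zero, add_zero]
  rw [e]
  rcases (by omega : i % 3 = 0 ∨ i % 3 = 1 ∨ i % 3 = 2) with h0 | h0 | h0 <;> rw [h0]
  · exact .inl ⟨zero_zsmul P, rfl⟩
  · exact .inr (.inl ⟨one_zsmul P, rfl⟩)
  · exact .inr (.inr ⟨by rw [two_zsmul, h], rfl⟩)

variable {u s r : F} (hΔ : V.Δ ≠ 0) (hΔ' : V'.Δ ≠ 0)
  (h4 : V'.c₄ = u ^ 4 * hesA V.c₄ V.c₆ s r) (h6 : V'.c₆ = u ^ 6 * hesB V.c₄ V.c₆ s r)

include hΔ hΔ' h4 h6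

theorem hesPoint_neg {P : V.Point} (hP : P + P = -P) :
    hesPoint V' u s r (-P) = -hesPoint V' u s r P := by
  by_cases h0 : P = 0
  · subst h0; simp [hesPoint_zero]
  obtain ⟨m, Y, hf, rfl⟩ := exists_flex hΔ h0 hP
  rw [neg_flexPoint hΔ hf, hesPoint_flexPoint hΔ hf.neg, hesPoint_flexPoint hΔ hf,
    neg_flexPoint hΔ' (hf.pencil h4 h6), hesSlope_neg, hesOrd_neg, mul_neg, mul_neg]

theorem hesPoint_add_self {P : V.Point} (hP : P + P = -P) :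
    hesPoint V' u s r P + hesPoint V' u s r P = -hesPoint V' u s r P := by
  by_cases h0 : P = 0
  · subst h0; simp [hesPoint_zero]
  obtain ⟨m, Y, hf, rfl⟩ := exists_flex hΔ h0 hP
  rw [hesPoint_flexPoint hΔ hf]
  exact flexPoint_add_self hΔ' (hf.pencil h4 h6)

theorem hesPoint_eq_zero {P : V.Point} (hP : P + P = -P) (h : hesPoint V' u s r P = 0) :
    P = 0 := by
  by_contra h0
  obtain ⟨m, Y, hf, rfl⟩ := exists_flex hΔ h0 hP
  rw [hesPoint_flexPoint hΔ hf] at h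
  exact flexPoint_ne_zero hΔ' (hf.pencil h4 h6) h

theorem hesPoint_zsmul_add {w a b : F} (h : IsFlexBasis V w a b) (i j : ℤ) :
    hesPoint V' u s r
        (i • flexPoint V a (basisOrd w a b) + j • flexPoint V b (basisOrd (-w) b a)) =
      i • hesPoint V' u s r (flexPoint V a (basisOrd w a b)) +
        j • hesPoint V' u s r (flexPoint V b (basisOrd (-w) b a)) := by
  have hneg : ∀ {P : V.Point}, P + P = -P → hesPoint V' u s r (-P) = -hesPoint V' u s r P :=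
    fun hP => hesPoint_neg hΔ hΔ' h4 h6 hP
  set P := flexPoint V a (basisOrd w a b) with hPdef
  set Q := flexPoint V b (basisOrd (-w) b a) with hQdef
  have hP : P + P = -P := flexPoint_add_self hΔ h.2
  have hQ : Q + Q = -Q := flexPoint_add_self hΔ h.snd
  have hsum : hesPoint V' u s r (P + Q) = hesPoint V' u s r P + hesPoint V' u s r Q :=
    h.hesPoint_add h4 h6 hΔ hΔ'
  have hdif : hesPoint V' u s r (P + -Q) = hesPoint V' u s r P + -hesPoint V' u s r Q := by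
    have e := h.flip.hesPoint_add h4 h6 hΔ hΔ'
    rw [h.flip_point hΔ, basisOrd_flip, ← hPdef, ← hQdef] at e
    rw [e, hneg hQ]
  have hPQ : P + Q + (P + Q) = -(P + Q) := by rw [add_add_add_comm, hP, hQ]; abel
  have hPQ' : P + -Q + (P + -Q) = -(P + -Q) := by
    rw [add_add_add_comm, hP, ← neg_add, hQ]; abel
  have e1 : -P + Q = -(P + -Q) := by abel
  have e2 : -P + -Q = -(P + Q) := by abel
  rcases zsmul_mem_balanced hP i with ⟨hi, hi3⟩ | ⟨hi, hi3⟩ | ⟨hi, hi3⟩ <;>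
    rcases zsmul_mem_balanced hQ j with ⟨hj, hj3⟩ | ⟨hj, hj3⟩ | ⟨hj, hj3⟩ <;>
    rcases zsmul_mem_balanced (hesPoint_add_self hΔ hΔ' h4 h6 hP) i with
      ⟨hi', g⟩ | ⟨hi', g⟩ | ⟨hi', g⟩ <;>
    first
      | omega
      | rcases zsmul_mem_balanced (hesPoint_add_self hΔ hΔ' h4 h6 hQ) j with
          ⟨hj', g'⟩ | ⟨hj', g'⟩ | ⟨hj', g'⟩ <;>
        first
          | omega
          | (rw [hi, hj, hi', hj']
             simp only [zero_add, add_zero, e1, e2, hsum, hdif, hneg hP, hneg hQ, hneg hPQ,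
               hneg hPQ', hesPoint_zero] <;> abel)

theorem exists_flexBasis_of_ne_zero [IsAlgClosed F] {P : V.Point} (hP : P + P = -P)
    (h0 : P ≠ 0) : ∃ w a b, IsFlexBasis V w a b := by
  obtain ⟨m, Y, hf, -⟩ := exists_flex hΔ h0 hP
  obtain ⟨w, b, hb, -⟩ := exists_flexBasis hf
  exact ⟨w, m, b, hb⟩

omit hΔ' h4 h6 in
theorem exists_ne_zero_add_self_eq_neg [IsAlgClosed F] :
    ∃ P : V.Point, P ≠ 0 ∧ P + P = -P := by
  have : V.IsElliptic := ⟨isUnit_iff_ne_zero.mpr hΔ⟩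
  have hcard := FermatLib.EC.natCard_torsionBy (W := V) (n := 3) (by norm_num)
  have : Nontrivial (Submodule.torsionBy ℤ V.Point ((3 : ℕ) : ℤ)) := by
    have : Finite (Submodule.torsionBy ℤ V.Point ((3 : ℕ) : ℤ)) :=
      Nat.finite_of_card_ne_zero (by rw [hcard]; norm_num)
    exact Finite.one_lt_card_iff_nontrivial.mp (by rw [hcard]; norm_num)
  obtain ⟨P, hP⟩ := exists_ne (0 : Submodule.torsionBy ℤ V.Point ((3 : ℕ) : ℤ))
  exact ⟨P, fun e => hP (Subtype.ext e), add_self_eq_neg_iff.mpr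
    ((Submodule.mem_torsionBy_iff _ _).mp P.2)⟩

theorem hesPoint_add_of_torsion [IsAlgClosed F] {P Q : V.Point} (hP : P + P = -P)
    (hQ : Q + Q = -Q) :
    hesPoint V' u s r (P + Q) = hesPoint V' u s r P + hesPoint V' u s r Q := by
  obtain ⟨R, hR0, hR⟩ := exists_ne_zero_add_self_eq_neg hΔ
  obtain ⟨w, a, b, hb⟩ := exists_flexBasis_of_ne_zero hΔ hΔ' h4 h6 hR hR0
  obtain ⟨i, j, rfl⟩ := hb.span hΔ hP
  obtain ⟨k, l, rfl⟩ := hb.span hΔ hQ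
  rw [add_add_add_comm, ← add_zsmul, ← add_zsmul, hesPoint_zsmul_add hΔ hΔ' h4 h6 hb,
    hesPoint_zsmul_add hΔ hΔ' h4 h6 hb, hesPoint_zsmul_add hΔ hΔ' h4 h6 hb, add_zsmul, add_zsmul]
  abel

theorem exists_hesPoint_eq [IsAlgClosed F] {P' : V'.Point} (hP' : P' + P' = -P') :
    ∃ P : V.Point, P + P = -P ∧ hesPoint V' u s r P = P' := by
  obtain ⟨R, hR0, hR⟩ := exists_ne_zero_add_self_eq_neg hΔ
  obtain ⟨w, a, b, hb⟩ := exists_flexBasis_of_ne_zero hΔ hΔ' h4 h6 hR hR0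
  have hb' := hb.pencil h4 h6
  obtain ⟨i, j, rfl⟩ := hb'.span hΔ' hP'
  refine ⟨i • flexPoint V a (basisOrd w a b) + j • flexPoint V b (basisOrd (-w) b a), ?_, ?_⟩
  · rw [add_add_add_comm, ← zsmul_add, ← zsmul_add, flexPoint_add_self hΔ hb.2,
      flexPoint_add_self hΔ hb.snd, zsmul_neg, zsmul_neg, neg_add]
  · have hw' : (-w) ^ 2 = -3 := by rw [neg_sq, hb.1]
    have e1 := basisOrd_pencil hb.1 a b s r
    have e2 := basisOrd_pencil hw' b a s r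
    rw [neg_neg] at e2
    rw [hesPoint_zsmul_add hΔ hΔ' h4 h6 hb, hesPoint_flexPoint hΔ hb.2,
      hesPoint_flexPoint hΔ hb.snd, basisOrd_smul, basisOrd_smul, e1, e2]

omit hΔ hΔ' h4 h6

section Rat

local notation "Ω" => AlgebraicClosure ℚ

variable {W W' : WeierstrassCurve ℚ}

theorem algEquiv_baseChange_coeff (σ : Ω ≃ₐ[ℚ] Ω) :
    σ (W⁄Ω).c₄ = (W⁄Ω).c₄ ∧ σ (W⁄Ω).c₆ = (W⁄Ω).c₆ ∧ σ (W⁄Ω).b₂ = (W⁄Ω).b₂ ∧
      σ (W⁄Ω).a₁ = (W⁄Ω).a₁ ∧ σ (W⁄Ω).a₃ = (W⁄Ω).a₃ := by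
  simp [WeierstrassCurve.baseChange]

theorem smul_shortPoint (hΔ : W.Δ ≠ 0) (σ : Ω ≃ₐ[ℚ] Ω) {X Y : Ω}
    (h : Y ^ 2 = X ^ 3 + shortA (W⁄Ω) * X + shortB (W⁄Ω)) :
    σ • shortPoint (W⁄Ω) X Y = shortPoint (W⁄Ω) (σ X) (σ Y) := by
  have hΔ' : (W⁄Ω).Δ ≠ 0 := by simpa [WeierstrassCurve.baseChange] using hΔ
  obtain ⟨e4, e6, e2, ea1, ea3⟩ := algEquiv_baseChange_coeff (W := W) σ
  obtain ⟨x, y, hn, he, rfl, rfl⟩ := shortPoint_eq_some hΔ' h
  rw [he, Point.algEquiv_smul_def, Point.map_some]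
  symm
  convert shortPoint_shortX _ using 2
  · simp only [shortX, map_add, map_div₀, map_ofNat, e2]; rfl
  · simp only [shortY, map_add, map_mul, map_div₀, map_ofNat, ea1, ea3]; rfl

theorem smul_hesPoint {u s r : ℚ} (hΔ : W.Δ ≠ 0) (hΔ' : W'.Δ ≠ 0)
    (h4 : W'.c₄ = u ^ 4 * hesA W.c₄ W.c₆ s r) (h6 : W'.c₆ = u ^ 6 * hesB W.c₄ W.c₆ s r)
    (σ : Ω ≃ₐ[ℚ] Ω) {P : (W⁄Ω).Point} (hP : P + P = -P) :
    hesPoint (W'⁄Ω) (algebraMap ℚ Ω u) (algebraMap ℚ Ω s) (algebraMap ℚ Ω r) (σ • P) =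
      σ • hesPoint (W'⁄Ω) (algebraMap ℚ Ω u) (algebraMap ℚ Ω s) (algebraMap ℚ Ω r) P := by
  have hD : (W⁄Ω).Δ ≠ 0 := by simpa [WeierstrassCurve.baseChange] using hΔ
  have hD' : (W'⁄Ω).Δ ≠ 0 := by simpa [WeierstrassCurve.baseChange] using hΔ'
  have H4 : (W'⁄Ω).c₄ = algebraMap ℚ Ω u ^ 4 *
      hesA (W⁄Ω).c₄ (W⁄Ω).c₆ (algebraMap ℚ Ω s) (algebraMap ℚ Ω r) := by
    simp only [WeierstrassCurve.baseChange, map_c₄, map_c₆, h4, map_mul, map_pow, map_hesA]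
  have H6 : (W'⁄Ω).c₆ = algebraMap ℚ Ω u ^ 6 *
      hesB (W⁄Ω).c₄ (W⁄Ω).c₆ (algebraMap ℚ Ω s) (algebraMap ℚ Ω r) := by
    simp only [WeierstrassCurve.baseChange, map_c₄, map_c₆, h6, map_mul, map_pow, map_hesB]
  by_cases h0 : P = 0
  · subst h0; rfl
  obtain ⟨m, Y, hf, rfl⟩ := exists_flex hD h0 hP
  have hσ : IsFlex (W⁄Ω) (σ m) (σ Y) := by
    obtain ⟨e4, e6, -⟩ := algEquiv_baseChange_coeff (W := W) σ
    constructor
    · have := congrArg σ hf.1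
      simpa only [shortA, flexA, map_sub, map_mul, map_pow, map_div₀, map_ofNat, map_neg, e4]
        using this
    · have := congrArg σ hf.2
      simpa only [shortB, flexA, flexB, map_sub, map_mul, map_pow, map_div₀, map_ofNat, map_neg, e6]
        using this
  have e : σ • flexPoint (W⁄Ω) m Y = flexPoint (W⁄Ω) (σ m) (σ Y) := by
    rw [flexPoint, smul_shortPoint hΔ σ hf.curve, flexPoint, map_div₀, map_pow, map_ofNat]
  rw [e, hesPoint_flexPoint hD hσ, hesPoint_flexPoint hD hf, flexPoint, flexPoint,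
    smul_shortPoint hΔ' σ (hf.pencil H4 H6).curve]
  simp only [hesSlope, hesOrd, map_add, map_sub, map_mul, map_pow, map_div₀, map_ofNat, map_neg,
    AlgEquiv.commutes]

/-- Curves on the pencil through `(c₄, c₆)` have Galois equivariantly the same `3`-torsion. -/
theorem exists_three_torsion_addEquiv {u s r : ℚ} (hΔ : W.Δ ≠ 0) (hΔ' : W'.Δ ≠ 0)
    (h4 : W'.c₄ = u ^ 4 * hesA W.c₄ W.c₆ s r) (h6 : W'.c₆ = u ^ 6 * hesB W.c₄ W.c₆ s r) :
    ∃ e : Submodule.torsionBy ℤ (W⁄Ω).Point ((3 : ℕ) : ℤ) ≃+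
        Submodule.torsionBy ℤ (W'⁄Ω).Point ((3 : ℕ) : ℤ),
      ∀ (σ : Ω ≃ₐ[ℚ] Ω) (P : Submodule.torsionBy ℤ (W⁄Ω).Point ((3 : ℕ) : ℤ)),
        e (σ • P) = σ • e P := by
  have hD : (W⁄Ω).Δ ≠ 0 := by simpa [WeierstrassCurve.baseChange] using hΔ
  have hD' : (W'⁄Ω).Δ ≠ 0 := by simpa [WeierstrassCurve.baseChange] using hΔ'
  have H4 : (W'⁄Ω).c₄ = algebraMap ℚ Ω u ^ 4 *
      hesA (W⁄Ω).c₄ (W⁄Ω).c₆ (algebraMap ℚ Ω s) (algebraMap ℚ Ω r) := by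
    simp only [WeierstrassCurve.baseChange, map_c₄, map_c₆, h4, map_mul, map_pow, map_hesA]
  have H6 : (W'⁄Ω).c₆ = algebraMap ℚ Ω u ^ 6 *
      hesB (W⁄Ω).c₄ (W⁄Ω).c₆ (algebraMap ℚ Ω s) (algebraMap ℚ Ω r) := by
    simp only [WeierstrassCurve.baseChange, map_c₄, map_c₆, h6, map_mul, map_pow, map_hesB]
  have hmem : ∀ P : Submodule.torsionBy ℤ (W⁄Ω).Point ((3 : ℕ) : ℤ),
      (P : (W⁄Ω).Point) + P = -(P : (W⁄Ω).Point) := fun P =>
    add_self_eq_neg_iff.mpr ((Submodule.mem_torsionBy_iff _ _).mp P.2)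
  let f : Submodule.torsionBy ℤ (W⁄Ω).Point ((3 : ℕ) : ℤ) →+
      Submodule.torsionBy ℤ (W'⁄Ω).Point ((3 : ℕ) : ℤ) :=
    AddMonoidHom.mk'
      (fun P => ⟨hesPoint (W'⁄Ω) (algebraMap ℚ Ω u) (algebraMap ℚ Ω s) (algebraMap ℚ Ω r) P.1,
        (Submodule.mem_torsionBy_iff _ _).mpr
          (add_self_eq_neg_iff.mp (hesPoint_add_self hD hD' H4 H6 (hmem P)))⟩)
      fun P Q => Subtype.ext (hesPoint_add_of_torsion hD hD' H4 H6 (hmem P) (hmem Q))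
  have hinj : Function.Injective f :=
    (injective_iff_map_eq_zero f).mpr fun P hP =>
      Subtype.ext (hesPoint_eq_zero hD hD' H4 H6 (hmem P) (congrArg Subtype.val hP))
  have hsurj : Function.Surjective f := fun P' => by
    obtain ⟨P, hP, hP'⟩ := exists_hesPoint_eq hD hD' H4 H6
      (add_self_eq_neg_iff.mpr ((Submodule.mem_torsionBy_iff _ _).mp P'.2))
    exact ⟨⟨P, (Submodule.mem_torsionBy_iff _ _).mpr (add_self_eq_neg_iff.mp hP)⟩, Subtype.ext hP'⟩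
  exact ⟨AddEquiv.ofBijective f ⟨hinj, hsurj⟩, fun σ P =>
    Subtype.ext (smul_hesPoint hΔ hΔ' h4 h6 σ (hmem P))⟩

end Rat

end FermatLib.Descent
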