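import Mathlib.AlgebraicGeometry.EllipticCurve.Weierstrass
import Mathlib.RingTheory.Coprime.Lemmas
import Mathlib.Tactic.LinearCombination
import Fermat.Agent.Descent.HesseForms

/-!
# Integral models from invariants, supersingular at two
-/

set_option autoImplicit false

namespace FermatLib.Descent

/-- The condition at three for `(A, B)` to be the invariants of an integral model. -/
def KrausThree (A B : ℤ) : Prop :=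
  ∃ b : ℤ, 3 ∣ b ^ 2 - A ∧ 27 ∣ b ^ 3 - 3 * b * A - 2 * B

theorem krausThree_invariants (W : WeierstrassCurve ℤ) : KrausThree W.c₄ W.c₆ :=
  ⟨W.b₂, ⟨8 * W.b₄, by rw [WeierstrassCurve.c₄]; ring⟩,
    ⟨16 * W.b₆, by rw [WeierstrassCurve.c₄, WeierstrassCurve.c₆]; ring⟩⟩

theorem KrausThree.congr {A B A' B' : ℤ} (h : KrausThree A B) (hA : A ≡ A' [ZMOD 27])
    (hB : B ≡ B' [ZMOD 27]) : KrausThree A' B' := by
  obtain ⟨b, h1, h2⟩ := h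
  obtain ⟨i, hi⟩ := hA.dvd
  obtain ⟨j, hj⟩ := hB.dvd
  obtain ⟨k, hk⟩ := h1
  obtain ⟨l, hl⟩ := h2
  exact ⟨b, ⟨k - 9 * i, by linear_combination hk - hi⟩,
    ⟨l - 3 * b * i - 2 * j, by linear_combination hl - 3 * b * hi - 2 * hj⟩⟩

/-- Unit invariants satisfy the condition at three. -/
theorem krausThree_of_unit {A B : ℤ} (hA : 3 ∣ A - 1) (h : 27 ∣ A ^ 3 - B ^ 2) :
    KrausThree A B := by
  have hcop : IsCoprime A 27 := by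
    obtain ⟨k, hk⟩ := hA
    have h3 : IsCoprime A 3 := ⟨1, -k, by linear_combination hk⟩
    simpa using h3.pow_right (n := 3)
  obtain ⟨u, v, huv⟩ := hcop
  obtain ⟨m, hm⟩ := h
  obtain ⟨k, hk⟩ := hA
  refine ⟨-B * u, ⟨9 * (A * u ^ 2 * A - u ^ 2 * A ^ 2) - 9 * m * u ^ 2 - 9 * A * v * (A * u + 1), ?_⟩,
    ⟨B * (u ^ 3 * m) + B * v * (A ^ 2 * u ^ 2 + A * u + 1) - 3 * B * v, ?_⟩⟩
  · linear_combination (-u ^ 2) * hm + A * (A * u + 1) * huv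
  · linear_combination B * u ^ 3 * hm + (3 * B - B * (A ^ 2 * u ^ 2 + A * u + 1)) * huv

/-- Scaling by a unit at three. -/
theorem KrausThree.of_scale {A B t : ℤ} (ht : ¬ (3 : ℤ) ∣ t)
    (h : KrausThree (t ^ 4 * A) (t ^ 6 * B)) : KrausThree A B := by
  obtain ⟨μ, hμ⟩ : ∃ μ, 27 ∣ μ * t - 1 := by
    have : IsCoprime t 27 := by
      have h3 : IsCoprime t 3 := by
        rcases (by omega : t % 3 = 1 ∨ t % 3 = 2) with h0 | h0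
        · exact ⟨1, -(t / 3), by omega⟩
        · exact ⟨-1, t / 3 + 1, by omega⟩
      simpa using h3.pow_right (n := 3)
    obtain ⟨μ, v, hv⟩ := this
    exact ⟨μ, -v, by linear_combination hv⟩
  obtain ⟨b, ⟨k, hk⟩, ⟨l, hl⟩⟩ := h
  obtain ⟨e, he⟩ := hμ
  refine ⟨μ ^ 2 * b, ⟨μ ^ 4 * k + 9 * e * A * (μ * t + 1) * (μ ^ 2 * t ^ 2 + 1), ?_⟩,
    ⟨μ ^ 6 * l + (μ ^ 2 * b * 3 * A * (μ * t + 1) * (μ ^ 2 * t ^ 2 + 1) +
      2 * B * (μ * t + 1) * (μ ^ 4 * t ^ 4 + μ ^ 2 * t ^ 2 + 1)) * e, ?_⟩⟩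
  · linear_combination μ ^ 4 * hk + A * (μ * t + 1) * (μ ^ 2 * t ^ 2 + 1) * he
  · linear_combination μ ^ 6 * hl + (μ ^ 2 * b * 3 * A * (μ * t + 1) * (μ ^ 2 * t ^ 2 + 1) +
      2 * B * (μ * t + 1) * (μ ^ 4 * t ^ 4 + μ ^ 2 * t ^ 2 + 1)) * he

/-- An integral model with `a₁ = 0`, `a₃ = 1` and given invariants. -/
theorem exists_model_supersingular_two {A B : ℤ} (hA : 16 ∣ A) (hB : 32 ∣ B - 8)
    (h3 : KrausThree A B) :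
    ∃ W : WeierstrassCurve ℤ, W.a₁ = 0 ∧ W.a₃ = 1 ∧ W.c₄ = A ∧ W.c₆ = B := by
  obtain ⟨b, ⟨k, hk⟩, ⟨l, hl⟩⟩ := h3
  obtain ⟨i, hi⟩ := hA
  obtain ⟨j, hj⟩ := hB
  have e48 : (48 : ℤ) ∣ 16 * (7 * b) ^ 2 - A := by
    have h16 : (16 : ℤ) ∣ 16 * (7 * b) ^ 2 - A := ⟨(7 * b) ^ 2 - i, by rw [hi]; ring⟩
    have h3' : (3 : ℤ) ∣ 16 * (7 * b) ^ 2 - A := ⟨k + 261 * b ^ 2, by linear_combination hk⟩
    omega
  obtain ⟨a₄, ha₄⟩ := e48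
  have e864 : (864 : ℤ) ∣ -B - 64 * (7 * b) ^ 3 + 288 * (7 * b) * a₄ - 216 := by
    have h32 : (32 : ℤ) ∣ -B - 64 * (7 * b) ^ 3 + 288 * (7 * b) * a₄ - 216 :=
      ⟨-j - 2 * (7 * b) ^ 3 + 9 * (7 * b) * a₄ - 7, by linear_combination -hj⟩
    have h27 : (27 : ℤ) ∣ 2 * (-B - 64 * (7 * b) ^ 3 + 288 * (7 * b) * a₄ - 216) :=
      ⟨l + 813 * b ^ 3 - 3 * b * A - 16, by linear_combination hl - 12 * (7 * b) * ha₄⟩
    omega
  obtain ⟨a₆, ha₆⟩ := e864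
  refine ⟨⟨0, 7 * b, 1, a₄, a₆⟩, rfl, rfl, ?_, ?_⟩
  · simp only [WeierstrassCurve.c₄, WeierstrassCurve.b₂, WeierstrassCurve.b₄]
    linear_combination ha₄
  · simp only [WeierstrassCurve.c₆, WeierstrassCurve.b₂, WeierstrassCurve.b₄,
      WeierstrassCurve.b₆]
    linear_combination ha₆

theorem two_not_dvd_Δ_of_a₁_a₃ {W : WeierstrassCurve ℤ} (h1 : W.a₁ = 0) (h3 : W.a₃ = 1) :
    ¬ (2 : ℤ) ∣ W.Δ := by
  rintro ⟨k, hk⟩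
  have h : ∃ m, W.Δ = 2 * m + 1 := ⟨-8 * W.a₂ ^ 2 * W.b₈ - 4 * W.b₄ ^ 3 -
      14 - 27 * W.a₆ * 4 - 216 * W.a₆ ^ 2 + 36 * W.a₂ * W.a₄ * W.b₆, by
    simp only [WeierstrassCurve.Δ, WeierstrassCurve.b₂, WeierstrassCurve.b₄,
      WeierstrassCurve.b₆, h1, h3]
    ring⟩
  omega

end FermatLib.Descent
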