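import Mathlib.NumberTheory.Padics.PadicVal.Basic
import Fermat.Agent.Descent.HesseModel

/-!
# Local choices on the pencil with fixed `3`-torsion
-/

set_option autoImplicit false

namespace FermatLib.Descent

theorem padicValInt_of_eq_pow_mul {q k : ℕ} [hq : Fact q.Prime] {x e : ℤ}
    (h : x = (q : ℤ) ^ k * e) (he : ¬ (q : ℤ) ∣ e) : padicValInt q x = k := by
  have he0 : e ≠ 0 := fun h0 => he (h0 ▸ dvd_zero _)
  have hq0 : (q : ℤ) ≠ 0 := by exact_mod_cast hq.out.ne_zero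
  rw [h, padicValInt.mul (pow_ne_zero _ hq0) he0, padicValInt.eq_zero_of_not_dvd he, add_zero,
    padicValInt, Int.natAbs_pow, Int.natAbs_natCast, padicValNat.prime_pow]

theorem exists_eq_pow_padicValInt_mul {q : ℕ} [hq : Fact q.Prime] {x : ℤ} (hx : x ≠ 0) :
    ∃ e, x = (q : ℤ) ^ padicValInt q x * e ∧ ¬ (q : ℤ) ∣ e := by
  obtain ⟨e, he⟩ := padicValInt_dvd (p := q) x
  refine ⟨e, he, fun hd => ?_⟩
  have h2 : (q : ℤ) ^ (padicValInt q x + 1) ∣ x := by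
    rw [pow_succ]
    exact (mul_dvd_mul_left _ hd).trans (dvd_of_eq he.symm)
  rcases (padicValInt_dvd_iff _ x).mp h2 with h | h
  · exact hx h
  · omega

variable {W : WeierstrassCurve ℤ}

theorem c_relation_sub (W : WeierstrassCurve ℤ) : W.c₄ ^ 3 - W.c₆ ^ 2 = 1728 * W.Δ :=
  W.c_relation.symm

theorem dvd_sub_sq_of_dvd_Δ {q : ℤ} (h : q ∣ W.Δ) : q ∣ W.c₄ ^ 3 - W.c₆ ^ 2 := by
  rw [c_relation_sub]; exact dvd_mul_of_dvd_right h _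

theorem mult_two_invariants (h : ¬ (2 : ℤ) ∣ W.a₁) :
    W.c₄ % 8 = 1 ∧ W.c₆ % 4 = 3 := by
  obtain ⟨m, hm⟩ : ∃ m, W.a₁ = 2 * m + 1 := ⟨W.a₁ / 2, by omega⟩
  constructor
  · have e : W.c₄ = 8 * (2 * (m * m + m + W.a₂) ^ 2 + (m * m + m + W.a₂) - 3 * W.b₄) + 1 := by
      simp only [WeierstrassCurve.c₄, WeierstrassCurve.b₂, hm]; ring
    omega
  · have e : W.c₆ = 4 * (-(16 * (m * m + m + W.a₂) ^ 3 + 12 * (m * m + m + W.a₂) ^ 2 +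
        3 * (m * m + m + W.a₂)) + 9 * W.b₂ * W.b₄ - 54 * W.b₆) - 1 := by
      simp only [WeierstrassCurve.c₆, WeierstrassCurve.b₂, hm]; ring
    omega

theorem supersingular_two_invariants (h : (2 : ℤ) ∣ W.a₁) (hΔ : ¬ (2 : ℤ) ∣ W.Δ) :
    (16 : ℤ) ∣ W.c₄ ∧ (32 : ℤ) ∣ W.c₆ - 8 := by
  obtain ⟨m, hm⟩ := h
  have hb2 : W.b₂ = 4 * (m * m + W.a₂) := by simp only [WeierstrassCurve.b₂, hm]; ring
  have hb4 : W.b₄ = 2 * (W.a₄ + m * W.a₃) := by simp only [WeierstrassCurve.b₄, hm]; ring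
  have h3 : ¬ (2 : ℤ) ∣ W.a₃ := by
    rintro ⟨k, hk⟩
    have hb6 : W.b₆ = 4 * (k * k + W.a₆) := by simp only [WeierstrassCurve.b₆, hk]; ring
    exact hΔ ⟨-8 * (m * m + W.a₂) ^ 2 * W.b₈ - 32 * (W.a₄ + m * W.a₃) ^ 3 -
      216 * (k * k + W.a₆) ^ 2 + 144 * (m * m + W.a₂) * (W.a₄ + m * W.a₃) * (k * k + W.a₆), by
        simp only [WeierstrassCurve.Δ, hb2, hb4, hb6]; ring⟩
  obtain ⟨k, hk⟩ : ∃ k, W.a₃ = 2 * k + 1 := ⟨W.a₃ / 2, by omega⟩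
  have hb6 : W.b₆ = 4 * (k * k + k + W.a₆) + 1 := by simp only [WeierstrassCurve.b₆, hk]; ring
  constructor
  · exact ⟨(m * m + W.a₂) ^ 2 - 3 * (W.a₄ + m * W.a₃),
      by simp only [WeierstrassCurve.c₄, hb2, hb4]; ring⟩
  · exact ⟨-2 * (m * m + W.a₂) ^ 3 + 9 * (m * m + W.a₂) * (W.a₄ + m * W.a₃) -
      27 * (k * k + k + W.a₆) - 7, by simp only [WeierstrassCurve.c₆, hb2, hb4, hb6]; ring⟩

/-- At two the pencil has a member with good supersingular reduction. -/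
theorem exists_local_two (hΔ : W.Δ ≠ 0) (hs : (2 : ℤ) ∣ W.Δ → ¬ (2 : ℤ) ∣ W.c₄)
    (h3 : 3 ∣ padicValInt 2 W.Δ) :
    ∃ (j N : ℕ) (s₀ r₀ : ℤ), ¬ ((2 : ℤ) ∣ s₀ ∧ (2 : ℤ) ∣ r₀) ∧
      ∀ s r : ℤ, s ≡ s₀ [ZMOD 2 ^ N] → r ≡ r₀ [ZMOD 2 ^ N] →
        ∃ A B : ℤ, hesA W.c₄ W.c₆ s r = (2 ^ j) ^ 4 * A ∧ hesB W.c₄ W.c₆ s r = (2 ^ j) ^ 6 * B ∧
          16 ∣ A ∧ 32 ∣ B - 8 := by
  by_cases ha : (2 : ℤ) ∣ W.a₁
  · have hgood : ¬ (2 : ℤ) ∣ W.Δ := fun hd => hs hd (by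
      obtain ⟨m, hm⟩ := ha
      exact ⟨8 * (m * m + W.a₂) ^ 2 - 12 * W.b₄, by
        simp only [WeierstrassCurve.c₄, WeierstrassCurve.b₂, hm]; ring⟩)
    obtain ⟨e4, e6⟩ := supersingular_two_invariants ha hgood
    refine ⟨0, 5, 0, 1, by omega, fun s r hs hr =>
      ⟨hesA W.c₄ W.c₆ s r, hesB W.c₄ W.c₆ s r, ?_, ?_, ?_, ?_⟩⟩
    · rw [pow_zero, one_pow, one_mul]
    · rw [pow_zero, one_pow, one_mul]
    · have := hesA_modEq (Int.ModEq.refl W.c₄) (Int.ModEq.refl W.c₆) hs hr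
      rw [hesA_zero_one, Int.ModEq] at this
      omega
    · have := hesB_modEq (Int.ModEq.refl W.c₄) (Int.ModEq.refl W.c₆) hs hr
      rw [hesB_zero_one, Int.ModEq] at this
      omega
  · obtain ⟨hH, hT⟩ := mult_two_invariants ha
    obtain ⟨k, hk⟩ := h3
    have : Fact (Nat.Prime 2) := ⟨Nat.prime_two⟩
    obtain ⟨d, hd, hd2⟩ := exists_eq_pow_padicValInt_mul (q := 2) hΔ
    rw [hk] at hd
    push_cast at hd hd2
    refine ⟨2 + k, (2 + k) * 6 + 5, W.c₄, W.c₆, by omega, fun s r hs hr => ?_⟩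
    obtain ⟨a, ha'⟩ := (hesA_modEq (Int.ModEq.refl W.c₄) (Int.ModEq.refl W.c₆) hs hr).symm.dvd
    obtain ⟨b, hb⟩ := (hesB_modEq (Int.ModEq.refl W.c₄) (Int.ModEq.refl W.c₆) hs hr).symm.dvd
    have hrel : W.c₄ ^ 3 - W.c₆ ^ 2 = 1728 * (2 ^ (3 * k) * d) := by rw [c_relation_sub, ← hd]
    refine ⟨-3 * W.c₄ * 2 ^ (4 + 2 * k) * (27 * d) ^ 2 + 2 ^ ((2 + k) * 2 + 5) * a,
      -8 * W.c₆ * (27 * d) ^ 2 * (216 * (2 ^ (3 * k) * d) + W.c₄ ^ 3) + 2 ^ 5 * b, ?_, ?_, ?_, ?_⟩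
    · rw [hesA_self, hrel] at ha'
      linear_combination ha'
    · rw [hesB_self] at hb
      linear_combination hb - W.c₆ *
        ((W.c₄ ^ 3 - W.c₆ ^ 2) ^ 2 + (W.c₄ ^ 3 - W.c₆ ^ 2) * (1728 * (2 ^ (3 * k) * d)) +
          (1728 * (2 ^ (3 * k) * d)) ^ 2 + 8 * W.c₄ ^ 3 *
            (W.c₄ ^ 3 - W.c₆ ^ 2 + 1728 * (2 ^ (3 * k) * d))) * hrel
    · refine dvd_add (dvd_mul_of_dvd_left (dvd_mul_of_dvd_right ?_ _) _) (dvd_mul_of_dvd_left ?_ _)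
      · exact ⟨2 ^ (2 * k), by ring⟩
      · exact ⟨2 ^ (2 * k + 5), by ring⟩
    · obtain ⟨m, hm⟩ : ∃ m, d = 2 * m + 1 := ⟨d / 2, by omega⟩
      obtain ⟨t, ht⟩ : ∃ t, W.c₆ = 4 * t - 1 := ⟨(W.c₆ + 1) / 4, by omega⟩
      obtain ⟨g, hg⟩ : ∃ g, W.c₄ = 8 * g + 1 := ⟨W.c₄ / 8, by omega⟩
      refine ⟨-t * (27 * d) ^ 2 * (216 * (2 ^ (3 * k) * d) + W.c₄ ^ 3) + (27 * d) ^ 2 *
        (54 * (2 ^ (3 * k) * d) + 2 * (64 * g ^ 3 + 24 * g ^ 2 + 3 * g)) +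
        (729 * (m * m + m) + 182) + b, ?_⟩
      rw [ht, hg, hm]
      ring

/-- At a multiplicative prime `q ≥ 5` the pencil has a member with odd exponent. -/
theorem exists_local_ge_five {q : ℕ} [hq : Fact q.Prime] (h5 : 5 ≤ q) (hΔ : W.Δ ≠ 0)
    (hd : (q : ℤ) ∣ W.Δ) (hs : ¬ (q : ℤ) ∣ W.c₄) :
    ∃ s₀ r₀ : ℤ, ¬ ((q : ℤ) ∣ s₀ ∧ (q : ℤ) ∣ r₀) ∧
      ∀ s r : ℤ, s ≡ s₀ [ZMOD (q : ℤ) ^ 2] → r ≡ r₀ [ZMOD (q : ℤ) ^ 2] →
        ¬ (q : ℤ) ∣ hesA W.c₄ W.c₆ s r ∧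
          Odd (padicValInt q W.Δ + 3 * padicValInt q (hesD W.c₄ W.c₆ s r)) := by
  have hqp : Prime (q : ℤ) := Nat.prime_iff_prime_int.mp hq.out
  have hsmall : ∀ n : ℕ, n.Prime → n < 5 → ¬ (q : ℤ) ∣ n := fun n hn hlt h => by
    have := (Nat.prime_dvd_prime_iff_eq hq.out hn).mp (Int.natCast_dvd_natCast.mp h)
    omega
  have h2 : ¬ (q : ℤ) ∣ 2 := hsmall 2 Nat.prime_two (by norm_num)
  have h3 : ¬ (q : ℤ) ∣ 3 := hsmall 3 Nat.prime_three (by norm_num)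
  have hqq : (q : ℤ) ∣ (q : ℤ) ^ 2 := dvd_pow_self _ two_ne_zero
  by_cases hodd : Odd (padicValInt q W.Δ)
  · refine ⟨0, 1, fun h => hqp.not_isUnit (isUnit_of_dvd_one h.2), fun s r hs' hr' => ?_⟩
    have hA := (hesA_modEq (Int.ModEq.refl W.c₄) (Int.ModEq.refl W.c₆)
      (hs'.of_dvd hqq) (hr'.of_dvd hqq)).dvd
    have hD := (hesD_modEq (Int.ModEq.refl W.c₄) (Int.ModEq.refl W.c₆)
      (hs'.of_dvd hqq) (hr'.of_dvd hqq)).dvd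
    rw [hesA_zero_one] at hA
    rw [hesD_zero_one] at hD
    refine ⟨fun h => hs ((dvd_sub_left h).mp hA), ?_⟩
    rw [padicValInt.eq_zero_of_not_dvd fun h => hqp.not_isUnit (isUnit_of_dvd_one ((dvd_sub_left h).mp hD))]
    simpa using hodd
  · obtain ⟨d, hd', -⟩ := exists_eq_pow_padicValInt_mul (q := q) hΔ
    have hv : 2 ≤ padicValInt q W.Δ := by
      have : padicValInt q W.Δ ≠ 0 := fun h0 => by
        rcases (padicValInt_dvd_iff 1 W.Δ).mp (by simpa using hd) with h | h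
        · exact hΔ h
        · omega
      have : padicValInt q W.Δ ≠ 1 := fun h1 => hodd (h1 ▸ odd_one)
      omega
    have hq2 : (q : ℤ) ^ 2 ∣ W.c₄ ^ 3 - W.c₆ ^ 2 := dvd_sub_sq_of_dvd_Δ
      ((pow_dvd_pow _ hv).trans ⟨d, hd'⟩)
    have hHT : (q : ℤ) ∣ W.c₄ ^ 3 - W.c₆ ^ 2 := hqq.trans hq2
    have hT : ¬ (q : ℤ) ∣ W.c₆ := fun h => hs (hqp.dvd_of_dvd_pow
      ((dvd_sub_left (dvd_pow h two_ne_zero)).mp hHT))
    have hu : ¬ (q : ℤ) ∣ 12 * W.c₄ ^ 2 * (15 * W.c₆ ^ 2 + W.c₄ ^ 3) := by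
      intro h
      have : (q : ℤ) ∣ 2 ^ 6 * 3 * W.c₄ ^ 5 := by
        have h' := dvd_add h (dvd_mul_of_dvd_right hHT (180 * W.c₄ ^ 2))
        rw [show 12 * W.c₄ ^ 2 * (15 * W.c₆ ^ 2 + W.c₄ ^ 3) + 180 * W.c₄ ^ 2 *
          (W.c₄ ^ 3 - W.c₆ ^ 2) = 2 ^ 6 * 3 * W.c₄ ^ 5 by ring] at h'
        exact h'
      rcases hqp.dvd_or_dvd this with h | h
      · rcases hqp.dvd_or_dvd h with h | h
        · exact h2 (hqp.dvd_of_dvd_pow h)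
        · exact h3 h
      · exact hs (hqp.dvd_of_dvd_pow h)
    refine ⟨-W.c₄ + q, 3 * W.c₆, fun h => ?_, fun s r hs' hr' => ?_⟩
    · rcases hqp.dvd_or_dvd h.2 with h' | h'
      · exact h3 h'
      · exact hT h'
    have hA := (hesA_modEq (s' := -W.c₄) (Int.ModEq.refl W.c₄) (Int.ModEq.refl W.c₆)
      ((hs'.of_dvd hqq).trans (Int.modEq_iff_dvd.mpr ⟨-1, by ring⟩)) (hr'.of_dvd hqq)).dvd
    have hD := (hesD_modEq (Int.ModEq.refl W.c₄) (Int.ModEq.refl W.c₆) hs' hr').dvd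
    constructor
    · intro h
      have h' := (dvd_sub_left h).mp hA
      rw [hesA_cusp] at h'
      have h'' := (dvd_add_left (dvd_mul_of_dvd_left hHT _)).mp h'
      rw [show (256 : ℤ) = 2 ^ 8 by norm_num] at h''
      rcases hqp.dvd_or_dvd h'' with h | h
      · rcases hqp.dvd_or_dvd h with h | h
        · exact h2 (hqp.dvd_of_dvd_pow h)
        · exact hs h
      · exact hT (hqp.dvd_of_dvd_pow h)
    · have hexp := sq_dvd_hesD_cusp_add W.c₄ W.c₆ (q : ℤ)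
      have hcu : (q : ℤ) ^ 2 ∣ hesD W.c₄ W.c₆ (-W.c₄) (3 * W.c₆) := by
        rw [hesD_cusp]
        exact dvd_mul_of_dvd_left (dvd_mul_of_dvd_right hq2 _) _
      obtain ⟨a, ha⟩ := hD
      obtain ⟨b, hb⟩ := hexp
      obtain ⟨c, hc⟩ := hcu
      have hval : padicValInt q (hesD W.c₄ W.c₆ s r) = 1 := by
        refine padicValInt_of_eq_pow_mul
          (e := 12 * W.c₄ ^ 2 * (15 * W.c₆ ^ 2 + W.c₄ ^ 3) + (q : ℤ) * (b + c - a)) ?_ ?_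
        · linear_combination hb + hc - ha
        · exact fun h => hu ((dvd_add_left (dvd_mul_right _ _)).mp h)
      rw [hval]
      rcases Nat.even_or_odd (padicValInt q W.Δ) with h | h
      · exact h.add_odd (by decide)
      · exact absurd h hodd

/-- At three: the conditions for an integral semistable model with odd exponent. -/
theorem exists_local_three (hΔ : W.Δ ≠ 0) (hs : (3 : ℤ) ∣ W.Δ → ¬ (3 : ℤ) ∣ W.c₄) :
    ∃ s₀ r₀ : ℤ, ¬ ((3 : ℤ) ∣ s₀ ∧ (3 : ℤ) ∣ r₀) ∧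
      ∀ s r : ℤ, s ≡ s₀ [ZMOD 3 ^ 4] → r ≡ r₀ [ZMOD 3 ^ 4] →
        KrausThree (hesA W.c₄ W.c₆ s r) (hesB W.c₄ W.c₆ s r) ∧
        ((¬ (3 : ℤ) ∣ W.Δ ∧ ¬ (3 : ℤ) ∣ hesD W.c₄ W.c₆ s r) ∨
          ((3 : ℤ) ∣ W.Δ ∧ ¬ (3 : ℤ) ∣ hesA W.c₄ W.c₆ s r ∧
            Odd (padicValInt 3 W.Δ + 3 * padicValInt 3 (hesD W.c₄ W.c₆ s r)))) := by
  have : Fact (Nat.Prime 3) := ⟨Nat.prime_three⟩
  by_cases hcase : (3 : ℤ) ∣ W.Δ ∧ ¬ Odd (padicValInt 3 W.Δ)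
  · obtain ⟨hd, hodd⟩ := hcase
    have hH := hs hd
    have hH1 : W.c₄ % 3 = 1 := by
      obtain ⟨b, ⟨k, hk⟩, -⟩ := krausThree_invariants W
      rcases (by omega : b % 3 = 0 ∨ b % 3 = 1 ∨ b % 3 = 2) with h | h | h
      · obtain ⟨m, rfl⟩ : ∃ m, b = 3 * m := ⟨b / 3, by omega⟩
        exact absurd ⟨3 * m ^ 2 - k, by linear_combination -hk⟩ hH
      · obtain ⟨m, rfl⟩ : ∃ m, b = 3 * m + 1 := ⟨b / 3, by omega⟩
        have : W.c₄ = 3 * (3 * m ^ 2 + 2 * m - k) + 1 := by linear_combination -hk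
        omega
      · obtain ⟨m, rfl⟩ : ∃ m, b = 3 * m + 2 := ⟨b / 3, by omega⟩
        have : W.c₄ = 3 * (3 * m ^ 2 + 4 * m + 1 - k) + 1 := by linear_combination -hk
        omega
    obtain ⟨g, hg⟩ : ∃ g, W.c₄ = 3 * g + 1 := ⟨W.c₄ / 3, by omega⟩
    obtain ⟨d, hd'⟩ := hd
    have hrel : W.c₄ ^ 3 - W.c₆ ^ 2 = 81 * (64 * d) := by rw [c_relation_sub, hd']; ring
    have hT2 : W.c₆ ^ 2 = 3 * (9 * g ^ 3 + 9 * g ^ 2 + 3 * g - 27 * (64 * d)) + 1 := by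
      rw [hg] at hrel; linear_combination -hrel
    refine ⟨-W.c₄ + 9, 3 * W.c₆, fun h => ?_, fun s r hs' hr' => ?_⟩
    · omega
    obtain ⟨a, ha⟩ := (hesA_modEq (s' := -W.c₄) (r' := 3 * W.c₆) (Int.ModEq.refl W.c₄)
      (Int.ModEq.refl W.c₆)
      ((hs'.of_dvd (dvd_pow_self 3 four_ne_zero)).trans (Int.modEq_iff_dvd.mpr ⟨-3, by ring⟩))
      (hr'.of_dvd (dvd_pow_self 3 four_ne_zero))).dvd
    rw [hesA_cusp] at ha
    have hA : 3 ∣ hesA W.c₄ W.c₆ s r - 1 := by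
      refine ⟨256 * g * (W.c₆ ^ 2) ^ 2 + 256 * (9 * g ^ 3 + 9 * g ^ 2 + 3 * g - 27 * (64 * d)) *
        (W.c₆ ^ 2 + 1) + 85 + 27 * (64 * d) * (67 * W.c₄ * W.c₆ ^ 2 - 3 * W.c₄ ^ 4) - a, ?_⟩
      linear_combination (67 * W.c₄ * W.c₆ ^ 2 - 3 * W.c₄ ^ 4) * hrel +
        256 * (W.c₆ ^ 2 + 1) * hT2 + 256 * (W.c₆ ^ 2) ^ 2 * hg - ha
    refine ⟨krausThree_of_unit hA ⟨64 * W.Δ * hesD W.c₄ W.c₆ s r ^ 3, ?_⟩,
      .inr ⟨⟨d, hd'⟩, fun h => by omega, ?_⟩⟩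
    · rw [hesA_pow_three_sub, c_relation_sub]; ring
    obtain ⟨a', ha'⟩ := (hesD_modEq (Int.ModEq.refl W.c₄) (Int.ModEq.refl W.c₆) hs' hr').dvd
    obtain ⟨b, hb⟩ := sq_dvd_hesD_cusp_add W.c₄ W.c₆ 9
    have hcu := hesD_cusp W.c₄ W.c₆
    have hval : padicValInt 3 (hesD W.c₄ W.c₆ s r) = 3 := by
      refine padicValInt_of_eq_pow_mul
        (e := 4 * W.c₄ ^ 2 * (15 * W.c₆ ^ 2 + W.c₄ ^ 3) +
          3 * (b - a' - 3 * (64 * d) * (27 * W.c₆ ^ 2 + W.c₄ ^ 3))) ?_ ?_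
      · push_cast
        rw [hrel] at hcu
        linear_combination hb + hcu - ha'
      · rintro ⟨c, hc⟩
        rw [hg] at hc
        have : (3 : ℤ) ∣ 4 := by
          refine ⟨c - (4 * (3 * g ^ 2 + 2 * g) * (15 * W.c₆ ^ 2 + (3 * g + 1) ^ 3) + 4 * (5 * W.c₆ ^ 2 +
            9 * g ^ 3 + 9 * g ^ 2 + 3 * g)) -
            (b - a' - 3 * (64 * d) * (27 * W.c₆ ^ 2 + (3 * g + 1) ^ 3)), ?_⟩
          push_cast at hc
          linear_combination hc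
        omega
    rw [hval]
    rcases Nat.even_or_odd (padicValInt 3 W.Δ) with h | h
    · exact h.add_odd (by decide)
    · exact absurd h hodd
  · refine ⟨0, 1, by omega, fun s r hs' hr' => ?_⟩
    have hA := hesA_modEq (Int.ModEq.refl W.c₄) (Int.ModEq.refl W.c₆) hs' hr'
    have hB := hesB_modEq (Int.ModEq.refl W.c₄) (Int.ModEq.refl W.c₆) hs' hr'
    have hD := hesD_modEq (Int.ModEq.refl W.c₄) (Int.ModEq.refl W.c₆) hs' hr'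
    rw [hesA_zero_one] at hA
    rw [hesB_zero_one] at hB
    rw [hesD_zero_one] at hD
    have h27 : (27 : ℤ) ∣ 3 ^ 4 := ⟨3, by norm_num⟩
    refine ⟨(krausThree_invariants W).congr (hA.of_dvd h27).symm (hB.of_dvd h27).symm, ?_⟩
    have hD3 : ¬ (3 : ℤ) ∣ hesD W.c₄ W.c₆ s r := by
      rw [Int.ModEq] at hD; omega
    by_cases hd : (3 : ℤ) ∣ W.Δ
    · refine .inr ⟨hd, ?_, ?_⟩
      · have := hs hd
        rw [Int.ModEq] at hA; omega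
      · rw [padicValInt.eq_zero_of_not_dvd (p := 3) (z := hesD W.c₄ W.c₆ s r) (by simpa using hD3)]
        simpa using not_not.mp fun h => hcase ⟨hd, h⟩
    · exact .inl ⟨hd, hD3⟩

end FermatLib.Descent
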