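import Mathlib.AlgebraicGeometry.EllipticCurve.Affine.Point
import Mathlib.Tactic.FieldSimp
import Mathlib.Tactic.LinearCombination
import Fermat.Agent.Descent.X0FiveThree

/-!
# The group law in short coordinates on a general Weierstrass curve
-/

set_option autoImplicit false

open WeierstrassCurve WeierstrassCurve.Affine

namespace FermatLib.Descent

variable {F : Type*} [Field F] (V : WeierstrassCurve.Affine F)

/-- The linear coefficient of the short model. -/
def shortA : F := -V.c₄ / 48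

/-- The constant coefficient of the short model. -/
def shortB : F := -V.c₆ / 864

/-- The point with given short coordinates (zero if there is none). -/
noncomputable def shortPoint (X Y : F) : V.Point :=
  open scoped Classical in
  if h : V.Nonsingular (X - V.b₂ / 12) (Y - (V.a₁ * (X - V.b₂ / 12) + V.a₃) / 2) then
    Point.some _ _ h
  else 0

variable {V}

theorem shortX_sub (X : F) : shortX V (X - V.b₂ / 12) = X := by
  simp [shortX]

theorem shortY_sub (X Y : F) :
    shortY V (X - V.b₂ / 12) (Y - (V.a₁ * (X - V.b₂ / 12) + V.a₃) / 2) = Y := by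
  simp [shortY]

theorem shortPoint_shortX {x y : F} (h : V.Nonsingular x y) :
    shortPoint V (shortX V x) (shortY V x y) = Point.some x y h := by
  have hx : shortX V x - V.b₂ / 12 = x := by simp [shortX]
  have hy : shortY V x y - (V.a₁ * (shortX V x - V.b₂ / 12) + V.a₃) / 2 = y := by
    simp [hx, shortY]
  unfold shortPoint
  rw [dif_pos (by rw [hy, hx]; exact h)]
  simp only [Point.some.injEq]
  exact ⟨hx, hy⟩

theorem shortPoint_eq_some (hΔ : V.Δ ≠ 0) [CharZero F] {X Y : F}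
    (h : Y ^ 2 = X ^ 3 + shortA V * X + shortB V) :
    ∃ x y hn, shortPoint V X Y = Point.some x y hn ∧ shortX V x = X ∧ shortY V x y = Y := by
  have hn : V.Nonsingular (X - V.b₂ / 12) (Y - (V.a₁ * (X - V.b₂ / 12) + V.a₃) / 2) := by
    rw [← equation_iff_nonsingular_of_Δ_ne_zero hΔ, equation_iff]
    simp only [shortA, shortB, WeierstrassCurve.c₄, WeierstrassCurve.c₆, WeierstrassCurve.b₂,
      WeierstrassCurve.b₄, WeierstrassCurve.b₆] at h
    simp only [WeierstrassCurve.b₂]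
    field_simp at h ⊢
    linear_combination h / 6
  exact ⟨_, _, hn, dif_pos hn, shortX_sub X, shortY_sub X Y⟩

theorem shortPoint_ne_zero (hΔ : V.Δ ≠ 0) [CharZero F] {X Y : F}
    (h : Y ^ 2 = X ^ 3 + shortA V * X + shortB V) : shortPoint V X Y ≠ 0 := by
  obtain ⟨x, y, hn, he, -⟩ := shortPoint_eq_some hΔ h
  rw [he]
  exact Point.some_ne_zero _

variable [CharZero F]

theorem exists_eq_shortPoint {P : V.Point} (hP : P ≠ 0) :
    ∃ X Y, Y ^ 2 = X ^ 3 + shortA V * X + shortB V ∧ P = shortPoint V X Y := by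
  rcases P with _ | ⟨x, y, h⟩
  · exact absurd rfl hP
  · exact ⟨_, _, shortY_sq h.1, (shortPoint_shortX h).symm⟩

theorem neg_shortPoint (hΔ : V.Δ ≠ 0) {X Y : F}
    (h : Y ^ 2 = X ^ 3 + shortA V * X + shortB V) :
    -shortPoint V X Y = shortPoint V X (-Y) := by
  obtain ⟨x, y, hn, he, rfl, rfl⟩ := shortPoint_eq_some hΔ h
  rw [he, Point.neg_some, ← shortY_negY, shortPoint_shortX]

variable [DecidableEq F]

theorem shortPoint_add (hΔ : V.Δ ≠ 0) {X₁ Y₁ X₂ Y₂ L : F}
    (h₁ : Y₁ ^ 2 = X₁ ^ 3 + shortA V * X₁ + shortB V)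
    (h₂ : Y₂ ^ 2 = X₂ ^ 3 + shortA V * X₂ + shortB V) (hX : X₁ ≠ X₂)
    (hL : L * (X₁ - X₂) = Y₁ - Y₂) :
    shortPoint V X₁ Y₁ + shortPoint V X₂ Y₂ =
      shortPoint V (L ^ 2 - X₁ - X₂) (-(L * (L ^ 2 - X₁ - X₂ - X₁) + Y₁)) := by
  obtain ⟨x₁, y₁, hn₁, he₁, rfl, rfl⟩ := shortPoint_eq_some hΔ h₁
  obtain ⟨x₂, y₂, hn₂, he₂, rfl, rfl⟩ := shortPoint_eq_some hΔ h₂
  have hx : x₁ ≠ x₂ := fun e => hX (by rw [e])
  rw [he₁, he₂, Point.add_of_X_ne hx, ← shortPoint_shortX (nonsingular_add hn₁ hn₂ fun e => hx e.1)]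
  have hl : V.slope x₁ x₂ y₁ y₂ + V.a₁ / 2 = L := by
    have hs : V.slope x₁ x₂ y₁ y₂ * (x₁ - x₂) = y₁ - y₂ := by
      rw [slope_of_X_ne hx, div_mul_cancel₀ _ (sub_ne_zero.mpr hx)]
    apply mul_right_cancel₀ (sub_ne_zero.mpr hx)
    simp only [shortX, shortY] at hL
    linear_combination hs - hL
  subst hl
  congr 1
  · simp only [shortX, addX, WeierstrassCurve.b₂]
    ring
  · simp only [shortX, shortY, addX, addY, negAddY, negY, WeierstrassCurve.b₂]
    ring

theorem shortPoint_add_self (hΔ : V.Δ ≠ 0) {X Y m : F}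
    (h : Y ^ 2 = X ^ 3 + shortA V * X + shortB V) (hY : Y ≠ 0)
    (hm : 2 * Y * m = 3 * X ^ 2 + shortA V) :
    shortPoint V X Y + shortPoint V X Y =
      shortPoint V (m ^ 2 - 2 * X) (-(m * (m ^ 2 - 2 * X - X) + Y)) := by
  obtain ⟨x, y, hn, he, rfl, rfl⟩ := shortPoint_eq_some hΔ h
  rw [he]
  have h2 : Point.some x y hn + Point.some x y hn ≠ 0 := by
    rw [Point.add_self_of_Y_ne fun e => hY (shortY_eq_zero_iff.mpr e)]
    exact Point.some_ne_zero _
  obtain ⟨-, x', y', h', hadd, m', hm', hx', hy'⟩ := exists_short_double hn h2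
  obtain rfl : m' = m := mul_left_cancel₀ (mul_ne_zero two_ne_zero hY)
    (by rw [hm, hm']; rfl)
  rw [hadd, ← shortPoint_shortX h', hy', hx']

end FermatLib.Descent
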