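import Fermat.Agent.Descent.HesseLocal
import Fermat.Agent.Descent.HesseIso
import Fermat.Agent.Descent.X0StablePoint
import Fermat.Agent.MLT.SieveQuartic

/-!
# The switch at three

A semistable curve whose `3`-torsion is unramified at two has the same `3`-torsion as a semistable
curve with negative discriminant, good supersingular reduction at two, irreducible `2`-torsion and
odd exponents at all bad primes.
-/

set_option autoImplicit false

open WeierstrassCurve WeierstrassCurve.Affine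

namespace FermatLib.Descent

local notation "Ω" => AlgebraicClosure ℚ

/-- The coefficients of `hesD` as a quartic in `r`. -/
def hesCoeff (H T : ℤ) : Fin 5 → ℤ := ![-3 * H ^ 2, 8 * T, -6 * H, 0, 1]

theorem binQuartic_hesCoeff {R : Type*} [CommRing R] (H T : ℤ) (r s : R) :
    FermatLib.MLT.binQuartic (hesCoeff H T) r s = hesD (H : R) (T : R) s r := by
  simp [FermatLib.MLT.binQuartic, hesCoeff, hesD, Fin.sum_univ_five]
  ring

theorem separable_hesCoeff {H T : ℤ} (h : H ^ 3 ≠ T ^ 2) :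
    ((FermatLib.MLT.quarticPoly (hesCoeff H T)).map (Int.castRingHom ℚ)).Separable := by
  refine FermatLib.MLT.separable_quarticPoly _ fun z hz hz' => ?_
  simp [hesCoeff, Fin.sum_univ_five] at hz hz'
  have := eq_zero_of_hesD_partials_eq_zero (F := ℂ) (H := (H : ℂ)) (T := (T : ℂ)) (s := 1) (r := z)
    two_ne_zero (by exact_mod_cast h) (by linear_combination hz' / 4)
    (by linear_combination -hz / 3 + z * hz' / 12)
  exact one_ne_zero this.1

/-- A model `y² + y = x³ + a₂x² + a₄x + a₆` has irreducible `2`-torsion. -/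
theorem modRepIsIrreducible_two_of_a₁_a₃ {W : WeierstrassCurve ℤ} (h1 : W.a₁ = 0) (h3 : W.a₃ = 1)
    (hΔ : W.Δ ≠ 0) : W.ModRepIsIrreducible 2 := by
  by_contra hc
  obtain ⟨P, hP0, hP2, hσ⟩ := exists_stable_point_of_not_modRepIsIrreducible W hΔ Nat.prime_two hc
  rcases P with _ | ⟨x, y, hxy⟩
  · exact hP0 rfl
  rw [two_nsmul] at hP2
  have hy : y = ((W.map (Int.castRingHom ℚ))⁄Ω).toAffine.negY x y := by
    by_contra hy
    rw [Point.add_self_of_Y_ne hy] at hP2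
    exact Point.some_ne_zero _ hP2
  have hfix : ∀ σ : Ω ≃ₐ[ℚ] Ω, σ x = x := by
    intro σ
    obtain ⟨k, hk⟩ := hσ σ
    dsimp only at hk
    rw [Point.algEquiv_smul_def, Point.map_some] at hk
    rcases Int.even_or_odd k with ⟨m, rfl⟩ | ⟨m, rfl⟩
    · rw [add_zsmul, ← zsmul_add, hP2, zsmul_zero] at hk
      exact absurd hk.symm (Point.some_ne_zero _)
    · rw [add_zsmul, one_zsmul, two_mul, add_zsmul, ← zsmul_add, hP2, zsmul_zero, zero_add,
        Point.some.injEq] at hk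
      exact hk.1.symm
  obtain ⟨q, hq⟩ := exists_rat_eq_of_forall_fixed hfix
  have heq := (equation_iff x y).mp hxy.1
  simp [negY, WeierstrassCurve.baseChange, h1, h3] at hy heq
  have key : (4 * q ^ 3 + 4 * W.a₂ * q ^ 2 + 4 * W.a₄ * q + 4 * W.a₆ + 1 : ℚ) = 0 := by
    apply Rat.cast_injective (α := Ω)
    push_cast
    rw [hq]
    linear_combination -4 * heq + (2 * y + 1) * hy
  have hden : (q.den : ℚ) ≠ 0 := by exact_mod_cast q.den_nz
  have hint : 4 * q.num ^ 3 + 4 * W.a₂ * q.num ^ 2 * q.den + 4 * W.a₄ * q.num * (q.den : ℤ) ^ 2 +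
      (4 * W.a₆ + 1) * (q.den : ℤ) ^ 3 = 0 := by
    have e : (q.num : ℚ) = q * q.den := (Rat.mul_den_eq_num q).symm
    apply Int.cast_injective (α := ℚ)
    push_cast
    rw [e]
    linear_combination (q.den : ℚ) ^ 3 * key
  rcases Nat.even_or_odd q.den with ⟨e, he⟩ | ⟨e, he⟩
  · have hn : (2 : ℤ) ∣ q.num ^ 3 := by
      refine ⟨-(W.a₂ * q.num ^ 2 * e + 2 * W.a₄ * q.num * (e : ℤ) ^ 2 +
        (4 * W.a₆ + 1) * (e : ℤ) ^ 3), ?_⟩
      rw [he] at hint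
      push_cast at hint
      apply mul_left_cancel₀ (show (4 : ℤ) ≠ 0 by norm_num)
      linear_combination hint
    have h2 : 2 ∣ q.num.natAbs := Int.natCast_dvd.mp (Int.prime_two.dvd_of_dvd_pow hn)
    exact Nat.not_coprime_of_dvd_of_dvd one_lt_two h2 ⟨e, by omega⟩ q.reduced
  · rw [he] at hint
    push_cast at hint
    have : ∃ m : ℤ, (1 : ℤ) + 2 * m = 0 :=
      ⟨2 * q.num ^ 3 + 2 * W.a₂ * q.num ^ 2 * (2 * e + 1) + 2 * W.a₄ * q.num * (2 * e + 1) ^ 2 +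
        2 * W.a₆ * (2 * e + 1) ^ 3 + 4 * (e : ℤ) ^ 3 + 6 * (e : ℤ) ^ 2 + 3 * e, by
          linear_combination hint⟩
    omega

/-- Irreducibility transfers along an equivariant isomorphism. -/
theorem galoisRepIsIrreducible_of_addEquiv {W W' : WeierstrassCurve ℚ} {n : ℕ}
    (e : Submodule.torsionBy ℤ (W⁄Ω).Point (n : ℤ) ≃+ Submodule.torsionBy ℤ (W'⁄Ω).Point (n : ℤ))
    (he : ∀ (σ : Ω ≃ₐ[ℚ] Ω) P, e (σ • P) = σ • e P)
    (h : Point.GaloisRepIsIrreducible (K := Ω) ℚ W n) :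
    Point.GaloisRepIsIrreducible (K := Ω) ℚ W' n := by
  obtain ⟨hnt, hirr⟩ := h
  refine ⟨e.symm.toEquiv.nontrivial, fun N hN => ?_⟩
  rcases hirr (N.comap (e.toAddMonoidHom.toZModLinearMap n)) (fun σ P hP => by
    simp only [Submodule.mem_comap, AddMonoidHom.coe_toZModLinearMap,
      AddEquiv.coe_toAddMonoidHom] at hP ⊢
    rw [he]
    exact hN σ _ hP) with h0 | h0
  · left
    rw [eq_bot_iff]
    intro P hP
    have : e.symm P ∈ N.comap (e.toAddMonoidHom.toZModLinearMap n) := by simpa using hP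
    rw [h0, Submodule.mem_bot] at this
    simpa using this
  · right
    rw [eq_top_iff]
    intro P _
    have : e.symm P ∈ N.comap (e.toAddMonoidHom.toZModLinearMap n) := by rw [h0]; trivial
    simpa using this

/-- **The switch at three.** -/
theorem exists_hesse_switch (W : WeierstrassCurve ℤ) (hΔ : W.Δ ≠ 0) (hW : W.IsSemistableModel)
    (h2 : 3 ∣ padicValInt 2 W.Δ) :
    ∃ W' : WeierstrassCurve ℤ, W'.Δ < 0 ∧ W'.IsSemistableModel ∧
      W'.a₁ = 0 ∧ W'.a₃ = 1 ∧ ¬ (2 : ℤ) ∣ W'.Δ ∧ W'.ModRepIsIrreducible 2 ∧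
      (∀ q : ℕ, q.Prime → (q : ℤ) ∣ W'.Δ → Odd (padicValInt q W'.Δ)) ∧
      (∀ q : ℕ, q.Prime → q ≠ 2 → (q : ℤ) ∣ W.Δ → (q : ℤ) ∣ W'.Δ) ∧
      (¬ (3 : ℤ) ∣ W.Δ → ¬ (3 : ℤ) ∣ W'.Δ) ∧
      ∃ e : Submodule.torsionBy ℤ ((W.map (Int.castRingHom ℚ))⁄Ω).Point ((3 : ℕ) : ℤ) ≃+
          Submodule.torsionBy ℤ ((W'.map (Int.castRingHom ℚ))⁄Ω).Point ((3 : ℕ) : ℤ),
        ∀ (σ : Ω ≃ₐ[ℚ] Ω) P, e (σ • P) = σ • e P := by
  classical
  have hHT : W.c₄ ^ 3 ≠ W.c₆ ^ 2 := fun h => hΔ (by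
    have := c_relation_sub W
    rw [h, sub_self] at this
    omega)
  obtain ⟨j, N, s₂, r₂, hprim2, hloc2⟩ := exists_local_two hΔ (hW 2 Nat.prime_two) h2
  obtain ⟨s₃, r₃, hprim3, hloc3⟩ := exists_local_three hΔ (hW 3 Nat.prime_three)
  have hex : ∀ q : ℕ, ∃ s₀ r₀ : ℤ, q.Prime → 5 ≤ q → (q : ℤ) ∣ W.Δ →
      ¬ ((q : ℤ) ∣ s₀ ∧ (q : ℤ) ∣ r₀) ∧
      ∀ s r : ℤ, s ≡ s₀ [ZMOD (q : ℤ) ^ 2] → r ≡ r₀ [ZMOD (q : ℤ) ^ 2] →
        ¬ (q : ℤ) ∣ hesA W.c₄ W.c₆ s r ∧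
          Odd (padicValInt q W.Δ + 3 * padicValInt q (hesD W.c₄ W.c₆ s r)) := by
    intro q
    by_cases h : q.Prime ∧ 5 ≤ q ∧ (q : ℤ) ∣ W.Δ
    · have := Fact.mk h.1
      obtain ⟨s₀, r₀, h'⟩ := exists_local_ge_five h.2.1 hΔ h.2.2 (hW q h.1 h.2.2)
      exact ⟨s₀, r₀, fun _ _ _ => h'⟩
    · exact ⟨0, 0, fun a b c => absurd ⟨a, b, c⟩ h⟩
  choose fs fr hf using hex
  set S := (6 * W.Δ.natAbs).primeFactors with hSdef
  have hS : ∀ p ∈ S, p.Prime := fun p hp => Nat.prime_of_mem_primeFactors hp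
  have h6 : 6 * W.Δ.natAbs ≠ 0 := by positivity
  have hmem : ∀ p : ℕ, p.Prime → (p = 2 ∨ p = 3 ∨ (p : ℤ) ∣ W.Δ) → p ∈ S := by
    intro p hp h
    rw [hSdef, Nat.mem_primeFactors]
    refine ⟨hp, ?_, h6⟩
    rcases h with rfl | rfl | h
    · exact dvd_mul_of_dvd_left (by norm_num) _
    · exact dvd_mul_of_dvd_left (by norm_num) _
    · exact dvd_mul_of_dvd_right (Int.natCast_dvd.mp h) _
  have hsplit : ∀ p ∈ S, p = 2 ∨ p = 3 ∨ (5 ≤ p ∧ (p : ℤ) ∣ W.Δ) := by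
    intro p hp
    obtain ⟨hpp, hdvd, -⟩ := Nat.mem_primeFactors.mp hp
    by_cases h2p : p = 2
    · exact .inl h2p
    by_cases h3p : p = 3
    · exact .inr (.inl h3p)
    refine .inr (.inr ⟨?_, ?_⟩)
    · by_contra hlt
      interval_cases p <;> first | omega | (exact absurd hpp (by decide))
    · rcases hpp.dvd_mul.mp hdvd with h | h
      · rcases hpp.dvd_mul.mp (show p ∣ 2 * 3 from h) with h' | h'
        · exact absurd ((Nat.prime_dvd_prime_iff_eq hpp Nat.prime_two).mp h') h2p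
        · exact absurd ((Nat.prime_dvd_prime_iff_eq hpp Nat.prime_three).mp h') h3p
      · exact Int.natCast_dvd.mpr h
  let e : ℕ → ℕ := fun p => if p = 2 then N + 1 else if p = 3 then 4 else 2
  let τ : ℕ → ℤ := fun p => if p = 2 then s₂ else if p = 3 then s₃ else fs p
  let ρ : ℕ → ℤ := fun p => if p = 2 then r₂ else if p = 3 then r₃ else fr p
  obtain ⟨s₀, r₀, hcrt⟩ := FermatLib.MLT.exists_crt_pair S hS e τ ρ
  set M := ∏ p ∈ S, p ^ e p with hMdef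
  have hM : 0 < M := Finset.prod_pos fun p hp => pow_pos (hS p hp).pos _
  have hpe : ∀ p ∈ S, (p : ℤ) ^ e p ∣ (M : ℤ) := fun p hp => by
    exact_mod_cast Int.natCast_dvd_natCast.mpr (Finset.dvd_prod_of_mem (fun p => p ^ e p) hp)
  have he0 : ∀ p, e p ≠ 0 := fun p => by dsimp only [e]; split_ifs <;> omega
  have hSdvd : ∀ p ∈ S, p ∣ M := fun p hp =>
    (dvd_pow_self p (he0 p)).trans (Finset.dvd_prod_of_mem (fun p => p ^ e p) hp)
  have hMS : ∀ p : ℕ, p.Prime → p ∣ M → p ∈ S := fun p hp h => by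
    obtain ⟨q, hq, hpq⟩ := (Prime.dvd_finsetProd_iff (Nat.prime_iff.mp hp) _).mp h
    rwa [(Nat.prime_dvd_prime_iff_eq hp (hS q hq)).mp (hp.dvd_of_dvd_pow hpq)]
  have htarget : ∀ p ∈ S, ¬ ((p : ℤ) ∣ r₀ ∧ (p : ℤ) ∣ s₀) := by
    rintro p hp ⟨hr, hs⟩
    have hpp : (p : ℤ) ∣ (p : ℤ) ^ e p := dvd_pow_self _ (he0 p)
    have hs' : (p : ℤ) ∣ τ p := (dvd_sub_left hs).mp (Int.ModEq.dvd ((hcrt p hp).1.of_dvd hpp))
    have hr' : (p : ℤ) ∣ ρ p := (dvd_sub_left hr).mp (Int.ModEq.dvd ((hcrt p hp).2.of_dvd hpp))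
    rcases hsplit p hp with rfl | rfl | ⟨h5, hd⟩
    · exact hprim2 ⟨by simpa [τ] using hs', by simpa [ρ] using hr'⟩
    · exact hprim3 ⟨by simpa [τ] using hs', by simpa [ρ] using hr'⟩
    · have : p ≠ 2 ∧ p ≠ 3 := ⟨by omega, by omega⟩
      exact (hf p (hS p hp) h5 hd).1 ⟨by simpa [τ, this] using hs', by simpa [ρ, this] using hr'⟩
  have hsign : ∃ σ₀ ρ₀ : ℝ, (0 : ℝ) < ((if 0 < W.Δ then -1 else 1 : ℤ) : ℝ) *
      FermatLib.MLT.binQuartic (hesCoeff W.c₄ W.c₆) σ₀ ρ₀ := by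
    by_cases hpos : 0 < W.Δ
    · refine ⟨0, 1, ?_⟩
      rw [if_pos hpos, binQuartic_hesCoeff]
      have hr : (0 : ℤ) < W.c₄ ^ 3 - W.c₆ ^ 2 := by rw [c_relation_sub]; omega
      have := hesD_one_zero_neg (R := ℝ) (H := (W.c₄ : ℝ)) (T := (W.c₆ : ℝ)) (by exact_mod_cast hr)
      push_cast
      linarith
    · refine ⟨1, 0, ?_⟩
      rw [if_neg hpos, binQuartic_hesCoeff, hesD_zero_one]
      norm_num
  obtain ⟨σ₀, ρ₀, hsign⟩ := hsign
  obtain ⟨r, s, hr, hs, hcop, hpos, hsq⟩ := FermatLib.MLT.exists_squarefree_binQuartic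
    (hesCoeff W.c₄ W.c₆) (by simp [hesCoeff]) (separable_hesCoeff hHT) hM
    (hSdvd 2 (hmem 2 Nat.prime_two (.inl rfl))) (hSdvd 3 (hmem 3 Nat.prime_three (.inr (.inl rfl))))
    (fun q hq _ => ⟨4, fun h => (Nat.prime_iff_prime_int.mp hq).not_isUnit
      (isUnit_of_dvd_one (by simpa [hesCoeff] using h))⟩)
    r₀ s₀ (fun q hq hqM => htarget q (hMS q hq hqM)) _ hsign
  rw [binQuartic_hesCoeff] at hpos
  simp only [binQuartic_hesCoeff, Int.cast_id] at hsq hpos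
  have hcong : ∀ p ∈ S, s ≡ τ p [ZMOD (p : ℤ) ^ e p] ∧ r ≡ ρ p [ZMOD (p : ℤ) ^ e p] := fun p hp =>
    ⟨(hs.of_dvd (hpe p hp)).trans (hcrt p hp).1, (hr.of_dvd (hpe p hp)).trans (hcrt p hp).2⟩
  obtain ⟨hs2, hr2⟩ := hcong 2 (hmem 2 Nat.prime_two (.inl rfl))
  obtain ⟨hs3, hr3⟩ := hcong 3 (hmem 3 Nat.prime_three (.inr (.inl rfl)))
  simp only [τ, ρ, e, if_true, if_neg (show (3 : ℕ) ≠ 2 by omega)] at hs2 hr2 hs3 hr3
  push_cast at hs2 hr2 hs3 hr3
  obtain ⟨A, B, hA, hB, hA16, hB32⟩ := hloc2 s r (hs2.of_dvd (pow_dvd_pow 2 (Nat.le_succ N)))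
    (hr2.of_dvd (pow_dvd_pow 2 (Nat.le_succ N)))
  obtain ⟨hK, h3case⟩ := hloc3 s r hs3 hr3
  have h3j : ¬ (3 : ℤ) ∣ (2 : ℤ) ^ j := fun h => by
    have := Int.prime_three.dvd_of_dvd_pow h
    omega
  rw [hA, hB] at hK
  obtain ⟨W', ha1, ha3, hc4, hc6⟩ := exists_model_supersingular_two hA16 hB32 (hK.of_scale h3j)
  set D := hesD W.c₄ W.c₆ s r with hDdef
  have hkey : (2 ^ j : ℤ) ^ 12 * W'.Δ = W.Δ * D ^ 3 := by
    have h := hesA_pow_three_sub W.c₄ W.c₆ s r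
    rw [hA, hB, c_relation_sub, ← hc4, ← hc6] at h
    have h' := c_relation_sub W'
    apply mul_left_cancel₀ (show (1728 : ℤ) ≠ 0 by norm_num)
    linear_combination h - (2 ^ j : ℤ) ^ 12 * h'
  have hD0 : D ≠ 0 := by
    intro h0
    rw [h0, mul_zero] at hpos
    exact lt_irrefl _ hpos
  have hp12 : (0 : ℤ) < (2 ^ j : ℤ) ^ 12 := by positivity
  have hneg : W'.Δ < 0 := by
    have : W.Δ * D ^ 3 < 0 := by
      by_cases h : 0 < W.Δ
      · rw [if_pos h] at hpos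
        exact mul_neg_of_pos_of_neg h (Odd.pow_neg (by decide) (by linarith))
      · rw [if_neg h] at hpos
        exact mul_neg_of_neg_of_pos (by omega) (pow_pos (by linarith) 3)
    rw [← hkey] at this
    exact neg_of_mul_neg_right this hp12.le
  have hodd2 := two_not_dvd_Δ_of_a₁_a₃ ha1 ha3
  have hdvd_iff : ∀ q : ℕ, q.Prime → q ≠ 2 →
      ((q : ℤ) ∣ W'.Δ ↔ (q : ℤ) ∣ W.Δ * D ^ 3) := by
    intro q hq hq2
    rw [← hkey]
    refine ⟨fun h => dvd_mul_of_dvd_right h _, fun h => ?_⟩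
    refine ((Nat.prime_iff_prime_int.mp hq).dvd_or_dvd h).resolve_left fun h' => hq2 ?_
    have h2' : (q : ℤ) ∣ ((2 : ℕ) : ℤ) :=
      (Nat.prime_iff_prime_int.mp hq).dvd_of_dvd_pow ((Nat.prime_iff_prime_int.mp hq).dvd_of_dvd_pow h')
    exact (Nat.prime_dvd_prime_iff_eq hq Nat.prime_two).mp (Int.natCast_dvd_natCast.mp h2')
  have hval : ∀ q : ℕ, q.Prime → q ≠ 2 →
      padicValInt q W'.Δ = padicValInt q W.Δ + 3 * padicValInt q D := by
    intro q hq hq2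
    have := Fact.mk hq
    have hh := congrArg (padicValInt q) hkey
    have hz : padicValInt q ((2 ^ j : ℤ) ^ 12) = 0 := padicValInt.eq_zero_of_not_dvd fun h' => hq2
      ((Nat.prime_dvd_prime_iff_eq hq Nat.prime_two).mp (Int.natCast_dvd_natCast.mp
        ((Nat.prime_iff_prime_int.mp hq).dvd_of_dvd_pow
          ((Nat.prime_iff_prime_int.mp hq).dvd_of_dvd_pow h'))))
    rw [padicValInt.mul hp12.ne' hneg.ne, hz, zero_add,
      padicValInt.mul hΔ (pow_ne_zero _ hD0), pow_succ, pow_two,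
      padicValInt.mul (mul_ne_zero hD0 hD0) hD0, padicValInt.mul hD0 hD0] at hh
    omega
  have hbad : ∀ q : ℕ, q.Prime → (q : ℤ) ∣ W'.Δ →
      ¬ (q : ℤ) ∣ W'.c₄ ∧ Odd (padicValInt q W'.Δ) := by
    intro q hq hqd
    have hq2 : q ≠ 2 := by rintro rfl; exact hodd2 hqd
    have := Fact.mk hq
    have hqp := Nat.prime_iff_prime_int.mp hq
    rw [hval q hq hq2, hc4]
    suffices h : ¬ (q : ℤ) ∣ hesA W.c₄ W.c₆ s r ∧
        Odd (padicValInt q W.Δ + 3 * padicValInt q D) from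
      ⟨fun h' => h.1 (hA ▸ dvd_mul_of_dvd_right h' _), h.2⟩
    by_cases hq3 : q = 3
    · subst hq3
      rcases h3case with ⟨n1, n2⟩ | ⟨-, h1, h2'⟩
      · rcases hqp.dvd_or_dvd ((hdvd_iff 3 hq hq2).mp hqd) with h | h
        · exact absurd h n1
        · exact absurd (hqp.dvd_of_dvd_pow h) n2
      · exact ⟨h1, h2'⟩
    by_cases hqW : (q : ℤ) ∣ W.Δ
    · have h5 : 5 ≤ q := by
        by_contra hlt
        have := hq.two_le
        interval_cases q <;> omega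
      have hqS := hmem q hq (.inr (.inr hqW))
      obtain ⟨hs', hr'⟩ := hcong q hqS
      simp only [τ, ρ, e, if_neg hq2, if_neg hq3] at hs' hr'
      exact (hf q hq h5 hqW).2 s r hs' hr'
    · have hqM : ¬ q ∣ M := fun h => by
        rcases hsplit q (hMS q hq h) with h' | h' | ⟨-, h'⟩
        · exact hq2 h'
        · exact hq3 h'
        · exact hqW h'
      have hqD : (q : ℤ) ∣ D :=
        hqp.dvd_of_dvd_pow ((hqp.dvd_or_dvd ((hdvd_iff q hq hq2).mp hqd)).resolve_left hqW)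
      obtain ⟨d, hd⟩ := hqD
      have hd' : ¬ (q : ℤ) ∣ d := fun h => hsq q hq hqM (by
        rw [hd, pow_two]; exact mul_dvd_mul_left _ h)
      have hv : padicValInt q D = 1 := padicValInt_of_eq_pow_mul (e := d) (by simpa using hd) hd'
      refine ⟨fun h => ?_, by rw [padicValInt.eq_zero_of_not_dvd hqW, hv]; decide⟩
      have h2q : ((2 : ℕ) : ZMod q) ≠ 0 := fun h0 => hq2
        ((Nat.prime_dvd_prime_iff_eq hq Nat.prime_two).mp ((ZMod.natCast_eq_zero_iff _ _).mp h0))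
      have h3q : ((3 : ℕ) : ZMod q) ≠ 0 := fun h0 => hq3
        ((Nat.prime_dvd_prime_iff_eq hq Nat.prime_three).mp ((ZMod.natCast_eq_zero_iff _ _).mp h0))
      have hne : ((W.c₄ : ℤ) : ZMod q) ^ 3 ≠ ((W.c₆ : ℤ) : ZMod q) ^ 2 := by
        rw [← sub_ne_zero]
        have e0 := congrArg (Int.cast : ℤ → ZMod q) (c_relation_sub W)
        push_cast at e0
        rw [e0]
        refine mul_ne_zero ?_ fun h0 => hqW ((ZMod.intCast_zmod_eq_zero_iff_dvd _ q).mp h0)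
        rw [show (1728 : ZMod q) = ((2 : ℕ) : ZMod q) ^ 6 * ((3 : ℕ) : ZMod q) ^ 3 by norm_num]
        exact mul_ne_zero (pow_ne_zero _ h2q) (pow_ne_zero _ h3q)
      have hzero := eq_zero_of_hesA_eq_zero_of_hesD_eq_zero (F := ZMod q)
        (s := (s : ZMod q)) (r := (r : ZMod q)) (by simpa using h2q) (by simpa using h3q) hne
        (by have := (ZMod.intCast_zmod_eq_zero_iff_dvd _ q).mpr h
            simpa [map_hesA] using ((map_hesA _ _ _ _ (Int.castRingHom (ZMod q))).symm.trans this))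
        (by have := (ZMod.intCast_zmod_eq_zero_iff_dvd D q).mpr ⟨d, hd⟩
            exact (map_hesD _ _ _ _ (Int.castRingHom (ZMod q))).symm.trans this)
      exact hqp.not_isUnit (hcop.isUnit_of_dvd'
        ((ZMod.intCast_zmod_eq_zero_iff_dvd _ q).mp hzero.2)
        ((ZMod.intCast_zmod_eq_zero_iff_dvd _ q).mp hzero.1))
  refine ⟨W', hneg, fun q hq hqd => (hbad q hq hqd).1, ha1, ha3, hodd2,
    modRepIsIrreducible_two_of_a₁_a₃ ha1 ha3 hneg.ne, fun q hq hqd => (hbad q hq hqd).2,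
    fun q hq hq2 hqd => (hdvd_iff q hq hq2).mpr (dvd_mul_of_dvd_left hqd _), ?_, ?_⟩
  · intro h3 h'
    rcases h3case with ⟨-, hn2⟩ | ⟨hd, -⟩
    · rcases Int.prime_three.dvd_or_dvd ((hdvd_iff 3 Nat.prime_three (by omega)).mp h') with h | h
      · exact h3 h
      · exact hn2 (Int.prime_three.dvd_of_dvd_pow h)
    · exact h3 hd
  · refine exists_three_torsion_addEquiv (u := ((2 : ℚ) ^ j)⁻¹) (s := (s : ℚ)) (r := (r : ℚ))
      (by rw [map_Δ]; simpa using hΔ) (by rw [map_Δ]; simpa using hneg.ne) ?_ ?_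
    · rw [map_c₄, map_c₄, map_c₆, hc4]
      have e4 := congrArg (Int.castRingHom ℚ) hA
      rw [map_hesA] at e4
      simp only [map_mul, map_pow, map_ofNat, eq_intCast] at e4 ⊢
      rw [e4]; field_simp
    · rw [map_c₆, map_c₄, map_c₆, hc6]
      have e6 := congrArg (Int.castRingHom ℚ) hB
      rw [map_hesB] at e6
      simp only [map_mul, map_pow, map_ofNat, eq_intCast] at e6 ⊢
      rw [e6]; field_simp

end FermatLib.Descent
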