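import Fermat.Agent.Descent.HesseFlex
import Mathlib.FieldTheory.IsAlgClosed.Basic

/-!
# The isomorphism of `3`-torsion along the pencil
-/

set_option autoImplicit false
set_option linter.unusedSimpArgs false

open WeierstrassCurve WeierstrassCurve.Affine

namespace FermatLib.Descent

section Basis

variable {F : Type*} [Field F] [CharZero F] {w : F} (hw : w ^ 2 = -3) (a b : F)

theorem basisOrd_flip : basisOrd (-w) a (-b) = basisOrd w a b := by
  unfold basisOrd; ring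

theorem basisOrd_flip' : basisOrd (-(-w)) (-b) a = -basisOrd (-w) b a := by
  unfold basisOrd; ring

theorem basisOrd_smul (u : F) : basisOrd w (u * a) (u * b) = u ^ 3 * basisOrd w a b := by
  unfold basisOrd; ring

theorem sumSlope_smul (u : F) : sumSlope w (u * a) (u * b) = u * sumSlope w a b := by
  unfold sumSlope; ring

theorem sumOrd_smul (u : F) : sumOrd w (u * a) (u * b) = u ^ 3 * sumOrd w a b := by
  unfold sumOrd; ring

include hw in
theorem psi_three_factor (X : F) :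
    3 * X ^ 4 + 6 * flexA a (basisOrd w a b) * X ^ 2 + 12 * flexB a (basisOrd w a b) * X -
        flexA a (basisOrd w a b) ^ 2 =
      3 * ((X - a ^ 2 / 3) * (X - b ^ 2 / 3) * (X - sumSlope w a b ^ 2 / 3) *
        (X - sumSlope (-w) a (-b) ^ 2 / 3)) := by
  obtain ⟨p3, p4, p5, p6, p7, p8, p9, p10, p11, p12, p13, p14⟩ := w_pows hw
  rw [← sub_eq_zero]
  simp only [flexA, flexB, sumSlope, basisOrd]
  ring_nf
  simp only [hw, p3, p4, p5, p6, p7, p8, p9, p10, p11, p12, p13, p14]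
  ring

end Basis

variable {F : Type*} [Field F] [CharZero F] {V V' : WeierstrassCurve.Affine F}

/-- `(m, Y)` describes a point of order three of `V` by tangent slope and ordinate. -/
def IsFlex (V : WeierstrassCurve.Affine F) (m Y : F) : Prop :=
  shortA V = flexA m Y ∧ shortB V = flexB m Y

/-- The point of order three with tangent slope `m` and ordinate `Y`. -/
noncomputable def flexPoint (V : WeierstrassCurve.Affine F) (m Y : F) : V.Point :=
  shortPoint V (m ^ 2 / 3) Y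

theorem IsFlex.curve {m Y : F} (h : IsFlex V m Y) :
    Y ^ 2 = (m ^ 2 / 3) ^ 3 + shortA V * (m ^ 2 / 3) + shortB V := by
  rw [h.1, h.2, flexB]; ring

theorem IsFlex.ne_zero (hΔ : V.Δ ≠ 0) {m Y : F} (h : IsFlex V m Y) : Y ≠ 0 := by
  rintro rfl
  apply hΔ
  rw [Δ_eq_short V, show -V.c₄ / 48 = flexA m 0 from h.1, show -V.c₆ / 864 = flexB m 0 from h.2,
    flex_disc]
  ring

theorem IsFlex.slope_eq (hΔ : V.Δ ≠ 0) {m Y : F} (h : IsFlex V m Y) :
    2 * Y * m = 3 * (m ^ 2 / 3) ^ 2 + shortA V ∧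
      (3 * (m ^ 2 / 3) ^ 2 + shortA V) / (2 * Y) = m := by
  have e : 2 * Y * m = 3 * (m ^ 2 / 3) ^ 2 + shortA V := by rw [h.1, flexA]; ring
  refine ⟨e, ?_⟩
  rw [div_eq_iff (mul_ne_zero two_ne_zero (h.ne_zero hΔ)), ← e]
  ring

theorem IsFlex.neg {m Y : F} (h : IsFlex V m Y) : IsFlex V (-m) (-Y) := by
  refine ⟨h.1.trans ?_, h.2.trans ?_⟩ <;> simp only [flexA, flexB] <;> ring

theorem flexPoint_ne_zero (hΔ : V.Δ ≠ 0) {m Y : F} (h : IsFlex V m Y) : flexPoint V m Y ≠ 0 :=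
  shortPoint_ne_zero hΔ h.curve

theorem neg_flexPoint (hΔ : V.Δ ≠ 0) {m Y : F} (h : IsFlex V m Y) :
    -flexPoint V m Y = flexPoint V (-m) (-Y) := by
  rw [flexPoint, neg_shortPoint hΔ h.curve, flexPoint, neg_sq]

variable [DecidableEq F]

theorem flexPoint_add_self (hΔ : V.Δ ≠ 0) {m Y : F} (h : IsFlex V m Y) :
    flexPoint V m Y + flexPoint V m Y = -flexPoint V m Y := by
  rw [flexPoint, shortPoint_add_self hΔ h.curve (h.ne_zero hΔ) (h.slope_eq hΔ).1,
    neg_shortPoint hΔ h.curve]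
  congr 1 <;> ring

theorem exists_flex (hΔ : V.Δ ≠ 0) {P : V.Point} (hP : P ≠ 0) (h3 : P + P = -P) :
    ∃ m Y, IsFlex V m Y ∧ P = flexPoint V m Y := by
  obtain ⟨X, Y, hXY, rfl⟩ := exists_eq_shortPoint hP
  obtain ⟨x, y, hn, he, rfl, rfl⟩ := shortPoint_eq_some hΔ hXY
  rw [he] at h3 ⊢
  obtain ⟨hY, x', y', h', hadd, m, hm, hx', -⟩ :=
    exists_short_double hn (by rw [h3]; simp)
  obtain rfl : x = x' := (X_eq_of_eq_or_eq_neg (.inr (by rw [← h3, hadd]))).symm
  have hX : shortX V x = m ^ 2 / 3 := by linear_combination hx' / 3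
  have hA : shortA V = flexA m (shortY V x y) := by
    rw [flexA]
    rw [hX] at hm
    unfold shortA
    linear_combination -hm
  refine ⟨m, shortY V x y, ⟨hA, ?_⟩, ?_⟩
  · rw [flexB, ← hA, ← hX]
    linear_combination -hXY
  · rw [flexPoint, ← hX, shortPoint_shortX hn]

/-- A basis of the points of order three: slopes `a`, `b` and a square root of `-3`. -/
def IsFlexBasis (V : WeierstrassCurve.Affine F) (w a b : F) : Prop :=
  w ^ 2 = -3 ∧ IsFlex V a (basisOrd w a b)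

theorem IsFlexBasis.snd {w a b : F} (h : IsFlexBasis V w a b) :
    IsFlex V b (basisOrd (-w) b a) :=
  ⟨h.2.1.trans (flexA_basis h.1 a b), h.2.2.trans (flexB_basis h.1 a b)⟩

theorem IsFlexBasis.flip {w a b : F} (h : IsFlexBasis V w a b) : IsFlexBasis V (-w) a (-b) :=
  ⟨by rw [neg_sq, h.1], by rw [basisOrd_flip]; exact h.2⟩

theorem IsFlexBasis.sum {w a b : F} (h : IsFlexBasis V w a b) :
    IsFlex V (sumSlope w a b) (sumOrd w a b) :=
  ⟨h.2.1.trans (flexA_sum h.1 a b).symm, h.2.2.trans (flexB_sum h.1 a b).symm⟩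

theorem IsFlexBasis.flip_point (hΔ : V.Δ ≠ 0) {w a b : F} (h : IsFlexBasis V w a b) :
    flexPoint V (-b) (basisOrd (-(-w)) (-b) a) = -flexPoint V b (basisOrd (-w) b a) := by
  rw [basisOrd_flip', neg_flexPoint hΔ h.snd]

theorem IsFlexBasis.add (hΔ : V.Δ ≠ 0) {w a b : F} (h : IsFlexBasis V w a b) :
    flexPoint V a (basisOrd w a b) + flexPoint V b (basisOrd (-w) b a) =
      flexPoint V (sumSlope w a b) (sumOrd w a b) := by
  obtain ⟨e1, e2, e3⟩ := sum_chord h.1 a b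
  have hne : a ^ 2 / 3 ≠ b ^ 2 / 3 := by
    intro e
    apply h.2.ne_zero hΔ
    rcases sq_eq_sq_iff_eq_or_eq_neg.mp (show a ^ 2 = b ^ 2 by linear_combination 3 * e) with
      rfl | rfl <;> unfold basisOrd
    · linear_combination a ^ 3 * (w + 3) * h.1 / 54
    · linear_combination b ^ 3 * (w - 3) * h.1 / 54
  rw [flexPoint, flexPoint, shortPoint_add hΔ h.2.curve h.snd.curve hne e1, flexPoint, ← e2, ← e3,
    e2]

theorem exists_flexBasis [IsAlgClosed F] {m Y : F} (h : IsFlex V m Y) :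
    ∃ w b, IsFlexBasis V w m b ∧ basisOrd w m b = Y := by
  obtain ⟨w, hw⟩ := IsAlgClosed.exists_pow_nat_eq (-3 : F) (n := 2) two_pos
  have hw0 : w ≠ 0 := by
    rintro rfl
    norm_num at hw
  obtain ⟨c, hc⟩ := IsAlgClosed.exists_pow_nat_eq (54 * Y - 8 * m ^ 3) (n := 3) three_pos
  have e : basisOrd w m ((c - m) / w) = Y := by
    unfold basisOrd
    rw [mul_div_cancel₀ _ hw0]
    linear_combination hc / 54
  exact ⟨w, (c - m) / w, ⟨hw, by rw [e]; exact h⟩, e⟩

theorem flexPoint_eq_or_neg (hΔ : V.Δ ≠ 0) {m Y m' Y' : F} (h : IsFlex V m Y)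
    (h' : IsFlex V m' Y') (e : m ^ 2 / 3 = m' ^ 2 / 3) :
    flexPoint V m Y = flexPoint V m' Y' ∨ flexPoint V m Y = -flexPoint V m' Y' := by
  have hY : Y ^ 2 = Y' ^ 2 := by rw [h.curve, h'.curve, e]
  rcases sq_eq_sq_iff_eq_or_eq_neg.mp hY with rfl | rfl
  · left; rw [flexPoint, flexPoint, e]
  · right; rw [flexPoint, e, flexPoint, neg_shortPoint hΔ h'.curve]

theorem IsFlexBasis.span (hΔ : V.Δ ≠ 0) {w a b : F} (h : IsFlexBasis V w a b) {R : V.Point}
    (hR : R + R = -R) : ∃ i j : ℤ,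
      R = i • flexPoint V a (basisOrd w a b) + j • flexPoint V b (basisOrd (-w) b a) := by
  by_cases hR0 : R = 0
  · exact ⟨0, 0, by simp [hR0]⟩
  obtain ⟨m, Y, hf, rfl⟩ := exists_flex hΔ hR0 hR
  have hroot := psi_three_factor h.1 a b (m ^ 2 / 3)
  rw [← h.2.1, ← h.2.2, hf.1, hf.2] at hroot
  have hzero : 3 * (m ^ 2 / 3) ^ 4 + 6 * flexA m Y * (m ^ 2 / 3) ^ 2 +
      12 * flexB m Y * (m ^ 2 / 3) - flexA m Y ^ 2 = 0 := by
    simp only [flexA, flexB]; ring
  rw [hzero] at hroot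
  have h3 : (3 : F) ≠ 0 := OfNat.ofNat_ne_zero 3
  simp only [zero_eq_mul, mul_eq_zero, sub_eq_zero, h3, false_or] at hroot
  rcases hroot with ((e | e) | e) | e
  · rcases flexPoint_eq_or_neg hΔ hf h.2 e with e' | e'
    · exact ⟨1, 0, by simp [e']⟩
    · exact ⟨-1, 0, by simp [e']⟩
  · rcases flexPoint_eq_or_neg hΔ hf h.snd e with e' | e'
    · exact ⟨0, 1, by simp [e']⟩
    · exact ⟨0, -1, by simp [e']⟩
  · rcases flexPoint_eq_or_neg hΔ hf h.sum e with e' | e' <;> rw [← h.add hΔ] at e'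
    · exact ⟨1, 1, by simp [e']⟩
    · exact ⟨-1, -1, by simp [e']; abel⟩
  · rcases flexPoint_eq_or_neg hΔ hf h.flip.sum e with e' | e' <;>
      rw [← h.flip.add hΔ, h.flip_point hΔ, basisOrd_flip] at e'
    · exact ⟨1, -1, by simp [e']⟩
    · exact ⟨-1, 1, by simp [e']; abel⟩

/-- The map induced by the pencil on points of order three. -/
noncomputable def hesPoint (V' : WeierstrassCurve.Affine F) (u s r : F) : V.Point → V'.Point
  | .zero => 0
  | .some x y _ =>
    let X := shortX V x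
    let Y := shortY V x y
    let m := (3 * X ^ 2 + shortA V) / (2 * Y)
    flexPoint V' (u * hesSlope s r m Y) (u ^ 3 * hesOrd s r m Y)

variable {u s r : F}

omit [CharZero F] [DecidableEq F] in
theorem hesPoint_zero : hesPoint (V := V) V' u s r 0 = 0 := rfl

omit [DecidableEq F] in
theorem hesPoint_flexPoint (hΔ : V.Δ ≠ 0) {m Y : F} (h : IsFlex V m Y) :
    hesPoint V' u s r (flexPoint V m Y) =
      flexPoint V' (u * hesSlope s r m Y) (u ^ 3 * hesOrd s r m Y) := by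
  obtain ⟨x, y, hn, he, hx, hy⟩ := shortPoint_eq_some hΔ h.curve
  rw [flexPoint, he]
  simp only [hesPoint, hx, hy, (h.slope_eq hΔ).2]

variable (h4 : V'.c₄ = u ^ 4 * hesA V.c₄ V.c₆ s r) (h6 : V'.c₆ = u ^ 6 * hesB V.c₄ V.c₆ s r)

include h4 h6 in
omit [DecidableEq F] in
theorem IsFlex.pencil {m Y : F} (h : IsFlex V m Y) :
    IsFlex V' (u * hesSlope s r m Y) (u ^ 3 * hesOrd s r m Y) := by
  have hc4 : V.c₄ = -48 * flexA m Y := by rw [← h.1, shortA]; ring
  have hc6 : V.c₆ = -864 * flexB m Y := by rw [← h.2, shortB]; ring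
  constructor
  · rw [flexA_smul, hesA_flex, ← hc4, ← hc6, shortA, h4]; ring
  · rw [flexB_smul, hesB_flex, ← hc4, ← hc6, shortB, h6]; ring

include h4 h6 in
omit [DecidableEq F] in
theorem IsFlexBasis.pencil {w a b : F} (h : IsFlexBasis V w a b) :
    IsFlexBasis V' w (u * hesSlope s r a (basisOrd w a b))
      (u * hesSlope s r b (basisOrd (-w) b a)) := by
  refine ⟨h.1, ?_⟩
  rw [basisOrd_smul, basisOrd_pencil h.1]
  exact h.2.pencil h4 h6

include h4 h6 in
theorem IsFlexBasis.hesPoint_add (hΔ : V.Δ ≠ 0) (hΔ' : V'.Δ ≠ 0) {w a b : F}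
    (h : IsFlexBasis V w a b) :
    hesPoint V' u s r (flexPoint V a (basisOrd w a b) + flexPoint V b (basisOrd (-w) b a)) =
      hesPoint V' u s r (flexPoint V a (basisOrd w a b)) +
        hesPoint V' u s r (flexPoint V b (basisOrd (-w) b a)) := by
  have hw' : (-w) ^ 2 = -3 := by rw [neg_sq, h.1]
  rw [h.add hΔ, hesPoint_flexPoint hΔ h.sum, hesPoint_flexPoint hΔ h.2,
    hesPoint_flexPoint hΔ h.snd]
  have e1 := basisOrd_pencil h.1 a b s r
  have e2 := basisOrd_pencil hw' b a s r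
  rw [neg_neg] at e2
  have := (h.pencil h4 h6).add hΔ'
  rw [basisOrd_smul, basisOrd_smul, e1, e2] at this
  rw [this, sumSlope_smul, sumOrd_smul, (sum_pencil h.1 a b s r).1, (sum_pencil h.1 a b s r).2]

end FermatLib.Descent
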