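import Mathlib.Tactic.LinearCombination
import Mathlib.Tactic.FieldSimp
import Mathlib.Data.Rat.Lemmas
import Mathlib.NumberTheory.Real.Irrational

/-!
# The fibre product of X0(3) and X0(5) over the j-line

A rational point `(t, h)` of `(t+27)(t+3)^3/t = (h^2+10h+5)^3/h` yields a rational point of the
genus one quartic `w^2 = (x^2+5x+9)^2 + 4x^2`, which is birational to the curve
`y^2 = z(z+9)(z-16)` of conductor 15.
-/

set_option autoImplicit false

namespace FermatLib.Descent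

lemma x015_not_isSquare_twenty : ¬ IsSquare (20 : ℚ) := by
  rintro ⟨r, hr⟩
  have hi : IsSquare (20 : ℤ) := Rat.isSquare_intCast_iff.mp ⟨r, by push_cast; exact hr⟩
  obtain ⟨k, hk⟩ := hi
  have : k.natAbs * k.natAbs = 20 := by rw [← Int.natAbs_mul, ← hk]; rfl
  have hle : k.natAbs ≤ 20 := by nlinarith
  interval_cases k.natAbs <;> omega

lemma x015_five_quad_ne_zero (h : ℚ) : h ^ 2 + 10 * h + 5 ≠ 0 := fun H =>
  x015_not_isSquare_twenty ⟨h + 5, by linear_combination -H⟩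

lemma x015_four_quad_ne_zero (h : ℚ) : h ^ 2 + 4 * h - 1 ≠ 0 := fun H =>
  x015_not_isSquare_twenty ⟨2 * h + 4, by linear_combination (-4 : ℚ) * H⟩

lemma x015_branch_quad_ne_zero (x : ℚ) : x ^ 2 - 9 * x - 81 ≠ 0 := fun H => by
  -- 405 = 81 * 5 and 20 = 4 * 5
  exact x015_not_isSquare_twenty ⟨(2 * x - 9) * 2 / 9,
    by linear_combination (-16 / 81 : ℚ) * H⟩

/-- The certificate placing `(t, h)` on the quotient by the Atkin-Lehner involution at 5. -/
lemma x015_certificate (t h : ℚ)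
    (hG : (t + 27) * (t + 3) ^ 3 * h - t * (h ^ 2 + 10 * h + 5) ^ 3 = 0) :
    let D := t * ((h ^ 2 + 10 * h + 5) ^ 2 * (h ^ 2 + 4 * h - 1))
    let X := -18225 - 1458 * h + 729 * h ^ 2
      + t * (39249 * h + 35928 * h ^ 2 + 10350 * h ^ 3 + 1170 * h ^ 4 + 45 * h ^ 5)
      + t ^ 2 * (5202 * h + 1539 * h ^ 2 + 180 * h ^ 3 + 9 * h ^ 4)
      + t ^ 3 * (144 * h + 18 * h ^ 2)
    (h ^ 2 + 125) * (X ^ 3 * D)
      - h * (X ^ 4 - 4 * (X ^ 3 * D) + 135 * (X ^ 2 * D ^ 2) + 486 * (X * D ^ 3)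
        + 729 * D ^ 4) = 0 := by
  intro D X
  simp only [D, X]
  linear_combination
    (
    - 151336128515625 - 48427561125000 * h^1 + 18402473227500 * h^2
    + 5501370943800 * h^3 - 994120974774 * h^4 - 220054837752 * h^5
    + 29443957164 * h^6 + 3099363912 * h^7 - 387420489 * h^8
    + 651081655125000 * t^1 * h^1 + 503323785292500 * t^1 * h^2 + 71474775548400 * t^1 * h^3
    - 31547047765176 * t^1 * h^4 - 8638960344048 * t^1 * h^5 + 372612416976 * t^1 * h^6
    + 258280326000 * t^1 * h^7 + 9298091736 * t^1 * h^8 - 2410616376 * t^1 * h^9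
    - 172186884 * t^1 * h^10 + 86004868500000 * t^2 * h^1 - 660911985022500 * t^2 * h^2
    - 317256397532550 * t^2 * h^3 + 579159839556162 * t^2 * h^4 + 595859097877056 * t^2 * h^5
    + 213681337406388 * t^2 * h^6 + 24515720183826 * t^2 * h^7 - 5123896904556 * t^2 * h^8
    - 1980409926384 * t^2 * h^9 - 204605493588 * t^2 * h^10 + 8331931998 * t^2 * h^11
    + 4047100362 * t^2 * h^12 + 410981040 * t^2 * h^13 + 19131876 * t^2 * h^14
    + 354294 * t^2 * h^15 + 2376540000000 * t^3 * h^1 - 184143289545000 * t^3 * h^2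
    - 82028268124200 * t^3 * h^3 - 1125290913426918 * t^3 * h^4 - 2794396458597399 * t^3 * h^5
    - 2982373990781112 * t^3 * h^6 - 1810771463881881 * t^3 * h^7 - 690451163424378 * t^3 * h^8
    - 168128348627835 * t^3 * h^9 - 23724168745608 * t^3 * h^10 - 694006930557 * t^3 * h^11
    + 484401830310 * t^3 * h^12 + 121120459515 * t^3 * h^13 + 16025641992 * t^3 * h^14
    + 1381890213 * t^3 * h^15 + 80348922 * t^3 * h^16 + 3066903 * t^3 * h^17
    + 69984 * t^3 * h^18 + 729 * t^3 * h^19 - 17331975000000 * t^4 * h^2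
    - 7489759851000 * t^4 * h^3 - 339917088902400 * t^4 * h^4 - 622606436368830 * t^4 * h^5
    - 492801059068200 * t^4 * h^6 - 222590382583896 * t^4 * h^7 - 63214218226521 * t^4 * h^8
    - 11474017017318 * t^4 * h^9 - 1209599073252 * t^4 * h^10 - 28604700288 * t^4 * h^11
    + 12632002650 * t^4 * h^12 + 2260575054 * t^4 * h^13 + 201860100 * t^4 * h^14
    + 10742544 * t^4 * h^15 + 325863 * t^4 * h^16 + 4374 * t^4 * h^17
    - 675345600000 * t^5 * h^2 - 283708137600 * t^5 * h^3 - 37397689030008 * t^5 * h^4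
    - 50464892231604 * t^5 * h^5 - 29972517657552 * t^5 * h^6 - 10230002520372 * t^5 * h^7
    - 2183180780664 * t^5 * h^8 - 291852648072 * t^5 * h^9 - 21636795816 * t^5 * h^10
    - 236843352 * t^5 * h^11 + 118167984 * t^5 * h^12 + 11801052 * t^5 * h^13
    + 507384 * t^5 * h^14 + 8748 * t^5 * h^15 - 9331200000 * t^6 * h^2
    - 3797798400 * t^6 * h^3 - 1923031876032 * t^6 * h^4 - 1916905925736 * t^6 * h^5
    - 838392830208 * t^6 * h^6 - 208747726992 * t^6 * h^7 - 31974027480 * t^6 * h^8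
    - 3004133184 * t^6 * h^9 - 155959344 * t^6 * h^10 - 2437776 * t^6 * h^11
    + 145800 * t^6 * h^12 + 5832 * t^6 * h^13 - 46653014016 * t^7 * h^4
    - 33941680128 * t^7 * h^5 - 10504318464 * t^7 * h^6 - 1775774016 * t^7 * h^7
    - 173210400 * t^7 * h^8 - 9237888 * t^7 * h^9 - 209952 * t^7 * h^10
    - 429981696 * t^8 * h^4 - 214990848 * t^8 * h^5 - 40310784 * t^8 * h^6
    - 3359232 * t^8 * h^7 - 104976 * t^8 * h^8) * hG

/-- From a rational point of the fibre product to one of the genus one quotient model. -/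
lemma x015_exists_x (t h : ℚ) (ht : t ≠ 0) (hh : h ≠ 0)
    (hG : (t + 27) * (t + 3) ^ 3 * h = t * (h ^ 2 + 10 * h + 5) ^ 3) :
    ∃ x : ℚ, x ≠ 0 ∧
      (h ^ 2 + 125) * x ^ 3 = h * (x ^ 4 - 4 * x ^ 3 + 135 * x ^ 2 + 486 * x + 729) := by
  have key := x015_certificate t h (sub_eq_zero.mpr hG)
  simp only at key
  set D := t * ((h ^ 2 + 10 * h + 5) ^ 2 * (h ^ 2 + 4 * h - 1)) with hD
  have hD0 : D ≠ 0 :=
    mul_ne_zero ht (mul_ne_zero (pow_ne_zero 2 (x015_five_quad_ne_zero h))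
      (x015_four_quad_ne_zero h))
  set X := -18225 - 1458 * h + 729 * h ^ 2
      + t * (39249 * h + 35928 * h ^ 2 + 10350 * h ^ 3 + 1170 * h ^ 4 + 45 * h ^ 5)
      + t ^ 2 * (5202 * h + 1539 * h ^ 2 + 180 * h ^ 3 + 9 * h ^ 4)
      + t ^ 3 * (144 * h + 18 * h ^ 2) with hX
  clear_value D X
  have eq : (h ^ 2 + 125) * (X / D) ^ 3 = h * ((X / D) ^ 4 - 4 * (X / D) ^ 3
      + 135 * (X / D) ^ 2 + 486 * (X / D) + 729) := by
    field_simp
    linear_combination key
  refine ⟨X / D, fun h0 => ?_, eq⟩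
  rw [h0] at eq
  norm_num at eq
  exact hh eq

/-- The four noncuspidal rational points of X0(15), via the rank zero curve of conductor 15. -/
lemma x015_fiveParameter
    (hrank : ∀ x y : ℚ, y ^ 2 = x * (x + 9) * (x - 16) →
      x = 0 ∨ x = -9 ∨ x = 16 ∨ x = -4 ∨ x = 36)
    (t h : ℚ) (ht : t ≠ 0) (hh : h ≠ 0)
    (hG : (t + 27) * (t + 3) ^ 3 * h = t * (h ^ 2 + 10 * h + 5) ^ 3) :
    h = -40 ∨ h = -25 / 8 ∨ h = -10 ∨ h = -25 / 2 := by
  obtain ⟨x, hx, he⟩ := x015_exists_x t h ht hh hG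
  have hq := x015_branch_quad_ne_zero x
  set P := x ^ 4 - 4 * x ^ 3 + 135 * x ^ 2 + 486 * x + 729 with hP
  obtain ⟨w, hw⟩ : ∃ w : ℚ, w * (x ^ 2 - 9 * x - 81) = 2 * h * x ^ 3 - P :=
    ⟨_, div_mul_cancel₀ _ hq⟩
  have hw2 : w ^ 2 = (x ^ 2 + 5 * x + 9) ^ 2 + 4 * x ^ 2 := by
    apply mul_right_cancel₀ (pow_ne_zero 2 hq)
    rw [← mul_pow, hw]
    linear_combination (4 * x ^ 3) * he + (P + x ^ 4 - 4 * x ^ 3 + 135 * x ^ 2 + 486 * x + 729) * hP
  obtain ⟨u, rfl⟩ : ∃ u, w = x ^ 2 + 5 * x + u := ⟨w - (x ^ 2 + 5 * x), by ring⟩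
  have hu : (2 * u - 22) * x ^ 2 + (10 * u - 90) * x + (u ^ 2 - 81) = 0 := by
    linear_combination hw2
  have hy : (2 * (2 * u - 22) * x + (10 * u - 90)) ^ 2
      = (18 - 2 * u) * (18 - 2 * u + 9) * (18 - 2 * u - 16) := by
    linear_combination (4 * (2 * u - 22)) * hu
  have hx2 : x = -2 ∨ x = -9 / 2 := by
    rcases hrank _ _ hy with hc | hc | hc | hc | hc
    · obtain rfl : u = 9 := by linear_combination (-(1 : ℚ) / 2) * hc
      exact absurd (pow_eq_zero_iff two_ne_zero |>.mp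
        (by linear_combination (-(1 : ℚ) / 4) * hu : x ^ 2 = 0)) hx
    · obtain rfl : u = 27 / 2 := by linear_combination (-(1 : ℚ) / 2) * hc
      refine Or.inr (eq_of_sub_eq_zero (pow_eq_zero_iff two_ne_zero |>.mp ?_))
      linear_combination ((1 : ℚ) / 5) * hu
    · obtain rfl : u = 1 := by linear_combination (-(1 : ℚ) / 2) * hc
      refine Or.inl (eq_of_sub_eq_zero (pow_eq_zero_iff two_ne_zero |>.mp ?_))
      linear_combination (-(1 : ℚ) / 20) * hu
    · obtain rfl : u = 11 := by linear_combination (-(1 : ℚ) / 2) * hc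
      exact Or.inl (by linear_combination ((1 : ℚ) / 20) * hu)
    · obtain rfl : u = -9 := by linear_combination (-(1 : ℚ) / 2) * hc
      have : x * (2 * x + 9) = 0 := by linear_combination (-(1 : ℚ) / 20) * hu
      rcases mul_eq_zero.mp this with h' | h'
      · exact absurd h' hx
      · exact Or.inr (by linarith)
  rcases hx2 with rfl | rfl
  · have : (h + 40) * (8 * h + 25) = 0 := by linear_combination (-1 : ℚ) * he + h * hP
    rcases mul_eq_zero.mp this with h' | h'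
    · exact Or.inl (by linarith)
    · exact Or.inr (Or.inl (by linarith))
  · have : (h + 10) * (2 * h + 25) = 0 := by
      linear_combination (-(16 : ℚ) / 729) * he + (16 / 729) * h * hP
    rcases mul_eq_zero.mp this with h' | h'
    · exact Or.inr (Or.inr (Or.inl (by linarith)))
    · exact Or.inr (Or.inr (Or.inr (by linarith)))

end FermatLib.Descent
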