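import Fermat.Prelude.Def_FLTPrelim_ModularRep
import Fermat.Agent.Descent.X015Fibre
import Fermat.Agent.Descent.X0FiveThree
import Fermat.Agent.Descent.X0StablePoint

/-!
# A semistable model cannot have both a 3-isogeny and a 5-isogeny

The four noncuspidal rational points of X0(15) have j-invariants whose numerator is exactly
divisible by `5` or by `25`, so none is the cube `c₄^3` with `c₄` prime to the discriminant.
-/

set_option autoImplicit false

open WeierstrassCurve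

namespace FermatLib.Descent

/-- For a model semistable at 5, `c₄^3 = 5^e (b/a) Δ` is impossible for `e ∈ {1, 2}`. -/
lemma x015_false_of_five_exact (W : WeierstrassCurve ℤ) (hW : W.IsSemistableModel) (a b : ℤ)
    (e : ℕ) (he : 1 ≤ e) (he' : e ≤ 2) (ha : ¬ (5 : ℤ) ∣ a) (hb : ¬ (5 : ℤ) ∣ b)
    (h : a * W.c₄ ^ 3 = 5 ^ e * b * W.Δ) : False := by
  have h5 : Prime (5 : ℤ) := Int.prime_iff_natAbs_prime.mpr Nat.prime_five
  have hc : (5 : ℤ) ∣ W.c₄ := by
    have : (5 : ℤ) ∣ a * W.c₄ ^ 3 :=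
      h ▸ Dvd.dvd.mul_right (Dvd.dvd.mul_right (dvd_pow_self 5 (by omega)) b) W.Δ
    exact h5.dvd_of_dvd_pow ((h5.dvd_or_dvd this).resolve_left ha)
  obtain ⟨c, hc'⟩ := hc
  have hd : (5 : ℤ) ∣ b * W.Δ := by
    refine ⟨5 ^ (2 - e) * (a * c ^ 3), ?_⟩
    interval_cases e
    · norm_num
      linarith [show a * (5 * c) ^ 3 = 5 ^ 1 * b * W.Δ from hc' ▸ h]
    · norm_num
      linarith [show a * (5 * c) ^ 3 = 5 ^ 2 * b * W.Δ from hc' ▸ h]
  exact hW 5 Nat.prime_five (by exact_mod_cast (h5.dvd_or_dvd hd).resolve_left hb)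
    ⟨c, by exact_mod_cast hc'⟩

/-- The fibre product has no point coming from a semistable model. -/
lemma x015_not_semistable
    (hrank : ∀ x y : ℚ, y ^ 2 = x * (x + 9) * (x - 16) →
      x = 0 ∨ x = -9 ∨ x = 16 ∨ x = -4 ∨ x = 36)
    (W : WeierstrassCurve ℤ) (hΔ : W.Δ ≠ 0) (hW : W.IsSemistableModel) (t h : ℚ)
    (ht : t ≠ 0) (hh : h ≠ 0)
    (e3 : (W.c₄ : ℚ) ^ 3 * t = (W.Δ : ℚ) * ((t + 27) * (t + 3) ^ 3))
    (e5 : (W.c₄ : ℚ) ^ 3 * h = (W.Δ : ℚ) * (h ^ 2 + 10 * h + 5) ^ 3) : False := by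
  have hG : (t + 27) * (t + 3) ^ 3 * h = t * (h ^ 2 + 10 * h + 5) ^ 3 := by
    apply mul_left_cancel₀ (Int.cast_ne_zero.mpr hΔ : (W.Δ : ℚ) ≠ 0)
    linear_combination t * e5 - h * e3
  rcases x015_fiveParameter hrank t h ht hh hG with rfl | rfl | rfl | rfl
  · refine x015_false_of_five_exact W hW 8 (-13997521) 2 (by norm_num) le_rfl
      (by decide) (by decide) ?_
    have : (8 : ℚ) * (W.c₄ : ℚ) ^ 3 = 5 ^ 2 * (-13997521) * (W.Δ : ℚ) := by
      linear_combination (-(1 : ℚ) / 5) * e5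
    exact_mod_cast this
  · refine x015_false_of_five_exact W hW 32768 9393931 1 le_rfl (by norm_num)
      (by decide) (by decide) ?_
    have : (32768 : ℚ) * (W.c₄ : ℚ) ^ 3 = 5 ^ 1 * 9393931 * (W.Δ : ℚ) := by
      linear_combination (-(262144 : ℚ) / 25) * e5
    exact_mod_cast this
  · refine x015_false_of_five_exact W hW 2 (-1) 2 (by norm_num) le_rfl
      (by decide) (by decide) ?_
    have : (2 : ℚ) * (W.c₄ : ℚ) ^ 3 = 5 ^ 2 * (-1) * (W.Δ : ℚ) := by
      linear_combination (-(1 : ℚ) / 5) * e5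
    exact_mod_cast this
  · refine x015_false_of_five_exact W hW 32 (-24389) 1 le_rfl (by norm_num)
      (by decide) (by decide) ?_
    have : (32 : ℚ) * (W.c₄ : ℚ) ^ 3 = 5 ^ 1 * (-24389) * (W.Δ : ℚ) := by
      linear_combination (-(64 : ℚ) / 25) * e5
    exact_mod_cast this

/-- Semistable models have irreducible mod 3 or mod 5 representation, given the rank zero
curve of conductor 15. -/
theorem modRepIsIrreducible_three_or_five
    (hrank : ∀ x y : ℚ, y ^ 2 = x * (x + 9) * (x - 16) →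
      x = 0 ∨ x = -9 ∨ x = 16 ∨ x = -4 ∨ x = 36)
    (W : WeierstrassCurve ℤ) (hΔ : W.Δ ≠ 0) (hW : W.IsSemistableModel) :
    W.ModRepIsIrreducible 3 ∨ W.ModRepIsIrreducible 5 := by
  by_contra hc
  obtain ⟨h3, h5⟩ := not_or.mp hc
  have hΔ' : (W.map (Int.castRingHom ℚ)).Δ ≠ 0 := by rw [map_Δ]; simpa using hΔ
  obtain ⟨P, hP, hP3, hσ⟩ :=
    exists_stable_point_of_not_modRepIsIrreducible W hΔ Nat.prime_three h3
  obtain ⟨t, ht, e3⟩ := exists_c4_cube_mul_eq_of_stable_three hΔ' P hP hP3 hσ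
  obtain ⟨Q, hQ, hQ5, hτ⟩ :=
    exists_stable_point_of_not_modRepIsIrreducible W hΔ Nat.prime_five h5
  obtain ⟨h, hh, e5⟩ := exists_c4_cube_mul_eq_of_stable_five hΔ' Q hQ hQ5 hτ
  simp only [map_c₄, map_Δ, eq_intCast] at e3 e5
  exact x015_not_semistable hrank W hΔ hW t h ht hh e3 e5

end FermatLib.Descent
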