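import Fermat.Agent.Descent.RankZeroBasic

/-!
# The curve `y ^ 2 = x * (x ^ 2 + 6 * x + 13)` of conductor 52
-/

namespace FermatLib.Descent

private theorem quartic52_not_odd {u v w : ℤ} (hu : Odd u) (hv : Odd v)
    (h : u ^ 4 + 6 * u ^ 2 * v ^ 2 + 13 * v ^ 4 = w ^ 2) : False := by
  obtain ⟨i, hi⟩ := odd_sq_eq hu
  obtain ⟨j, hj⟩ := odd_sq_eq hv
  rw [show u ^ 4 = (u ^ 2) ^ 2 by ring, show v ^ 4 = (v ^ 2) ^ 2 by ring, hi, hj] at h
  have h2 : Even w := by
    by_contra hw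
    obtain ⟨k, hk⟩ := odd_sq_eq (Int.not_even_iff_odd.1 hw)
    ring_nf at h hk
    omega
  obtain ⟨w', rfl⟩ := even_iff_two_dvd.1 h2
  have key : ∀ w : ZMod 8, w ^ 2 ≠ 5 := by decide
  refine key w' ?_
  have h3 : w' ^ 2 = 8 * (2 * i + 8 * j + 2 * i ^ 2 + 12 * i * j + 26 * j ^ 2) + 5 := by linarith
  have := congrArg (Int.cast : ℤ → ZMod 8) h3
  push_cast at this
  simpa [show (8 : ZMod 8) = 0 by decide] using this

private theorem quartic52_dual_even {u M N : ℤ}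
    (h : u ^ 2 = M ^ 4 - 3 * M ^ 2 * N ^ 2 - N ^ 4) : Even N := by
  by_contra hv
  obtain ⟨k, rfl⟩ := Int.not_even_iff_odd.1 hv
  have key : ∀ u M k : ZMod 8,
      u ^ 2 ≠ M ^ 4 - 3 * M ^ 2 * (2 * k + 1) ^ 2 - (2 * k + 1) ^ 4 := by decide
  refine key u M k ?_
  have := congrArg (Int.cast : ℤ → ZMod 8) h
  push_cast at this
  exact this

theorem quartic52 : ∀ u v w : ℤ, IsCoprime u v →
    u ^ 4 + 6 * u ^ 2 * v ^ 2 + 13 * v ^ 4 = w ^ 2 → v = 0 := by
  suffices ∀ n : ℕ, ∀ u v w : ℤ, v.natAbs = n → IsCoprime u v →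
      u ^ 4 + 6 * u ^ 2 * v ^ 2 + 13 * v ^ 4 = w ^ 2 → v = 0 from
    fun u v w => this _ u v w rfl
  intro n
  induction n using Nat.strong_induction_on with
  | _ n ih =>
  intro u v w hn huv h
  by_contra hv
  have hodd : Odd (u ^ 2 + 3 * v ^ 2) := by
    by_contra hc
    rw [Int.not_odd_iff_even] at hc
    simp [Int.even_add, Int.even_mul, Int.even_pow, show ¬ Even (3 : ℤ) by decide] at hc
    by_cases hu : Even u
    · exact Int.prime_two.not_isUnit (huv.isUnit_of_dvd' (even_iff_two_dvd.1 hu)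
        (even_iff_two_dvd.1 (hc.1 hu)))
    · exact quartic52_not_odd (Int.not_even_iff_odd.1 hu)
        (Int.not_even_iff_odd.1 fun h' => hu (hc.2 h')) h
  have hcop : IsCoprime (v ^ 4) (u ^ 2 + 3 * v ^ 2) := by
    refine IsCoprime.pow_left ?_
    have := (huv.symm.pow_right (n := 2)).add_mul_left_right (3 * v)
    rwa [show u ^ 2 + v * (3 * v) = u ^ 2 + 3 * v ^ 2 by ring] at this
  obtain ⟨a, b, ha, hb, hab, hdiff, -⟩ := exists_half_factors (h := u ^ 2 + 3 * v ^ 2)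
    (abs_nonneg w) (by positivity : 0 < v ^ 4) (by rw [sq_abs]; linear_combination -h)
  have hab' : IsCoprime a b := isCoprime_of_mul_sub (by rw [hab, hdiff]; exact hcop)
  obtain ⟨N, M, rfl, rfl, rfl⟩ := coprime_mul_eq_pow (n := 4) (by norm_num) (by decide)
    ha.le hb.le hab' hab
  have hu : u ^ 2 = M ^ 4 - 3 * M ^ 2 * N ^ 2 - N ^ 4 := by linear_combination -hdiff
  obtain ⟨t, rfl⟩ := even_iff_two_dvd.1 (quartic52_dual_even hu)
  have hMt : IsCoprime M t :=
    ((IsCoprime.pow_iff (by norm_num) (by norm_num)).1 hab'.symm).of_mul_right_right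
  have ht : t ≠ 0 := fun h0 => hv (by simp [h0])
  have hcop' : IsCoprime (13 * t ^ 4) (M ^ 2 - 6 * t ^ 2) := by
    refine IsCoprime.mul_left ?_ (IsCoprime.pow_left ?_)
    · have h13 : Prime (13 : ℤ) := by norm_num
      refine h13.coprime_iff_not_dvd.2 fun hd => ?_
      have key : ∀ a b : ZMod 13, a ^ 2 - 6 * b ^ 2 = 0 → a = 0 ∧ b = 0 := by decide
      have hd' := (ZMod.intCast_zmod_eq_zero_iff_dvd _ 13).2 hd
      push_cast at hd'
      obtain ⟨h1, h2⟩ := key _ _ hd'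
      exact h13.not_isUnit (hMt.isUnit_of_dvd'
        ((ZMod.intCast_zmod_eq_zero_iff_dvd _ 13).1 h1)
        ((ZMod.intCast_zmod_eq_zero_iff_dvd _ 13).1 h2))
    · have := (hMt.symm.pow_right (n := 2)).add_mul_left_right (-6 * t)
      rwa [show M ^ 2 + t * (-6 * t) = M ^ 2 - 6 * t ^ 2 by ring] at this
  obtain ⟨a', b', ha', hb', hab₂, -, hsum⟩ := exists_half_factors (h := u)
    (abs_nonneg (M ^ 2 - 6 * t ^ 2)) (by positivity : 0 < 13 * t ^ 4)
    (by rw [sq_abs]; linear_combination -hu)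
  obtain ⟨r, s, rfl, hrs, he⟩ := coprime_mul_eq_primePow_mul_pow (q := 13) (n := 4)
    ((Nat.Prime.isPrimePow (by norm_num))) (by norm_num) (by decide) ha' hb'
    (isCoprime_of_mul_add (by rw [hab₂, hsum]; exact hcop'.abs_right))
    (by exact_mod_cast hab₂)
  have he' : |M ^ 2 - 6 * (r * s) ^ 2| = r ^ 4 + 13 * s ^ 4 := by
    rcases he with ⟨h1, h2⟩ | ⟨h1, h2⟩ <;> push_cast at h1 h2 <;> linarith
  have hs : s ≠ 0 := right_ne_zero_of_mul ht
  have hM : r ^ 4 + 6 * r ^ 2 * s ^ 2 + 13 * s ^ 4 = M ^ 2 := by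
    rcases abs_choice (M ^ 2 - 6 * (r * s) ^ 2) with h1 | h1 <;> rw [h1] at he'
    · linear_combination -he'
    · have hs4 : 0 < s ^ 4 := by positivity
      nlinarith [sq_nonneg (r ^ 2 - 3 * s ^ 2), sq_nonneg M]
  have hlt : s.natAbs < n := by
    rw [← hn]
    simp only [mul_ne_zero_iff] at hv
    have h1 := Int.natAbs_pos.2 hv.2
    have h2 := Int.natAbs_pos.2 hv.1.2.1
    have h3 := Int.natAbs_pos.2 hv.1.2.2
    simp only [Int.natAbs_mul, show (2 : ℤ).natAbs = 2 from rfl]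
    have h4 : 1 ≤ r.natAbs * M.natAbs := Nat.mul_pos h2 h1
    nlinarith
  exact hs (ih _ hlt r s M rfl hrs.of_mul_right_right hM)

/-- The only rational points of `s ^ 2 = t * (t ^ 2 + 6 * t + 13)` are `(0, 0)` and the origin. -/
theorem rankZero52 (t s : ℚ) (h : s ^ 2 = t * (t ^ 2 + 6 * t + 13)) : t = 0 := by
  by_cases hs : s = 0
  · subst hs
    rcases mul_eq_zero.1 (h.symm.trans (zero_pow two_ne_zero)) with h0 | h0
    · exact h0
    · nlinarith [sq_nonneg (t + 3)]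
  · obtain ⟨u, v, w, hv, huv, -, hw⟩ := exists_quartic_of_double (a := 6) (b := 13)
      (by push_cast; exact h) hs
    exact absurd (quartic52 u v w huv hw) hv.ne'

end FermatLib.Descent
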