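import Fermat.Agent.Descent.ThirteenParam
import Fermat.Agent.Descent.RankZero52
import Fermat.Agent.Descent.FreySmallExponents
import Mathlib.FieldTheory.Galois.Infinite
import Mathlib.FieldTheory.Perfect

/-!
A curve over `ℚ` with square discriminant has no Galois stable subgroup of order `13`.
-/

set_option autoImplicit false

open WeierstrassCurve WeierstrassCurve.Affine WeierstrassCurve.Affine.Point

namespace FermatLib.Descent.Thirteen

local notation "Ω" => AlgebraicClosure ℚ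

variable {W : WeierstrassCurve ℚ}

lemma xCo_galois_smul (σ : Ω ≃ₐ[ℚ] Ω) (P : (W⁄Ω).Point) :
    xCo (W := (W⁄Ω)) (σ • P) = σ (xCo (W := (W⁄Ω)) P) := by
  rcases P with _ | ⟨x, y, h⟩
  · exact (_root_.map_zero σ).symm
  · rfl

lemma coord13_galois_smul (σ : Ω ≃ₐ[ℚ] Ω) (P : (W⁄Ω).Point) :
    coord13 (W := (W⁄Ω)) (σ • P) = σ (coord13 (W := (W⁄Ω)) P) := by
  simp only [coord13, smul_comm _ σ P, xCo_galois_smul, map_mul, map_sub, map_div₀, map_one]

lemma exists_two_pow_of_ne_zero_mod_thirteen :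
    ∀ a : ZMod 13, a ≠ 0 → ∃ i : Fin 12, a = 2 ^ (i : ℕ) := by
  decide

lemma sextic_one_ne_zero (t : ℚ) : sextic t 1 ≠ 0 := by
  intro h
  have hd : (t.den : ℚ) ≠ 0 := by exact_mod_cast t.den_ne_zero
  have hrel : sextic (t.num : ℚ) (t.den : ℚ) = 0 := by
    rw [sextic_eq_mul hd, Rat.num_div_den, h, mul_zero]
  have hint : sextic t.num (t.den : ℤ) = 0 := by
    rw [← Int.cast_inj (α := ℚ)]
    simpa [sextic] using hrel
  have hz : sextic (t.num : ZMod 5) (t.den : ZMod 5) = 0 := by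
    simpa [sextic] using congrArg (fun z : ℤ => (z : ZMod 5)) hint
  have hkey : ∀ a b : ZMod 5, sextic a b = 0 → a = 0 ∧ b = 0 := by
    simp only [sextic]
    decide
  obtain ⟨hn, hd'⟩ := hkey _ _ hz
  have h1 : 5 ∣ t.num.natAbs := by
    rw [← Int.natCast_dvd_natCast, Int.dvd_natAbs]
    exact (ZMod.intCast_zmod_eq_zero_iff_dvd _ 5).mp hn
  have h2 : 5 ∣ t.den := (ZMod.natCast_eq_zero_iff _ 5).mp hd'
  have := Nat.dvd_gcd h1 h2
  rw [t.reduced] at this
  norm_num at this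

/-- A rational elliptic curve with square discriminant has no Galois stable subgroup of order
`13`. -/
theorem no_stable_thirteen_of_isSquare_Δ (hΔ : W.Δ ≠ 0) (hsq : IsSquare W.Δ)
    (Q : (W⁄Ω).Point) (hQ : Q ≠ 0) (h13 : (13 : ℕ) • Q = 0)
    (hσ : ∀ σ : Ω ≃ₐ[ℚ] Ω, σ • Q ∈ AddSubgroup.zmultiples Q) : False := by
  have : W.IsElliptic := ⟨isUnit_iff_ne_zero.mpr hΔ⟩
  obtain ⟨T, hTdef⟩ : ∃ T : (W⁄Ω).Point → Ω,
      ∀ R, T R = level13Param (coord13 (W := (W⁄Ω)) R) := ⟨_, fun _ => rfl⟩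
  have main : ∀ R : (W⁄Ω).Point, R ≠ 0 → (13 : ℕ) • R = 0 →
      T ((2 : ℕ) • R) = T R ∧ T R ≠ 0 ∧
        T R * (T R ^ 2 + 6 * T R + 13) * sextic (T R) 1 ^ 2 * algebraMap ℚ Ω W.Δ
          = T R ^ 2 * algebraMap ℚ Ω W.c₆ ^ 2 := by
    intro R hR hR13
    obtain ⟨h0, h2, h3, h4⟩ := exists_level13Param (W⁄Ω) R hR hR13
    refine ⟨?_, by rw [hTdef]; exact h3, ?_⟩
    · rw [hTdef, hTdef, h2, level13Param_neg_succ_div h0]
    · rw [hTdef]
      simpa only [WeierstrassCurve.baseChange, map_Δ, map_c₆] using h4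
  have hpow : ∀ i : ℕ, T (((2 : ℕ) ^ i) • Q) = T Q := by
    intro i
    induction i with
    | zero => simp
    | succ i ih =>
      have hne : ((2 : ℕ) ^ i) • Q ≠ 0 := smul_ne_zero_of_order hQ h13
        fun hd => absurd ((by decide : Nat.Prime 13).dvd_of_dvd_pow hd) (by norm_num)
      have h13' : (13 : ℕ) • ((2 : ℕ) ^ i) • Q = 0 := by rw [smul_comm, h13, nsmul_zero]
      rw [pow_succ, mul_nsmul, (main _ hne h13').1, ih]
  have hfix : ∀ σ : Ω ≃ₐ[ℚ] Ω, σ (T Q) = T Q := by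
    intro σ
    obtain ⟨k, hk⟩ := hσ σ
    obtain ⟨a, ha⟩ : ∃ a : ZMod 13, a = (k : ZMod 13) := ⟨_, rfl⟩
    have hkQ : ((a.val : ℕ) : ℤ) • Q = k • Q := by
      rw [ha, ZMod.val_intCast, Int.emod_def, sub_smul, mul_zsmul', natCast_zsmul,
        h13, zsmul_zero, sub_zero]
    have ha0 : a ≠ 0 := by
      intro e
      rw [e, ZMod.val_zero, Nat.cast_zero, zero_zsmul] at hkQ
      refine hQ ((smul_eq_zero_iff_eq σ).mp ?_)
      rw [hkQ]
      exact hk.symm
    obtain ⟨i, hi⟩ := exists_two_pow_of_ne_zero_mod_thirteen a ha0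
    have hσQ : σ • Q = ((2 : ℕ) ^ (i : ℕ)) • Q := by
      rw [← hk]
      show k • Q = _
      rw [← hkQ, natCast_zsmul, hi]
      have e : ((2 : ℕ) ^ (i : ℕ)) % 13 = ((2 : ZMod 13) ^ (i : ℕ)).val := by
        rw [← ZMod.val_natCast]; simp
      rw [← e]
      conv_rhs => rw [← Nat.mod_add_div ((2 : ℕ) ^ (i : ℕ)) 13, add_nsmul, mul_nsmul, h13,
        nsmul_zero, add_zero]
    have hcomm : σ (T Q) = T (σ • Q) := by
      rw [hTdef, hTdef, coord13_galois_smul]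
      simp only [level13Param, cuspCubic, map_div₀, map_neg, map_add, map_sub, map_mul, map_pow,
        map_one, map_ofNat]
    rw [hcomm, hσQ, hpow]
  have : IsGalois ℚ Ω :=
    have : Algebra.IsAlgebraic ℚ Ω := AlgebraicClosure.isAlgebraic ℚ
    have : IsAlgClosure ℚ Ω := ⟨inferInstance, inferInstance⟩
    have : Normal ℚ Ω := IsAlgClosure.normal ℚ Ω
    { }
  obtain ⟨t, ht⟩ : T Q ∈ Set.range (algebraMap ℚ Ω) :=
    (InfiniteGalois.mem_range_algebraMap_iff_fixed (T Q)).mpr hfix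
  obtain ⟨-, hT0, hid⟩ := main Q hQ h13
  have hrat : t * (t ^ 2 + 6 * t + 13) * sextic t 1 ^ 2 * W.Δ = t ^ 2 * W.c₆ ^ 2 := by
    refine (algebraMap ℚ Ω).injective ?_
    simp only [sextic, map_mul, map_add, map_sub, map_pow, map_ofNat, map_one, ht]
    simpa only [sextic] using hid
  obtain ⟨s, hs⟩ := hsq
  have hs0 : s ≠ 0 := fun e => hΔ (by rw [hs, e, mul_zero])
  have hS := sextic_one_ne_zero t
  refine hT0 ?_
  rw [← ht, rankZero52 t (t * W.c₆ / (sextic t 1 * s)) ?_, _root_.map_zero]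
  rw [hs] at hrat
  field_simp
  linear_combination -hrat

/-- The Frey curve with exponent `13` has no Galois stable cofixed line. -/
theorem frey_no_cofixed_thirteen (P : FreyPackage) (hp : P.p = 13) :
    ¬ HasGaloisStableCofixedLine (K := Ω) ℚ P.freyCurve P.p := by
  rintro ⟨N, hst, hbot, htop, -⟩
  have : P.freyCurve.IsElliptic := ⟨isUnit_iff_ne_zero.mpr (freyCurve_Δ_ne_zero P)⟩
  obtain ⟨Q, hQ, h13, hσ⟩ := exists_generator_of_stable_line P.pp N hst hbot htop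
  refine no_stable_thirteen_of_isSquare_Δ (freyCurve_Δ_ne_zero P) ?_ Q hQ
    (by rw [← hp]; exact h13) hσ
  rw [freyCurve_Δ_eq]
  exact IsSquare.sq _

end FermatLib.Descent.Thirteen
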