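import Fermat.Agent.Descent.RankZeroBasic

/-!
# The curves of conductor 15 with full 2-torsion

The descent is done on `y ^ 2 = x * (x + 1) * (x - 80)`, the curve in the isogeny class whose
rational torsion is exactly the 2-torsion, where no torsion point obstructs the descent.
-/

namespace FermatLib.Descent

private theorem three_pow_four_cases {g : ℕ} (hg : (g : ℤ) ∣ 81) :
    g = 1 ∨ g = 3 ∨ g = 9 ∨ g = 27 ∨ g = 81 := by
  have h : g ∣ 3 ^ 4 := by norm_num; exact_mod_cast hg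
  obtain ⟨i, hi, rfl⟩ := (Nat.dvd_prime_pow Nat.prime_three).1 h
  interval_cases i <;> norm_num

private theorem square_or_three {p q r M N a b c d : ℤ} (hp : 0 < p) (h : p * q = r ^ 2)
    (hMN : IsCoprime M N) (hM : p * a + q * b = 81 * M ^ 2) (hN : p * c + q * d = 81 * N ^ 2) :
    ∃ D, p = D ^ 2 ∨ p = 3 * D ^ 2 := by
  obtain ⟨e, f, hef⟩ := hMN.pow (m := 2) (n := 2)
  have hg : ((Int.gcd p q : ℕ) : ℤ) ∣ 81 := by
    rw [show (81 : ℤ) = e * (81 * M ^ 2) + f * (81 * N ^ 2) by linear_combination (-81) * hef,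
      ← hM, ← hN]
    exact dvd_add
      (dvd_mul_of_dvd_right (dvd_add (dvd_mul_of_dvd_left (Int.gcd_dvd_left ..) _)
        (dvd_mul_of_dvd_left (Int.gcd_dvd_right ..) _)) _)
      (dvd_mul_of_dvd_right (dvd_add (dvd_mul_of_dvd_left (Int.gcd_dvd_left ..) _)
        (dvd_mul_of_dvd_left (Int.gcd_dvd_right ..) _)) _)
  have hpos : 0 < Int.gcd p q := Int.gcd_pos_of_ne_zero_left _ hp.ne'
  obtain ⟨p', q', hco, hp', hq'⟩ := Int.exists_gcd_one hpos
  have hcases := three_pow_four_cases hg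
  generalize Int.gcd p q = g at hp' hq' hpos hcases
  subst hp' hq'
  have hg0 : (0 : ℤ) < g := by exact_mod_cast hpos
  obtain ⟨r', rfl⟩ : (g : ℤ) ∣ r :=
    (Int.pow_dvd_pow_iff two_ne_zero).1 ⟨p' * q', by linear_combination -h⟩
  have hp'0 : 0 < p' := (pos_iff_pos_of_mul_pos hp).2 hg0
  have h' : p' * q' = r' ^ 2 :=
    mul_left_cancel₀ (pow_ne_zero 2 hg0.ne') (by linear_combination h)
  have hq'0 : 0 ≤ q' := by nlinarith [sq_nonneg r']
  obtain ⟨D, -, hD, -, -⟩ := coprime_mul_eq_pow two_ne_zero (by decide) hp'0.le hq'0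
    (Int.isCoprime_iff_gcd_eq_one.2 hco) h'
  rcases hcases with rfl | rfl | rfl | rfl | rfl
  · exact ⟨D, Or.inl (by rw [hD]; ring)⟩
  · exact ⟨D, Or.inr (by rw [hD]; ring)⟩
  · exact ⟨3 * D, Or.inl (by rw [hD]; ring)⟩
  · exact ⟨3 * D, Or.inr (by rw [hD]; ring)⟩
  · exact ⟨9 * D, Or.inl (by rw [hD]; ring)⟩

private theorem cofactor_sq {p q r D : ℤ} (hp : 0 < p) (h : p * q = r ^ 2) (hD : p = D ^ 2) :
    ∃ C, q = C ^ 2 ∧ r = D * C := by
  subst hD
  obtain ⟨C, rfl⟩ : D ∣ r := (Int.pow_dvd_pow_iff two_ne_zero).1 ⟨q, h.symm⟩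
  exact ⟨C, mul_left_cancel₀ hp.ne' (by linear_combination h), rfl⟩

private theorem sq_of_one_mod_eight {p D : ℤ} (hp : (p : ZMod 8) = 1)
    (h : p = D ^ 2 ∨ p = 3 * D ^ 2) : p = D ^ 2 := by
  refine h.resolve_right fun h' => ?_
  have key : ∀ x : ZMod 8, 3 * x ^ 2 ≠ 1 := by decide
  exact key D (by rw [← hp, h']; push_cast; rfl)

private theorem not_five_mod_eight {p D : ℤ} (hp : (p : ZMod 8) = 5)
    (h : p = D ^ 2 ∨ p = 3 * D ^ 2) : False := by
  have key : ∀ x : ZMod 8, x ^ 2 ≠ 5 ∧ 3 * x ^ 2 ≠ 5 := by decide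
  rcases h with h | h <;> rw [h] at hp <;> push_cast at hp
  · exact (key D).1 hp
  · exact (key D).2 hp

private theorem cast_sq_odd {M : ℤ} (hM : Odd M) : (M : ZMod 8) ^ 2 = 1 := by
  obtain ⟨i, hi⟩ := odd_sq_eq hM
  have := congrArg (Int.cast : ℤ → ZMod 8) hi
  push_cast at this
  rw [this, show (8 : ZMod 8) = 0 by decide]
  ring

private theorem isCoprime_of_five_mul_pow {a b c : ℤ} {n : ℕ}
    (hab : a * b = 5 * c ^ n) (hc : IsCoprime c (b - a)) : IsCoprime a b := by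
  have h5 : Prime (5 : ℤ) := Int.prime_iff_natAbs_prime.2 (by norm_num)
  by_cases hd : (5 : ℤ) ∣ b - a
  · exfalso
    have hboth : (5 : ℤ) ∣ a ∧ (5 : ℤ) ∣ b := by
      rcases h5.dvd_mul.1 (Dvd.intro _ hab.symm) with h | h
      · exact ⟨h, (dvd_sub_left h).1 hd⟩
      · exact ⟨(dvd_sub_right h).1 hd, h⟩
    obtain ⟨⟨a', rfl⟩, b', rfl⟩ := hboth
    have h5c : (5 : ℤ) ∣ c ^ n := ⟨a' * b', by linarith⟩
    exact h5.not_isUnit (hc.isUnit_of_dvd' (h5.dvd_of_dvd_pow h5c) hd)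
  · exact isCoprime_of_mul_sub (hab ▸ ((h5.coprime_iff_not_dvd).2 hd).mul_left hc.pow_left)

private theorem natAbs_le_natAbs_mul_left {a b : ℤ} (hb : b ≠ 0) :
    a.natAbs ≤ (a * b).natAbs := by
  rw [Int.natAbs_mul]
  exact Nat.le_mul_of_pos_right _ (Int.natAbs_pos.2 hb)

private theorem dual15_not_odd {r s w : ℤ} (hrs : IsCoprime r s) (hr : Odd r) (hs : Odd s)
    (h : r ^ 4 + 158 * r ^ 2 * s ^ 2 + 6561 * s ^ 4 = w ^ 2) : False := by
  obtain ⟨i, hi⟩ := odd_sq_eq hr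
  obtain ⟨j, hj⟩ := odd_sq_eq hs
  obtain ⟨k, hk⟩ : ∃ k, r ^ 2 + 79 * s ^ 2 = 8 * k := ⟨i + 79 * j + 10, by linarith⟩
  obtain ⟨w', rfl⟩ : (8 : ℤ) ∣ w := (Int.pow_dvd_pow_iff two_ne_zero).1
    ⟨k ^ 2 + 5 * s ^ 4, by linear_combination -h + (r ^ 2 + 79 * s ^ 2 + 8 * k) * hk⟩
  have hs0 : 0 < s ^ 4 := by
    have : s ≠ 0 := by rintro rfl; simp at hs
    positivity
  obtain ⟨a, b, ha, hb, hab, hdiff, -⟩ := exists_half_factors (h := 2 * k)
    (abs_nonneg (2 * w')) (by positivity : 0 < 5 * s ^ 4)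
    (by rw [sq_abs]; linarith [congrArg (fun x => x * x) hk])
  have hsk : IsCoprime s (b - a) := by
    rw [hdiff]
    refine IsCoprime.mul_right (Int.prime_two.coprime_iff_not_dvd.2 ?_).symm ?_
    · exact fun hd => Int.not_even_iff_odd.2 hs (even_iff_two_dvd.2 hd)
    · have := (hrs.symm.pow_right (n := 2)).add_mul_left_right (79 * s)
      rw [show r ^ 2 + s * (79 * s) = 8 * k by linarith] at this
      exact this.of_mul_right_right
  obtain ⟨M, N, hsMN, hMN, hcase⟩ := coprime_mul_eq_primePow_mul_pow (q := 5) (n := 4)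
    Nat.prime_five.isPrimePow (by norm_num) (by decide) ha hb
    (isCoprime_of_five_mul_pow hab hsk) (by exact_mod_cast hab)
  subst hsMN
  obtain ⟨hM, hN⟩ := odd_of_mul_odd hs
  have hMN' : IsCoprime M N := hMN.of_mul_right_right
  rcases hcase with ⟨h1, h2⟩ | ⟨h1, h2⟩ <;> push_cast at h1 h2
  · have hp : 0 < 20 * N ^ 2 + M ^ 2 := by
      have : M ≠ 0 := by rintro rfl; simp at hM
      positivity
    obtain ⟨D, hD⟩ := square_or_three hp
      (q := N ^ 2 - 4 * M ^ 2) (r := r) (a := 1) (b := -20) (c := 4) (d := 1)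
      (by linear_combination -hk + 4 * (hdiff - h2 + h1)) hMN' (by ring) (by ring)
    refine not_five_mod_eight ?_ hD
    push_cast
    rw [cast_sq_odd hM, cast_sq_odd hN]
    decide
  · have hp : 0 < 4 * M ^ 2 + N ^ 2 := by
      have : M ≠ 0 := by rintro rfl; simp at hM
      positivity
    obtain ⟨D, hD⟩ := square_or_three hp
      (q := M ^ 2 - 20 * N ^ 2) (r := r) (a := 20) (b := 1) (c := 1) (d := -4)
      (by linear_combination -hk + 4 * (hdiff - h2 + h1)) hMN' (by ring) (by ring)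
    refine not_five_mod_eight ?_ hD
    push_cast
    rw [cast_sq_odd hM, cast_sq_odd hN]
    decide

private theorem dual15_descent {r s w : ℤ} (hrs : IsCoprime r s) (hr : r ≠ 0) (hs : s ≠ 0)
    (h : r ^ 4 + 158 * r ^ 2 * s ^ 2 + 6561 * s ^ 4 = w ^ 2) :
    ∃ U V A B : ℤ, U ^ 2 + V ^ 2 = A ^ 2 ∧ U ^ 2 - 80 * V ^ 2 = B ^ 2 ∧ V ≠ 0 ∧
      V.natAbs ≤ s.natAbs := by
  have hodd : Odd (r ^ 2 + 79 * s ^ 2) := by
    by_contra hc
    rw [Int.not_odd_iff_even] at hc
    simp [Int.even_add, Int.even_mul, Int.even_pow, show ¬ Even (79 : ℤ) by decide] at hc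
    by_cases hr2 : Even r
    · exact Int.prime_two.not_isUnit (hrs.isUnit_of_dvd' (even_iff_two_dvd.1 hr2)
        (even_iff_two_dvd.1 (hc.1 hr2)))
    · exact dual15_not_odd hrs (Int.not_even_iff_odd.1 hr2)
        (Int.not_even_iff_odd.1 fun h' => hr2 (hc.2 h')) h
  obtain ⟨a, b, ha, hb, hab, hdiff, -⟩ := exists_half_factors (h := r ^ 2 + 79 * s ^ 2)
    (abs_nonneg w) (by positivity : 0 < 5 * (2 * s) ^ 4)
    (by rw [sq_abs]; linear_combination -h)
  have hsk : IsCoprime (2 * s) (b - a) := by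
    rw [hdiff]
    refine IsCoprime.mul_left (Int.prime_two.coprime_iff_not_dvd.2 ?_) ?_
    · exact fun hd => Int.not_even_iff_odd.2 hodd (even_iff_two_dvd.2 hd)
    · have := (hrs.symm.pow_right (n := 2)).add_mul_left_right (79 * s)
      rwa [show r ^ 2 + s * (79 * s) = r ^ 2 + 79 * s ^ 2 by ring] at this
  obtain ⟨M, N, hsMN, hMN, hcase⟩ := coprime_mul_eq_primePow_mul_pow (q := 5) (n := 4)
    Nat.prime_five.isPrimePow (by norm_num) (by decide) ha hb
    (isCoprime_of_five_mul_pow hab hsk) (by exact_mod_cast hab)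
  have hMN' : IsCoprime M N := hMN.of_mul_right_right
  rcases Int.prime_two.dvd_mul.1 (Dvd.intro s hsMN) with ⟨M', rfl⟩ | ⟨N', rfl⟩
  · -- the first parameter is even
    have hN : Odd N := Int.not_even_iff_odd.1 fun h' =>
      Int.prime_two.not_isUnit (hMN'.isUnit_of_dvd' (dvd_mul_right _ _) (even_iff_two_dvd.1 h'))
    have hco : IsCoprime N M' := hMN'.of_mul_left_right.symm
    obtain rfl : s = N * M' := by linarith
    obtain ⟨hN0, hM'0⟩ := mul_ne_zero_iff.1 hs
    rcases hcase with ⟨h1, h2⟩ | ⟨h1, h2⟩ <;> push_cast at h1 h2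
    · have hr' : (N ^ 2 - 16 * M' ^ 2) * (5 * N ^ 2 + M' ^ 2) = r ^ 2 := by
        linear_combination hdiff - h2 + h1
      have hp : 0 < N ^ 2 - 16 * M' ^ 2 := by
        have : 0 < 5 * N ^ 2 + M' ^ 2 := by positivity
        exact (pos_iff_pos_of_mul_pos (hr' ▸ (by positivity))).2 this
      obtain ⟨C, hC⟩ := square_or_three hp hr' hco (a := 1) (b := 16) (c := -5) (d := 1)
        (by ring) (by ring)
      have hC : N ^ 2 - 16 * M' ^ 2 = C ^ 2 := by
        refine sq_of_one_mod_eight ?_ hC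
        push_cast
        rw [cast_sq_odd hN, show (16 : ZMod 8) = 0 by decide]
        ring
      obtain ⟨D, hD, rfl⟩ := cofactor_sq hp hr' hC
      refine ⟨4 * D, C, 9 * N, 36 * M', ?_, ?_, left_ne_zero_of_mul hr, ?_⟩
      · linear_combination -16 * hD - hC
      · linear_combination -16 * hD + 80 * hC
      · refine le_trans ?_ (natAbs_le_natAbs_mul_left hM'0)
        exact Int.natAbs_le_iff_sq_le.2 (by nlinarith [sq_nonneg M'])
    · have hr' : (16 * M' ^ 2 + N ^ 2) * (M' ^ 2 - 5 * N ^ 2) = r ^ 2 := by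
        linear_combination hdiff - h2 + h1
      have hp : 0 < 16 * M' ^ 2 + N ^ 2 := by positivity
      obtain ⟨D, hD⟩ := square_or_three hp hr' hco (a := 1) (b := -16) (c := 5) (d := 1)
        (by ring) (by ring)
      have hD : 16 * M' ^ 2 + N ^ 2 = D ^ 2 := by
        refine sq_of_one_mod_eight ?_ hD
        push_cast
        rw [cast_sq_odd hN, show (16 : ZMod 8) = 0 by decide]
        ring
      obtain ⟨C, hC, rfl⟩ := cofactor_sq hp hr' hD
      refine ⟨4 * M', N, D, 4 * C, ?_, ?_, hN0, natAbs_le_natAbs_mul_left hM'0⟩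
      · linear_combination hD
      · linear_combination 16 * hC
  · -- the second parameter is even
    have hM : Odd M := Int.not_even_iff_odd.1 fun h' =>
      Int.prime_two.not_isUnit (hMN'.isUnit_of_dvd' (even_iff_two_dvd.1 h') (dvd_mul_right _ _))
    have hco : IsCoprime M N' := hMN'.of_mul_right_right
    obtain rfl : s = N' * M := by linarith
    obtain ⟨hN0, hM0⟩ := mul_ne_zero_iff.1 hs
    rcases hcase with ⟨h1, h2⟩ | ⟨h1, h2⟩ <;> push_cast at h1 h2
    · have hr' : (80 * N' ^ 2 + M ^ 2) * (N' ^ 2 - M ^ 2) = r ^ 2 := by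
        linear_combination hdiff - h2 + h1
      have hp : 0 < 80 * N' ^ 2 + M ^ 2 := by positivity
      obtain ⟨D, hD⟩ := square_or_three hp hr' hco (a := 1) (b := -80) (c := 1) (d := 1)
        (by ring) (by ring)
      have hD : 80 * N' ^ 2 + M ^ 2 = D ^ 2 := by
        refine sq_of_one_mod_eight ?_ hD
        push_cast
        rw [cast_sq_odd hM, show (80 : ZMod 8) = 0 by decide]
        ring
      obtain ⟨C, hC, rfl⟩ := cofactor_sq hp hr' hD
      refine ⟨D, C, 9 * N', 9 * M, ?_, ?_, right_ne_zero_of_mul hr, ?_⟩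
      · linear_combination -hD - hC
      · linear_combination -hD + 80 * hC
      · refine le_trans ?_ (natAbs_le_natAbs_mul_left hM0)
        exact Int.natAbs_le_iff_sq_le.2 (by nlinarith [sq_nonneg M])
    · have hr' : (M ^ 2 + N' ^ 2) * (M ^ 2 - 80 * N' ^ 2) = r ^ 2 := by
        linear_combination hdiff - h2 + h1
      have hp : 0 < M ^ 2 + N' ^ 2 := by positivity
      obtain ⟨D, hD⟩ := square_or_three hp hr' hco (a := 80) (b := 1) (c := 1) (d := -1)
        (by ring) (by ring)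
      have hD : M ^ 2 + N' ^ 2 = D ^ 2 := by
        refine hD.resolve_right fun h' => ?_
        have key : ∀ x y : ZMod 3, x ^ 2 + y ^ 2 = 0 → x = 0 ∧ y = 0 := by decide
        have h3 := congrArg (Int.cast : ℤ → ZMod 3) h'
        push_cast at h3
        rw [show (3 : ZMod 3) = 0 by decide, zero_mul] at h3
        obtain ⟨x0, y0⟩ := key _ _ h3
        exact Int.prime_three.not_isUnit (hco.isUnit_of_dvd'
          ((ZMod.intCast_zmod_eq_zero_iff_dvd _ 3).1 x0)
          ((ZMod.intCast_zmod_eq_zero_iff_dvd _ 3).1 y0))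
      obtain ⟨C, hC, rfl⟩ := cofactor_sq hp hr' hD
      exact ⟨M, N', D, C, hD, hC, hN0, natAbs_le_natAbs_mul_left hM0⟩

/-- `U ^ 2 + V ^ 2` and `U ^ 2 - 80 * V ^ 2` are simultaneously squares only if `V = 0`. -/
theorem system15 : ∀ U V A B : ℤ,
    U ^ 2 + V ^ 2 = A ^ 2 → U ^ 2 - 80 * V ^ 2 = B ^ 2 → V = 0 := by
  suffices ∀ n : ℕ, ∀ U V A B : ℤ, V.natAbs = n →
      U ^ 2 + V ^ 2 = A ^ 2 → U ^ 2 - 80 * V ^ 2 = B ^ 2 → V = 0 from
    fun U V A B => this _ U V A B rfl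
  intro n
  induction n using Nat.strong_induction_on with
  | _ n ih =>
  intro U V A B hn hA hB
  by_contra hV
  obtain ⟨U₁, V₁, hco, hU', hV'⟩ := Int.exists_gcd_one (Int.gcd_pos_of_ne_zero_right U hV)
  generalize hg : Int.gcd _ _ = g at hU' hV'
  subst hU' hV'
  obtain ⟨hV1, hg0⟩ := mul_ne_zero_iff.1 hV
  obtain ⟨A, rfl⟩ : (g : ℤ) ∣ A :=
    (Int.pow_dvd_pow_iff two_ne_zero).1 ⟨U₁ ^ 2 + V₁ ^ 2, by linear_combination -hA⟩
  obtain ⟨B, rfl⟩ : (g : ℤ) ∣ B :=
    (Int.pow_dvd_pow_iff two_ne_zero).1 ⟨U₁ ^ 2 - 80 * V₁ ^ 2, by linear_combination -hB⟩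
  replace hA : U₁ ^ 2 + V₁ ^ 2 = A ^ 2 :=
    mul_left_cancel₀ (pow_ne_zero 2 hg0) (by linear_combination hA)
  replace hB : U₁ ^ 2 - 80 * V₁ ^ 2 = B ^ 2 :=
    mul_left_cancel₀ (pow_ne_zero 2 hg0) (by linear_combination hB)
  replace hn : V₁.natAbs ≤ n := hn ▸ natAbs_le_natAbs_mul_left hg0
  clear hg hg0 hV
  have hUV : IsCoprime U₁ V₁ := Int.isCoprime_iff_gcd_eq_one.2 hco
  have hVA : IsCoprime V₁ A := by
    refine (IsCoprime.pow_right_iff (show 0 < 2 by norm_num)).1 ?_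
    have := (hUV.symm.pow_right (n := 2)).add_mul_left_right V₁
    rwa [show U₁ ^ 2 + V₁ * V₁ = A ^ 2 by linarith] at this
  have h3A : IsCoprime 3 A := by
    refine Int.prime_three.coprime_iff_not_dvd.2 fun hd => ?_
    have key : ∀ x y : ZMod 3, x ^ 2 + y ^ 2 = 0 → x = 0 ∧ y = 0 := by decide
    have h3 := congrArg (Int.cast : ℤ → ZMod 3) hA
    push_cast at h3
    have hd' := (ZMod.intCast_zmod_eq_zero_iff_dvd A 3).2 hd
    obtain ⟨x0, y0⟩ := key _ _ (by rw [h3, hd']; decide)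
    exact Int.prime_three.not_isUnit (hUV.isUnit_of_dvd'
      ((ZMod.intCast_zmod_eq_zero_iff_dvd _ 3).1 x0)
      ((ZMod.intCast_zmod_eq_zero_iff_dvd _ 3).1 y0))
  have h81 : IsPrimePow 81 := ⟨3, 4, Nat.prime_three.prime, by norm_num, by norm_num⟩
  rcases Int.even_or_odd V₁ with hev | hod
  · obtain ⟨t, rfl⟩ := even_iff_two_dvd.1 hev
    have ht : t ≠ 0 := right_ne_zero_of_mul hV1
    obtain ⟨a, b, ha, hb, hab, -, hsum⟩ := exists_half_factors (h := B) (abs_nonneg A)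
      (by positivity : 0 < 81 * t ^ 2) (by rw [sq_abs]; linear_combination -hA + hB)
    obtain ⟨r, s, rfl, hrs, hcase⟩ := coprime_mul_eq_primePow_mul_pow h81 two_ne_zero
      (by decide) ha hb
      (isCoprime_of_mul_add (by
        rw [hab, hsum]
        exact ((IsCoprime.pow_left (m := 4) (x := (3 : ℤ)) h3A).mul_left
          (hVA.of_mul_left_right.pow_left)).abs_right))
      (by exact_mod_cast hab)
    have hA' : |A| = r ^ 2 + 81 * s ^ 2 := by
      rcases hcase with ⟨h1, h2⟩ | ⟨h1, h2⟩ <;> push_cast at h1 h2 <;> linarith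
    obtain ⟨hr, hs⟩ := mul_ne_zero_iff.1 ht
    obtain ⟨U', V', A', B', e1, e2, hne, hle⟩ := dual15_descent hrs.of_mul_right_right hr hs
      (w := U₁) (by rw [← sq_abs A, hA'] at hA; linear_combination -hA)
    refine hne (ih _ (lt_of_le_of_lt hle ?_) U' V' A' B' rfl e1 e2)
    refine lt_of_lt_of_le ?_ hn
    rw [Int.natAbs_mul, Int.natAbs_mul, show (2 : ℤ).natAbs = 2 from rfl]
    have := Nat.le_mul_of_pos_left s.natAbs (Int.natAbs_pos.2 hr)
    have := Int.natAbs_pos.2 hs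
    omega
  · obtain ⟨m, hm⟩ : (2 : ℤ) ∣ B := by
      have key : ∀ x k a b : ZMod 4, x ^ 2 + (2 * k + 1) ^ 2 = a ^ 2 →
          x ^ 2 - 80 * (2 * k + 1) ^ 2 = b ^ 2 → 2 * b = 0 := by decide
      obtain ⟨k, rfl⟩ := hod
      have h1 := congrArg (Int.cast : ℤ → ZMod 4) hA
      have h2 := congrArg (Int.cast : ℤ → ZMod 4) hB
      push_cast at h1 h2
      have h4 := key _ _ _ _ h1 h2
      have h4' : ((2 * B : ℤ) : ZMod 4) = 0 := by push_cast; exact h4
      have := (ZMod.intCast_zmod_eq_zero_iff_dvd _ 4).1 h4'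
      omega
    obtain ⟨a, b, ha, hb, hab, -, hsum⟩ := exists_half_factors (h := 2 * B)
      (abs_nonneg (2 * A)) (by positivity : 0 < 81 * V₁ ^ 2)
      (by rw [sq_abs]; linear_combination -4 * hA + 4 * hB)
    obtain ⟨r, s, rfl, hrs, hcase⟩ := coprime_mul_eq_primePow_mul_pow h81 two_ne_zero
      (by decide) ha hb
      (isCoprime_of_mul_add (by
        rw [hab, hsum]
        refine (IsCoprime.mul_left (IsCoprime.pow_left (m := 4) (x := (3 : ℤ)) ?_)
          (IsCoprime.pow_left ?_)).abs_right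
        · exact IsCoprime.mul_right (Int.isCoprime_iff_gcd_eq_one.2 rfl) h3A
        · exact IsCoprime.mul_right (Int.prime_two.coprime_iff_not_dvd.2
            fun hd => Int.not_even_iff_odd.2 hod (even_iff_two_dvd.2 hd)).symm hVA))
      (by exact_mod_cast hab)
    have hA' : |2 * A| = r ^ 2 + 81 * s ^ 2 := by
      rcases hcase with ⟨h1, h2⟩ | ⟨h1, h2⟩ <;> push_cast at h1 h2 <;> linarith
    obtain ⟨hr, hs⟩ := odd_of_mul_odd hod
    refine dual15_not_odd hrs.of_mul_right_right hr hs (w := 2 * U₁) ?_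
    have h4 : (r ^ 2 + 81 * s ^ 2) ^ 2 = (2 * A) ^ 2 := by rw [← hA', sq_abs]
    linear_combination h4 - 4 * hA

/-- The only rational points of `y ^ 2 = x * (x + 1) * (x - 80)` are the 2-torsion points. -/
theorem rankZero15_noFour (x y : ℚ) (h : y ^ 2 = x * (x + 1) * (x - 80)) : y = 0 := by
  by_contra hy
  obtain ⟨u, v, hv, -, hq⟩ := exists_coprime_num_den ((x ^ 2 + 80) / (2 * y))
  have hu : (u : ℚ) = (x ^ 2 + 80) / (2 * y) * v := by
    have : (v : ℚ) ≠ 0 := by exact_mod_cast hv.ne'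
    rw [hq]; field_simp
  obtain ⟨A, -, hA⟩ := exists_int_of_sq_eq_int
    (q := (x ^ 2 + 2 * x - 80) / (2 * y) * v) (n := u ^ 2 + v ^ 2)
    (by push_cast; rw [hu]; field_simp; linear_combination (-4) * h)
  obtain ⟨B, -, hB⟩ := exists_int_of_sq_eq_int
    (q := (x ^ 2 - 160 * x - 80) / (2 * y) * v) (n := u ^ 2 - 80 * v ^ 2)
    (by push_cast; rw [hu]; field_simp; linear_combination 320 * h)
  exact hv.ne' (system15 u v A B hA.symm hB.symm)

/-- The rational points of `15a1`, in the model `y ^ 2 = x * (x + 9) * (x - 16)`. -/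
theorem rankZero15 (x y : ℚ) (h : y ^ 2 = x * (x + 9) * (x - 16)) :
    x = 0 ∨ x = -9 ∨ x = 16 ∨ x = -4 ∨ x = 36 := by
  obtain ⟨X, rfl⟩ : ∃ X, x = X + 16 := ⟨x - 16, by ring⟩
  by_cases hX : X = 0
  · right; right; left; linarith
  have h' : y ^ 2 = X * (X ^ 2 + 41 * X + 400) := by linear_combination h
  obtain ⟨z, hz⟩ := exists_isogenous_point h' hX
  obtain ⟨k, hk⟩ : ∃ k, (y / X) ^ 2 = k := ⟨_, rfl⟩
  rw [hk] at hz
  have hz0 := rankZero15_noFour (k - 1) z (by linear_combination hz)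
  subst hz0
  have hk' : k * ((k - 1) * (k - 81)) = 0 := by linear_combination -hz
  have hy : X ^ 2 + 41 * X + 400 = k * X := by
    rw [← hk, div_pow, h']; field_simp
  rcases mul_eq_zero.1 hk' with hk0 | hk'
  · rw [hk0, zero_mul] at hy
    rcases mul_eq_zero.1 (show (X + 16) * (X + 25) = 0 by linear_combination hy) with h0 | h0
    · left; exact h0
    · right; left; linarith
  rcases mul_eq_zero.1 hk' with hk0 | hk0
  · rw [sub_eq_zero.1 hk0] at hy
    have h0 : X + 20 = 0 := (sq_eq_zero_iff).1 (by linear_combination hy)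
    right; right; right; left; linarith
  · rw [sub_eq_zero.1 hk0] at hy
    have h0 : X - 20 = 0 := (sq_eq_zero_iff).1 (by linear_combination hy)
    right; right; right; right; linarith

end FermatLib.Descent
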