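import Mathlib

/-!
# Tools for elementary 2-isogeny descents
-/

namespace FermatLib.Descent

/-- Coprime non-negative factors of an even power are such powers. -/
theorem coprime_mul_eq_pow {a b c : ℤ} {n : ℕ} (hn : n ≠ 0) (he : Even n) (ha : 0 ≤ a)
    (hb : 0 ≤ b) (hab : IsCoprime a b) (h : a * b = c ^ n) :
    ∃ r s : ℤ, a = r ^ n ∧ b = s ^ n ∧ c = r * s := by
  lift a to ℕ using ha
  lift b to ℕ using hb
  have h' : a * b = c.natAbs ^ n := by
    have := congrArg Int.natAbs h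
    simpa [Int.natAbs_mul, Int.natAbs_pow] using this
  have hcop : Nat.Coprime a b := by
    rw [Int.isCoprime_iff_gcd_eq_one] at hab
    simpa [Int.gcd_natCast_natCast] using hab
  obtain ⟨r, hr⟩ := exists_eq_pow_of_mul_eq_pow (Nat.isUnit_iff.2 hcop) h'
  obtain ⟨s, hs⟩ := exists_eq_pow_of_mul_eq_pow (Nat.isUnit_iff.2 hcop.symm)
    ((mul_comm b a).trans h')
  have hc : c.natAbs = r * s :=
    Nat.pow_left_injective hn (by simp only [mul_pow]; rw [← hr, ← hs, h'])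
  rcases Int.natAbs_eq c with hc' | hc'
  · exact ⟨r, s, by simp [hr], by simp [hs], by rw [hc', hc]; push_cast; rfl⟩
  · refine ⟨-r, s, by simp [hr, he.neg_pow], by simp [hs], ?_⟩
    rw [hc', hc]; push_cast; ring

/-- A prime power dividing a product of coprime integers goes into one of the factors. -/
theorem coprime_mul_eq_primePow_mul {a b x : ℤ} {q : ℕ} (hq : IsPrimePow q)
    (hab : IsCoprime a b) (h : a * b = q * x) :
    (∃ a', a = q * a' ∧ IsCoprime a' b ∧ a' * b = x) ∨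
      (∃ b', b = q * b' ∧ IsCoprime a b' ∧ a * b' = x) := by
  have hq0 : (q : ℤ) ≠ 0 := by exact_mod_cast hq.ne_zero
  have hcop : Nat.Coprime a.natAbs b.natAbs := Int.isCoprime_iff_gcd_eq_one.1 hab
  have hd : q ∣ a.natAbs * b.natAbs := by
    rw [← Int.natAbs_mul, ← Int.natCast_dvd, h]
    exact dvd_mul_right _ _
  rcases (hcop.isPrimePow_dvd_mul hq).1 hd with hd | hd
  · obtain ⟨a', rfl⟩ := Int.natCast_dvd.2 hd
    exact Or.inl ⟨a', rfl, hab.of_mul_left_right,
      mul_left_cancel₀ hq0 (by rw [← h]; ring)⟩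
  · obtain ⟨b', rfl⟩ := Int.natCast_dvd.2 hd
    exact Or.inr ⟨b', rfl, hab.of_mul_right_right,
      mul_left_cancel₀ hq0 (by rw [← h]; ring)⟩

/-- Splitting `a * b = q * c ^ n` for coprime positive `a`, `b` and a prime power `q`. -/
theorem coprime_mul_eq_primePow_mul_pow {a b c : ℤ} {q n : ℕ} (hq : IsPrimePow q) (hn : n ≠ 0)
    (he : Even n) (ha : 0 < a) (hb : 0 < b) (hab : IsCoprime a b) (h : a * b = q * c ^ n) :
    ∃ r s : ℤ, c = r * s ∧ IsCoprime r ((q : ℤ) * s) ∧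
      ((a = r ^ n ∧ b = q * s ^ n) ∨ (a = q * s ^ n ∧ b = r ^ n)) := by
  have hq0 : (0 : ℤ) < q := by exact_mod_cast hq.pos
  rcases coprime_mul_eq_primePow_mul hq hab h with ⟨a', rfl, hcop, hx⟩ | ⟨b', rfl, hcop, hx⟩
  · have ha' : 0 < a' := by
      rcases mul_pos_iff.1 ha with h1 | h1
      · exact h1.2
      · linarith
    obtain ⟨s, r, rfl, rfl, rfl⟩ := coprime_mul_eq_pow hn he ha'.le hb.le hcop hx
    have h1 : IsCoprime r (q : ℤ) :=
      (IsCoprime.pow_left_iff (Nat.pos_of_ne_zero hn)).1 hab.of_mul_left_left.symm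
    have h2 : IsCoprime r s :=
      (IsCoprime.pow_iff (Nat.pos_of_ne_zero hn) (Nat.pos_of_ne_zero hn)).1 hcop.symm
    exact ⟨r, s, mul_comm _ _, h1.mul_right h2, Or.inr ⟨rfl, rfl⟩⟩
  · have hb' : 0 < b' := by
      rcases mul_pos_iff.1 hb with h1 | h1
      · exact h1.2
      · linarith
    obtain ⟨r, s, rfl, rfl, rfl⟩ := coprime_mul_eq_pow hn he ha.le hb'.le hcop hx
    have h1 : IsCoprime r (q : ℤ) :=
      (IsCoprime.pow_left_iff (Nat.pos_of_ne_zero hn)).1 hab.of_mul_right_left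
    have h2 : IsCoprime r s :=
      (IsCoprime.pow_iff (Nat.pos_of_ne_zero hn) (Nat.pos_of_ne_zero hn)).1 hcop
    exact ⟨r, s, rfl, h1.mul_right h2, Or.inl ⟨rfl, rfl⟩⟩

/-- Two integers are coprime if their product is coprime to their sum. -/
theorem isCoprime_of_mul_add {a b : ℤ} (h : IsCoprime (a * b) (a + b)) : IsCoprime a b := by
  have := h.of_mul_left_left.add_mul_left_right (-1)
  simpa [show a + b + a * -1 = b by ring] using this

/-- Two integers are coprime if their product is coprime to their difference. -/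
theorem isCoprime_of_mul_sub {a b : ℤ} (h : IsCoprime (a * b) (b - a)) : IsCoprime a b := by
  have := h.of_mul_left_left.add_mul_left_right 1
  simpa [show b - a + a * 1 = b by ring] using this

/-- A solution of `z ^ 2 = h ^ 2 + 4 * X` gives a factorisation of `X`. -/
theorem exists_half_factors {z h X : ℤ} (hz : 0 ≤ z) (hX : 0 < X)
    (e : z ^ 2 = h ^ 2 + 4 * X) :
    ∃ a b : ℤ, 0 < a ∧ 0 < b ∧ a * b = X ∧ b - a = h ∧ a + b = z := by
  have h2 : (2 : ℤ) ∣ z - h := by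
    have key : ∀ x y : ZMod 2, x ^ 2 = y ^ 2 → x - y = 0 := by decide
    refine (ZMod.intCast_zmod_eq_zero_iff_dvd (z - h) 2).1 ?_
    push_cast
    apply key
    have := congrArg (Int.cast : ℤ → ZMod 2) e
    push_cast at this
    rw [this, show (4 : ZMod 2) = 0 by decide]
    ring
  obtain ⟨a, ha⟩ := h2
  have hab : a * (a + h) = X := by
    obtain rfl : z = 2 * a + h := by linarith
    linarith
  obtain ⟨h1, h2⟩ : 0 < a ∧ 0 < a + h := by
    rcases mul_pos_iff.1 (hab.symm ▸ hX) with h1 | h1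
    · exact h1
    · linarith [h1.1, h1.2]
  exact ⟨a, a + h, h1, h2, hab, by ring, by linarith⟩

/-- A rational number whose square is an integer is an integer. -/
theorem exists_int_of_sq_eq_int {q : ℚ} {n : ℤ} (h : q ^ 2 = n) :
    ∃ m : ℤ, q = m ∧ m ^ 2 = n := by
  have hd := congrArg Rat.den h
  rw [Rat.den_pow, Rat.den_intCast, pow_eq_one_iff_left two_ne_zero] at hd
  refine ⟨q.num, (Rat.coe_int_num_of_den_eq_one hd).symm, ?_⟩
  rw [← Rat.coe_int_num_of_den_eq_one hd] at h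
  exact_mod_cast h

/-- A rational number is a quotient of coprime integers. -/
theorem exists_coprime_num_den (q : ℚ) :
    ∃ u v : ℤ, 0 < v ∧ IsCoprime u v ∧ q = u / v :=
  ⟨q.num, q.den, by exact_mod_cast q.den_pos, Rat.isCoprime_num_den q,
    by push_cast; exact (Rat.num_div_den q).symm⟩

/-- The doubling map on `y ^ 2 = x * (x ^ 2 + a * x + b)`, in terms of the quartic covering
`w ^ 2 = u ^ 4 + a * u ^ 2 * v ^ 2 + b * v ^ 4`. -/
theorem exists_quartic_of_double {a b : ℤ} {x y : ℚ}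
    (h : y ^ 2 = x * (x ^ 2 + a * x + b)) (hy : y ≠ 0) :
    ∃ u v w : ℤ, 0 < v ∧ IsCoprime u v ∧ (x ^ 2 - b) / (2 * y) = u / v ∧
      u ^ 4 + a * u ^ 2 * v ^ 2 + b * v ^ 4 = w ^ 2 := by
  obtain ⟨u, v, hv, huv, hq⟩ := exists_coprime_num_den ((x ^ 2 - b) / (2 * y))
  have hv' : (v : ℚ) ≠ 0 := by exact_mod_cast hv.ne'
  have e : ((x ^ 4 + 2 * a * x ^ 3 + 6 * b * x ^ 2 + 2 * a * b * x + b ^ 2) /
      (2 * y) ^ 2 * (v : ℚ) ^ 2) ^ 2 =
      ((u ^ 4 + a * u ^ 2 * v ^ 2 + b * v ^ 4 : ℤ) : ℚ) := by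
    have hu : (u : ℚ) = (x ^ 2 - b) / (2 * y) * v := by rw [hq]; field_simp
    push_cast
    rw [hu]
    field_simp
    rw [show y ^ 4 = (x * (x ^ 2 + a * x + b)) ^ 2 by rw [← h]; ring, h]
    ring
  obtain ⟨w, -, hw⟩ := exists_int_of_sq_eq_int e
  exact ⟨u, v, w, hv, huv, hq, hw.symm⟩

/-- The quotient by the 2-torsion point `(0, 0)`. -/
theorem exists_isogenous_point {a b x y : ℚ} (h : y ^ 2 = x * (x ^ 2 + a * x + b)) (hx : x ≠ 0) :
    ∃ z : ℚ, z ^ 2 = (y / x) ^ 2 *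
      (((y / x) ^ 2) ^ 2 + (-2 * a) * (y / x) ^ 2 + (a ^ 2 - 4 * b)) := by
  refine ⟨y * (b - x ^ 2) / x ^ 2, ?_⟩
  have h1 : (y / x) ^ 2 = (x ^ 2 + a * x + b) / x := by
    rw [div_pow, h]; field_simp
  rw [h1, div_pow, mul_pow, h]
  field_simp
  ring

theorem odd_sq_eq {r : ℤ} (hr : Odd r) : ∃ k : ℤ, r ^ 2 = 8 * k + 1 := by
  obtain ⟨i, rfl⟩ := hr
  obtain ⟨j, hj⟩ := Int.even_mul_succ_self i
  exact ⟨j, by linear_combination 4 * hj⟩

theorem odd_of_mul_odd {r s : ℤ} (h : Odd (r * s)) : Odd r ∧ Odd s := Int.odd_mul.1 h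

end FermatLib.Descent
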