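import Mathlib.Tactic.Ring

/-!
Algebraic identities on the model `y^2 + (x^3+x^2+1) y = x^2 + x` of `X₁(13)`, used for the
statement that a rational elliptic curve with square discriminant has no stable line mod 13.
-/

set_option autoImplicit false

namespace FermatLib.Descent.Thirteen

variable {R : Type*} [CommRing R]

/-- The equation of `X₁(13)`. -/
def modelEq (x y : R) : R := y ^ 2 + (x ^ 3 + x ^ 2 + 1) * y - x - x ^ 2

/-- The cubic whose roots are three cusps. -/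
def cuspCubic (x : R) : R := x ^ 3 + 4 * x ^ 2 + x - 1

/-- The sextic with `j - 1728 = (t^2+6t+13) * sextic(t)^2 / t`, homogenised. -/
def sextic (a b : R) : R :=
  a ^ 6 + 10 * a ^ 5 * b + 46 * a ^ 4 * b ^ 2 + 108 * a ^ 3 * b ^ 3 + 122 * a ^ 2 * b ^ 4
    + 38 * a * b ^ 5 - b ^ 6

/-- The square root of the discriminant, up to elementary factors. -/
def rootPart (x y : R) : R :=
  (-1 + x + 3*x^2 + 2*x^5 + x^6)
      + (-2 + x - x^2 - 5*x^3 - x^4 - 2*x^6 - x^7)*y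

/-- `c * (y + 1)` in Tate normal form. -/
def tateCN (x y : R) : R := -(x * y * (y + 1 - x * y))

/-- `b * (y + 1)` in Tate normal form. -/
def tateBN (x y : R) : R := tateCN x y * (1 - x * y)

def discCofactor (x y : R) : R :=
  (x^2 + 2*x^3 - 9*x^4 - 20*x^5 + 20*x^6 + 53*x^7 - 33*x^8 - 97*x^9 - 9*x^10 + 17*x^11 -
        93*x^12 - 119*x^13 - 48*x^14 - 26*x^15 - 40*x^16 - 29*x^17 - 9*x^18 - x^19)*y^2
      + (2*x^2 - 8*x^3 - 20*x^4 + 9*x^5 + 42*x^6 - 5*x^7 - 45*x^8 + 17*x^9 + 60*x^10 + 20*x^11 -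
        x^12 + 18*x^13 + 21*x^14 + 8*x^15 + x^16)*y^3
      + (x^2 - 19*x^3 + 2*x^4 + 32*x^5 + 5*x^6 - 32*x^7 - 11*x^8 + 12*x^9 - 3*x^10 - 14*x^11 -
        7*x^12 - x^13)*y^4
      + (x^3 + 2*x^4 - 11*x^5 - 24*x^6 + 27*x^7 + 70*x^8 - 26*x^9 - 39*x^10 + 190*x^11 +
        279*x^12 + 130*x^13 + 141*x^14 + 277*x^15 + 236*x^16 + 112*x^17 + 76*x^18 + 70*x^19 +
        38*x^20 + 10*x^21 + x^22)*y
      + (-10*x^3 + 20*x^4 + 10*x^5 - 13*x^6 - 6*x^7 + 8*x^8 + 6*x^9 + x^10)*y^5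
      + (x^4 - x^5 - 12*x^6 + x^7 + 54*x^8 + 36*x^9 - 75*x^10 - 85*x^11 - 10*x^12 - 69*x^13 -
        174*x^14 - 138*x^15 - 65*x^16 - 65*x^17 - 69*x^18 - 38*x^19 - 10*x^20 - x^21)
      + (9*x^4 - 3*x^5 - 5*x^6 - x^7)*y^6

def csixCofactor0 (x : R) : R :=
  (1 + 9*x + 10*x^2 - 31*x^3 - 78*x^4 - 62*x^5 - 17*x^6)

def csixCofactor1 (x : R) : R :=
  (7 + 32*x - 35*x^2 - 270*x^3 - 313*x^4 + 28*x^5 + 283*x^6 + 268*x^7 + 429*x^8 + 929*x^9
        + 1165*x^10 + 935*x^11 + 1017*x^12 + 1550*x^13 + 2072*x^14 + 2635*x^15 + 3080*x^16 +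
        3005*x^17 + 2641*x^18 + 2300*x^19 + 1794*x^20 + 1061*x^21 + 429*x^22 + 110*x^23 +
        16*x^24 + x^25)

def csixCofactor2 (x : R) : R :=
  (19 + 55*x - 177*x^2 - 620*x^3 - 277*x^4 + 792*x^5 + 1272*x^6 + 1154*x^7 + 1591*x^8 +
        2455*x^9 + 1581*x^10 + 114*x^11 + 1865*x^12 + 4538*x^13 + 5143*x^14 + 5521*x^15 +
        5477*x^16 + 3780*x^17 + 2263*x^18 + 1610*x^19 + 371*x^20 - 1123*x^21 - 1466*x^22 -
        847*x^23 - 266*x^24 - 44*x^25 - 3*x^26)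

def csixCofactor3 (x : R) : R :=
  (25 + 43*x - 290*x^2 - 595*x^3 + 314*x^4 + 1683*x^5 + 1989*x^6 + 1165*x^7 + 214*x^8 -
        512*x^9 - 3195*x^10 - 3566*x^11 + 2739*x^12 + 5398*x^13 + 1378*x^14 - 435*x^15 -
        1248*x^16 - 4132*x^17 - 5122*x^18 - 4406*x^19 - 4932*x^20 - 4899*x^21 - 2695*x^22 -
        450*x^23 + 283*x^24 + 176*x^25 + 38*x^26 + 3*x^27)

def csixCofactor4 (x : R) : R :=
  (16 + 6*x - 221*x^2 - 177*x^3 + 707*x^4 + 1488*x^5 + 1206*x^6 - 1235*x^7 - 4627*x^8 -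
        5782*x^9 - 5779*x^10 - 1350*x^11 + 6018*x^12 + 2110*x^13 - 7082*x^14 - 7048*x^15 -
        5016*x^16 - 6532*x^17 - 5834*x^18 - 3636*x^19 - 2916*x^20 - 1386*x^21 + 1177*x^22 +
        2021*x^23 + 1118*x^24 + 263*x^25 + 6*x^26 - 8*x^27 - x^28)

def csixCofactor5 (x : R) : R :=
  (4 - 10*x - 73*x^2 + 73*x^3 + 433*x^4 + 576*x^5 - 119*x^6 - 3166*x^7 - 6166*x^8 -
        4565*x^9 - 136*x^10 + 5207*x^11 + 6002*x^12 - 3194*x^13 - 8649*x^14 - 2840*x^15 +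
        776*x^16 - 1170*x^17 - 971*x^18 + 922*x^19 + 1535*x^20 + 1982*x^21 + 2272*x^22 +
        1388*x^23 + 230*x^24 - 184*x^25 - 114*x^26 - 25*x^27 - 2*x^28)

def csixCofactor6 (x : R) : R :=
  (x + 4*x^2 + 6*x^3 + 4*x^4 + x^5)

def csixCofactor7 (x : R) : R :=
  (-4*x - 6*x^2 + 42*x^3 + 86*x^4 + 70*x^5 - 443*x^6 - 2183*x^7 - 3075*x^8 - 290*x^9 +
        4054*x^10 + 5393*x^11 + 856*x^12 - 5133*x^13 - 3515*x^14 + 2353*x^15 + 2663*x^16 -
        295*x^17 - 367*x^18 + 981*x^19 + 1053*x^20 + 519*x^21 + 138*x^22 - 192*x^23 - 336*x^24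
        - 227*x^25 - 79*x^26 - 14*x^27 - x^28)

def csixCofactor8 (x : R) : R :=
  (-135*x^6 - 585*x^7 - 660*x^8 + 855*x^9 + 2715*x^10 + 1519*x^11 - 2085*x^12 - 2826*x^13
        + 219*x^14 + 1931*x^15 + 417*x^16 - 946*x^17 - 467*x^18 + 241*x^19 + 165*x^20 -
        122*x^21 - 156*x^22 - 66*x^23 - 13*x^24 - x^25)

def csixCofactor9 (x : R) : R :=
  (-54*x^7 - 45*x^8 + 405*x^9 + 702*x^10 - 259*x^11 - 1244*x^12 - 482*x^13 + 681*x^14 +
        516*x^15 - 157*x^16 - 239*x^17 + 8*x^18 + 101*x^19 + 54*x^20 + 12*x^21 + x^22)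

def csixCofactor10 (x : R) : R :=
  (27*x^8 + 81*x^9 + 9*x^10 - 197*x^11 - 178*x^12 + 106*x^13 + 210*x^14 + 54*x^15 -
        57*x^16 - 43*x^17 - 11*x^18 - x^19)

def csixCofactor (x y : R) : R :=
  csixCofactor0 x*y
    + csixCofactor1 x*y^2
    + csixCofactor2 x*y^3
    + csixCofactor3 x*y^4
    + csixCofactor4 x*y^5
    + csixCofactor5 x*y^6
    + csixCofactor6 x
    + csixCofactor7 x*y^7
    + csixCofactor8 x*y^8
    + csixCofactor9 x*y^9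
    + csixCofactor10 x*y^10

lemma disc_identity (x y : R) :
    (1 - x * y) * (16 * tateCN x y * (1 - x * y) ^ 2 * (y + 1) ^ 2
      - 8 * (1 - x * y) * tateCN x y ^ 2 * (y + 1)
      - 20 * tateCN x y * (1 - x * y) * (y + 1) ^ 2 + (1 - x * y) * (y + 1) ^ 3
      - (y + 1 - tateCN x y) ^ 3) * (y + 1)
      + cuspCubic x * x ^ 5 * (x + 1) ^ 3 * rootPart x y ^ 2
    = modelEq x y * discCofactor x y := by
  simp only [modelEq, cuspCubic, rootPart, tateCN, discCofactor]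
  ring

lemma csix_identity (x y : R) :
    (-((y + 1 - tateCN x y) ^ 2 - 4 * tateBN x y * (y + 1)) ^ 3
      + 36 * ((y + 1 - tateCN x y) ^ 2 - 4 * tateBN x y * (y + 1))
        * (-((y + 1 - tateCN x y) * tateBN x y)) * (y + 1) ^ 2
      - 216 * tateBN x y ^ 2 * (y + 1) ^ 4) * x ^ 2 * (x + 1) ^ 5
      - (1 - x * y) * y ^ 2 * (y + 1 - x * y) ^ 2 * (y + 1) ^ 2 * rootPart x y
        * (2 * y + x ^ 3 + x ^ 2 + 1) * sextic (-cuspCubic x) (x ^ 2 + x)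
    = modelEq x y * csixCofactor x y := by
  simp only [modelEq, cuspCubic, rootPart, tateCN, tateBN, sextic, csixCofactor, csixCofactor0, csixCofactor1, csixCofactor2, csixCofactor3, csixCofactor4, csixCofactor5, csixCofactor6, csixCofactor7, csixCofactor8, csixCofactor9, csixCofactor10]
  ring

end FermatLib.Descent.Thirteen
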