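import Fermat.Agent.Descent.ThirteenTate

/-!
The parameter on `X₀(13)` attached to a point of order `13`, and its relation to `c₆² / Δ`.
-/

set_option autoImplicit false
set_option linter.unusedSectionVars false

namespace FermatLib.Descent.Thirteen

open WeierstrassCurve

variable {K : Type*} [Field K] [DecidableEq K]

/-- The coordinate on `X₁(13)` of a point of order `13`, from `x`-coordinates of its multiples. -/
def coord13 {W : WeierstrassCurve K} (Q : W.toAffine.Point) : K :=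
  (1 - (xCo (2 • Q) - xCo Q) / (xCo (3 • Q) - xCo Q))
    * (1 - (xCo (2 • Q) - xCo Q) / (xCo (4 • Q) - xCo Q))
    / ((xCo (2 • Q) - xCo Q) / (xCo (4 • Q) - xCo Q)
      - (xCo (2 • Q) - xCo Q) / (xCo (3 • Q) - xCo Q))

/-- The parameter of `X₀(13)` as a function of the coordinate on `X₁(13)`. -/
def level13Param (x : K) : K := -cuspCubic x / (x ^ 2 + x)

lemma level13Param_neg_succ_div {x : K} (hx : x ≠ 0) :
    level13Param (-(x + 1) / x) = level13Param x := by
  rcases eq_or_ne (x + 1) 0 with hx1 | hx1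
  · have h2 : x ^ 2 + x = 0 := by linear_combination x * hx1
    simp [level13Param, hx1, h2]
  · have h2 : x ^ 2 + x ≠ 0 := by
      have : x * (x + 1) ≠ 0 := mul_ne_zero hx hx1
      intro e
      exact this (by linear_combination e)
    have e : (-(x + 1) / x) ^ 2 + -(x + 1) / x = (x + 1) / x ^ 2 := by field_simp; ring
    rw [level13Param, level13Param, e]
    simp only [cuspCubic]
    field_simp
    ring

lemma sextic_eq_mul {a b : K} (hb : b ≠ 0) : sextic a b = b ^ 6 * sextic (a / b) 1 := by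
  simp only [sextic]
  field_simp

lemma tate13_delta {b c : K} :
    (tate13Curve b c).Δ =
      b ^ 3 * (16 * b ^ 2 - 8 * b * c ^ 2 - 20 * b * c + b - c * (1 - c) ^ 3) := by
  simp only [tate13Curve, WeierstrassCurve.Δ, b₂, b₄, b₆, b₈]
  ring

lemma tate13_csix {b c : K} :
    (tate13Curve b c).c₆ = -((1 - c) ^ 2 - 4 * b) ^ 3
      + 36 * ((1 - c) ^ 2 - 4 * b) * (-((1 - c) * b)) - 216 * b ^ 2 := by
  simp only [tate13Curve, c₆, b₂, b₄, b₆]
  ring

/-- The key identity on `X₁(13)`. -/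
lemma tate13_identity {x y b c : K} (hx : x ≠ 0) (hx1 : x + 1 ≠ 0) (hy1 : y + 1 ≠ 0)
    (hF : modelEq x y = 0) (hc : c = tateCN x y / (y + 1)) (hb : b = tateBN x y / (y + 1)) :
    (tate13Curve b c).Δ = -cuspCubic x * x ^ 5 * (x + 1) ^ 3
        * (tateCN x y ^ 2 * (1 - x * y) * rootPart x y / (y + 1) ^ 4) ^ 2 ∧
    level13Param x * (level13Param x ^ 2 + 6 * level13Param x + 13)
        * sextic (level13Param x) 1 ^ 2 * (tate13Curve b c).Δ
      = level13Param x ^ 2 * (tate13Curve b c).c₆ ^ 2 := by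
  have hw : x ^ 2 + x ≠ 0 := by
    intro e
    exact mul_ne_zero hx hx1 (by linear_combination e)
  obtain ⟨A, hA⟩ : ∃ A, A = tateCN x y := ⟨_, rfl⟩
  have h1 := disc_identity x y
  have h2 := csix_identity x y
  rw [hF, zero_mul] at h1 h2
  rw [tateBN] at hb
  simp only [tateBN] at h2
  rw [← hA] at hb hc h1 h2 ⊢
  have hΔ : (tate13Curve b c).Δ = -cuspCubic x * x ^ 5 * (x + 1) ^ 3
      * (A ^ 2 * (1 - x * y) * rootPart x y / (y + 1) ^ 4) ^ 2 := by
    have e : b ^ 3 * (16 * b ^ 2 - 8 * b * c ^ 2 - 20 * b * c + b - c * (1 - c) ^ 3)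
        = A ^ 4 * (1 - x * y) ^ 2 * ((1 - x * y) * (16 * A * (1 - x * y) ^ 2 * (y + 1) ^ 2
          - 8 * (1 - x * y) * A ^ 2 * (y + 1) - 20 * A * (1 - x * y) * (y + 1) ^ 2
          + (1 - x * y) * (y + 1) ^ 3 - (y + 1 - A) ^ 3) * (y + 1)) / (y + 1) ^ 8 := by
      rw [hb, hc]
      field_simp
    rw [tate13_delta, e, eq_neg_of_add_eq_zero_left h1]
    field_simp
  refine ⟨hΔ, ?_⟩
  have hC : (tate13Curve b c).c₆ * (x ^ 2 * (x + 1) ^ 5 * (y + 1) ^ 6)
      = (1 - x * y) * y ^ 2 * (y + 1 - x * y) ^ 2 * (y + 1) ^ 2 * rootPart x y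
        * (2 * y + x ^ 3 + x ^ 2 + 1) * sextic (-cuspCubic x) (x ^ 2 + x) := by
    rw [tate13_csix, hb, hc]
    obtain ⟨S, hS⟩ : ∃ S, S = sextic (-cuspCubic x) (x ^ 2 + x) := ⟨_, rfl⟩
    rw [← hS] at h2 ⊢
    clear hS
    field_simp
    linear_combination h2
  rw [sextic_eq_mul hw] at hC
  have hquad : level13Param x ^ 2 + 6 * level13Param x + 13
      = (2 * y + x ^ 3 + x ^ 2 + 1) ^ 2 / (x ^ 2 + x) ^ 2 := by
    simp only [level13Param, cuspCubic]
    field_simp
    simp only [modelEq] at hF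
    linear_combination -4 * hF
  have hC' : (tate13Curve b c).c₆
      = (1 - x * y) * y ^ 2 * (y + 1 - x * y) ^ 2 * rootPart x y
        * (2 * y + x ^ 3 + x ^ 2 + 1) * x ^ 4 * (x + 1) * sextic (level13Param x) 1
        / (y + 1) ^ 4 := by
    rw [eq_div_iff (pow_ne_zero _ hy1)]
    refine mul_right_cancel₀ (mul_ne_zero (mul_ne_zero (pow_ne_zero 2 hx) (pow_ne_zero 5 hx1))
      (pow_ne_zero 2 hy1)) ?_
    rw [level13Param]
    linear_combination hC
  rw [hΔ, hquad, hC', hA, level13Param, tateCN]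
  field_simp

lemma coord13_double_identity {x y : K} (hx : x ≠ 0) (hx1 : x + 1 ≠ 0) (hy : y ≠ 0)
    (hy1 : y + 1 ≠ 0) (hm : y + 1 - x * y ≠ 0) (hr : 1 - x * y ≠ 0) (hF : modelEq x y = 0) :
    (1 - (-(x * y) * (1 - x * y) - -(x * y * (y + 1 - x * y)) * (1 - x * y) / (y + 1))
          / (y * (y + 1 - x * y) - -(x * y * (y + 1 - x * y)) * (1 - x * y) / (y + 1)))
      * (1 - (-(x * y) * (1 - x * y) - -(x * y * (y + 1 - x * y)) * (1 - x * y) / (y + 1))
          / (-((1 - x * y) * x * y * (y + 1 - x * y)) / (y + 1) ^ 2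
              - -(x * y * (y + 1 - x * y)) * (1 - x * y) / (y + 1)))
      / ((-(x * y) * (1 - x * y) - -(x * y * (y + 1 - x * y)) * (1 - x * y) / (y + 1))
          / (-((1 - x * y) * x * y * (y + 1 - x * y)) / (y + 1) ^ 2
              - -(x * y * (y + 1 - x * y)) * (1 - x * y) / (y + 1))
        - (-(x * y) * (1 - x * y) - -(x * y * (y + 1 - x * y)) * (1 - x * y) / (y + 1))
          / (y * (y + 1 - x * y) - -(x * y * (y + 1 - x * y)) * (1 - x * y) / (y + 1)))
      = -(x + 1) / x := by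
  have hG : y + 1 + x * (1 - x * y) ≠ 0 := by
    intro e
    have : (1 + x) * (y * (1 - x) + 1) = 0 := by linear_combination e
    rcases mul_eq_zero.mp this with h | h
    · exact hx1 (by linear_combination h)
    · exact hm (by linear_combination h)
  have hN : y + 1 + x ≠ 0 := by
    intro e
    obtain rfl : y = -(x + 1) := by linear_combination e
    simp only [modelEq] at hF
    exact mul_ne_zero (pow_ne_zero 2 hx1) (pow_ne_zero 2 hx) (by linear_combination -hF)
  have hM : ((y + 1 + x * (1 - x * y)) * (y + 1 + x)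
        - x * ((y + 1) ^ 2 + x * (1 - x * y))) * (y + 1 + x)
      = (x + 1) * (y + 1 - x * y) * ((y + 1) ^ 2 + x * (1 - x * y)) := by
    simp only [modelEq] at hF
    linear_combination (-(x * y)) * hF
  have hD : (y + 1) ^ 2 + x * (1 - x * y) ≠ 0 := by
    intro e
    rw [e] at hM
    simp only [mul_zero, sub_zero] at hM
    exact mul_ne_zero (mul_ne_zero hG hN) hN hM
  have e4 : -(x * y) * (1 - x * y) - -(x * y * (y + 1 - x * y)) * (1 - x * y) / (y + 1)
      = -((1 - x * y) * x ^ 2 * y ^ 2) / (y + 1) := by field_simp; ring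
  have e5 : -((1 - x * y) * x * y * (y + 1 - x * y)) / (y + 1) ^ 2
        - -(x * y * (y + 1 - x * y)) * (1 - x * y) / (y + 1)
      = (1 - x * y) * x * y ^ 2 * (y + 1 - x * y) / (y + 1) ^ 2 := by field_simp; ring
  have e6 : y * (y + 1 - x * y) - -(x * y * (y + 1 - x * y)) * (1 - x * y) / (y + 1)
      = y * (y + 1 - x * y) * (y + 1 + x * (1 - x * y)) / (y + 1) := by field_simp; ring
  rw [e4, e5, e6]
  have es : -((1 - x * y) * x ^ 2 * y ^ 2) / (y + 1)
      / ((1 - x * y) * x * y ^ 2 * (y + 1 - x * y) / (y + 1) ^ 2)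
      = -(x * (y + 1)) / (y + 1 - x * y) := by field_simp
  have er : -((1 - x * y) * x ^ 2 * y ^ 2) / (y + 1)
      / (y * (y + 1 - x * y) * (y + 1 + x * (1 - x * y)) / (y + 1))
      = -((1 - x * y) * x ^ 2 * y) / ((y + 1 - x * y) * (y + 1 + x * (1 - x * y))) := by field_simp
  rw [es, er]
  have ed : -(x * (y + 1)) / (y + 1 - x * y)
      - -((1 - x * y) * x ^ 2 * y) / ((y + 1 - x * y) * (y + 1 + x * (1 - x * y)))
      = -(x * ((y + 1) ^ 2 + x * (1 - x * y))) / ((y + 1 - x * y) * (y + 1 + x * (1 - x * y))) := by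
    field_simp; ring
  rw [ed]
  field_simp
  linear_combination -hM

/-- A point of order `13` gives a root of the `X₀(13)` parameter equation for `c₆² / Δ`. -/
theorem exists_level13Param (W : WeierstrassCurve K) [W.IsElliptic] (Q : W.toAffine.Point)
    (hQ : Q ≠ 0) (h13 : (13 : ℕ) • Q = 0) :
    coord13 Q ≠ 0 ∧ coord13 ((2 : ℕ) • Q) = -(coord13 Q + 1) / coord13 Q ∧
    level13Param (coord13 Q) ≠ 0 ∧
    level13Param (coord13 Q) * (level13Param (coord13 Q) ^ 2 + 6 * level13Param (coord13 Q) + 13)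
        * sextic (level13Param (coord13 Q)) 1 ^ 2 * W.Δ
      = level13Param (coord13 Q) ^ 2 * W.c₆ ^ 2 := by
  obtain ⟨x₀, y₀, hns₀, rfl⟩ := exists_coords hQ
  have hne := fun k hk => smul_ne_zero_of_order hQ h13 (k := k) hk
  have hy₀ : y₀ ≠ W.toAffine.negY x₀ y₀ := by
    intro e
    refine hne 2 (by norm_num) ?_
    rw [two_nsmul]
    exact Affine.Point.add_self_of_Y_eq e
  set l := W.toAffine.slope x₀ x₀ y₀ y₀ with hl
  set A₂ := W.a₂ - l * W.a₁ + 3 * x₀ - l ^ 2 with hA₂
  set A₃ := W.a₃ + x₀ * W.a₁ + 2 * y₀ with hA₃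
  have hA₃0 : A₃ ≠ 0 := by
    intro e
    refine hy₀ ?_
    simp only [Affine.negY]
    linear_combination e
  have hA₂0 : A₂ ≠ 0 := by
    intro e
    have h2 : ∃ y' h', (2 : ℕ) • Affine.Point.some x₀ y₀ hns₀
        = (Affine.Point.some x₀ y' h' : W.toAffine.Point) := by
      rw [two_nsmul, Affine.Point.add_self_of_Y_ne hy₀]
      have ex : W.toAffine.addX x₀ x₀ l = x₀ := by
        simp only [Affine.addX]
        linear_combination -e
      simp only [← hl, ex]
      exact ⟨_, by simpa only [← hl, ex] using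
        Affine.nonsingular_add hns₀ hns₀ (fun hxy => hy₀ hxy.2), rfl⟩
    obtain ⟨y', h', h2⟩ := h2
    rcases (Affine.Point.X_eq_iff (h₁ := h') (h₂ := hns₀)).mp rfl with e' | e'
    · rw [← h2, two_nsmul, add_eq_left] at e'
      exact hQ e'
    · rw [← h2] at e'
      exact hne 3 (by norm_num) (by rw [succ_nsmul, e', neg_add_cancel])
  set v := A₃ / A₂ with hv
  have hv0 : v ≠ 0 := div_ne_zero hA₃0 hA₂0
  set C : VariableChange K := ⟨Units.mk0 v hv0, x₀, l, y₀⟩ with hC
  have hden : y₀ - W.toAffine.negY x₀ y₀ = A₃ := by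
    simp only [hA₃, Affine.negY]; ring
  have hA₄ : W.a₄ - l * W.a₃ + 2 * x₀ * W.a₂ - (y₀ + x₀ * l) * W.a₁ + 3 * x₀ ^ 2
      - 2 * l * y₀ = 0 := by
    have : l * A₃ = 3 * x₀ ^ 2 + 2 * W.a₂ * x₀ + W.a₄ - W.a₁ * y₀ := by
      rw [hl, Affine.slope_of_Y_ne rfl hy₀, hden, div_mul_cancel₀ _ hA₃0]
    simp only [hA₃] at this
    linear_combination -this
  have heq := hns₀.1
  rw [Affine.equation_iff] at heq
  set b := -(A₃ / v ^ 3) with hb
  set c := 1 - (W.a₁ + 2 * l) / v with hc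
  have hCW : C • W = tate13Curve b c := by
    have hvu : ((C.u⁻¹ : Kˣ) : K) = v⁻¹ := by simp [hC]
    ext
    · simp only [variableChange_a₁, hvu, tate13Curve, hc]; simp only [hC]; field_simp; ring
    · simp only [variableChange_a₂, hvu, tate13Curve, hb]; simp only [hC, ← hA₂]; rw [hv]
      field_simp
    · simp only [variableChange_a₃, hvu, tate13Curve, hb]; simp only [hC]; rw [hA₃]; field_simp
    · simp only [variableChange_a₄, hvu, tate13Curve]; simp only [hC]; rw [hA₄, mul_zero]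
    · simp only [variableChange_a₆, hvu, tate13Curve]; simp only [hC]
      refine mul_eq_zero_of_right _ ?_
      linear_combination -heq
  have hb0 : b ≠ 0 := neg_ne_zero.mpr (div_ne_zero hA₃0 (pow_ne_zero _ hv0))
  have hΔ0 : (tate13Curve b c).Δ ≠ 0 := by
    rw [← hCW]; exact (C • W).isUnit_Δ.ne_zero
  have heT : (tate13Curve b c).toAffine.Equation 0 0 := by
    rw [Affine.equation_iff]; simp [tate13Curve]
  have hnsT := (Affine.equation_iff_nonsingular_of_Δ_ne_zero hΔ0).mp heT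
  -- transport
  obtain ⟨φ, hφ, hφx, hφO⟩ : ∃ φ : (tate13Curve b c).toAffine.Point →+ W.toAffine.Point,
      Function.Injective φ ∧ (∀ P, P ≠ 0 → xCo (φ P) = v ^ 2 * xCo P + x₀)
        ∧ φ (.some 0 0 hnsT) = .some x₀ y₀ hns₀ := by
    revert hnsT
    rw [← hCW]
    intro hnsT
    refine ⟨changeVarHom W C, changeVarHom_injective W C,
      fun P hP => by simpa [hC] using xCo_changeVarHom W C hP, ?_⟩
    simp only [changeVarHom, AddMonoidHom.coe_mk, ZeroHom.coe_mk]
    unfold changeVarFun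
    simp [hC]
  set O : (tate13Curve b c).toAffine.Point := .some 0 0 hnsT with hO
  have h13O : (13 : ℕ) • O = 0 := hφ (by rw [map_nsmul, hφO, h13, map_zero])
  obtain ⟨x, y, hx, hx1, hy, hy1, hm, hr, hF, hcT, hbT, x1, x2, x3, x4, x5, x6⟩ :=
    tate_multiples hb0 hO h13O
  have hX : ∀ k : ℕ, ¬ 13 ∣ k →
      xCo (k • Affine.Point.some x₀ y₀ hns₀) = v ^ 2 * xCo (k • O) + x₀ := by
    intro k hk
    rw [← hφO, ← map_nsmul]
    refine hφx _ fun e => hne k hk ?_
    rw [← hφO, ← map_nsmul, e, map_zero]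
  have X1 : xCo (Affine.Point.some x₀ y₀ hns₀) = x₀ := rfl
  have X2 : xCo (2 • Affine.Point.some x₀ y₀ hns₀) = v ^ 2 * b + x₀ := by
    rw [hX 2 (by norm_num), x2]
  have X3 : xCo (3 • Affine.Point.some x₀ y₀ hns₀) = v ^ 2 * c + x₀ := by
    rw [hX 3 (by norm_num), x3]
  have X4 : xCo (4 • Affine.Point.some x₀ y₀ hns₀)
      = v ^ 2 * (-(x * y) * (1 - x * y)) + x₀ := by
    rw [hX 4 (by norm_num), x4]
  have X6 : xCo (6 • Affine.Point.some x₀ y₀ hns₀) = v ^ 2 * (y * (y + 1 - x * y)) + x₀ := by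
    rw [hX 6 (by norm_num), x6]
  have X8 : xCo (8 • Affine.Point.some x₀ y₀ hns₀)
      = v ^ 2 * (-((1 - x * y) * x * y * (y + 1 - x * y)) / (y + 1) ^ 2) + x₀ := by
    have : (8 : ℕ) • Affine.Point.some x₀ y₀ hns₀
        = -((5 : ℕ) • Affine.Point.some x₀ y₀ hns₀) := by
      rw [eq_neg_iff_add_eq_zero, ← add_nsmul]; exact h13
    rw [this, xCo_neg, hX 5 (by norm_num), x5]
  have hcoord : coord13 (Affine.Point.some x₀ y₀ hns₀) = x := by
    rw [coord13, X1, X2, X3, X4]
    simp only [add_sub_cancel_right, mul_div_mul_left _ _ (pow_ne_zero 2 hv0)]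
    have e1 : b / c = 1 - x * y := by
      rw [hbT, hcT, tateBN]
      have : tateCN x y ≠ 0 := by
        simp [tateCN, hx, hy, hm]
      field_simp
    have e2 : b / (-(x * y) * (1 - x * y)) = (y + 1 - x * y) / (y + 1) := by
      rw [hbT, tateBN, tateCN]
      field_simp
    have e3 : (y + 1 - x * y) / (y + 1) - (1 - x * y) = x * y * y / (y + 1) := by
      field_simp; ring
    rw [e1, e2, e3]
    field_simp
    ring
  refine ⟨hcoord ▸ hx, ?_, ?_, ?_⟩
  · rw [hcoord, coord13, ← mul_nsmul, ← mul_nsmul, ← mul_nsmul]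
    norm_num only
    rw [X2, X4, X6, X8]
    simp only [add_sub_add_right_eq_sub, ← mul_sub, mul_div_mul_left _ _ (pow_ne_zero 2 hv0)]
    rw [hbT, tateBN, tateCN]
    exact coord13_double_identity hx hx1 hy hy1 hm hr hF
  · rw [hcoord]
    obtain ⟨hd, -⟩ := tate13_identity hx hx1 hy1 hF hcT hbT
    have hu : cuspCubic x ≠ 0 := fun e => hΔ0 (by rw [hd, e]; simp)
    refine div_ne_zero (neg_ne_zero.mpr hu) ?_
    intro e
    exact mul_ne_zero hx hx1 (by linear_combination e)
  · rw [hcoord]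
    obtain ⟨-, hid⟩ := tate13_identity hx hx1 hy1 hF hcT hbT
    rw [← hCW, variableChange_Δ, variableChange_c₆] at hid
    refine mul_right_cancel₀ (pow_ne_zero 12 (Units.ne_zero C.u⁻¹)) ?_
    linear_combination hid

end FermatLib.Descent.Thirteen
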