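import Fermat.Agent.Descent.ChangeVarPoints
import Fermat.Agent.Descent.ThirteenModel

/-!
A point of order `13` on an elliptic curve gives a point on the model of `X₁(13)`, and the
parameter of `X₀(13)` computed from it satisfies the identity relating it to `c₆² / Δ`.
-/

set_option autoImplicit false
set_option linter.unusedSectionVars false

namespace FermatLib.Descent.Thirteen

open WeierstrassCurve

variable {K : Type*} [Field K] [DecidableEq K]

/-- The Tate normal form. -/
def tate13Curve (b c : K) : WeierstrassCurve K := ⟨1 - c, -b, -b, 0, 0⟩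

lemma smul_ne_zero_of_order {G : Type*} [AddCommGroup G] {Q : G} (hQ : Q ≠ 0)
    (h13 : (13 : ℕ) • Q = 0) {k : ℕ} (hk : ¬ 13 ∣ k) : k • Q ≠ 0 := by
  have ho : addOrderOf Q = 13 :=
    haveI : Fact (Nat.Prime 13) := ⟨by decide⟩
    addOrderOf_eq_prime h13 hQ
  intro h
  exact hk (ho ▸ addOrderOf_dvd_of_nsmul_eq_zero h)

lemma exists_coords {W : WeierstrassCurve K} {P : W.toAffine.Point} (hP : P ≠ 0) :
    ∃ x y h, P = .some x y h := by
  rcases P with _ | ⟨x, y, h⟩
  · exact absurd rfl hP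
  · exact ⟨x, y, h, rfl⟩

section tate

variable {b c : K} {O : (tate13Curve b c).toAffine.Point}
  {hns : (tate13Curve b c).toAffine.Nonsingular 0 0}

/-- Adding the origin to a point in Tate normal form. -/
lemma tate_step (hO : O = .some 0 0 hns) {P : (tate13Curve b c).toAffine.Point} {x y : K}
    {h : (tate13Curve b c).toAffine.Nonsingular x y}
    (hP : P = .some x y h) (h1 : P ≠ O) (h2 : P ≠ -O) :
    x ≠ 0 ∧ ∃ h', P + O = .some ((y / x) ^ 2 + (1 - c) * (y / x) + b - x)
      (-(y / x + (1 - c)) * ((y / x) ^ 2 + (1 - c) * (y / x) + b - x) + b) h' := by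
  have hx : x ≠ 0 := by
    intro hx
    subst hP hO
    rcases (Affine.Point.X_eq_iff (h₁ := h) (h₂ := hns)).mp hx with e | e
    · exact h1 e
    · exact h2 e
  refine ⟨hx, ?_⟩
  subst hP hO
  rw [Affine.Point.add_of_X_ne hx]
  have e1 : (tate13Curve b c).toAffine.addX x 0 ((tate13Curve b c).toAffine.slope x 0 y 0)
      = (y / x) ^ 2 + (1 - c) * (y / x) + b - x := by
    rw [Affine.slope_of_X_ne hx]
    simp only [Affine.addX, tate13Curve, sub_zero]
    ring
  have e2 : (tate13Curve b c).toAffine.addY x 0 y ((tate13Curve b c).toAffine.slope x 0 y 0)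
      = -(y / x + (1 - c)) * ((y / x) ^ 2 + (1 - c) * (y / x) + b - x) + b := by
    rw [Affine.slope_of_X_ne hx]
    simp only [Affine.addY, Affine.negY, Affine.negAddY, Affine.addX, tate13Curve, sub_zero]
    field_simp
    ring
  simp only [e1, e2]
  exact ⟨by simpa only [e1, e2] using
    Affine.nonsingular_add h hns (fun hxy => hx hxy.1), trivial⟩

/-- The coordinates of the small multiples of a point of order `13` in Tate normal form. -/
lemma tate_multiples (hb : b ≠ 0) (hO : O = .some 0 0 hns) (h13 : (13 : ℕ) • O = 0) :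
    ∃ x y : K, x ≠ 0 ∧ x + 1 ≠ 0 ∧ y ≠ 0 ∧ y + 1 ≠ 0 ∧ y + 1 - x * y ≠ 0 ∧ 1 - x * y ≠ 0 ∧
      modelEq x y = 0 ∧ c = tateCN x y / (y + 1) ∧ b = tateBN x y / (y + 1) ∧
      xCo O = 0 ∧ xCo (2 • O) = b ∧ xCo (3 • O) = c ∧ xCo (4 • O) = -(x * y) * (1 - x * y) ∧
      xCo (5 • O) = -((1 - x * y) * x * y * (y + 1 - x * y)) / (y + 1) ^ 2 ∧
      xCo (6 • O) = y * (y + 1 - x * y) := by
  have hO0 : O ≠ 0 := by rw [hO]; exact Affine.Point.some_ne_zero _
  have hne : ∀ k : ℕ, ¬ 13 ∣ k → k • O ≠ 0 := fun k hk => smul_ne_zero_of_order hO0 h13 hk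
  have hneO : ∀ k : ℕ, 2 ≤ k → k ≤ 7 → k • O ≠ O ∧ k • O ≠ -O := by
    intro k hk1 hk2
    constructor
    · intro e
      refine hne (k - 1) (by omega) (add_right_cancel (b := O) ?_)
      rw [← succ_nsmul, zero_add, show k - 1 + 1 = k by omega, e]
    · intro e
      refine hne (k + 1) (by omega) ?_
      rw [succ_nsmul, e, neg_add_cancel]
  have hy0 : (0 : K) ≠ (tate13Curve b c).toAffine.negY 0 0 := by
    simp only [Affine.negY, tate13Curve]
    intro e
    exact hb (by linear_combination -e)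
  obtain ⟨h2', e2⟩ : ∃ h', (2 : ℕ) • O = .some b (b * c) h' := by
    have a1 : (tate13Curve b c).toAffine.addX 0 0
        ((tate13Curve b c).toAffine.slope 0 0 0 0) = b := by
      rw [Affine.slope_of_Y_ne rfl hy0]
      simp [Affine.addX, tate13Curve]
    have a2 : (tate13Curve b c).toAffine.addY 0 0 0
        ((tate13Curve b c).toAffine.slope 0 0 0 0) = b * c := by
      rw [Affine.slope_of_Y_ne rfl hy0]
      simp [Affine.addY, Affine.negY, Affine.negAddY, Affine.addX, tate13Curve]
      ring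
    rw [two_nsmul, hO, Affine.Point.add_self_of_Y_ne hy0]
    refine ⟨?_, ?_⟩
    · simpa only [a1, a2] using Affine.nonsingular_add hns hns (fun hxy => hy0 hxy.2)
    · simp only [Affine.Point.some.injEq]
      exact ⟨a1, a2⟩
  -- 3
  obtain ⟨-, h3', e3⟩ := tate_step hO e2 (hneO 2 (by norm_num) (by norm_num)).1
    (hneO 2 (by norm_num) (by norm_num)).2
  rw [← succ_nsmul] at e3
  simp only [Nat.reduceAdd] at e3
  have a3 : (b * c / b) ^ 2 + (1 - c) * (b * c / b) + b - b = c := by field_simp; ring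
  have b3 : -(b * c / b + (1 - c)) * c + b = b - c := by field_simp; ring
  simp only [a3, b3] at e3
  obtain ⟨hc, h4', e4⟩ := tate_step hO e3 (hneO 3 (by norm_num) (by norm_num)).1
    (hneO 3 (by norm_num) (by norm_num)).2
  rw [← succ_nsmul] at e4
  simp only [Nat.reduceAdd] at e4
  set r := b / c with hrdef
  have hr : b = c * r := by rw [hrdef]; field_simp
  clear_value r
  subst hr
  have a4 : ((c * r - c) / c) ^ 2 + (1 - c) * ((c * r - c) / c) + c * r - c = r * (r - 1) := by
    field_simp; ring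
  have b4 : -((c * r - c) / c + (1 - c)) * (r * (r - 1)) + c * r = r ^ 2 * (c - r + 1) := by
    field_simp; ring
  simp only [a4, b4] at e4
  obtain ⟨hx4, h5', e5⟩ := tate_step hO e4 (hneO 4 (by norm_num) (by norm_num)).1
    (hneO 4 (by norm_num) (by norm_num)).2
  rw [← succ_nsmul] at e5
  simp only [Nat.reduceAdd] at e5
  have hr0 : r ≠ 0 := left_ne_zero_of_mul hx4
  have hr1 : r - 1 ≠ 0 := right_ne_zero_of_mul hx4
  set s := c / (r - 1) with hsdef
  have hs : c = s * (r - 1) := by rw [hsdef]; field_simp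
  clear_value s
  subst hs
  have hs0 : s ≠ 0 := left_ne_zero_of_mul hc
  have a5 : (r ^ 2 * (s * (r - 1) - r + 1) / (r * (r - 1))) ^ 2
      + (1 - s * (r - 1)) * (r ^ 2 * (s * (r - 1) - r + 1) / (r * (r - 1)))
      + s * (r - 1) * r - r * (r - 1) = r * s * (s - 1) := by
    field_simp; ring
  have b5 : -(r ^ 2 * (s * (r - 1) - r + 1) / (r * (r - 1)) + (1 - s * (r - 1)))
      * (r * s * (s - 1)) + s * (r - 1) * r = r * s ^ 2 * (r - s) := by
    field_simp; ring
  simp only [a5, b5] at e5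
  have hlam : r * s ^ 2 * (r - s) / (r * s * (s - 1)) = s * (r - s) / (s - 1) := by
    rcases eq_or_ne (s - 1) 0 with h | h
    · simp [h]
    · field_simp
  obtain ⟨hx5, h6', e6⟩ := tate_step hO e5 (hneO 5 (by norm_num) (by norm_num)).1
    (hneO 5 (by norm_num) (by norm_num)).2
  rw [← succ_nsmul] at e6
  simp only [Nat.reduceAdd] at e6
  simp only [hlam] at e6
  have hs1 : s - 1 ≠ 0 := right_ne_zero_of_mul hx5
  obtain ⟨hx6, -⟩ := tate_step hO e6 (hneO 6 (by norm_num) (by norm_num)).1
    (hneO 6 (by norm_num) (by norm_num)).2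
  have hrs : r - s ≠ 0 := by
    intro e
    obtain rfl : r = s := sub_eq_zero.mp e
    exact hx6 (by simp [mul_comm, mul_assoc])
  set y := (s - r) / (1 - s) with hydef
  set x := (1 - r) * (1 - s) / (s - r) with hxdef
  have h1s : 1 - s ≠ 0 := fun e => hs1 (by linear_combination -e)
  have hsr : s - r ≠ 0 := fun e => hrs (by linear_combination -e)
  have h1r : 1 - r ≠ 0 := fun e => hr1 (by linear_combination -e)
  have hy : y ≠ 0 := div_ne_zero hsr h1s
  have hy1' : y + 1 = (1 - r) / (1 - s) := by rw [hydef]; field_simp; ring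
  have hy1 : y + 1 ≠ 0 := by rw [hy1']; exact div_ne_zero h1r h1s
  have hx : x ≠ 0 := div_ne_zero (mul_ne_zero h1r h1s) hsr
  have hr' : r = 1 - x * y := by rw [hxdef, hydef]; field_simp; ring
  have hs' : s = (y + 1 - x * y) / (y + 1) := by
    rw [hy1', hxdef, hydef]; field_simp; ring
  have hq : s * (r - s) / (s - 1) = y * s := by rw [hydef]; field_simp; ring
  clear_value x y
  simp only [hq] at e6

  subst hr' hs'
  have hm : y + 1 - x * y ≠ 0 := fun e => hs0 (by rw [e, zero_div])
  have a6 : (y * ((y + 1 - x * y) / (y + 1))) ^ 2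
      + (1 - (y + 1 - x * y) / (y + 1) * (1 - x * y - 1)) * (y * ((y + 1 - x * y) / (y + 1)))
      + (y + 1 - x * y) / (y + 1) * (1 - x * y - 1) * (1 - x * y)
      - (1 - x * y) * ((y + 1 - x * y) / (y + 1)) * ((y + 1 - x * y) / (y + 1) - 1)
      = y * (y + 1 - x * y) := by field_simp; ring
  have b6 : -(y * ((y + 1 - x * y) / (y + 1))
      + (1 - (y + 1 - x * y) / (y + 1) * (1 - x * y - 1))) * (y * (y + 1 - x * y))
      + (y + 1 - x * y) / (y + 1) * (1 - x * y - 1) * (1 - x * y)
      = -((y + 1 - x * y) ^ 2 * y * (1 + x)) := by field_simp; ring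
  simp only [a6, b6] at e6
  obtain ⟨-, h7', e7⟩ := tate_step hO e6 (hneO 6 (by norm_num) (by norm_num)).1
    (hneO 6 (by norm_num) (by norm_num)).2
  rw [← succ_nsmul] at e7
  simp only [Nat.reduceAdd] at e7
  have hl7 : -((y + 1 - x * y) ^ 2 * y * (1 + x)) / (y * (y + 1 - x * y))
      = -((y + 1 - x * y) * (1 + x)) := by field_simp
  simp only [hl7] at e7
  have e7' : (7 : ℕ) • O = -((6 : ℕ) • O) := by
    rw [eq_neg_iff_add_eq_zero, ← add_nsmul]; exact h13
  have hcl := congrArg xCo e7'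
  rw [xCo_neg, e7, e6] at hcl
  simp only [xCo] at hcl
  have hF : modelEq x y = 0 := by
    field_simp at hcl
    refine (mul_eq_zero.mp ?_).resolve_left hm
    simp only [modelEq]
    linear_combination -hcl
  have hx1 : x + 1 ≠ 0 := by
    intro e
    obtain rfl : x = -1 := eq_neg_of_add_eq_zero_left e
    refine mul_ne_zero hy hy1 ?_
    simp only [modelEq] at hF
    linear_combination hF
  refine ⟨x, y, hx, hx1, hy, hy1, hm, hr0, hF, ?_, ?_, ?_, ?_, ?_, ?_, ?_, ?_⟩
  · simp only [tateCN]; field_simp; ring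
  · simp only [tateBN, tateCN]; field_simp; ring
  · rw [hO]; rfl
  · rw [e2]; rfl
  · rw [e3]; rfl
  · rw [e4]; simp only [xCo]; ring
  · rw [e5]; simp only [xCo]; field_simp; ring
  · rw [e6]; rfl

end tate

end FermatLib.Descent.Thirteen
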