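import Fermat.Agent.Descent.ThreeFivePsiThree

/-!
At large arguments the roots of `psiThreeShort (A n) (B n)` are within `o(1)` of four polynomials
in `n` of degree at most ten (truncated Hensel expansions at infinity).
-/

set_option autoImplicit false

open Polynomial Filter Topology

namespace FermatLib.Descent

theorem psiThreeShort_roots_four {a b : ℂ} (h : a ^ 3 ≠ b ^ 2) :
    ∃ r : Fin 4 → ℂ, Function.Injective r ∧ ∀ i, psiThreeShort a b (r i) = 0 ∧
      12 * r i ^ 3 - 324 * a * r i - 648 * b ≠ 0 := by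
  classical
  set q : ℂ[X] := psiThreeShort (C a) (C b) X with hq
  have hqe : q = C 3 * X ^ 4 + (C (-162 * a) * X ^ 2 + C (-648 * b) * X + C (-729 * a ^ 2)) := by
    simp only [hq, psiThreeShort, map_mul, map_neg, map_pow, map_ofNat]; ring
  have hlow : (C (-162 * a) * X ^ 2 + C (-648 * b) * X + C (-729 * a ^ 2)).natDegree ≤ 2 :=
    natDegree_quadratic_le
  have hdeg : q.natDegree = 4 := by
    rw [hqe, natDegree_add_eq_left_of_natDegree_lt] <;>
      rw [natDegree_C_mul_X_pow 4 (3 : ℂ) (by norm_num)]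
    omega
  have hq0 : q ≠ 0 := fun h0 => by simp [h0] at hdeg
  have hev : ∀ t : ℂ, q.eval t = psiThreeShort a b t := fun t => by
    simp [hq, psiThreeShort]
  have hder : ∀ t : ℂ, q.derivative.eval t = 12 * t ^ 3 - 324 * a * t - 648 * b := fun t => by
    rw [hqe]; simp [derivative_pow]; ring
  have key : ∀ t : ℂ, psiThreeShort a b t = 0 → 12 * t ^ 3 - 324 * a * t - 648 * b ≠ 0 := by
    intro t h1 h2
    rw [psiThreeShort] at h1
    have hsq : (t ^ 2 - 9 * a) ^ 2 = 0 := by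
      linear_combination (-(1 / 9 : ℂ)) * h1 + (t / 9) * h2
    have ht : t ^ 2 = 9 * a := sub_eq_zero.1 (pow_eq_zero_iff two_ne_zero |>.1 hsq)
    have hb : 3 * b = -a * t := by linear_combination (-(1 / 216 : ℂ)) * h2 + (t / 18) * ht
    exact h (by linear_combination (-(a ^ 2 / 9 : ℂ)) * ht + (-(3 * b - a * t) / 9) * hb)
  have hnd : q.roots.Nodup := by
    refine Multiset.nodup_iff_count_le_one.2 fun t => ?_
    rw [count_roots]
    by_contra hc
    have h2 := (one_lt_rootMultiplicity_iff_isRoot hq0).1 (not_le.1 hc)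
    exact key t (by rw [← hev]; exact h2.1) (by rw [← hder]; exact h2.2)
  have hcard : q.roots.toFinset.card = 4 := by
    rw [Multiset.toFinset_card_of_nodup hnd,
      ← (IsAlgClosed.splits q).natDegree_eq_card_roots, hdeg]
  refine ⟨fun i => ((q.roots.toFinset.equivFinOfCardEq hcard).symm i : ℂ),
    fun i j hij => (q.roots.toFinset.equivFinOfCardEq hcard).symm.injective (Subtype.ext hij),
    fun i => ?_⟩
  have hm := ((q.roots.toFinset.equivFinOfCardEq hcard).symm i).2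
  rw [Multiset.mem_toFinset, mem_roots hq0, IsRoot.def, hev] at hm
  exact ⟨hm, key _ hm⟩

/-- Hensel lifting of a simple root modulo powers of the variable. -/
theorem exists_truncated_root (a b : ℂ[X]) {r : ℂ}
    (h0 : psiThreeShort (a.eval 0) (b.eval 0) r = 0)
    (h1 : 12 * r ^ 3 - 324 * a.eval 0 * r - 648 * b.eval 0 ≠ 0) (k : ℕ) :
    ∃ y : ℂ[X], y.natDegree ≤ k ∧ y.eval 0 = r ∧ X ^ (k + 1) ∣ psiThreeShort a b y := by
  induction k with
  | zero =>
    refine ⟨C r, by simp, by simp, ?_⟩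
    rw [pow_one, X_dvd_iff, coeff_zero_eq_eval_zero]
    rw [← coe_evalRingHom, map_psiThreeShort]
    simpa using h0
  | succ k ih =>
    obtain ⟨y, hyd, hy0, G, hG⟩ := ih
    set φ : ℂ[X] := 12 * y ^ 3 - 324 * a * y - 648 * b with hφ
    have hφ0 : φ.eval 0 ≠ 0 := by simpa [hφ, hy0] using h1
    set c : ℂ := -G.eval 0 / φ.eval 0 with hc
    set h : ℂ[X] := C c * X ^ (k + 1) with hh
    refine ⟨y + h, ?_, by simp [hh, hy0], ?_⟩
    · refine (natDegree_add_le _ _).trans (max_le (hyd.trans (Nat.le_succ k)) ?_)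
      exact natDegree_C_mul_X_pow_le c (k + 1)
    have e : psiThreeShort a b (y + h) = psiThreeShort a b y + h * φ
        + h ^ 2 * (18 * y ^ 2 + 12 * y * h + 3 * h ^ 2 - 162 * a) := by
      simp only [psiThreeShort, hφ]; ring
    rw [e, hG]
    have hX : (X : ℂ[X]) ∣ G + C c * φ := by
      rw [X_dvd_iff, coeff_zero_eq_eval_zero]
      simp [hc, div_mul_cancel₀ _ hφ0]
    obtain ⟨H, hH⟩ := hX
    refine ⟨H + C c ^ 2 * X ^ k * (18 * y ^ 2 + 12 * y * h + 3 * h ^ 2 - 162 * a), ?_⟩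
    have : G = X * H - C c * φ := by rw [← hH]; ring
    rw [this, hh]
    ring

/-- Quartic partial fractions: a root is close to one of any four approximate roots. -/
theorem exists_near_of_root {a b z : ℂ} {y : Fin 4 → ℂ} (hy : Function.Injective y)
    (hz : psiThreeShort a b z = 0) :
    ∃ i, ‖z - y i‖ ≤ 2 * ‖psiThreeShort a b (y i)‖ /
      ‖∏ j ∈ Finset.univ.erase i, (y i - y j)‖ := by
  classical
  by_cases hmem : ∃ i, z = y i
  · obtain ⟨i, rfl⟩ := hmem
    exact ⟨i, by rw [sub_self, norm_zero]; positivity⟩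
  push Not at hmem
  set q : ℂ[X] := psiThreeShort (C a) (C b) X - C 3 * ∏ i, (X - C (y i)) with hq
  have hev : ∀ t, q.eval t = psiThreeShort a b t - 3 * ∏ i, (t - y i) := fun t => by
    simp [hq, psiThreeShort, eval_prod]
  have hne : ∀ i j, i ≠ j → y i - y j ≠ 0 := fun i j hij => sub_ne_zero.2 (fun h => hij (hy h))
  set s0 := y 0 + y 1 + y 2 + y 3
  set s1 := y 0 * y 1 + y 0 * y 2 + y 0 * y 3 + y 1 * y 2 + y 1 * y 3 + y 2 * y 3
  set s2 := y 0 * y 1 * y 2 + y 0 * y 1 * y 3 + y 0 * y 2 * y 3 + y 1 * y 2 * y 3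
  have hqe : q = C (3 * s0) * X ^ 3 + C (-162 * a - 3 * s1) * X ^ 2 + C (-648 * b + 3 * s2) * X
      + C (-729 * a ^ 2 - 3 * (y 0 * y 1 * y 2 * y 3)) := by
    simp only [hq, psiThreeShort, Fin.prod_univ_four, s0, s1, s2, map_sub, map_add, map_mul,
      map_neg, map_pow, map_ofNat]
    ring
  have hdeg : q.degree < (Finset.univ : Finset (Fin 4)).card := by
    rw [hqe]
    exact lt_of_le_of_lt degree_cubic_le (by simp; decide)
  have hL := congrArg (eval z) (Lagrange.eq_interpolate (s := Finset.univ) hy.injOn hdeg)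
  rw [Lagrange.interpolate_apply, eval_finsetSum, hev, hz, zero_sub] at hL
  simp only [eval_mul, eval_C, Lagrange.basis, eval_prod, Lagrange.basisDivisor, eval_sub,
    eval_X, hev] at hL
  have hyi : ∀ i, ∏ j, (y i - y j) = 0 := fun i =>
    Finset.prod_eq_zero (Finset.mem_univ i) (sub_self _)
  have hP : (∏ i, (z - y i)) ≠ 0 := Finset.prod_ne_zero_iff.2 fun i _ => sub_ne_zero.2 (hmem i)
  have hsum : (-3 : ℂ) = ∑ i, psiThreeShort a b (y i) /
      ((z - y i) * ∏ j ∈ Finset.univ.erase i, (y i - y j)) := by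
    rw [eq_comm, ← mul_right_inj' hP, Finset.mul_sum]
    rw [show (∏ i, (z - y i)) * (-3) = -(3 * ∏ i, (z - y i)) by ring, hL]
    refine Finset.sum_congr rfl fun i _ => ?_
    rw [hyi i, mul_zero, sub_zero, Finset.prod_mul_distrib, Finset.prod_inv_distrib,
      ← Finset.mul_prod_erase _ (fun j => z - y j) (Finset.mem_univ i)]
    have h1 : (∏ j ∈ Finset.univ.erase i, (y i - y j)) ≠ 0 :=
      Finset.prod_ne_zero_iff.2 fun j hj => hne i j (Finset.ne_of_mem_erase hj).symm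
    have h2 : z - y i ≠ 0 := sub_ne_zero.2 (hmem i)
    field_simp
  by_contra hcon
  push Not at hcon
  have hlt : ‖(-3 : ℂ)‖ < ∑ _i : Fin 4, (1 / 2 : ℝ) := by
    rw [hsum]
    refine lt_of_le_of_lt (norm_sum_le _ _) (Finset.sum_lt_sum_of_nonempty Finset.univ_nonempty ?_)
    intro i _
    have h1 : 0 < ‖∏ j ∈ Finset.univ.erase i, (y i - y j)‖ :=
      norm_pos_iff.2 (Finset.prod_ne_zero_iff.2 fun j hj => hne i j (Finset.ne_of_mem_erase hj).symm)
    have h2 : 0 < ‖z - y i‖ := norm_pos_iff.2 (sub_ne_zero.2 (hmem i))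
    have := hcon i
    rw [div_lt_iff₀ h1] at this
    rw [norm_div, norm_mul, div_lt_iff₀ (mul_pos h2 h1)]
    linarith
  norm_num at hlt

/-- The four approximating polynomials. -/
theorem exists_root_branches (A B : ℂ[X]) (hA : A.natDegree ≤ 20) (hB : B.natDegree ≤ 30)
    (hlead : A.coeff 20 ^ 3 ≠ B.coeff 30 ^ 2) :
    ∃ P : Fin 4 → ℂ[X], (∀ i, (P i).natDegree ≤ 10) ∧ ∀ ε : ℝ, 0 < ε → ∃ N : ℕ, ∀ n ≥ N,
      ∀ x : ℂ, psiThreeShort (A.eval (n : ℂ)) (B.eval (n : ℂ)) x = 0 →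
        ∃ i, ‖x - (P i).eval (n : ℂ)‖ < ε := by
  classical
  set a := A.reflect 20 with ha
  set b := B.reflect 30 with hb
  have ha0 : a.eval 0 = A.coeff 20 := by simp [ha, ← coeff_zero_eq_eval_zero, coeff_reflect]
  have hb0 : b.eval 0 = B.coeff 30 := by simp [hb, ← coeff_zero_eq_eval_zero, coeff_reflect]
  obtain ⟨r, hr, hroot⟩ := psiThreeShort_roots_four hlead
  have hex : ∀ i, ∃ y : ℂ[X], y.natDegree ≤ 10 ∧ y.eval 0 = r i ∧
      X ^ 11 ∣ psiThreeShort a b y := fun i =>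
    exists_truncated_root a b (by rw [ha0, hb0]; exact (hroot i).1)
      (by rw [ha0, hb0]; exact (hroot i).2) 10
  choose y hyd hy0 G hG using hex
  refine ⟨fun i => (y i).reflect 10, fun i => natDegree_reflect_le.trans (max_le le_rfl (hyd i)),
    fun ε hε => ?_⟩
  set Q : Fin 4 → ℂ → ℂ := fun i s => ∏ j ∈ Finset.univ.erase i, ((y i).eval s - (y j).eval s)
  set g : Fin 4 → ℂ → ℝ := fun i s => 2 * ‖s * (G i).eval s‖ / ‖Q i s‖ with hg
  have hQ0 : ∀ i, Q i 0 ≠ 0 := fun i => by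
    simp only [Q, hy0]
    exact Finset.prod_ne_zero_iff.2 fun j hj =>
      sub_ne_zero.2 fun h => (Finset.ne_of_mem_erase hj) (hr h).symm
  have hQc : ∀ i, Continuous (Q i) := fun i =>
    continuous_finsetProd _ fun j _ => ((y i).continuous).sub ((y j).continuous)
  have hgc : ∀ i, Tendsto (g i) (𝓝 0) (𝓝 0) := by
    intro i
    have : ContinuousAt (g i) 0 :=
      ContinuousAt.div₀ (by fun_prop) (hQc i).norm.continuousAt (norm_ne_zero_iff.2 (hQ0 i))
    simpa [ContinuousAt, hg] using this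
  have hev : ∀ᶠ s in 𝓝 (0 : ℂ), (∀ i, g i s < ε) ∧ ∀ i, Q i s ≠ 0 :=
    (eventually_all.2 fun i => (hgc i).eventually (gt_mem_nhds hε)).and
      (eventually_all.2 fun i => (hQc i).continuousAt.eventually_ne (hQ0 i))
  have hlim : Tendsto (fun n : ℕ => ((n : ℂ))⁻¹) atTop (𝓝 0) :=
    tendsto_inv_atTop_nhds_zero_nat (𝕜 := ℂ)
  obtain ⟨N, hN⟩ := ((hlim.eventually hev).and (eventually_ne_atTop 0)).exists_forall_of_atTop
  refine ⟨N, fun n hn x hx => ?_⟩
  obtain ⟨⟨hgn, hQn⟩, hn0⟩ := hN n hn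
  set s : ℂ := ((n : ℂ))⁻¹ with hs
  have hnc : (n : ℂ) ≠ 0 := by exact_mod_cast hn0
  have hrefl : ∀ (p : ℂ[X]) (d : ℕ), p.natDegree ≤ d →
      (p.reflect d).eval s = s ^ d * p.eval (n : ℂ) ∧
      (p.reflect d).eval (n : ℂ) = (n : ℂ) ^ d * p.eval s := by
    intro p d hd
    have key : ∀ t : ℂ, t ≠ 0 → (p.reflect d).eval t⁻¹ = t⁻¹ ^ d * p.eval t := by
      intro t ht
      have := invertibleOfNonzero ht
      have := eval₂_reflect_mul_pow (RingHom.id ℂ) t d p hd
      rw [invOf_eq_inv] at this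
      change eval t⁻¹ (reflect d p) * t ^ d = eval t p at this
      rw [← this, inv_pow]
      field_simp
    refine ⟨key _ hnc, ?_⟩
    have := key s (inv_ne_zero hnc)
    rwa [hs, inv_inv] at this
  have hz : psiThreeShort (a.eval s) (b.eval s) (s ^ 10 * x) = 0 := by
    rw [ha, hb, (hrefl A 20 hA).1, (hrefl B 30 hB).1]
    have : psiThreeShort (s ^ 20 * A.eval (n : ℂ)) (s ^ 30 * B.eval (n : ℂ)) (s ^ 10 * x)
        = s ^ 40 * psiThreeShort (A.eval (n : ℂ)) (B.eval (n : ℂ)) x := by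
      simp only [psiThreeShort]; ring
    rw [this, hx, mul_zero]
  have hinj : Function.Injective fun i => (y i).eval s := by
    intro i j hij
    by_contra hne
    exact hQn i (Finset.prod_eq_zero (Finset.mem_erase.2 ⟨Ne.symm hne, Finset.mem_univ j⟩)
      (sub_eq_zero.2 hij))
  obtain ⟨i, hi⟩ := exists_near_of_root hinj hz
  refine ⟨i, lt_of_le_of_lt ?_ (hgn i)⟩
  rw [show psiThreeShort (a.eval s) (b.eval s) ((y i).eval s) = s ^ 11 * (G i).eval s by
    rw [← coe_evalRingHom, ← map_psiThreeShort, hG i, coe_evalRingHom]; simp] at hi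
  rw [(hrefl (y i) 10 (hyd i)).2]
  have hns : (n : ℂ) ^ 10 * s ^ 10 = 1 := by rw [hs, ← mul_pow, mul_inv_cancel₀ hnc, one_pow]
  have e : x - (n : ℂ) ^ 10 * (y i).eval s = (n : ℂ) ^ 10 * (s ^ 10 * x - (y i).eval s) := by
    rw [mul_sub, ← mul_assoc, hns, one_mul]
  rw [e, norm_mul]
  refine (mul_le_mul_of_nonneg_left hi (norm_nonneg _)).trans (le_of_eq ?_)
  have e2 : (n : ℂ) ^ 10 * (s ^ 11 * (G i).eval s) = s * (G i).eval s := by
    rw [← mul_assoc, pow_succ s 10, ← mul_assoc, hns, one_mul]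
  simp only [hg, Q]
  rw [← e2, norm_mul ((n : ℂ) ^ 10)]
  ring

end FermatLib.Descent
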